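import Fermat.Agent.S29.BCDefs
import Fermat.Agent.Lib.FunctionField.Fibre

/-!
# Campaign 79, piece BC: base change of divisors and of `Pic0` along an extension of places

From `hb : PlaceExt ι b` only: `bcDiv b : Divisor K F →+ Divisor K' F'` (push-forward along `b`)
preserves degrees (all places of degree one) and maps `div f` to `div (ι f)`; hence the induced
homomorphism `bcPic0 : Pic0 K F →+ Pic0 K' F'`.
-/

set_option autoImplicit false
set_option linter.unusedSectionVars false
set_option linter.unusedVariables false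

open AlgebraicCurve

noncomputable section

namespace Fermat.Agent.S29.BC

variable {K K' F F' : Type*} [Field K] [Field K'] [Field F] [Field F'] [Algebra K F]
  [Algebra K' F']

/-- push-forward of divisors along a map of places -/
def bcDiv (b : Place K F → Place K' F') : Divisor K F →+ Divisor K' F' :=
  Finsupp.mapDomain.addMonoidHom b

theorem bcDiv_def (b : Place K F → Place K' F') (D : Divisor K F) :
    bcDiv b D = Finsupp.mapDomain b D := rfl

@[simp]
theorem bcDiv_single (b : Place K F → Place K' F') (P : Place K F) (n : ℤ) :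
    bcDiv b (Finsupp.single P n) = Finsupp.single (b P) n := by
  rw [bcDiv_def, Finsupp.mapDomain_single]

variable {ι : F →+* F'} {b : Place K F → Place K' F'}

theorem bcDiv_apply (hb : PlaceExt ι b) (D : Divisor K F) (P : Place K F) :
    bcDiv b D (b P) = D P := by
  rw [bcDiv_def, Finsupp.mapDomain_apply hb.inj]

theorem bcDiv_apply_of_notMem (b : Place K F → Place K' F') (D : Divisor K F)
    {Q : Place K' F'} (hQ : Q ∉ Set.range b) : bcDiv b D Q = 0 := by
  rw [bcDiv_def]
  exact Finsupp.mapDomain_of_notMem_range _ _ hQ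

theorem bcDiv_injective (hb : PlaceExt ι b) : Function.Injective (bcDiv b) :=
  Finsupp.mapDomain_injective hb.inj

/-- degrees are preserved when all places have degree one -/
theorem degree_bcDiv_of_deg (b : Place K F → Place K' F')
    (hdeg : ∀ v : Place K F, v.deg = 1) (hdeg' : ∀ v : Place K' F', v.deg = 1)
    (D : Divisor K F) : Divisor.degree (bcDiv b D) = Divisor.degree D := by
  induction D using Finsupp.induction with
  | zero => simp
  | single_add P n E _ _ ih =>
    rw [map_add, map_add, map_add, ih, bcDiv_single, Divisor.degree_single,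
      Divisor.degree_single, hdeg, hdeg']

theorem degree_bcDiv [IsAlgClosed K] [CharZero K] [IsAlgClosed K'] [CharZero K']
    (b : Place K F → Place K' F') {x : F} {x' : F'}
    (hx : Fermat.Agent.Lib.FF.IsFF1 K F x) (hx' : Fermat.Agent.Lib.FF.IsFF1 K' F' x')
    (D : Divisor K F) : Divisor.degree (bcDiv b D) = Divisor.degree D :=
  degree_bcDiv_of_deg b (Fermat.Agent.Lib.FF.deg_eq_one hx) (Fermat.Agent.Lib.FF.deg_eq_one hx') D

/-- the push-forward of `div f` is `div (ι f)` -/
theorem bcDiv_principal (hb : PlaceExt ι b) {f : F} (hf : f ≠ 0) {D : Divisor K F}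
    (hD : ∀ v : Place K F, D v = v.ord f) (Q : Place K' F') :
    bcDiv b D Q = Q.ord (ι f) := by
  by_cases hQ : Q ∈ Set.range b
  · obtain ⟨P, rfl⟩ := hQ
    rw [bcDiv_apply hb, hD, hb.ord]
  · rw [bcDiv_apply_of_notMem b D hQ, hb.off Q hQ f hf]

theorem bcDiv_mem_principal (hb : PlaceExt ι b) {D : Divisor K F}
    (hD : D ∈ Divisor.principal (K := K) (F := F)) :
    bcDiv b D ∈ Divisor.principal (K := K') (F := F') := by
  obtain ⟨f, hf, hD⟩ := hD
  exact ⟨ι f, (map_ne_zero ι).2 hf, fun Q => bcDiv_principal hb hf hD Q⟩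

/-- base change of degree zero divisors -/
def bcDegZero (b : Place K F → Place K' F')
    (hdeg : ∀ v : Place K F, v.deg = 1) (hdeg' : ∀ v : Place K' F', v.deg = 1) :
    Divisor.degZero (K := K) (F := F) →+ Divisor.degZero (K := K') (F := F') :=
  ((bcDiv b).domRestrict _).codRestrict _ fun E => by
    rw [Divisor.mem_degZero]
    show Divisor.degree (bcDiv b (E : Divisor K F)) = 0
    rw [degree_bcDiv_of_deg b hdeg hdeg']
    exact E.2

@[simp]
theorem coe_bcDegZero (b : Place K F → Place K' F')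
    (hdeg : ∀ v : Place K F, v.deg = 1) (hdeg' : ∀ v : Place K' F', v.deg = 1)
    (E : Divisor.degZero (K := K) (F := F)) :
    (bcDegZero b hdeg hdeg' E : Divisor K' F') = bcDiv b (E : Divisor K F) := rfl

/-- **base change on `Pic0`** (places of degree one on both sides) -/
def bcPic0OfDeg (hb : PlaceExt ι b)
    (hdeg : ∀ v : Place K F, v.deg = 1) (hdeg' : ∀ v : Place K' F', v.deg = 1) :
    Pic0 K F →+ Pic0 K' F' :=
  QuotientAddGroup.map _ _ (bcDegZero b hdeg hdeg') (by
    rintro ⟨E, hE0⟩ hE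
    simp only [AddSubgroup.mem_addSubgroupOf] at hE ⊢
    exact bcDiv_mem_principal hb hE)

theorem bcPic0OfDeg_mk (hb : PlaceExt ι b)
    (hdeg : ∀ v : Place K F, v.deg = 1) (hdeg' : ∀ v : Place K' F', v.deg = 1)
    (E : Divisor.degZero (K := K) (F := F)) :
    bcPic0OfDeg hb hdeg hdeg' (Pic0.mk E) = Pic0.mk (bcDegZero b hdeg hdeg' E) := rfl

/-- **base change on `Pic0`** for function fields over algebraically closed fields of
characteristic zero -/
def bcPic0 [IsAlgClosed K] [CharZero K] [IsAlgClosed K'] [CharZero K']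
    (hb : PlaceExt ι b) {x : F} {x' : F'}
    (hx : Fermat.Agent.Lib.FF.IsFF1 K F x) (hx' : Fermat.Agent.Lib.FF.IsFF1 K' F' x') :
    Pic0 K F →+ Pic0 K' F' :=
  bcPic0OfDeg hb (Fermat.Agent.Lib.FF.deg_eq_one hx) (Fermat.Agent.Lib.FF.deg_eq_one hx')

theorem bcPic0_mk [IsAlgClosed K] [CharZero K] [IsAlgClosed K'] [CharZero K']
    (hb : PlaceExt ι b) {x : F} {x' : F'}
    (hx : Fermat.Agent.Lib.FF.IsFF1 K F x) (hx' : Fermat.Agent.Lib.FF.IsFF1 K' F' x')
    (E : Divisor.degZero (K := K) (F := F)) :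
    bcPic0 hb hx hx' (Pic0.mk E) =
      Pic0.mk ⟨bcDiv b (E : Divisor K F), by
        rw [Divisor.mem_degZero, degree_bcDiv b hx hx']
        exact E.2⟩ := rfl

theorem bcPic0_torsion [IsAlgClosed K] [CharZero K] [IsAlgClosed K'] [CharZero K']
    (hb : PlaceExt ι b) {x : F} {x' : F'}
    (hx : Fermat.Agent.Lib.FF.IsFF1 K F x) (hx' : Fermat.Agent.Lib.FF.IsFF1 K' F' x')
    {n : ℕ} {y : Pic0 K F} (hy : n • y = 0) : n • bcPic0 hb hx hx' y = 0 := by
  rw [← map_nsmul, hy, map_zero]

theorem bcPic0_mem_torsion [IsAlgClosed K] [CharZero K] [IsAlgClosed K'] [CharZero K']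
    (hb : PlaceExt ι b) {x : F} {x' : F'}
    (hx : Fermat.Agent.Lib.FF.IsFF1 K F x) (hx' : Fermat.Agent.Lib.FF.IsFF1 K' F' x')
    {n : ℕ} {y : Pic0 K F} (hy : y ∈ Pic0.torsion K F n) :
    bcPic0 hb hx hx' y ∈ Pic0.torsion K' F' n := by
  rw [Pic0.mem_torsion] at hy ⊢
  rw [← map_zsmul, hy, map_zero]

/-- `bcPic0 y = 0` iff some (any) representative of `y` becomes principal -/
theorem bcPic0_mk_eq_zero_iff [IsAlgClosed K] [CharZero K] [IsAlgClosed K'] [CharZero K']
    (hb : PlaceExt ι b) {x : F} {x' : F'}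
    (hx : Fermat.Agent.Lib.FF.IsFF1 K F x) (hx' : Fermat.Agent.Lib.FF.IsFF1 K' F' x')
    (E : Divisor.degZero (K := K) (F := F)) :
    bcPic0 hb hx hx' (Pic0.mk E) = 0 ↔
      bcDiv b (E : Divisor K F) ∈ Divisor.principal (K := K') (F := F') := by
  rw [bcPic0_mk]
  unfold Pic0.mk
  rw [QuotientAddGroup.eq_zero_iff, AddSubgroup.mem_addSubgroupOf]

end Fermat.Agent.S29.BC
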