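import Mathlib
import Fermat.Prelude.Def_AlgebraicCurve_DivisorClassGroup

/-!
# Campaign 79, piece BC: constant field extension of function fields — the interface

`K ⊆ K'` algebraically closed (`e : K →+* K'`), `F/K`, `F'/K'` function fields, `ι : F →+* F'`
over `e`.

* `Data e ι`: `F'` is "the" constant field extension of `F` (as far as places are concerned):
  `ι` is over `e`, `F'` is generated by `K'` and `ι F`, and `K` is relatively algebraically closed.
* `PlaceExt ι b`: `b : Place K F → Place K' F'` is "the" extension of places: `ord` is preserved,
  `b` is injective, and the places outside the range of `b` are trivial on `ι F`.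
-/

set_option autoImplicit false

open AlgebraicCurve

namespace Fermat.Agent.S29.BC

variable {K K' F F' : Type*} [Field K] [Field K'] [Field F] [Field F'] [Algebra K F]
  [Algebra K' F']

/-- the data of a constant field extension `F → F'` over `e : K → K'`. -/
structure Data (e : K →+* K') (ι : F →+* F') : Prop where
  comm : ∀ a : K, ι (algebraMap K F a) = algebraMap K' F' (e a)
  gen : ∀ x : F', ∃ u ∈ Submodule.span K' (Set.range ι),
    ∃ v ∈ Submodule.span K' (Set.range ι), v ≠ 0 ∧ x * v = u
  nc : ∀ f : F, (∃ c : K', ι f = algebraMap K' F' c) → ∃ a : K, f = algebraMap K F a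

/-- `b` is the extension of places along the constant field extension `ι : F → F'`. -/
structure PlaceExt (ι : F →+* F') (b : Place K F → Place K' F') : Prop where
  ord : ∀ (P : Place K F) (f : F), (b P).ord (ι f) = P.ord f
  inj : Function.Injective b
  off : ∀ Q : Place K' F', Q ∉ Set.range b → ∀ f : F, f ≠ 0 → Q.ord (ι f) = 0

end Fermat.Agent.S29.BC
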