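import Mathlib
import Fermat.Agent.S29.BCDefs
import Fermat.Agent.Lib.FunctionField.PlaceBasic
import Fermat.Prelude.Def_AlgebraicCurve_Correspondence

/-!
# Campaign 79, piece BC: the extension of places along a constant field extension is compatible
with restriction, ramification and fibres along a morphism of function fields; the
correspondence `α_* ∘ β^*` commutes with the base change of divisors
-/

set_option autoImplicit false
set_option linter.unusedSectionVars false
set_option linter.unusedVariables false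
set_option linter.style.haveILetI false

open AlgebraicCurve

noncomputable section

namespace Fermat.Agent.S29.BC

section Along

variable {K F F' : Type*} [Field K] [Field F] [Field F'] [Algebra K F] [Algebra K F']

theorem ramificationIndexAlong_pos' (φ : F →ₐ[K] F') (hφ : φ.toRingHom.IsIntegral)
    (w : Place K F') : 0 < w.ramificationIndexAlong φ := by
  letI := algebraAlong φ
  haveI := isScalarTower_along φ
  haveI := isIntegral_along φ hφ
  exact w.ramificationIndex_pos (F := F)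

end Along

variable {K K' F₁ F₂ F₁' F₂' : Type*} [Field K] [Field K'] [Field F₁] [Field F₂] [Field F₁']
  [Field F₂'] [Algebra K F₁] [Algebra K F₂] [Algebra K' F₁'] [Algebra K' F₂']
  {ι₁ : F₁ →+* F₁'} {ι₂ : F₂ →+* F₂'}
  {b₁ : Place K F₁ → Place K' F₁'} {b₂ : Place K F₂ → Place K' F₂'}
  (hb₁ : PlaceExt ι₁ b₁) (hb₂ : PlaceExt ι₂ b₂)
  (φ : F₁ →ₐ[K] F₂) (hφ : φ.toRingHom.IsIntegral)
  (φ' : F₁' →ₐ[K'] F₂') (hφ' : φ'.toRingHom.IsIntegral)
  (hsq : ∀ x : F₁, φ' (ι₁ x) = ι₂ (φ x))

include hb₁ hb₂ hsq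

/-- the key identity: `e' · ord_{P'}(ι₁ f) = e · ord_P(f)` -/
theorem ram_mul_ord (Q : Place K F₂) (f : F₁) :
    ((b₂ Q).ramificationIndexAlong φ' : ℤ) * ((b₂ Q).restrictAlong φ' hφ').ord (ι₁ f) =
      (Q.ramificationIndexAlong φ : ℤ) * (Q.restrictAlong φ hφ).ord f := by
  rw [← Place.ord_restrictAlong, ← Place.ord_restrictAlong, hsq, hb₂.ord]

/-- **(i)** restriction commutes with the extension of places -/
theorem restrictAlong_b (Q : Place K F₂) :
    (b₂ Q).restrictAlong φ' hφ' = b₁ (Q.restrictAlong φ hφ) := by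
  have he : 0 < (Q.ramificationIndexAlong φ : ℤ) := by
    exact_mod_cast ramificationIndexAlong_pos' φ hφ Q
  have he' : 0 < ((b₂ Q).ramificationIndexAlong φ' : ℤ) := by
    exact_mod_cast ramificationIndexAlong_pos' φ' hφ' (b₂ Q)
  obtain ⟨t, ht⟩ := Fermat.Agent.Lib.FF.exists_ord_eq_one (Q.restrictAlong φ hφ)
  have ht0 : t ≠ 0 := by
    rintro rfl
    rw [Place.ord_zero] at ht
    exact zero_ne_one ht
  have hmem : (b₂ Q).restrictAlong φ' hφ' ∈ Set.range b₁ := by
    by_contra hnot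
    have h0 := hb₁.off _ hnot t ht0
    have h1 := ram_mul_ord hb₁ hb₂ φ hφ φ' hφ' hsq Q t
    rw [h0, ht, mul_zero, mul_one] at h1
    omega
  obtain ⟨P₀, hP₀⟩ := hmem
  rw [← hP₀]
  congr 1
  apply Fermat.Agent.Lib.FF.place_ext_of_ord
  intro f hf hnn
  have h1 := ram_mul_ord hb₁ hb₂ φ hφ φ' hφ' hsq Q f
  rw [← hP₀, hb₁.ord] at h1
  by_contra hneg
  have hneg' : (Q.restrictAlong φ hφ).ord f < 0 := not_le.mp hneg
  have h2 : (Q.ramificationIndexAlong φ : ℤ) * (Q.restrictAlong φ hφ).ord f < 0 :=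
    mul_neg_of_pos_of_neg he hneg'
  have h3 : 0 ≤ ((b₂ Q).ramificationIndexAlong φ' : ℤ) * P₀.ord f :=
    mul_nonneg he'.le hnn
  omega

include hφ hφ' in
/-- **(ii)** the ramification index is unchanged by the extension of places -/
theorem ramificationIndexAlong_b (Q : Place K F₂) :
    (b₂ Q).ramificationIndexAlong φ' = Q.ramificationIndexAlong φ := by
  obtain ⟨t, ht⟩ := Fermat.Agent.Lib.FF.exists_ord_eq_one (Q.restrictAlong φ hφ)
  have h1 := ram_mul_ord hb₁ hb₂ φ hφ φ' hφ' hsq Q t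
  rw [restrictAlong_b hb₁ hb₂ φ hφ φ' hφ' hsq Q, hb₁.ord, ht, mul_one, mul_one] at h1
  exact_mod_cast h1

open Classical in
/-- **(iii)** the fibre over an extended place is the image of the fibre -/
theorem fiberAlong_b [HasPrincipalDivisors K F₂] [HasPrincipalDivisors K' F₂']
    (P : Place K F₁) :
    Place.fiberAlong φ' hφ' (b₁ P) = (Place.fiberAlong φ hφ P).image b₂ := by
  ext Q'
  rw [Place.mem_fiberAlong, Finset.mem_image]
  constructor
  · intro hQ'
    obtain ⟨t, ht⟩ := Fermat.Agent.Lib.FF.exists_ord_eq_one P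
    have ht0 : t ≠ 0 := by
      rintro rfl
      rw [Place.ord_zero] at ht
      exact zero_ne_one ht
    have he' : 0 < (Q'.ramificationIndexAlong φ' : ℤ) := by
      exact_mod_cast ramificationIndexAlong_pos' φ' hφ' Q'
    have hmem : Q' ∈ Set.range b₂ := by
      by_contra hnot
      have h0 := hb₂.off _ hnot (φ t) (by simpa using ht0)
      rw [← hsq, Place.ord_restrictAlong φ' hφ', hQ', hb₁.ord, ht, mul_one] at h0
      omega
    obtain ⟨Q, rfl⟩ := hmem
    refine ⟨Q, ?_, rfl⟩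
    rw [Place.mem_fiberAlong]
    rw [restrictAlong_b hb₁ hb₂ φ hφ φ' hφ' hsq Q] at hQ'
    exact hb₁.inj hQ'
  · rintro ⟨Q, hQ, rfl⟩
    rw [Place.mem_fiberAlong] at hQ
    rw [restrictAlong_b hb₁ hb₂ φ hφ φ' hφ' hsq Q, hQ]

omit hb₁ hb₂ hsq in
open Classical in
/-- **(iv), abstract form**: the correspondence `α_* ∘ β^*` commutes with the base change of
divisors. -/
theorem correspondence_mapDomain (hb₁ : PlaceExt ι₁ b₁) (hb₂ : PlaceExt ι₂ b₂)
    [HasPrincipalDivisors K F₂] [HasPrincipalDivisors K' F₂']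
    (α β : F₁ →ₐ[K] F₂) (hα : α.toRingHom.IsIntegral) (hβ : β.toRingHom.IsIntegral)
    (α' β' : F₁' →ₐ[K'] F₂') (hα' : α'.toRingHom.IsIntegral) (hβ' : β'.toRingHom.IsIntegral)
    (hsqα : ∀ x : F₁, α' (ι₁ x) = ι₂ (α x)) (hsqβ : ∀ x : F₁, β' (ι₁ x) = ι₂ (β x))
    (hdeg : ∀ Q : Place K F₂, Q.inertiaDegAlong α hα = 1)
    (hdeg' : ∀ Q' : Place K' F₂', Q'.inertiaDegAlong α' hα' = 1)
    (D : Divisor K F₁) :
    Divisor.pushforwardAlong α' hα' (Divisor.pullbackAlong β' hβ' (Finsupp.mapDomain b₁ D)) =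
      Finsupp.mapDomain b₁ (Divisor.pushforwardAlong α hα (Divisor.pullbackAlong β hβ D)) := by
  induction D using Finsupp.induction_linear with
  | zero => simp
  | add D E hD hE =>
    rw [Finsupp.mapDomain_add, map_add, map_add, hD, hE, map_add, map_add, Finsupp.mapDomain_add]
  | single P n =>
    rw [Finsupp.mapDomain_single, Divisor.pullbackAlong_single, Divisor.pullbackAlong_single,
      fiberAlong_b hb₁ hb₂ β hβ β' hβ' hsqβ P, Finset.sum_image (fun _ _ _ _ h => hb₂.inj h),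
      map_sum, map_sum, Finsupp.mapDomain_finsetSum]
    refine Finset.sum_congr rfl fun Q _ => ?_
    rw [Divisor.pushforwardAlong_single, Divisor.pushforwardAlong_single,
      Finsupp.mapDomain_single, restrictAlong_b hb₁ hb₂ α hα α' hα' hsqα Q,
      ramificationIndexAlong_b hb₁ hb₂ β hβ β' hβ' hsqβ Q, hdeg, hdeg']

end Fermat.Agent.S29.BC
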