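import Mathlib
import Fermat.Prelude.Def_ModularCurve_HeckeOperator
import Fermat.Agent.Lib.ModCK.HolModelK

/-!
# Campaign 79, piece BC (M-core): coefficientwise base change of the modular function fields

For fields `K`, `K'` of characteristic zero and ANY ring homomorphism `e : K →+* K'`, the
coefficientwise map `coeffMap e : K((q)) → K'((q))` restricts to a ring homomorphism

`bcF e F₀ : laurentBaseChange K F₀ →+* laurentBaseChange K' F₀`

(`F₀ ⊆ ℚ((q))` any intermediate field; for `F₀ = modularFunctionFieldFull N` this is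
`F_K(N) → F_{K'}(N)`).  We prove:

* `coe_bcF`, `bcF_algebraMap`, `bcF_injective`;
* `bcF_gen` (GEN): every element of the target is `u / v` with `u, v` in the `K'`-span of the image;
* `bcF_const`: an element whose image is constant is constant;
* `bcF_heckeAlpha`, `bcF_heckeBeta`: compatibility with the two degeneracy maps;
* `bcF_jK`: `j ↦ j`.
-/

set_option autoImplicit false
set_option linter.unusedSectionVars false

open ModularCurve HahnSeries

namespace Fermat.Agent.S29.BC

variable {K K' : Type*} [Field K] [Field K'] [Algebra ℚ K] [Algebra ℚ K']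

theorem coeffMap_coeffEmb_hom (e : K →+* K') (x : LaurentSeries ℚ) :
    coeffMap e (coeffEmb K x) = coeffEmb K' x := by
  rw [coeffEmb, coeffEmb, coeffMap_coeffMap]
  exact coeffMap_congr (Subsingleton.elim _ _) x

theorem coeffMap_algebraMap_hom (e : K →+* K') (c : K) :
    coeffMap e (algebraMap K (LaurentSeries K) c) = algebraMap K' (LaurentSeries K') (e c) := by
  rw [algebraMap_laurentSeries_eq_single, algebraMap_laurentSeries_eq_single, coeffMap_single]

theorem coeffMap_injective_hom (e : K →+* K') : Function.Injective (coeffMap e) :=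
  (coeffMap e).injective

theorem coeffMap_mem_laurentBaseChange_hom (e : K →+* K')
    {F₀ : IntermediateField ℚ (LaurentSeries ℚ)} {x : LaurentSeries K}
    (hx : x ∈ laurentBaseChange K F₀) : coeffMap e x ∈ laurentBaseChange K' F₀ := by
  rw [mem_laurentBaseChange_iff] at hx
  induction hx using Subfield.closure_induction with
  | mem y hy =>
      rcases hy with ⟨a, rfl⟩ | ⟨z, hz, rfl⟩
      · rw [coeffMap_algebraMap_hom]
        exact (laurentBaseChange K' F₀).algebraMap_mem _
      · rw [coeffMap_coeffEmb_hom]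
        exact coeffEmb_mem_laurentBaseChange K' hz
  | one => simp
  | add x y _ _ hx hy => simpa using add_mem hx hy
  | neg x _ hx => simpa using neg_mem hx
  | inv x _ hx => simpa using inv_mem hx
  | mul x y _ _ hx hy => simpa using mul_mem hx hy

/-- coefficientwise base change `F_K → F_{K'}` along a ring homomorphism `e : K →+* K'`. -/
noncomputable def bcF (e : K →+* K') (F₀ : IntermediateField ℚ (LaurentSeries ℚ)) :
    ↥(laurentBaseChange K F₀) →+* ↥(laurentBaseChange K' F₀) where
  toFun x := ⟨coeffMap e (x : LaurentSeries K), coeffMap_mem_laurentBaseChange_hom e x.2⟩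
  map_one' := Subtype.ext (map_one (coeffMap e))
  map_mul' _ _ := Subtype.ext (map_mul (coeffMap e) _ _)
  map_zero' := Subtype.ext (map_zero (coeffMap e))
  map_add' _ _ := Subtype.ext (map_add (coeffMap e) _ _)

variable (e : K →+* K') (F₀ : IntermediateField ℚ (LaurentSeries ℚ))

@[simp]
theorem coe_bcF (x : ↥(laurentBaseChange K F₀)) :
    ((bcF e F₀ x : ↥(laurentBaseChange K' F₀)) : LaurentSeries K')
      = coeffMap e (x : LaurentSeries K) := rfl

theorem bcF_algebraMap (c : K) :
    bcF e F₀ (algebraMap K ↥(laurentBaseChange K F₀) c)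
      = algebraMap K' ↥(laurentBaseChange K' F₀) (e c) :=
  Subtype.ext (coeffMap_algebraMap_hom e c)

theorem bcF_injective : Function.Injective (bcF e F₀) := (bcF e F₀).injective

theorem bcF_coeffEmb {z : LaurentSeries ℚ} (hz : z ∈ F₀) :
    bcF e F₀ ⟨coeffEmb K z, coeffEmb_mem_laurentBaseChange K hz⟩
      = ⟨coeffEmb K' z, coeffEmb_mem_laurentBaseChange K' hz⟩ :=
  Subtype.ext (coeffMap_coeffEmb_hom e z)

/-- an element whose image is a constant is a constant. -/
theorem bcF_const (f : ↥(laurentBaseChange K F₀))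
    (h : ∃ c : K', bcF e F₀ f = algebraMap K' ↥(laurentBaseChange K' F₀) c) :
    ∃ a : K, f = algebraMap K ↥(laurentBaseChange K F₀) a := by
  obtain ⟨c, hc⟩ := h
  refine ⟨(f : LaurentSeries K).coeff 0, Subtype.ext ?_⟩
  have h1 : coeffMap e (f : LaurentSeries K) = HahnSeries.single 0 c := by
    have := congrArg Subtype.val hc
    rw [coe_bcF] at this
    rw [this]
    exact algebraMap_laurentSeries_eq_single K' c
  show (f : LaurentSeries K) = algebraMap K (LaurentSeries K) _
  rw [algebraMap_laurentSeries_eq_single]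
  ext k
  rcases eq_or_ne k 0 with rfl | hk
  · rw [HahnSeries.coeff_single_same]
  · rw [HahnSeries.coeff_single_of_ne hk]
    have h2 := congrArg (fun y : LaurentSeries K' => y.coeff k) h1
    simp only [coeffMap_coeff, HahnSeries.coeff_single_of_ne hk] at h2
    exact (map_eq_zero e).mp h2

/-- the `K'`-span of the image is closed under multiplication. -/
theorem span_range_bcF_mul {u v : ↥(laurentBaseChange K' F₀)}
    (hu : u ∈ Submodule.span K' (Set.range (bcF e F₀)))
    (hv : v ∈ Submodule.span K' (Set.range (bcF e F₀))) :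
    u * v ∈ Submodule.span K' (Set.range (bcF e F₀)) := by
  induction hu using Submodule.span_induction with
  | mem x hx =>
      obtain ⟨a, rfl⟩ := hx
      induction hv using Submodule.span_induction with
      | mem y hy =>
          obtain ⟨b, rfl⟩ := hy
          rw [← map_mul]
          exact Submodule.subset_span ⟨_, rfl⟩
      | zero => rw [mul_zero]; exact zero_mem _
      | add y z _ _ hy hz => rw [mul_add]; exact add_mem hy hz
      | smul c y _ hy => rw [mul_smul_comm]; exact Submodule.smul_mem _ _ hy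
  | zero => rw [zero_mul]; exact zero_mem _
  | add x y _ _ hx hy => rw [add_mul]; exact add_mem hx hy
  | smul c x _ hx => rw [smul_mul_assoc]; exact Submodule.smul_mem _ _ hx

theorem one_mem_span_range_bcF :
    (1 : ↥(laurentBaseChange K' F₀)) ∈ Submodule.span K' (Set.range (bcF e F₀)) :=
  Submodule.subset_span ⟨1, map_one _⟩

theorem algebraMap_mem_span_range_bcF (c : K') :
    algebraMap K' ↥(laurentBaseChange K' F₀) c ∈ Submodule.span K' (Set.range (bcF e F₀)) := by
  rw [Algebra.algebraMap_eq_smul_one]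
  exact Submodule.smul_mem _ _ (one_mem_span_range_bcF e F₀)

/-- (GEN) every element of `F_{K'}` is a quotient of two elements of the `K'`-span of the image
of `F_K`. -/
theorem bcF_gen (x : ↥(laurentBaseChange K' F₀)) :
    ∃ u ∈ Submodule.span K' (Set.range (bcF e F₀)),
      ∃ v ∈ Submodule.span K' (Set.range (bcF e F₀)), v ≠ 0 ∧ x * v = u := by
  have key : ∀ y : LaurentSeries K', y ∈ laurentBaseChange K' F₀ →
      ∃ u ∈ Submodule.span K' (Set.range (bcF e F₀)),
        ∃ v ∈ Submodule.span K' (Set.range (bcF e F₀)), v ≠ 0 ∧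
          y * (v : LaurentSeries K') = (u : LaurentSeries K') := by
    intro y hy
    rw [mem_laurentBaseChange_iff] at hy
    induction hy using Subfield.closure_induction with
    | mem y hy =>
        rcases hy with ⟨a, rfl⟩ | ⟨z, hz, rfl⟩
        · exact ⟨_, algebraMap_mem_span_range_bcF e F₀ a, 1, one_mem_span_range_bcF e F₀,
            one_ne_zero, by simp⟩
        · refine ⟨_, Submodule.subset_span ⟨⟨coeffEmb K z, coeffEmb_mem_laurentBaseChange K hz⟩,
            rfl⟩, 1, one_mem_span_range_bcF e F₀, one_ne_zero, ?_⟩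
          simp [coeffMap_coeffEmb_hom]
    | one =>
        exact ⟨1, one_mem_span_range_bcF e F₀, 1, one_mem_span_range_bcF e F₀, one_ne_zero,
          by simp⟩
    | add y z _ _ hy hz =>
        obtain ⟨u₁, hu₁, v₁, hv₁, hv₁0, h₁⟩ := hy
        obtain ⟨u₂, hu₂, v₂, hv₂, hv₂0, h₂⟩ := hz
        refine ⟨u₁ * v₂ + u₂ * v₁, add_mem (span_range_bcF_mul e F₀ hu₁ hv₂)
          (span_range_bcF_mul e F₀ hu₂ hv₁), v₁ * v₂, span_range_bcF_mul e F₀ hv₁ hv₂,
          mul_ne_zero hv₁0 hv₂0, ?_⟩
        push_cast
        rw [← h₁, ← h₂]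
        ring
    | neg y _ hy =>
        obtain ⟨u, hu, v, hv, hv0, h⟩ := hy
        refine ⟨-u, neg_mem hu, v, hv, hv0, ?_⟩
        push_cast
        rw [← h]
        ring
    | inv y _ hy =>
        obtain ⟨u, hu, v, hv, hv0, h⟩ := hy
        rcases eq_or_ne y 0 with rfl | hy0
        · exact ⟨0, zero_mem _, 1, one_mem_span_range_bcF e F₀, one_ne_zero, by simp⟩
        · have hu0 : u ≠ 0 := by
            rintro rfl
            have hv' : (v : LaurentSeries K') ≠ 0 := fun h0 => hv0 (Subtype.ext h0)
            exact (mul_ne_zero hy0 hv') (by simpa using h)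
          refine ⟨v, hv, u, hu, hu0, ?_⟩
          rw [← h, ← mul_assoc, inv_mul_cancel₀ hy0, one_mul]
    | mul y z _ _ hy hz =>
        obtain ⟨u₁, hu₁, v₁, hv₁, hv₁0, h₁⟩ := hy
        obtain ⟨u₂, hu₂, v₂, hv₂, hv₂0, h₂⟩ := hz
        refine ⟨u₁ * u₂, span_range_bcF_mul e F₀ hu₁ hu₂, v₁ * v₂,
          span_range_bcF_mul e F₀ hv₁ hv₂, mul_ne_zero hv₁0 hv₂0, ?_⟩
        push_cast
        rw [← h₁, ← h₂]
        ring
  obtain ⟨u, hu, v, hv, hv0, h⟩ := key x x.2
  exact ⟨u, hu, v, hv, hv0, Subtype.ext h⟩

/-! ### Compatibility with the degeneracy maps -/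

theorem coeffMap_qExpand_hom {R S : Type*} [CommRing R] [CommRing S] (f : R →+* S) (n : ℕ)
    [NeZero n] (x : LaurentSeries R) : coeffMap f (qExpand R n x) = qExpand S n (coeffMap f x) := by
  ext k
  by_cases hk : (n : ℤ) ∣ k
  · obtain ⟨m, rfl⟩ := hk
    rw [coeffMap_coeff, qExpand_coeff_mul, qExpand_coeff_mul, coeffMap_coeff]
  · rw [coeffMap_coeff, qExpand_coeff_of_not_dvd n _ hk, qExpand_coeff_of_not_dvd n _ hk,
      map_zero]

variable (N ℓ : ℕ) [NeZero N] [NeZero ℓ]

theorem bcF_heckeAlpha (x : ↥(laurentBaseChange K (modularFunctionFieldFull N))) :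
    bcF e (modularFunctionFieldFull (N * ℓ)) (heckeAlphaBar K N ℓ x)
      = heckeAlphaBar K' N ℓ (bcF e (modularFunctionFieldFull N) x) := by
  apply Subtype.ext
  rw [coe_bcF, coe_heckeAlphaBar, coe_heckeAlphaBar, coe_bcF]

theorem bcF_heckeBeta (x : ↥(laurentBaseChange K (modularFunctionFieldFull N))) :
    bcF e (modularFunctionFieldFull (N * ℓ)) (heckeBetaBar K N ℓ x)
      = heckeBetaBar K' N ℓ (bcF e (modularFunctionFieldFull N) x) := by
  apply Subtype.ext
  rw [coe_bcF, coe_heckeBetaBar, coe_heckeBetaBar, coe_bcF, coeffMap_qExpand_hom]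

theorem bcF_jK :
    bcF e (modularFunctionFieldFull N) (Fermat.Agent.Lib.ModCK.jK K N)
      = Fermat.Agent.Lib.ModCK.jK K' N := by
  apply Subtype.ext
  rw [coe_bcF, Fermat.Agent.Lib.ModCK.coe_jK, Fermat.Agent.Lib.ModCK.coe_jK,
    coeffMap_coeffEmb_hom]

end Fermat.Agent.S29.BC
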