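import Fermat.Agent.S37.HInpAlong
import Fermat.Agent.Lib.ModCK.OverC
import Fermat.Prelude.Def_ModularCurve_HeckeModule

/-!
# S29 (C79), piece HC: the Hecke correspondence over an arbitrary algebraically closed field of
characteristic zero embedded in `ℂ` (in particular over `ℂ` itself)

For `K` algebraically closed of characteristic `0` with an embedding `σ : K →+* ℂ`, the prelude's
`HeckeInputsAlong K N ℓ` holds for all `N, ℓ ≥ 1`; so `heckeOperatorAlong K N ℓ` is the
correspondence `α_* ∘ β^*`, with the explicit formula `heckeDivK_single` on divisors.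
The statements for `K = ℂ` (`σ = id`) are repeated at the end.
-/

set_option autoImplicit false
set_option linter.unusedSectionVars false
set_option linter.style.haveILetI false

open AlgebraicCurve ModularCurve Fermat.Agent.Lib.FF Fermat.Agent.Lib.ModCK Fermat.Agent.S37.H
  Fermat.Agent.Lib.ModJ

noncomputable section

namespace Fermat.Agent.S29.HC

section General

variable {K : Type*} [Field K] [Algebra ℚ K] [IsAlgClosed K] [CharZero K] (σ : K →+* ℂ)

include σ

/-- principal divisors on the modular function fields over `K` -/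
theorem hasPrincipalDivisorsK (M : ℕ) [NeZero M] : HasPrincipalDivisors K ↥(FFK K M) :=
  hasPrincipalDivisors (isFF1_jK σ M)

variable (N ℓ : ℕ) [NeZero N] [NeZero ℓ]

theorem finiteAlong_alphaK : FiniteAlong K (heckeAlphaBar K N ℓ) :=
  finiteAlong (isFF1_jK σ N).transcendental (isFF1_jK σ (N * ℓ)) _

theorem finiteAlong_betaK : FiniteAlong K (heckeBetaBar K N ℓ) :=
  finiteAlong (isFF1_jK σ N).transcendental (isFF1_jK σ (N * ℓ)) _

theorem alphaIntK : (heckeAlphaBar K N ℓ).toRingHom.IsIntegral :=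
  isIntegral_of_finiteAlong (finiteAlong_alphaK σ N ℓ)

theorem betaIntK : (heckeBetaBar K N ℓ).toRingHom.IsIntegral :=
  isIntegral_of_finiteAlong (finiteAlong_betaK σ N ℓ)

theorem alphaIntegralK : HeckeAlphaBarIntegral K N ℓ := alphaIntK σ N ℓ

theorem betaIntegralK : HeckeBetaBarIntegral K N ℓ := betaIntK σ N ℓ

theorem fundamentalIdentity_betaK :
    haveI := hasPrincipalDivisorsK σ (N * ℓ)
    FundamentalIdentityAlong K (heckeBetaBar K N ℓ) (betaIntK σ N ℓ) :=
  haveI := hasPrincipalDivisorsK σ (N * ℓ)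
  fundamentalIdentityAlong (isFF1_jK σ N) (isFF1_jK σ (N * ℓ)) _ _

theorem fundamentalIdentity_alphaK :
    haveI := hasPrincipalDivisorsK σ (N * ℓ)
    FundamentalIdentityAlong K (heckeAlphaBar K N ℓ) (alphaIntK σ N ℓ) :=
  haveI := hasPrincipalDivisorsK σ (N * ℓ)
  fundamentalIdentityAlong (isFF1_jK σ N) (isFF1_jK σ (N * ℓ)) _ _

theorem normFormula_alphaK :
    NormFormulaAlong K (heckeAlphaBar K N ℓ) (finiteAlong_alphaK σ N ℓ) :=
  normFormulaAlong (isFF1_jK σ N) (isFF1_jK σ (N * ℓ)) _ _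

theorem normFormula_betaK :
    NormFormulaAlong K (heckeBetaBar K N ℓ) (finiteAlong_betaK σ N ℓ) :=
  normFormulaAlong (isFF1_jK σ N) (isFF1_jK σ (N * ℓ)) _ _

/-- **Piece HC**: the inputs of the Hecke correspondence hold over `K`. -/
theorem heckeInputsAlongK : HeckeInputsAlong K N ℓ :=
  haveI := hasPrincipalDivisorsK σ (N * ℓ)
  heckeInputsAlong_intro (alphaIntegralK σ N ℓ) (betaIntegralK σ N ℓ)
    (fundamentalIdentity_betaK σ N ℓ) (finiteAlong_alphaK σ N ℓ) (normFormula_alphaK σ N ℓ)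

/-- the Hecke operator over `K` is the correspondence `α_* ∘ β^*` -/
theorem heckeOperatorAlong_eqK :
    haveI := hasPrincipalDivisorsK σ (N * ℓ)
    heckeOperatorAlong K N ℓ =
      heckePic0Bar (alphaIntegralK σ N ℓ) (betaIntegralK σ N ℓ) (fundamentalIdentity_betaK σ N ℓ)
        (finiteAlong_alphaK σ N ℓ) (normFormula_alphaK σ N ℓ) :=
  haveI := hasPrincipalDivisorsK σ (N * ℓ)
  heckeOperatorAlong_eq _ _ _ _ _

/-- the Hecke correspondence on divisors over `K` -/
def heckeDivK : Divisor K ↥(FFK K N) →+ Divisor K ↥(FFK K N) :=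
  haveI := hasPrincipalDivisorsK σ (N * ℓ)
  heckeDivBar (alphaIntegralK σ N ℓ) (betaIntegralK σ N ℓ)

theorem heckeDivK_apply (D : Divisor K ↥(FFK K N)) :
    haveI := hasPrincipalDivisorsK σ (N * ℓ)
    heckeDivK σ N ℓ D = Divisor.pushforwardAlong (heckeAlphaBar K N ℓ) (alphaIntK σ N ℓ)
      (Divisor.pullbackAlong (heckeBetaBar K N ℓ) (betaIntK σ N ℓ) D) := rfl

/-- **Explicit formula** for the Hecke correspondence on a place, over `K`. -/
theorem heckeDivK_single (P : Place K ↥(FFK K N)) (n : ℤ) :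
    haveI := hasPrincipalDivisorsK σ (N * ℓ)
    heckeDivK σ N ℓ (Finsupp.single P n) =
      ∑ Q ∈ Place.fiberAlong (heckeBetaBar K N ℓ) (betaIntK σ N ℓ) P,
        Finsupp.single (Q.restrictAlong (heckeAlphaBar K N ℓ) (alphaIntK σ N ℓ))
          (n * (Q.ramificationIndexAlong (heckeBetaBar K N ℓ) : ℤ)) := by
  haveI := hasPrincipalDivisorsK σ (N * ℓ)
  show Divisor.pushforwardAlong (heckeAlphaBar K N ℓ) (alphaIntK σ N ℓ)
    (Divisor.pullbackAlong (heckeBetaBar K N ℓ) (betaIntK σ N ℓ) (Finsupp.single P n)) = _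
  rw [Divisor.pullbackAlong_single, map_sum]
  refine Finset.sum_congr rfl fun Q _ => ?_
  rw [Divisor.pushforwardAlong_single, inertiaDegAlong_eq_one (isFF1_jK σ N)
    (isFF1_jK σ (N * ℓ))]
  simp

theorem heckeDivK_mem_degZero {D : Divisor K ↥(FFK K N)} (hD : D ∈ Divisor.degZero) :
    heckeDivK σ N ℓ D ∈ Divisor.degZero :=
  haveI := hasPrincipalDivisorsK σ (N * ℓ)
  Divisor.correspondence_mem_degZero _ _ _ _ (fundamentalIdentity_betaK σ N ℓ) hD

/-- the Hecke operator over `K` on the class of a divisor of degree zero -/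
theorem heckeOperatorAlong_mkK (D : Divisor.degZero (K := K) (F := ↥(FFK K N))) :
    heckeOperatorAlong K N ℓ (Pic0.mk D) =
      Pic0.mk ⟨heckeDivK σ N ℓ D, heckeDivK_mem_degZero σ N ℓ D.2⟩ := by
  rw [heckeOperatorAlong_eqK σ]
  rfl

/-- the ramification indices of `β` over a place add up to `[F(Nℓ) : β F(N)]` -/
theorem sum_ramificationIndex_betaK (P : Place K ↥(FFK K N)) :
    haveI := hasPrincipalDivisorsK σ (N * ℓ)
    ∑ Q ∈ Place.fiberAlong (heckeBetaBar K N ℓ) (betaIntK σ N ℓ) P,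
      (Q.ramificationIndexAlong (heckeBetaBar K N ℓ) : ℤ) =
      (finrankAlong K (heckeBetaBar K N ℓ) : ℤ) :=
  haveI := hasPrincipalDivisorsK σ (N * ℓ)
  sum_ramificationIndexAlong (isFF1_jK σ N) (isFF1_jK σ (N * ℓ)) _ _ P

end General

/-! ### The case `K = ℂ` -/

variable (N ℓ : ℕ) [NeZero N] [NeZero ℓ]

/-- principal divisors on the modular function fields over `ℂ` -/
instance hasPrincipalDivisorsC (M : ℕ) [NeZero M] : HasPrincipalDivisors ℂ ↥(FFK ℂ M) :=
  hasPrincipalDivisorsK (RingHom.id ℂ) M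

/-- `HeckeInputsAlong ℂ N ℓ` -/
theorem heckeInputsAlongC : HeckeInputsAlong ℂ N ℓ := heckeInputsAlongK (RingHom.id ℂ) N ℓ

end Fermat.Agent.S29.HC
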