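import Mathlib
import Fermat.Agent.S29.BCHecke
import Fermat.Agent.S29.BCDiv
import Fermat.Agent.S29.BCMod
import Fermat.Agent.S29.HeckeC

/-!
# Campaign 79, piece BC: the base change of divisor classes commutes with the Hecke operators
-/

set_option autoImplicit false
set_option linter.unusedSectionVars false
set_option linter.unusedVariables false
set_option linter.style.haveILetI false

open AlgebraicCurve ModularCurve Fermat.Agent.Lib.FF Fermat.Agent.Lib.ModCK Fermat.Agent.S37.H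
  Fermat.Agent.Lib.ModJ Fermat.Agent.S29.HC

noncomputable section

namespace Fermat.Agent.S29.BC

variable {K K' : Type*} [Field K] [Field K'] [Algebra ℚ K] [Algebra ℚ K']
  [IsAlgClosed K] [CharZero K] [IsAlgClosed K'] [CharZero K']
  (σ : K →+* ℂ) (σ' : K' →+* ℂ) (e : K →+* K') (N ℓ : ℕ) [NeZero N] [NeZero ℓ]
  {b₁ : Place K ↥(FFK K N) → Place K' ↥(FFK K' N)}
  {b₂ : Place K ↥(FFK K (N * ℓ)) → Place K' ↥(FFK K' (N * ℓ))}
  (hb₁ : PlaceExt (bcF e (modularFunctionFieldFull N)) b₁)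
  (hb₂ : PlaceExt (bcF e (modularFunctionFieldFull (N * ℓ))) b₂)

include hb₁ hb₂

/-- **(iv)** the Hecke correspondence on divisors commutes with the base change -/
theorem heckeDivK_bcDiv (D : Divisor K ↥(FFK K N)) :
    heckeDivK σ' N ℓ (bcDiv b₁ D) = bcDiv b₁ (heckeDivK σ N ℓ D) := by
  haveI := hasPrincipalDivisorsK σ (N * ℓ)
  haveI := hasPrincipalDivisorsK σ' (N * ℓ)
  exact correspondence_mapDomain hb₁ hb₂ (heckeAlphaBar K N ℓ) (heckeBetaBar K N ℓ)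
    (alphaIntK σ N ℓ) (betaIntK σ N ℓ) (heckeAlphaBar K' N ℓ) (heckeBetaBar K' N ℓ)
    (alphaIntK σ' N ℓ) (betaIntK σ' N ℓ)
    (fun x => (bcF_heckeAlpha e N ℓ x).symm) (fun x => (bcF_heckeBeta e N ℓ x).symm)
    (fun Q => inertiaDegAlong_eq_one (isFF1_jK σ N) (isFF1_jK σ (N * ℓ)) _ _ Q)
    (fun Q => inertiaDegAlong_eq_one (isFF1_jK σ' N) (isFF1_jK σ' (N * ℓ)) _ _ Q) D

/-- **(v)** the Hecke operator on `Pic0` commutes with the base change -/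
theorem heckeOperatorAlong_bcPic0 (x : Pic0 K ↥(FFK K N)) :
    heckeOperatorAlong K' N ℓ (bcPic0 hb₁ (isFF1_jK σ N) (isFF1_jK σ' N) x) =
      bcPic0 hb₁ (isFF1_jK σ N) (isFF1_jK σ' N) (heckeOperatorAlong K N ℓ x) := by
  obtain ⟨D, rfl⟩ := Pic0.mk_surjective x
  rw [bcPic0_mk, heckeOperatorAlong_mkK σ', heckeOperatorAlong_mkK σ, bcPic0_mk]
  congr 1
  apply Subtype.ext
  exact heckeDivK_bcDiv σ σ' e N ℓ hb₁ hb₂ D

omit hb₁ hb₂ in
/-- **(v)** for `ℚ̄ → ℂ` and the prelude's `heckeOperatorBar` -/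
theorem heckeOperatorBar_bcPic0 (e : AlgebraicClosure ℚ →+* ℂ) (N : ℕ) [NeZero N]
    (ℓ : Nat.Primes)
    {b₁ : Place (AlgebraicClosure ℚ) ↥(FFK (AlgebraicClosure ℚ) N) → Place ℂ ↥(FFK ℂ N)}
    {b₂ : Place (AlgebraicClosure ℚ) ↥(FFK (AlgebraicClosure ℚ) (N * (ℓ : ℕ))) →
      Place ℂ ↥(FFK ℂ (N * (ℓ : ℕ)))}
    (hb₁ : PlaceExt (bcF e (modularFunctionFieldFull N)) b₁)
    (hb₂ : PlaceExt (bcF e (modularFunctionFieldFull (N * (ℓ : ℕ)))) b₂) (x : JZero N) :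
    haveI : NeZero (ℓ : ℕ) := ⟨ℓ.2.ne_zero⟩
    heckeOperatorAlong ℂ N ℓ (bcPic0 hb₁ (isFF1_jK e N) (isFF1_jK (RingHom.id ℂ) N) x) =
      bcPic0 hb₁ (isFF1_jK e N) (isFF1_jK (RingHom.id ℂ) N) (heckeOperatorBar N ℓ x) := by
  haveI : NeZero (ℓ : ℕ) := ⟨ℓ.2.ne_zero⟩
  exact heckeOperatorAlong_bcPic0 e (RingHom.id ℂ) e N ℓ hb₁ hb₂ x

end Fermat.Agent.S29.BC

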