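import Mathlib
import Fermat.Agent.S29.BCDefs
import Fermat.Agent.Lib.FunctionField.Fibre
import Fermat.Agent.Lib.FFs.Rat
import Fermat.Agent.S18.RF

/-!
# Campaign 79, piece BC: extension of places along a constant field extension

`K ⊆ K'` algebraically closed of characteristic zero, `F/K`, `F'/K'` function fields of one
variable, `ι : F →+* F'` with `Data e ι`.  Then every place `P` of `F` has a unique extension
`bc P` to `F'`, it is unramified (`(bc P).ord (ι f) = P.ord f`), and the places of `F'` which are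
not of this form are trivial on `ι F`: `placeExt_bc : PlaceExt ι (bc …)`.
-/

set_option autoImplicit false
set_option linter.unusedSectionVars false

open AlgebraicCurve Fermat.Agent.Lib.FF

namespace Fermat.Agent.S29.BC

variable {K K' F F' : Type*} [Field K] [Field K'] [Field F] [Field F'] [Algebra K F]
  [Algebra K' F']

/-- `Q` lies over `P`, with ramification index `d`. -/
def IsExtW (ι : F →+* F') (P : Place K F) (Q : Place K' F') : Prop :=
  ∃ d : ℕ, 0 < d ∧ ∀ f : F, f ≠ 0 → Q.ord (ι f) = d * P.ord f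

variable {e : K →+* K'} {ι : F →+* F'}

theorem IsExtW.nonneg {P : Place K F} {Q : Place K' F'} (hPQ : IsExtW ι P Q) {f : F}
    (hf : 0 ≤ P.ord f) : 0 ≤ Q.ord (ι f) := by
  obtain ⟨d, hd, h⟩ := hPQ
  rcases eq_or_ne f 0 with rfl | hf0
  · rw [map_zero, Q.ord_zero]
  · rw [h f hf0]
    positivity

theorem IsExtW.pos {P : Place K F} {Q : Place K' F'} (hPQ : IsExtW ι P Q) {f : F}
    (hf : 0 < P.ord f) : 0 < Q.ord (ι f) := by
  obtain ⟨d, hd, h⟩ := hPQ
  have hf0 : f ≠ 0 := by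
    rintro rfl
    rw [P.ord_zero] at hf
    exact lt_irrefl _ hf
  rw [h f hf0]
  positivity

/-! ### (R) restriction -/

/-- (R) a place of `F'` which is nontrivial on `ι F` lies over a place of `F`. -/
theorem exists_restrict (h : Data e ι) (Q : Place K' F') (f₀ : F) (hf₀ : f₀ ≠ 0)
    (hQ : Q.ord (ι f₀) ≠ 0) : ∃ P : Place K F, IsExtW ι P Q := by
  have hinj : ∀ f : F, f ≠ 0 → ι f ≠ 0 := fun f hf => (map_ne_zero ι).mpr hf
  obtain ⟨v, d, hd, -, hv⟩ := exists_place_of_ord (K := K) (F := F) (fun f => Q.ord (ι f))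
    (fun f g hf hg => by
      show Q.ord (ι (f * g)) = _
      rw [map_mul, Q.ord_mul (hinj f hf) (hinj g hg)])
    (fun f g hf hg hfg => by
      show _ ≤ Q.ord (ι (f + g))
      rw [map_add]
      refine ord_add Q ?_
      rw [← map_add]
      exact hinj _ hfg)
    (fun c _ => by
      show Q.ord (ι (algebraMap K F c)) = 0
      rw [h.comm, ord_algebraMap])
    ⟨f₀, hf₀, hQ⟩
  exact ⟨v, d, hd, hv⟩

/-! ### (U) uniqueness and the ramification index -/

section Unique

variable [IsAlgClosed K] [CharZero K]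

/-- the `K'`-span of the image of the valuation ring of `P` -/
def ringSpan (K' : Type*) [Field K'] [Algebra K' F'] (ι : F →+* F') (P : Place K F) :
    Submodule K' F' :=
  Submodule.span K' (ι '' {f : F | 0 ≤ P.ord f})

theorem map_mem_ringSpan {P : Place K F} {f : F} (hf : 0 ≤ P.ord f) :
    ι f ∈ ringSpan K' ι P :=
  Submodule.subset_span ⟨f, hf, rfl⟩

theorem map_mul_mem_ringSpan {P : Place K F} {g : F} (hg : 0 ≤ P.ord g) {y : F'}
    (hy : y ∈ ringSpan K' ι P) : ι g * y ∈ ringSpan K' ι P := by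
  induction hy using Submodule.span_induction with
  | mem y hy =>
      obtain ⟨f, hf, rfl⟩ := hy
      rw [← map_mul]
      refine map_mem_ringSpan ?_
      rcases eq_or_ne g 0 with rfl | hg0
      · rw [zero_mul, P.ord_zero]
      rcases eq_or_ne f 0 with rfl | hf0
      · rw [mul_zero, P.ord_zero]
      rw [P.ord_mul hg0 hf0]
      exact add_nonneg hg hf
  | zero => rw [mul_zero]; exact zero_mem _
  | add y z _ _ hy hz => rw [mul_add]; exact add_mem hy hz
  | smul c y _ hy => rw [mul_smul_comm]; exact Submodule.smul_mem _ _ hy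

theorem pow_mul_mem_ringSpan {P : Place K F} {t : F} (ht : 0 ≤ P.ord t) (m : ℕ) {y : F'}
    (hy : y ∈ ringSpan K' ι P) : ι t ^ m * y ∈ ringSpan K' ι P := by
  induction m with
  | zero => rwa [pow_zero, one_mul]
  | succ m ih =>
      rw [pow_succ', mul_assoc]
      exact map_mul_mem_ringSpan ht ih

/-- Claim B: the span lies in the valuation ring of every extension. -/
theorem ord_nonneg_of_mem_ringSpan {P : Place K F} {Q : Place K' F'} (hPQ : IsExtW ι P Q)
    {y : F'} (hy : y ∈ ringSpan K' ι P) : 0 ≤ Q.ord y := by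
  refine ord_nonneg_of_mem Q ?_
  induction hy using Submodule.span_induction with
  | mem y hy =>
      obtain ⟨f, hf, rfl⟩ := hy
      exact mem_of_ord_nonneg Q (hPQ.nonneg hf)
  | zero => exact zero_mem _
  | add y z _ _ hy hz => exact add_mem hy hz
  | smul c y _ hy =>
      rw [Algebra.smul_def]
      exact mul_mem (Q.algebraMap_mem' c) hy

/-- Claim A: modulo the uniformizer, the span consists of constants. -/
theorem exists_eq_const_add (h : Data e ι) {x : F} (hx : IsFF1 K F x) {P : Place K F} {t : F}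
    (ht : P.ord t = 1) {y : F'} (hy : y ∈ ringSpan K' ι P) :
    ∃ c : K', ∃ z ∈ ringSpan K' ι P, y = algebraMap K' F' c + ι t * z := by
  have ht0 : t ≠ 0 := by
    rintro rfl
    rw [P.ord_zero] at ht
    exact zero_ne_one ht
  induction hy using Submodule.span_induction with
  | mem y hy =>
      obtain ⟨f, hf, rfl⟩ := hy
      obtain ⟨a, ha | ha⟩ := exists_sub_mem_maximalIdeal hx P f (mem_of_ord_nonneg P hf)
      · refine ⟨e a, 0, zero_mem _, ?_⟩
        rw [mul_zero, add_zero, ha, h.comm]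
      · have hne : f - algebraMap K F a ≠ 0 := by
          intro h0
          rw [h0, P.ord_zero] at ha
          exact lt_irrefl _ ha
        refine ⟨e a, ι ((f - algebraMap K F a) * t⁻¹), map_mem_ringSpan ?_, ?_⟩
        · rw [P.ord_mul hne (inv_ne_zero ht0), P.ord_inv, ht]
          omega
        · rw [← map_mul, ← h.comm, ← map_add]
          congr 1
          field_simp
          ring
  | zero => exact ⟨0, 0, zero_mem _, by simp⟩
  | add y z _ _ hy hz =>
      obtain ⟨c₁, z₁, hz₁, rfl⟩ := hy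
      obtain ⟨c₂, z₂, hz₂, rfl⟩ := hz
      exact ⟨c₁ + c₂, z₁ + z₂, add_mem hz₁ hz₂, by rw [map_add]; ring⟩
  | smul a y _ hy =>
      obtain ⟨c, z, hz, rfl⟩ := hy
      refine ⟨a * c, a • z, Submodule.smul_mem _ _ hz, ?_⟩
      rw [smul_add, mul_smul_comm, map_mul, Algebra.smul_def]

/-- Claim C: every nonzero element of the span is a power of the uniformizer times a
"unit" `c + π z`, `c ≠ 0`. -/
theorem exists_eq_pow_mul (h : Data e ι) {x : F} (hx : IsFF1 K F x) {P : Place K F} {t : F}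
    (ht : P.ord t = 1) {Q : Place K' F'} (hPQ : IsExtW ι P Q) :
    ∀ (n : ℕ) (y : F'), y ∈ ringSpan K' ι P → y ≠ 0 → Q.ord y ≤ n →
      ∃ (k : ℕ) (c : K'), c ≠ 0 ∧ ∃ z ∈ ringSpan K' ι P,
        y = ι t ^ k * (algebraMap K' F' c + ι t * z) := by
  have hπ : 0 < Q.ord (ι t) := hPQ.pos (by rw [ht]; exact zero_lt_one)
  have hπ0 : ι t ≠ 0 := by
    intro h0
    rw [h0, Q.ord_zero] at hπ
    exact lt_irrefl _ hπ
  intro n
  induction n with
  | zero =>
      intro y hy hy0 hn
      obtain ⟨c, z, hz, rfl⟩ := exists_eq_const_add h hx ht hy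
      rcases eq_or_ne c 0 with rfl | hc
      · exfalso
        rw [map_zero, zero_add] at hy0 hn
        have hz0 : z ≠ 0 := by
          rintro rfl
          exact hy0 (mul_zero _)
        rw [Q.ord_mul hπ0 hz0] at hn
        have := ord_nonneg_of_mem_ringSpan hPQ hz
        omega
      · exact ⟨0, c, hc, z, hz, by rw [pow_zero, one_mul]⟩
  | succ n ih =>
      intro y hy hy0 hn
      obtain ⟨c, z, hz, rfl⟩ := exists_eq_const_add h hx ht hy
      rcases eq_or_ne c 0 with rfl | hc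
      · rw [map_zero, zero_add] at hy0 hn ⊢
        have hz0 : z ≠ 0 := by
          rintro rfl
          exact hy0 (mul_zero _)
        rw [Q.ord_mul hπ0 hz0] at hn
        obtain ⟨k, c, hc, z', hz', rfl⟩ := ih z hz hz0 (by omega)
        exact ⟨k + 1, c, hc, z', hz', by rw [pow_succ']; ring⟩
      · exact ⟨0, c, hc, z, hz, by rw [pow_zero, one_mul]⟩

theorem ord_const_add {Q : Place K' F'} {π : F'} (hπ : 0 < Q.ord π) {c : K'} (hc : c ≠ 0)
    {z : F'} (hz : 0 ≤ Q.ord z) : Q.ord (algebraMap K' F' c + π * z) = 0 := by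
  have hc0 : algebraMap K' F' c ≠ 0 := (map_ne_zero _).mpr hc
  have hπ0 : π ≠ 0 := by
    rintro rfl
    rw [Q.ord_zero] at hπ
    exact lt_irrefl _ hπ
  rcases eq_or_ne z 0 with rfl | hz0
  · rw [mul_zero, add_zero, ord_algebraMap]
  · rw [ord_add_of_lt Q _ hc0, ord_algebraMap]
    rw [ord_algebraMap, Q.ord_mul hπ0 hz0]
    omega

theorem ord_pow_nat (Q : Place K' F') (y : F') (n : ℕ) : Q.ord (y ^ n) = n * Q.ord y := by
  have := Q.ord_zpow y n
  rwa [zpow_natCast] at this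

/-- Consequence D: on the span, the order at an extension is a fixed multiple of the order of
the uniformizer. -/
theorem exists_ord_eq_of_mem_ringSpan (h : Data e ι) {x : F} (hx : IsFF1 K F x) {P : Place K F}
    {t : F} (ht : P.ord t = 1) {Q : Place K' F'} (hPQ : IsExtW ι P Q) {y : F'}
    (hy : y ∈ ringSpan K' ι P) (hy0 : y ≠ 0) :
    ∃ k : ℕ, ∀ Q₂ : Place K' F', IsExtW ι P Q₂ → Q₂.ord y = k * Q₂.ord (ι t) := by
  have hn : Q.ord y ≤ (Q.ord y).toNat := Int.self_le_toNat _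
  obtain ⟨k, c, hc, z, hz, rfl⟩ := exists_eq_pow_mul h hx ht hPQ _ y hy hy0 hn
  refine ⟨k, fun Q₂ hQ₂ => ?_⟩
  have hπ : 0 < Q₂.ord (ι t) := hQ₂.pos (by rw [ht]; exact zero_lt_one)
  have hπ0 : ι t ≠ 0 := by
    intro h0
    rw [h0, Q₂.ord_zero] at hπ
    exact lt_irrefl _ hπ
  have h1 := ord_const_add hπ hc (ord_nonneg_of_mem_ringSpan hQ₂ hz)
  have h2 : algebraMap K' F' c + ι t * z ≠ 0 := right_ne_zero_of_mul hy0
  rw [Q₂.ord_mul (pow_ne_zero _ hπ0) h2, h1, add_zero, ord_pow_nat]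

/-- Lemma G: every element of the span of `ι F` is in `π^{-m} R_P`. -/
theorem exists_pow_mul_mem_ringSpan {P : Place K F} {t : F} (ht : P.ord t = 1) {u : F'}
    (hu : u ∈ Submodule.span K' (Set.range ι)) : ∃ m : ℕ, ι t ^ m * u ∈ ringSpan K' ι P := by
  have ht0 : t ≠ 0 := by
    rintro rfl
    rw [P.ord_zero] at ht
    exact zero_ne_one ht
  have ht' : 0 ≤ P.ord t := by rw [ht]; exact zero_le_one
  induction hu using Submodule.span_induction with
  | mem y hy =>
      obtain ⟨f, rfl⟩ := hy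
      refine ⟨(-P.ord f).toNat, ?_⟩
      rw [← map_pow, ← map_mul]
      refine map_mem_ringSpan ?_
      rcases eq_or_ne f 0 with rfl | hf0
      · rw [mul_zero, P.ord_zero]
      rw [P.ord_mul (pow_ne_zero _ ht0) hf0]
      have : P.ord (t ^ (-P.ord f).toNat) = (-P.ord f).toNat := by
        have := P.ord_zpow t ((-P.ord f).toNat : ℕ)
        rw [zpow_natCast, ht, mul_one] at this
        exact_mod_cast this
      rw [this]
      have := Int.self_le_toNat (-P.ord f)
      omega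
  | zero => exact ⟨0, by rw [mul_zero]; exact zero_mem _⟩
  | add y z _ _ hy hz =>
      obtain ⟨m₁, h₁⟩ := hy
      obtain ⟨m₂, h₂⟩ := hz
      refine ⟨m₁ + m₂, ?_⟩
      have e₁ : ι t ^ (m₁ + m₂) * (y + z)
          = ι t ^ m₂ * (ι t ^ m₁ * y) + ι t ^ m₁ * (ι t ^ m₂ * z) := by
        rw [pow_add]; ring
      rw [e₁]
      exact add_mem (pow_mul_mem_ringSpan ht' _ h₁) (pow_mul_mem_ringSpan ht' _ h₂)
  | smul c y _ hy =>
      obtain ⟨m, hm⟩ := hy
      exact ⟨m, by rw [mul_smul_comm]; exact Submodule.smul_mem _ _ hm⟩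

/-- Theorem D': the order at any extension of `P` is a fixed multiple of the order of the
uniformizer. -/
theorem exists_ord_eq_mul (h : Data e ι) {x : F} (hx : IsFF1 K F x) {P : Place K F}
    {t : F} (ht : P.ord t = 1) {Q : Place K' F'} (hPQ : IsExtW ι P Q) (y : F') (hy0 : y ≠ 0) :
    ∃ n : ℤ, ∀ Q₂ : Place K' F', IsExtW ι P Q₂ → Q₂.ord y = n * Q₂.ord (ι t) := by
  obtain ⟨u, hu, v, hv, hv0, huv⟩ := h.gen y
  have hu0 : u ≠ 0 := by
    rw [← huv]
    exact mul_ne_zero hy0 hv0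
  obtain ⟨m₁, hm₁⟩ := exists_pow_mul_mem_ringSpan (P := P) ht hu
  obtain ⟨m₂, hm₂⟩ := exists_pow_mul_mem_ringSpan (P := P) ht hv
  have hπ : 0 < Q.ord (ι t) := hPQ.pos (by rw [ht]; exact zero_lt_one)
  have hπ0 : ι t ≠ 0 := by
    intro h0
    rw [h0, Q.ord_zero] at hπ
    exact lt_irrefl _ hπ
  obtain ⟨k₁, hk₁⟩ := exists_ord_eq_of_mem_ringSpan h hx ht hPQ hm₁
    (mul_ne_zero (pow_ne_zero _ hπ0) hu0)
  obtain ⟨k₂, hk₂⟩ := exists_ord_eq_of_mem_ringSpan h hx ht hPQ hm₂
    (mul_ne_zero (pow_ne_zero _ hπ0) hv0)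
  refine ⟨(k₁ : ℤ) - m₁ - (k₂ - m₂), fun Q₂ hQ₂ => ?_⟩
  have h1 := hk₁ Q₂ hQ₂
  have h2 := hk₂ Q₂ hQ₂
  rw [Q₂.ord_mul (pow_ne_zero _ hπ0) hu0, ord_pow_nat] at h1
  rw [Q₂.ord_mul (pow_ne_zero _ hπ0) hv0, ord_pow_nat] at h2
  have h3 : Q₂.ord u = Q₂.ord y + Q₂.ord v := by
    rw [← huv, Q₂.ord_mul hy0 hv0]
  linear_combination h1 - h2 - h3

/-- extensions are unramified -/
theorem IsExtW.ord_eq (h : Data e ι) {x : F} (hx : IsFF1 K F x) {P : Place K F}
    {Q : Place K' F'} (hPQ : IsExtW ι P Q) (f : F) : Q.ord (ι f) = P.ord f := by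
  obtain ⟨t, ht⟩ := exists_ord_eq_one P
  obtain ⟨s, hs⟩ := exists_ord_eq_one Q
  have hs0 : s ≠ 0 := by
    rintro rfl
    rw [Q.ord_zero] at hs
    exact zero_ne_one hs
  obtain ⟨n, hn⟩ := exists_ord_eq_mul h hx ht hPQ s hs0
  have h1 := hn Q hPQ
  rw [hs] at h1
  obtain ⟨d, hd, hd'⟩ := hPQ
  have ht0 : t ≠ 0 := by
    rintro rfl
    rw [P.ord_zero] at ht
    exact zero_ne_one ht
  have h2 := hd' t ht0
  rw [ht, mul_one] at h2
  rw [h2] at h1
  have hd1 : (d : ℤ) = 1 := by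
    have hdvd : (d : ℤ) ∣ 1 := ⟨n, by rw [h1]; ring⟩
    exact Int.eq_one_of_dvd_one (by positivity) hdvd
  rcases eq_or_ne f 0 with rfl | hf0
  · rw [map_zero, Q.ord_zero, P.ord_zero]
  · rw [hd' f hf0, hd1, one_mul]

/-- extensions are unique -/
theorem IsExtW.unique (h : Data e ι) {x : F} (hx : IsFF1 K F x) {P : Place K F}
    {Q₁ Q₂ : Place K' F'} (h₁ : IsExtW ι P Q₁) (h₂ : IsExtW ι P Q₂) : Q₁ = Q₂ := by
  obtain ⟨t, ht⟩ := exists_ord_eq_one P
  refine place_ext_of_ord fun y hy0 hy => ?_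
  obtain ⟨n, hn⟩ := exists_ord_eq_mul h hx ht h₁ y hy0
  have e₁ := hn Q₁ h₁
  have e₂ := hn Q₂ h₂
  have hπ₁ : 0 < Q₁.ord (ι t) := h₁.pos (by rw [ht]; exact zero_lt_one)
  have hπ₂ : 0 < Q₂.ord (ι t) := h₂.pos (by rw [ht]; exact zero_lt_one)
  rw [e₁] at hy
  rw [e₂]
  have hn0 : 0 ≤ n := by
    by_contra hneg
    have : n * Q₁.ord (ι t) < 0 := mul_neg_of_neg_of_pos (by omega) hπ₁
    omega
  positivity

end Unique

/-! ### (E) existence, and the map `bc` -/

section Exist

variable [IsAlgClosed K] [CharZero K] [IsAlgClosed K'] [CharZero K']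

/-- a function with a pole exactly at `P` -/
theorem exists_pole_only {x : F} (hx : IsFF1 K F x) (P : Place K F) :
    ∃ f : F, f ≠ 0 ∧ P.ord f < 0 ∧ ∀ v : Place K F, v ≠ P → 0 ≤ v.ord f := by
  classical
  obtain ⟨g, c, hR⟩ := Fermat.Agent.S18.RF.rthm_of_isFF1s (Fermat.Agent.Lib.FFs.IsFF1s.of_isFF1 hx)
  have hpf := placeFacts_of_isFF1 hx
  have hdeg : Divisor.degree (Finsupp.single P (max (c + 1) 1) : Divisor K F)
      = max (c + 1) 1 := by
    rw [Divisor.degree_single, deg_eq_one hx P]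
    simp
  obtain ⟨φ, hφ, hφ0, hord⟩ := Fermat.Agent.S18.Deuring.exists_ord_eq hpf hR P
    (E := Finsupp.single P (max (c + 1) 1)) (by rw [hdeg]; exact le_max_left _ _)
  refine ⟨φ, hφ0, ?_, fun v hv => ?_⟩
  · rw [hord, Finsupp.single_eq_same]
    have : (1 : ℤ) ≤ max (c + 1) 1 := le_max_right _ _
    omega
  · have := (mem_rrSpace_iff_of_ne_zero hφ0).mp hφ v
    rwa [Finsupp.single_apply, if_neg (Ne.symm hv), neg_zero] at this

/-- (E) every place of `F` has an extension to `F'`. -/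
theorem exists_isExtW (h : Data e ι) {x : F} (hx : IsFF1 K F x) {x' : F'}
    (hx' : IsFF1 K' F' x') (P : Place K F) : ∃ Q : Place K' F', IsExtW ι P Q := by
  obtain ⟨f, hf0, hfP, hf⟩ := exists_pole_only hx P
  have htr : Transcendental K' (ι f) := by
    intro halg
    obtain ⟨c, hc⟩ := exists_algebraMap_eq_of_isAlgebraic halg
    obtain ⟨a, ha⟩ := h.nc f ⟨c, hc.symm⟩
    rw [ha, ord_algebraMap] at hfP
    exact lt_irrefl _ hfP
  obtain ⟨Q, hQ⟩ := Fermat.Agent.Lib.FFs.exists_pole_of_transcendental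
    (Fermat.Agent.Lib.FFs.pf0_of_isFF1s (Fermat.Agent.Lib.FFs.IsFF1s.of_isFF1 hx')) htr
  obtain ⟨P₁, hP₁⟩ := exists_restrict h Q f hf0 (ne_of_lt hQ)
  have hPP : P₁ = P := by
    by_contra hne
    have := hP₁.nonneg (hf P₁ hne)
    omega
  exact ⟨Q, hPP ▸ hP₁⟩

theorem exists_isExt (h : Data e ι) {x : F} (hx : IsFF1 K F x) {x' : F'}
    (hx' : IsFF1 K' F' x') (P : Place K F) :
    ∃ Q : Place K' F', ∀ f : F, Q.ord (ι f) = P.ord f := by
  obtain ⟨Q, hQ⟩ := exists_isExtW h hx hx' P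
  exact ⟨Q, hQ.ord_eq h hx⟩

/-- **the extension of a place** of `F` to the constant field extension `F'`. -/
noncomputable def bc (h : Data e ι) {x : F} (hx : IsFF1 K F x) {x' : F'}
    (hx' : IsFF1 K' F' x') (P : Place K F) : Place K' F' :=
  Classical.choose (exists_isExt h hx hx' P)

variable (h : Data e ι) {x : F} (hx : IsFF1 K F x) {x' : F'} (hx' : IsFF1 K' F' x')

theorem bc_ord (P : Place K F) (f : F) : (bc h hx hx' P).ord (ι f) = P.ord f :=
  Classical.choose_spec (exists_isExt h hx hx' P) f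

theorem isExtW_bc (P : Place K F) : IsExtW ι P (bc h hx hx' P) :=
  ⟨1, one_pos, fun f _ => by rw [bc_ord, Nat.cast_one, one_mul]⟩

/-- the extension is unique -/
theorem eq_bc_of_isExtW {P : Place K F} {Q : Place K' F'} (hPQ : IsExtW ι P Q) :
    Q = bc h hx hx' P :=
  hPQ.unique h hx (isExtW_bc h hx hx' P)

theorem bc_injective : Function.Injective (bc h hx hx') := fun P₁ P₂ h12 =>
  place_ext_of_ord fun f _ hf => by
    rw [← bc_ord h hx hx' P₂, ← h12, bc_ord]
    exact hf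

/-- a place of `F'` which is nontrivial on `ι F` is the extension of a place of `F`. -/
theorem exists_eq_bc (Q : Place K' F') (f : F) (hf : f ≠ 0) (hQ : Q.ord (ι f) ≠ 0) :
    ∃ P : Place K F, Q = bc h hx hx' P := by
  obtain ⟨P, hP⟩ := exists_restrict h Q f hf hQ
  exact ⟨P, eq_bc_of_isExtW h hx hx' hP⟩

/-- **BC1**: `bc` is the extension of places. -/
theorem placeExt_bc : PlaceExt ι (bc h hx hx') where
  ord := bc_ord h hx hx'
  inj := bc_injective h hx hx'
  off := fun Q hQ f hf0 => by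
    by_contra hne
    obtain ⟨P, hP⟩ := exists_eq_bc h hx hx' Q f hf0 hne
    exact hQ ⟨P, hP.symm⟩

include h hx hx' in
theorem exists_placeExt : ∃ b : Place K F → Place K' F', PlaceExt ι b :=
  ⟨_, placeExt_bc h hx hx'⟩

/-- the extension of `P` is the only place of `F'` at which the uniformizers of `P` vanish. -/
theorem eq_bc_of_pos {P : Place K F} {Q : Place K' F'}
    (hQ : ∀ f : F, 0 < P.ord f → 0 < Q.ord (ι f)) : Q = bc h hx hx' P := by
  obtain ⟨t, ht⟩ := exists_ord_eq_one P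
  have ht0 : t ≠ 0 := by
    rintro rfl
    rw [P.ord_zero] at ht
    exact zero_ne_one ht
  have h1 : 0 < Q.ord (ι t) := hQ t (by rw [ht]; exact zero_lt_one)
  obtain ⟨P₁, hP₁⟩ := exists_eq_bc h hx hx' Q t ht0 (ne_of_gt h1)
  have hPP : P = P₁ := by
    -- the maximal ideal of `P` is contained in the one of `P₁`
    refine place_ext_of_ord fun f hf0 hf => ?_
    by_contra hneg
    have hneg' : P₁.ord f < 0 := by omega
    -- `f⁻¹ t` … use `f⁻¹`: `P₁.ord f⁻¹ > 0`
    have h2 : 0 < P.ord (t * f) := by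
      rw [P.ord_mul ht0 hf0, ht]
      omega
    have h3 := hQ (t * f) h2
    rw [hP₁, bc_ord, P₁.ord_mul ht0 hf0] at h3
    -- so `P₁.ord t > -P₁.ord f ≥ 1`; iterate with powers of `f`
    have h4 : ∀ n : ℕ, 0 < P₁.ord t + n * P₁.ord f := by
      intro n
      have h5 : 0 < P.ord (t * f ^ n) := by
        rw [P.ord_mul ht0 (pow_ne_zero _ hf0), ht, ord_pow_nat]
        positivity
      have h6 := hQ (t * f ^ n) h5
      rwa [hP₁, bc_ord, P₁.ord_mul ht0 (pow_ne_zero _ hf0), ord_pow_nat] at h6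
    have h7 := h4 (P₁.ord t).toNat
    have h8 : P₁.ord t ≤ (P₁.ord t).toNat := Int.self_le_toNat _
    have h9 : ((P₁.ord t).toNat : ℤ) * P₁.ord f ≤ -((P₁.ord t).toNat : ℤ) := by
      have : ((P₁.ord t).toNat : ℤ) * P₁.ord f ≤ ((P₁.ord t).toNat : ℤ) * (-1) :=
        mul_le_mul_of_nonneg_left (by omega) (by positivity)
      linarith
    omega
  rw [hP₁, hPP]

end Exist

end Fermat.Agent.S29.BC
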