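import Mathlib
import Fermat.Agent.S29.BCAbs
import Fermat.Agent.S29.BCDiv
import Fermat.Agent.S29.BCMod
import Fermat.Agent.Lib.ModCK.OverC

/-!
# Campaign 79, piece BC: base change `J₀(N)(K) → Pic⁰(F_ℂ(N))` for the modular function fields

`K` algebraically closed of characteristic `0`, `σ : K →+* ℂ` (e.g. `K = ℚ̄`).

* `data_bcF` : the coefficientwise base change `bcF e F₀` is a constant field extension (`Data`);
* `bcPlace σ N : Place K F_K(N) → Place ℂ F_ℂ(N)` with `placeExt_bcPlace : PlaceExt …`;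
* `bcJ σ N : Pic0 K F_K(N) →+ Pic0 ℂ (FC N)`, `bcJ_mk`, `bcJ_mem_torsion`.
-/

set_option autoImplicit false
set_option linter.unusedSectionVars false

open AlgebraicCurve ModularCurve Fermat.Agent.Lib.FF Fermat.Agent.Lib.ModCK Fermat.Agent.Lib.ModJ

namespace Fermat.Agent.S29.BC

theorem data_bcF {K K' : Type*} [Field K] [Field K'] [Algebra ℚ K] [Algebra ℚ K']
    (e : K →+* K') (F₀ : IntermediateField ℚ (LaurentSeries ℚ)) : Data e (bcF e F₀) :=
  ⟨bcF_algebraMap e F₀, bcF_gen e F₀, bcF_const e F₀⟩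

section Modular

variable {K : Type*} [Field K] [Algebra ℚ K] [IsAlgClosed K] [CharZero K] (σ : K →+* ℂ)
variable (N : ℕ) [NeZero N]

/-- the extension of places `F_K(N) → F_ℂ(N)` -/
noncomputable def bcPlace : Place K ↥(FFK K N) → Place ℂ (FC N) :=
  bc (data_bcF σ (modularFunctionFieldFull N)) (isFF1_jK σ N) (isFF1_jFC N)

theorem placeExt_bcPlace : PlaceExt (bcF σ (modularFunctionFieldFull N)) (bcPlace σ N) :=
  placeExt_bc _ _ _

theorem bcPlace_ord (P : Place K ↥(FFK K N)) (f : ↥(FFK K N)) :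
    (bcPlace σ N P).ord (bcF σ (modularFunctionFieldFull N) f) = P.ord f :=
  (placeExt_bcPlace σ N).ord P f

theorem bcPlace_injective : Function.Injective (bcPlace σ N) := (placeExt_bcPlace σ N).inj

/-- uniqueness of the extension -/
theorem eq_bcPlace_of_pos {P : Place K ↥(FFK K N)} {Q : Place ℂ (FC N)}
    (hQ : ∀ f : ↥(FFK K N), 0 < P.ord f → 0 < Q.ord (bcF σ (modularFunctionFieldFull N) f)) :
    Q = bcPlace σ N P :=
  eq_bc_of_pos _ _ _ hQ

/-- **base change** `Pic⁰(F_K(N)) → Pic⁰(F_ℂ(N))` -/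
noncomputable def bcJ : Pic0 K ↥(FFK K N) →+ Pic0 ℂ (FC N) :=
  bcPic0 (placeExt_bcPlace σ N) (isFF1_jK σ N) (isFF1_jFC N)

theorem bcJ_mk (E : Divisor.degZero (K := K) (F := ↥(FFK K N))) :
    bcJ σ N (Pic0.mk E) =
      Pic0.mk ⟨bcDiv (bcPlace σ N) (E : Divisor K ↥(FFK K N)), by
        rw [Divisor.mem_degZero, degree_bcDiv _ (isFF1_jK σ N) (isFF1_jFC N)]
        exact E.2⟩ := rfl

theorem bcJ_mem_torsion {n : ℕ} {y : Pic0 K ↥(FFK K N)} (hy : y ∈ Pic0.torsion K ↥(FFK K N) n) :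
    bcJ σ N y ∈ Pic0.torsion ℂ (FC N) n :=
  bcPic0_mem_torsion _ _ _ hy

/-- the divisor of `bcF f` is the base change of the divisor of `f` -/
theorem bcDiv_bcPlace_principal {f : ↥(FFK K N)} (hf : f ≠ 0) {D : Divisor K ↥(FFK K N)}
    (hD : ∀ v, D v = v.ord f) (Q : Place ℂ (FC N)) :
    bcDiv (bcPlace σ N) D Q = Q.ord (bcF σ (modularFunctionFieldFull N) f) :=
  bcDiv_principal (placeExt_bcPlace σ N) hf hD Q

end Modular

end Fermat.Agent.S29.BC
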