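import Mathlib
import Fermat.Prelude.Def_ModularCurve_HeckeModule
import Fermat.Prelude.Def_GaloisRep_Residual

/-!
# S29 / S42 (campaign 79): shared definitions

* `torsionMap f n`: an additive map `Pic0 K F →+ Pic0 K' F'` restricted to `n`-torsion, as a
  `ZMod n`-linear map;
* `heckeTor N p ℓ`: the Hecke operator `T_ℓ` on the `p`-torsion of `J₀(N)(ℚ̄)`;
* `HasEigenvector g p π`: there is a nonzero vector of `k₀ ⊗ J₀(N)[p]` on which every `T_ℓ`
  (`ℓ ∤ N p`) acts by `π (a_ℓ(g))`.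
-/

set_option autoImplicit false

noncomputable section

namespace Fermat.Agent.S29

open AlgebraicCurve ModularCurve TensorProduct

local notation "Qb" => AlgebraicClosure ℚ

section TorsionMap

variable {K F K' F' : Type*} [Field K] [Field F] [Algebra K F] [Field K'] [Field F'] [Algebra K' F']

/-- An additive map between `Pic⁰`'s, restricted to the `n`-torsion. -/
def torsionMapAdd (f : Pic0 K F →+ Pic0 K' F') (n : ℕ) :
    Pic0.torsion K F n →+ Pic0.torsion K' F' n :=
  (f.comp (Pic0.torsion K F n).subtype).codRestrict (Pic0.torsion K' F' n) fun x => by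
    have hx := Pic0.mem_torsion.mp x.property
    rw [Pic0.mem_torsion]
    show (n : ℤ) • f (x : Pic0 K F) = 0
    rw [← map_zsmul, hx, map_zero]

@[simp]
theorem coe_torsionMapAdd (f : Pic0 K F →+ Pic0 K' F') (n : ℕ) (x : Pic0.torsion K F n) :
    ((torsionMapAdd f n x : Pic0.torsion K' F' n) : Pic0 K' F') = f (x : Pic0 K F) := rfl

/-- An additive map between `Pic⁰`'s, restricted to the `n`-torsion, as a `ZMod n`-linear map. -/
def torsionMap (f : Pic0 K F →+ Pic0 K' F') (n : ℕ) :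
    Pic0.torsion K F n →ₗ[ZMod n] Pic0.torsion K' F' n :=
  (torsionMapAdd f n).toZModLinearMap n

@[simp]
theorem coe_torsionMap (f : Pic0 K F →+ Pic0 K' F') (n : ℕ) (x : Pic0.torsion K F n) :
    ((torsionMap f n x : Pic0.torsion K' F' n) : Pic0 K' F') = f (x : Pic0 K F) := rfl

theorem torsionMap_injective_of {f : Pic0 K F →+ Pic0 K' F'} {n : ℕ}
    (h : ∀ x : Pic0 K F, (n : ℤ) • x = 0 → f x = 0 → x = 0) :
    Function.Injective (torsionMap f n) := by
  rw [← LinearMap.ker_eq_bot, LinearMap.ker_eq_bot']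
  intro x hx
  apply Subtype.ext
  have h1 : f (x : Pic0 K F) = 0 := by
    have := congrArg (fun y : Pic0.torsion K' F' n => (y : Pic0 K' F')) hx
    simpa using this
  exact h _ (Pic0.mem_torsion.mp x.property) h1

end TorsionMap

section Modular

variable (N : ℕ) [NeZero N] (p : ℕ)

/-- The `p`-torsion of `J₀(N)(ℚ̄)`. -/
abbrev Tor : Type := Pic0.torsion Qb (modularFunctionFieldBar N) p

/-- The Hecke operator `T_ℓ` on the `p`-torsion of `J₀(N)(ℚ̄)`. -/
def heckeTor (ℓ : Nat.Primes) : Tor N p →ₗ[ZMod p] Tor N p :=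
  torsionMap (heckeOperatorBar N ℓ).toAddMonoidHom p

@[simp]
theorem coe_heckeTor (ℓ : Nat.Primes) (x : Tor N p) :
    ((heckeTor N p ℓ x : Tor N p) : JZero N) = heckeOperatorBar N ℓ (x : JZero N) := rfl

variable {N}

/-- **Interface of the pieces D1–D4**: a nonzero simultaneous eigenvector of the `T_ℓ`, `ℓ ∤ N p`,
in `k₀ ⊗ J₀(N)[p]` with eigenvalues `π (a_ℓ(g))`. -/
def HasEigenvector (g : CuspForm (CongruenceSubgroup.Gamma0 N) 2) (p : ℕ)
    (k₀ : Type) [Field k₀] [Algebra (ZMod p) k₀] (π : integralClosure ℤ ℂ →+* k₀) : Prop :=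
  ∃ v : k₀ ⊗[ZMod p] Tor N p, v ≠ 0 ∧
    ∀ (ℓ : ℕ) (hℓ : ℓ.Prime), ¬ ℓ ∣ N * p →
      ∀ a : integralClosure ℤ ℂ, (a : ℂ) = ModularFormClass.qCoeff g ℓ →
        (heckeTor N p ⟨ℓ, hℓ⟩).baseChange k₀ v = π a • v

end Modular

end Fermat.Agent.S29
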