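import Mathlib
import Fermat.Agent.S29.BCInst
import Fermat.Agent.S29.BCHeckeOp
import Fermat.Agent.S29.Defs

/-!
# Campaign 79, piece BC — final form: base change `J₀(N)[p] → Pic⁰(F_ℂ(N))[p]`

For a ring homomorphism `e : ℚ̄ →+* ℂ`:

* `bcJ_hecke` : `bcJ e N` commutes with the Hecke operators;
* `bcTor e N p : Tor N p →ₗ[ZMod p] Pic0.torsion ℂ (FC N) p`, `heckeTorC N p ℓ` (the Hecke operator
  on the complex torsion classes), `bcTor_hecke`;
* `bcTor_bijective_of_sp` : if `sp : Pic⁰(F_ℂ(N)) → J₀(N)` satisfies `sp ∘ bcJ = id` and is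
  injective on `p`-torsion, then `bcTor` is bijective (the form used by `D5`).
-/

set_option autoImplicit false
set_option linter.unusedSectionVars false
set_option linter.style.haveILetI false

open AlgebraicCurve ModularCurve Fermat.Agent.Lib.FF Fermat.Agent.Lib.ModCK Fermat.Agent.Lib.ModJ

noncomputable section

namespace Fermat.Agent.S29.BC

local notation "Qb" => AlgebraicClosure ℚ

variable (e : Qb →+* ℂ) (N : ℕ) [NeZero N]

/-- **BC2**: base change commutes with the Hecke operators. -/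
theorem bcJ_hecke (ℓ : Nat.Primes) (x : JZero N) :
    haveI : NeZero (ℓ : ℕ) := ⟨ℓ.2.ne_zero⟩
    bcJ e N (heckeOperatorBar N ℓ x) = heckeOperatorAlong ℂ N ℓ (bcJ e N x) := by
  haveI : NeZero (ℓ : ℕ) := ⟨ℓ.2.ne_zero⟩
  exact (heckeOperatorBar_bcPic0 e N ℓ (placeExt_bcPlace e N) (placeExt_bcPlace e (N * (ℓ : ℕ)))
    x).symm

variable (p : ℕ)

/-- the `p`-torsion of `Pic⁰(F_ℂ(N))` -/
abbrev TorC : Type := Pic0.torsion ℂ (FC N) p

/-- the Hecke operator on the `p`-torsion of `Pic⁰(F_ℂ(N))` -/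
def heckeTorC (ℓ : Nat.Primes) : TorC N p →ₗ[ZMod p] TorC N p :=
  haveI : NeZero (ℓ : ℕ) := ⟨ℓ.2.ne_zero⟩
  torsionMap (heckeOperatorAlong ℂ N ℓ) p

@[simp]
theorem coe_heckeTorC (ℓ : Nat.Primes) (y : TorC N p) :
    haveI : NeZero (ℓ : ℕ) := ⟨ℓ.2.ne_zero⟩
    ((heckeTorC N p ℓ y : TorC N p) : Pic0 ℂ (FC N)) = heckeOperatorAlong ℂ N ℓ (y : Pic0 ℂ (FC N)) :=
  rfl

/-- base change on `p`-torsion -/
def bcTor : Tor N p →ₗ[ZMod p] TorC N p := torsionMap (bcJ e N) p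

@[simp]
theorem coe_bcTor (x : Tor N p) :
    ((bcTor e N p x : TorC N p) : Pic0 ℂ (FC N)) = bcJ e N (x : JZero N) := rfl

/-- **BC2 on torsion** -/
theorem bcTor_hecke (ℓ : Nat.Primes) (x : Tor N p) :
    bcTor e N p (heckeTor N p ℓ x) = heckeTorC N p ℓ (bcTor e N p x) := by
  apply Subtype.ext
  rw [coe_bcTor, coe_heckeTor, coe_heckeTorC, coe_bcTor]
  exact bcJ_hecke e N ℓ x

/-- injectivity of the base change from a retraction -/
theorem bcTor_injective_of_sp (sp : Pic0 ℂ (FC N) →+ JZero N)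
    (h1 : ∀ x : JZero N, sp (bcJ e N x) = x) : Function.Injective (bcTor e N p) := by
  intro x y hxy
  apply Subtype.ext
  have := congrArg (fun z : TorC N p => sp (z : Pic0 ℂ (FC N))) hxy
  simpa [h1] using this

/-- **the base change is bijective on `p`-torsion**, given a specialisation map `sp` which is a
retraction of `bcJ` and injective on `p`-torsion. -/
theorem bcTor_bijective_of_sp (sp : Pic0 ℂ (FC N) →+ JZero N)
    (h1 : ∀ x : JZero N, sp (bcJ e N x) = x)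
    (h2 : ∀ y : Pic0 ℂ (FC N), (p : ℤ) • y = 0 → sp y = 0 → y = 0) :
    Function.Bijective (bcTor e N p) := by
  refine ⟨bcTor_injective_of_sp e N p sp h1, fun y => ?_⟩
  have hy : (p : ℤ) • (y : Pic0 ℂ (FC N)) = 0 := Pic0.mem_torsion.mp y.2
  have hsp : sp (y : Pic0 ℂ (FC N)) ∈ Pic0.torsion Qb (modularFunctionFieldBar N) p := by
    rw [Pic0.mem_torsion, ← map_zsmul, hy, map_zero]
  refine ⟨⟨sp (y : Pic0 ℂ (FC N)), hsp⟩, ?_⟩
  apply Subtype.ext
  rw [coe_bcTor]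
  show bcJ e N (sp (y : Pic0 ℂ (FC N))) = (y : Pic0 ℂ (FC N))
  have h3 : bcJ e N (sp (y : Pic0 ℂ (FC N))) - (y : Pic0 ℂ (FC N)) = 0 := by
    refine h2 _ ?_ ?_
    · rw [zsmul_sub, hy, sub_zero, ← map_zsmul, ← map_zsmul, hy, map_zero, map_zero]
    · rw [map_sub, h1, sub_self]
  exact sub_eq_zero.mp h3

end Fermat.Agent.S29.BC
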