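import Fermat.Agent.S29.DescMod
import Fermat.Agent.S29.BCFinal

/-!
# S29 (C79), piece D4 — final form: `J₀(N)[m] ≃ Pic⁰(F_ℂ(N))[m]`

For a ring homomorphism `e : ℚ̄ →+* ℂ`:

* `exists_sp_bcJ`: there is a specialisation `sp : Pic⁰(F_ℂ(N)) →+ J₀(N)` with `sp ∘ bcJ = id`,
  injective on torsion, with `bcJ (sp z) = z` for torsion `z`, and Hecke-equivariant on torsion;
* `bcJ_injective`, `exists_bcJ_eq`: `bcJ` is injective, and surjective on `m`-torsion;
* `bcTor_bijective`: `bcTor e N p : J₀(N)[p] → Pic⁰(F_ℂ(N))[p]` is bijective (`p ≠ 0`).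
-/

set_option autoImplicit false
set_option linter.unusedSectionVars false
set_option linter.unusedVariables false
set_option linter.style.haveILetI false
set_option synthInstance.maxHeartbeats 400000
set_option maxHeartbeats 1000000

open AlgebraicCurve ModularCurve Fermat.Agent.Lib.FF Fermat.Agent.Lib.ModCK Fermat.Agent.Lib.ModJ
  Fermat.Agent.S29.BC

noncomputable section

namespace Fermat.Agent.S29.D4

local notation "Qb" => AlgebraicClosure ℚ

variable (e : Qb →+* ℂ) (N : ℕ) [NeZero N]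

/-- the base change `J₀(N) → Pic⁰(F_ℂ(N))` is injective -/
theorem bcJ_injective : Function.Injective (bcJ e N) :=
  bcPic0_injective e (RingHom.id ℂ) (placeExt_bcPlace e N) (isFF1_jK e N) (isFF1_jFC N)

/-- every torsion class of `F_ℂ(N)` comes from a torsion class of `J₀(N)` -/
theorem exists_bcJ_eq (m : ℕ) (hm : m ≠ 0) (z : Pic0 ℂ (FC N)) (hz : m • z = 0) :
    ∃ y : JZero N, m • y = 0 ∧ bcJ e N y = z :=
  exists_bcPic0_eq e (RingHom.id ℂ) (placeExt_bcPlace e N) (isFF1_jK e N) (isFF1_jFC N) m hm z hz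

/-- **the specialisation map** `Pic⁰(F_ℂ(N)) → J₀(N)`: a retraction of the base change, injective
on torsion, inverse to the base change on torsion, and Hecke-equivariant on torsion. -/
theorem exists_sp_bcJ :
    ∃ sp : Pic0 ℂ (FC N) →+ JZero N,
      (∀ x : JZero N, sp (bcJ e N x) = x) ∧
      (∀ (m : ℕ), m ≠ 0 → ∀ z : Pic0 ℂ (FC N), m • z = 0 → sp z = 0 → z = 0) ∧
      (∀ (m : ℕ), m ≠ 0 → ∀ z : Pic0 ℂ (FC N), m • z = 0 → bcJ e N (sp z) = z) ∧
      ∀ (m : ℕ), m ≠ 0 → ∀ z : Pic0 ℂ (FC N), m • z = 0 → ∀ ℓ : Nat.Primes,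
        haveI : NeZero (ℓ : ℕ) := ⟨ℓ.2.ne_zero⟩
        sp (heckeOperatorAlong ℂ N ℓ z) = heckeOperatorBar N ℓ (sp z) := by
  obtain ⟨sp, h1, h2⟩ := exists_sp_bcPic0 e (RingHom.id ℂ) (placeExt_bcPlace e N)
    (isFF1_jK e N) (isFF1_jFC N)
  have h2' : ∀ x : JZero N, sp (bcJ e N x) = x := h2
  have h3 : ∀ (m : ℕ), m ≠ 0 → ∀ z : Pic0 ℂ (FC N), m • z = 0 → bcJ e N (sp z) = z := by
    intro m hm z hz
    obtain ⟨y, -, rfl⟩ := exists_bcJ_eq e N m hm z hz
    rw [h2']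
  refine ⟨sp, h2', h1, h3, fun m hm z hz ℓ => ?_⟩
  haveI : NeZero (ℓ : ℕ) := ⟨ℓ.2.ne_zero⟩
  obtain ⟨y, -, rfl⟩ := exists_bcJ_eq e N m hm z hz
  rw [h2', ← bcJ_hecke e N ℓ y, h2']

/-- **the base change is bijective on `p`-torsion** -/
theorem bcTor_bijective (p : ℕ) (hp : p ≠ 0) : Function.Bijective (bcTor e N p) := by
  obtain ⟨sp, h1, h2, -, -⟩ := exists_sp_bcJ e N
  refine bcTor_bijective_of_sp e N p sp h1 fun y hy hsp => h2 p hp y ?_ hsp
  exact_mod_cast hy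

end Fermat.Agent.S29.D4
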