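import Mathlib
import Fermat.Agent.S29.Defs

/-!
# S29 / S42 (campaign 79), piece D5: transport of an eigenvector

Abstract glue: an injective Hecke equivariant map `j : H → J₀(N)[p]` from a `ZMod p`-module `H`
with Hecke operators transports a nonzero eigenvector of `k₀ ⊗ H` to a nonzero eigenvector of
`k₀ ⊗ J₀(N)[p]`; and such a `j` is obtained from an injective equivariant `Θ : H → X` and a
bijective equivariant `bc : J₀(N)[p] → X`.
-/

set_option autoImplicit false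
set_option linter.unusedSectionVars false
set_option linter.style.haveILetI false

noncomputable section

namespace Fermat.Agent.S29.D5

open TensorProduct

section Abstract

variable {R : Type*} [Field R] {k₀ : Type*} [Field k₀] [Algebra R k₀]
variable {H X Y : Type*} [AddCommGroup H] [Module R H] [AddCommGroup X] [Module R X]
  [AddCommGroup Y] [Module R Y]

/-- base change along a field extension preserves injectivity -/
theorem baseChange_injective (j : H →ₗ[R] X) (hj : Function.Injective j) :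
    Function.Injective (j.baseChange k₀) :=
  Module.Flat.lTensor_preserves_injective_linearMap (M := k₀) j hj

/-- base change of an eigenvector relation -/
theorem baseChange_eigen (j : H →ₗ[R] X) (TH : H →ₗ[R] H) (TX : X →ₗ[R] X)
    (hjT : ∀ x, j (TH x) = TX (j x)) (c : k₀ ⊗[R] H) (a : k₀)
    (hc : TH.baseChange k₀ c = a • c) :
    TX.baseChange k₀ (j.baseChange k₀ c) = a • j.baseChange k₀ c := by
  have h1 : TX.baseChange k₀ ∘ₗ j.baseChange k₀ = j.baseChange k₀ ∘ₗ TH.baseChange k₀ := by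
    rw [← LinearMap.baseChange_comp, ← LinearMap.baseChange_comp]
    congr 1
    ext x
    exact (hjT x).symm
  have h2 := LinearMap.congr_fun h1 c
  rw [LinearMap.comp_apply, LinearMap.comp_apply] at h2
  rw [h2, hc, map_smul]

/-- an injective equivariant map into the source of a bijective equivariant map factors -/
theorem exists_factor (Θ : H →ₗ[R] X) (hΘ : Function.Injective Θ)
    (bc : Y →ₗ[R] X) (hbc : Function.Bijective bc) :
    ∃ j : H →ₗ[R] Y, Function.Injective j ∧ ∀ x, bc (j x) = Θ x := by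
  let e : Y ≃ₗ[R] X := LinearEquiv.ofBijective bc hbc
  refine ⟨(e.symm : X →ₗ[R] Y) ∘ₗ Θ, e.symm.injective.comp hΘ, fun x => ?_⟩
  show e (e.symm (Θ x)) = Θ x
  exact e.apply_symm_apply _

theorem factor_equivariant (Θ : H →ₗ[R] X) (bc : Y →ₗ[R] X) (hbc : Function.Injective bc)
    (j : H →ₗ[R] Y) (hj : ∀ x, bc (j x) = Θ x)
    (TH : H →ₗ[R] H) (TX : X →ₗ[R] X) (TY : Y →ₗ[R] Y)
    (hΘT : ∀ x, Θ (TH x) = TX (Θ x)) (hbcT : ∀ y, bc (TY y) = TX (bc y)) (x : H) :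
    j (TH x) = TY (j x) := by
  apply hbc
  rw [hj, hΘT, hbcT, hj]

end Abstract

section Modular

variable {N : ℕ} [NeZero N] {p : ℕ} [Fact p.Prime]

/-- **D5, abstract form.** -/
theorem hasEigenvector_of_transport (g : CuspForm (CongruenceSubgroup.Gamma0 N) 2)
    {k₀ : Type} [Field k₀] [Algebra (ZMod p) k₀] (π : integralClosure ℤ ℂ →+* k₀)
    {H : Type*} [AddCommGroup H] [Module (ZMod p) H]
    (TH : ∀ ℓ : ℕ, ℓ.Prime → H →ₗ[ZMod p] H)
    (j : H →ₗ[ZMod p] Tor N p) (hj : Function.Injective j)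
    (hjT : ∀ (ℓ : ℕ) (hℓ : ℓ.Prime), ¬ ℓ ∣ N * p →
      ∀ x, j (TH ℓ hℓ x) = heckeTor N p ⟨ℓ, hℓ⟩ (j x))
    (c : k₀ ⊗[ZMod p] H) (hc : c ≠ 0)
    (hceig : ∀ (ℓ : ℕ) (hℓ : ℓ.Prime), ¬ ℓ ∣ N * p →
      ∀ a : integralClosure ℤ ℂ, (a : ℂ) = ModularFormClass.qCoeff g ℓ →
        (TH ℓ hℓ).baseChange k₀ c = π a • c) :
    HasEigenvector g p k₀ π := by
  refine ⟨j.baseChange k₀ c, fun h0 => hc ?_, fun ℓ hℓ hℓN a ha => ?_⟩
  · apply baseChange_injective (k₀ := k₀) j hj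
    rw [h0, map_zero]
  · exact baseChange_eigen j (TH ℓ hℓ) (heckeTor N p ⟨ℓ, hℓ⟩) (hjT ℓ hℓ hℓN) c (π a)
      (hceig ℓ hℓ hℓN a ha)

/-- **D5, abstract form with `Θ` and `bc`.** -/
theorem hasEigenvector_of_theta_bc (g : CuspForm (CongruenceSubgroup.Gamma0 N) 2)
    {k₀ : Type} [Field k₀] [Algebra (ZMod p) k₀] (π : integralClosure ℤ ℂ →+* k₀)
    {H X : Type*} [AddCommGroup H] [Module (ZMod p) H] [AddCommGroup X] [Module (ZMod p) X]
    (TH : ∀ ℓ : ℕ, ℓ.Prime → H →ₗ[ZMod p] H) (TX : ∀ ℓ : ℕ, ℓ.Prime → X →ₗ[ZMod p] X)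
    (Θ : H →ₗ[ZMod p] X) (hΘ : Function.Injective Θ)
    (hΘT : ∀ (ℓ : ℕ) (hℓ : ℓ.Prime), ¬ ℓ ∣ N * p → ∀ x, Θ (TH ℓ hℓ x) = TX ℓ hℓ (Θ x))
    (bc : Tor N p →ₗ[ZMod p] X) (hbc : Function.Bijective bc)
    (hbcT : ∀ (ℓ : ℕ) (hℓ : ℓ.Prime), ¬ ℓ ∣ N * p →
      ∀ y, bc (heckeTor N p ⟨ℓ, hℓ⟩ y) = TX ℓ hℓ (bc y))
    (c : k₀ ⊗[ZMod p] H) (hc : c ≠ 0)
    (hceig : ∀ (ℓ : ℕ) (hℓ : ℓ.Prime), ¬ ℓ ∣ N * p →
      ∀ a : integralClosure ℤ ℂ, (a : ℂ) = ModularFormClass.qCoeff g ℓ →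
        (TH ℓ hℓ).baseChange k₀ c = π a • c) :
    HasEigenvector g p k₀ π := by
  obtain ⟨j, hj, hjΘ⟩ := exists_factor Θ hΘ bc hbc
  exact hasEigenvector_of_transport g π TH j hj
    (fun ℓ hℓ hℓN x => factor_equivariant Θ bc hbc.1 j hjΘ (TH ℓ hℓ) (TX ℓ hℓ)
      (heckeTor N p ⟨ℓ, hℓ⟩) (hΘT ℓ hℓ hℓN) (hbcT ℓ hℓ hℓN) x)
    c hc hceig

end Modular

end Fermat.Agent.S29.D5
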