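import Mathlib
import Fermat.Prelude.Thm_ModularForm_heckeT_slash_eq_self_of_mem_Gamma0
import Fermat.Prelude.Def_ModularCurve_PeriodMap

/-!
# S29, piece D1, part 1: the Hecke operator `T_ℓ` on `Hom(Γ₀(N), A)`

For a prime `ℓ ∤ N`, the coset representatives `α_x = heckeRep ℓ x` (`x ∈ ℙ¹(𝔽_ℓ)`) of the prelude
satisfy `α_x γ = κ(γ, x) α_{γ·x}` with `κ(γ, x) ∈ Γ₀(N)`. The Hecke operator on homomorphisms is
`(T_ℓ c)(γ) = ∑_x c(κ(γ, x))`.
-/

set_option autoImplicit false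
set_option linter.unusedSectionVars false
set_option linter.unusedVariables false

noncomputable section

open Matrix.SpecialLinearGroup CongruenceSubgroup
open scoped MatrixGroups
open P2MW.S_ModularForm_heckeT_slash_eq_self_of_mem_Gamma0.ModularForm.HeckeSlashInvariance

namespace Fermat.Agent.S29.D1

variable {N : ℕ} {ℓ : ℕ} [Fact ℓ.Prime]

/-! ### the permutation of the cosets -/

theorem redMatrix_mul' (g h : SL(2, ℤ)) :
    redMatrix ℓ (g * h) = redMatrix ℓ h * redMatrix ℓ g := by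
  apply Matrix.GeneralLinearGroup.ext
  intro i j
  rw [Matrix.GeneralLinearGroup.coe_mul, Matrix.mul_apply, Fin.sum_univ_two]
  fin_cases i <;> fin_cases j <;>
    simp [redMatrix, Matrix.mul_apply, Fin.sum_univ_two] <;> ring

theorem redMatrix_one' : redMatrix ℓ (1 : SL(2, ℤ)) = 1 := by
  apply Matrix.GeneralLinearGroup.ext
  intro i j
  fin_cases i <;> fin_cases j <;> simp [redMatrix]

/-- the permutation of `ℙ¹(𝔽_ℓ)` induced by right multiplication by `g` on the cosets -/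
def perm (g : SL(2, ℤ)) (x : OnePoint (ZMod ℓ)) : OnePoint (ZMod ℓ) := redMatrix ℓ g • x

theorem perm_mul (g h : SL(2, ℤ)) (x : OnePoint (ZMod ℓ)) :
    perm (g * h) x = perm h (perm g x) := by
  rw [perm, perm, perm, redMatrix_mul', mul_smul]

@[simp] theorem perm_one (x : OnePoint (ZMod ℓ)) : perm (1 : SL(2, ℤ)) x = x := by
  rw [perm, redMatrix_one', one_smul]

/-- `perm g` as an equivalence -/
def permEquiv (g : SL(2, ℤ)) : Equiv.Perm (OnePoint (ZMod ℓ)) :=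
  MulAction.toPerm (redMatrix ℓ g)

@[simp] theorem permEquiv_apply (g : SL(2, ℤ)) (x : OnePoint (ZMod ℓ)) :
    permEquiv g x = perm g x := rfl

theorem perm_pow (g : SL(2, ℤ)) (m : ℕ) (x : OnePoint (ZMod ℓ)) :
    perm (g ^ m) x = (perm g)^[m] x := by
  induction m generalizing x with
  | zero => simp
  | succ m ih =>
    rw [pow_succ', perm_mul, ih, Function.iterate_succ_apply]

/-! ### the cocycle -/

theorem dvd_of_mem_Gamma0 {g : SL(2, ℤ)} (hg : g ∈ Gamma0 N) : (N : ℤ) ∣ g 1 0 :=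
  (ZMod.intCast_zmod_eq_zero_iff_dvd _ _).mp (Gamma0_mem.mp hg)

theorem mem_Gamma0_of_dvd' {g : SL(2, ℤ)} (hg : (N : ℤ) ∣ g 1 0) : g ∈ Gamma0 N :=
  Gamma0_mem.mpr ((ZMod.intCast_zmod_eq_zero_iff_dvd _ _).mpr hg)

/-- the cocycle `κ(γ, x) ∈ Γ₀(N)` with `α_x γ = κ(γ, x) α_{γ·x}` -/
def kap (hℓN : ¬ ℓ ∣ N) (γ : Gamma0 N) (x : OnePoint (ZMod ℓ)) : Gamma0 N :=
  ⟨(heckeRep_mul hℓN (γ : SL(2, ℤ)) (dvd_of_mem_Gamma0 γ.2) x).choose,
    mem_Gamma0_of_dvd' (heckeRep_mul hℓN (γ : SL(2, ℤ)) (dvd_of_mem_Gamma0 γ.2) x).choose_spec.1⟩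

theorem kap_spec (hℓN : ¬ ℓ ∣ N) (γ : Gamma0 N) (x : OnePoint (ZMod ℓ)) :
    heckeRep ℓ x * mapGL ℝ (γ : SL(2, ℤ))
      = mapGL ℝ ((kap hℓN γ x : Gamma0 N) : SL(2, ℤ)) * heckeRep ℓ (perm (γ : SL(2, ℤ)) x) :=
  (heckeRep_mul hℓN (γ : SL(2, ℤ)) (dvd_of_mem_Gamma0 γ.2) x).choose_spec.2

theorem kap_unique (hℓN : ¬ ℓ ∣ N) (γ : Gamma0 N) (x : OnePoint (ZMod ℓ)) {g' : SL(2, ℤ)}
    (h : heckeRep ℓ x * mapGL ℝ (γ : SL(2, ℤ))
      = mapGL ℝ g' * heckeRep ℓ (perm (γ : SL(2, ℤ)) x)) :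
    g' = ((kap hℓN γ x : Gamma0 N) : SL(2, ℤ)) := by
  have h1 := kap_spec hℓN γ x
  rw [h] at h1
  exact mapGL_injective (mul_right_cancel h1)

theorem kap_mul (hℓN : ¬ ℓ ∣ N) (γ δ : Gamma0 N) (x : OnePoint (ZMod ℓ)) :
    kap hℓN (γ * δ) x = kap hℓN γ x * kap hℓN δ (perm (γ : SL(2, ℤ)) x) := by
  apply Subtype.ext
  symm
  apply kap_unique
  rw [Subgroup.coe_mul, Subgroup.coe_mul, map_mul, map_mul, ← mul_assoc, kap_spec hℓN γ x,
    mul_assoc, kap_spec hℓN δ, perm_mul, mul_assoc]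

@[simp] theorem kap_one (hℓN : ¬ ℓ ∣ N) (x : OnePoint (ZMod ℓ)) :
    kap hℓN (1 : Gamma0 N) x = 1 := by
  apply Subtype.ext
  symm
  apply kap_unique
  rw [Subgroup.coe_one, map_one, mul_one, one_mul, perm_one]

theorem kap_pow_succ (hℓN : ¬ ℓ ∣ N) (γ : Gamma0 N) (m : ℕ) (x : OnePoint (ZMod ℓ)) :
    kap hℓN (γ ^ (m + 1)) x
      = kap hℓN (γ ^ m) x * kap hℓN γ ((perm (γ : SL(2, ℤ)))^[m] x) := by
  rw [pow_succ, kap_mul, Subgroup.coe_pow, perm_pow]

/-! ### the Hecke operator on homomorphisms -/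

variable (A : Type*) [AddCommGroup A]

/-- the value of `T_ℓ c` at `γ` -/
def heckeVal (hℓN : ¬ ℓ ∣ N) (c : Additive (Gamma0 N) →+ A) (γ : Gamma0 N) : A :=
  ∑ x : OnePoint (ZMod ℓ), c (Additive.ofMul (kap hℓN γ x))

theorem heckeVal_mul (hℓN : ¬ ℓ ∣ N) (c : Additive (Gamma0 N) →+ A) (γ δ : Gamma0 N) :
    heckeVal A hℓN c (γ * δ) = heckeVal A hℓN c γ + heckeVal A hℓN c δ := by
  unfold heckeVal
  have h1 : ∀ x : OnePoint (ZMod ℓ), c (Additive.ofMul (kap hℓN (γ * δ) x))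
      = c (Additive.ofMul (kap hℓN γ x))
        + c (Additive.ofMul (kap hℓN δ (perm (γ : SL(2, ℤ)) x))) := by
    intro x
    rw [kap_mul, ofMul_mul, map_add]
  rw [Finset.sum_congr rfl (fun x _ => h1 x), Finset.sum_add_distrib]
  congr 1
  exact Equiv.sum_comp (permEquiv (γ : SL(2, ℤ)))
    (fun x => c (Additive.ofMul (kap hℓN δ x)))

/-- **the Hecke operator `T_ℓ` on `Hom(Γ₀(N), A)`**, `ℓ ∤ N` prime -/
def heckeHom (hℓN : ¬ ℓ ∣ N) :
    (Additive (Gamma0 N) →+ A) →+ (Additive (Gamma0 N) →+ A) where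
  toFun c :=
    { toFun := fun γ => heckeVal A hℓN c (Additive.toMul γ)
      map_zero' := by
        show heckeVal A hℓN c 1 = 0
        unfold heckeVal
        simp
      map_add' := fun γ δ => heckeVal_mul A hℓN c (Additive.toMul γ) (Additive.toMul δ) }
  map_zero' := by
    refine AddMonoidHom.ext fun γ => ?_
    show heckeVal A hℓN 0 (Additive.toMul γ) = 0
    unfold heckeVal
    simp
  map_add' c c' := by
    refine AddMonoidHom.ext fun γ => ?_
    show heckeVal A hℓN (c + c') (Additive.toMul γ)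
      = heckeVal A hℓN c (Additive.toMul γ) + heckeVal A hℓN c' (Additive.toMul γ)
    unfold heckeVal
    simp [Finset.sum_add_distrib]

theorem heckeHom_apply (hℓN : ¬ ℓ ∣ N) (c : Additive (Gamma0 N) →+ A) (γ : Gamma0 N) :
    heckeHom A hℓN c (Additive.ofMul γ)
      = ∑ x : OnePoint (ZMod ℓ), c (Additive.ofMul (kap hℓN γ x)) := rfl

variable {A}

/-- functoriality in the coefficient group -/
theorem heckeHom_comp {B : Type*} [AddCommGroup B] (hℓN : ¬ ℓ ∣ N) (τ : A →+ B)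
    (c : Additive (Gamma0 N) →+ A) :
    heckeHom B hℓN (τ.comp c) = τ.comp (heckeHom A hℓN c) := by
  refine AddMonoidHom.ext fun γ => ?_
  show heckeVal B hℓN (τ.comp c) (Additive.toMul γ) = τ (heckeVal A hℓN c (Additive.toMul γ))
  unfold heckeVal
  rw [map_sum]
  rfl

/-- `T_ℓ` commutes with scalars -/
theorem heckeHom_smul {R : Type*} [Ring R] [Module R A] (hℓN : ¬ ℓ ∣ N) (r : R)
    (c : Additive (Gamma0 N) →+ A) :
    heckeHom A hℓN (r • c) = r • heckeHom A hℓN c := by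
  refine AddMonoidHom.ext fun γ => ?_
  show heckeVal A hℓN (r • c) (Additive.toMul γ) = r • heckeVal A hℓN c (Additive.toMul γ)
  unfold heckeVal
  rw [Finset.smul_sum]
  rfl

/-! ### parabolic homomorphisms -/

section Parabolic

open ModularCurve.Period

/-- powers of an integral `2 × 2` matrix of determinant one and trace `2ε`, `ε² = 1` -/
theorem pow_succ_of_trace (M : Matrix (Fin 2) (Fin 2) ℤ) (hdet : M.det = 1) (ε : ℤ)
    (hε : ε ^ 2 = 1) (htr : M.trace = 2 * ε) (m : ℕ) :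
    M ^ (m + 1) = (((m : ℤ) + 1) * ε ^ m) • M - ((m : ℤ) * ε ^ (m + 1)) • (1 : Matrix (Fin 2) (Fin 2) ℤ) := by
  have hCH : M ^ 2 = ((2 * ε : ℤ)) • M - (1 : Matrix (Fin 2) (Fin 2) ℤ) := by
    rw [Matrix.trace_fin_two] at htr
    rw [Matrix.det_fin_two] at hdet
    ext i j
    fin_cases i <;> fin_cases j <;>
      simp only [pow_two, Matrix.mul_apply, Fin.sum_univ_two, Matrix.sub_apply,
        Matrix.smul_apply, smul_eq_mul, Matrix.one_apply, Fin.zero_eta, Fin.mk_one,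
        Fin.isValue, if_true, if_false, one_ne_zero, zero_ne_one]
    · linear_combination (M 0 0) * htr - hdet
    · linear_combination (M 0 1) * htr
    · linear_combination (M 1 0) * htr
    · linear_combination (M 1 1) * htr - hdet
  induction m with
  | zero => simp
  | succ m ih =>
    rw [pow_succ, ih, sub_mul, smul_mul_assoc, smul_mul_assoc, one_mul, ← pow_two, hCH, smul_sub,
      smul_smul]
    ext i j
    simp only [Matrix.sub_apply, Matrix.smul_apply, smul_eq_mul, Matrix.one_apply]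
    push_cast
    have h2 : ε ^ (m + 1 + 1) = ε ^ m := by rw [pow_add, pow_add, pow_one, mul_assoc, ← pow_two, hε, mul_one]
    rw [h2]
    ring

theorem exists_eps_of_trace_sq (t : ℤ) (ht : t ^ 2 = 4) : ∃ ε : ℤ, ε ^ 2 = 1 ∧ t = 2 * ε := by
  have h : (t - 2) * (t + 2) = 0 := by ring_nf; linarith
  rcases mul_eq_zero.mp h with h | h
  · exact ⟨1, by norm_num, by linarith⟩
  · exact ⟨-1, by norm_num, by linarith⟩

/-- a matrix which is scalar acts trivially on the projective line -/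
theorem smul_eq_self_of_scalar {K : Type*} [Field K] [DecidableEq K] (G : GL (Fin 2) K)
    (h10 : G 1 0 = 0) (h01 : G 0 1 = 0) (h : G 0 0 = G 1 1) (x : OnePoint K) : G • x = x := by
  have hne : G 1 1 ≠ 0 := by
    intro h0
    have hdet := G.det_ne_zero
    rw [Matrix.det_fin_two, h10, h0] at hdet
    simp at hdet
  induction x using OnePoint.rec with
  | infty => rw [OnePoint.smul_infty_eq_ite, if_pos h10]
  | coe k =>
    rw [OnePoint.smul_some_eq_ite, h10, h01, h, zero_mul, zero_add, add_zero, if_neg hne,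
      mul_div_cancel_left₀ _ hne]

theorem coe_pow_SL (g : SL(2, ℤ)) (m : ℕ) :
    ((g ^ m : SL(2, ℤ)) : Matrix (Fin 2) (Fin 2) ℤ) = (g : Matrix (Fin 2) (Fin 2) ℤ) ^ m :=
  Matrix.SpecialLinearGroup.coe_pow g m

/-- the `ℓ`-th power of a parabolic element acts trivially on `ℙ¹(𝔽_ℓ)` -/
theorem perm_pow_of_trace_sq (g : SL(2, ℤ))
    (htr : (g : Matrix (Fin 2) (Fin 2) ℤ).trace ^ 2 = 4) (x : OnePoint (ZMod ℓ)) :
    perm (g ^ ℓ) x = x := by
  obtain ⟨ε, hε, ht⟩ := exists_eps_of_trace_sq _ htr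
  have hℓ : ℓ ≠ 0 := (Fact.out : ℓ.Prime).ne_zero
  obtain ⟨m, rfl⟩ := Nat.exists_eq_succ_of_ne_zero hℓ
  have hpow := pow_succ_of_trace (g : Matrix (Fin 2) (Fin 2) ℤ) g.det_coe ε hε ht m
  have hent : ∀ i j : Fin 2, (((g ^ (m + 1) : SL(2, ℤ)) i j : ℤ) : ZMod (m + 1))
      = if i = j then (ε : ZMod (m + 1)) ^ (m + 1) else 0 := by
    intro i j
    have : ((g ^ (m + 1) : SL(2, ℤ)) : Matrix (Fin 2) (Fin 2) ℤ) i j
        = ((m : ℤ) + 1) * ε ^ m * (g : Matrix (Fin 2) (Fin 2) ℤ) i j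
          - (m : ℤ) * ε ^ (m + 1) * (if i = j then 1 else 0) := by
      rw [coe_pow_SL, hpow]
      simp only [Matrix.sub_apply, Matrix.smul_apply, smul_eq_mul, Matrix.one_apply]
    rw [this]
    push_cast
    have h0 : ((m : ZMod (m + 1)) + 1) = 0 := by
      have := ZMod.natCast_self (m + 1)
      push_cast at this
      exact this
    have h1 : (m : ZMod (m + 1)) = -1 := by linear_combination h0
    rw [h0, h1]
    split_ifs <;> ring
  unfold perm
  apply smul_eq_self_of_scalar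
  · rw [redMatrix_apply_one_zero, hent]; simp
  · rw [redMatrix_apply_zero_one, hent]; simp
  · rw [redMatrix_apply_zero_zero, redMatrix_apply_one_one, hent, hent]; simp

theorem trace_pow_sq_of_trace_sq (g : SL(2, ℤ))
    (htr : (g : Matrix (Fin 2) (Fin 2) ℤ).trace ^ 2 = 4) (m : ℕ) :
    ((g ^ m : SL(2, ℤ)) : Matrix (Fin 2) (Fin 2) ℤ).trace ^ 2 = 4 := by
  obtain ⟨ε, hε, ht⟩ := exists_eps_of_trace_sq _ htr
  rcases m with _ | m
  · simp
  have hpow := pow_succ_of_trace (g : Matrix (Fin 2) (Fin 2) ℤ) g.det_coe ε hε ht m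
  rw [coe_pow_SL, hpow, Matrix.trace_sub, Matrix.trace_smul, Matrix.trace_smul, ht,
    Matrix.trace_fin_two]
  simp only [smul_eq_mul, Matrix.one_apply_eq]
  have h2 : (ε ^ (m + 1)) ^ 2 = 1 := by rw [← pow_mul, mul_comm, pow_mul, hε, one_pow]
  have h3 : ε ^ m * ε = ε ^ (m + 1) := (pow_succ ε m).symm
  have : ((m : ℤ) + 1) * ε ^ m * (2 * ε) - (m : ℤ) * ε ^ (m + 1) * (1 + 1) = 2 * ε ^ (m + 1) := by
    rw [← h3]; ring
  rw [this]
  linear_combination 4 * h2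

/-- if `γ` fixes the coset `x`, then `κ(γ, x)` is conjugate to `γ` -/
theorem trace_kap_of_perm_eq (hℓN : ¬ ℓ ∣ N) (γ : Gamma0 N) (x : OnePoint (ZMod ℓ))
    (hx : perm (γ : SL(2, ℤ)) x = x) :
    (((kap hℓN γ x : Gamma0 N) : SL(2, ℤ)) : Matrix (Fin 2) (Fin 2) ℤ).trace
      = ((γ : SL(2, ℤ)) : Matrix (Fin 2) (Fin 2) ℤ).trace := by
  have h := kap_spec hℓN γ x
  rw [hx] at h
  have h1 : mapGL ℝ ((kap hℓN γ x : Gamma0 N) : SL(2, ℤ))
      = heckeRep ℓ x * mapGL ℝ (γ : SL(2, ℤ)) * (heckeRep ℓ x)⁻¹ := by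
    rw [h, mul_assoc, mul_inv_cancel, mul_one]
  have h2 : ((mapGL ℝ ((kap hℓN γ x : Gamma0 N) : SL(2, ℤ)) : GL (Fin 2) ℝ)
      : Matrix (Fin 2) (Fin 2) ℝ).trace
      = ((mapGL ℝ (γ : SL(2, ℤ)) : GL (Fin 2) ℝ) : Matrix (Fin 2) (Fin 2) ℝ).trace := by
    rw [h1, Matrix.GeneralLinearGroup.coe_mul, Matrix.GeneralLinearGroup.coe_mul,
      Matrix.trace_mul_cycle, ← Matrix.GeneralLinearGroup.coe_mul, inv_mul_cancel,
      Matrix.GeneralLinearGroup.coe_one, one_mul]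
  rw [Matrix.trace_fin_two, Matrix.trace_fin_two] at h2
  rw [Matrix.trace_fin_two, Matrix.trace_fin_two]
  have e : ∀ (g : SL(2, ℤ)) (i j : Fin 2),
      ((mapGL ℝ g : GL (Fin 2) ℝ) : Matrix (Fin 2) (Fin 2) ℝ) i j = ((g i j : ℤ) : ℝ) := by
    intro g i j
    simp
  rw [e, e, e, e] at h2
  exact_mod_cast h2

theorem sum_range_kap (hℓN : ¬ ℓ ∣ N) {A : Type*} [AddCommGroup A]
    (c : Additive (Gamma0 N) →+ A) (γ : Gamma0 N) (m : ℕ) (x : OnePoint (ZMod ℓ)) :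
    ∑ i ∈ Finset.range m, c (Additive.ofMul (kap hℓN γ ((perm (γ : SL(2, ℤ)))^[i] x)))
      = c (Additive.ofMul (kap hℓN (γ ^ m) x)) := by
  induction m with
  | zero => simp
  | succ m ih =>
    rw [Finset.sum_range_succ, ih, kap_pow_succ, ofMul_mul, map_add]

/-- **`T_ℓ` preserves parabolic homomorphisms** (coefficients without `ℓ`-torsion) -/
theorem heckeHom_isParabolicHom (hℓN : ¬ ℓ ∣ N) {A : Type*} [AddCommGroup A]
    (hA : ∀ a : A, ℓ • a = 0 → a = 0)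
    {c : Additive (Gamma0 N) →+ A} (hc : IsParabolicHom (Gamma0 N) c) :
    IsParabolicHom (Gamma0 N) (heckeHom A hℓN c) := by
  intro γ hγ
  apply hA
  rw [heckeHom_apply]
  have h1 : ∀ x : OnePoint (ZMod ℓ),
      ∑ i ∈ Finset.range ℓ, c (Additive.ofMul (kap hℓN γ ((perm (γ : SL(2, ℤ)))^[i] x))) = 0 := by
    intro x
    rw [sum_range_kap]
    apply hc
    rw [trace_kap_of_perm_eq hℓN (γ ^ ℓ) x
      (by rw [Subgroup.coe_pow]; exact perm_pow_of_trace_sq _ hγ x), Subgroup.coe_pow]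
    exact trace_pow_sq_of_trace_sq _ hγ ℓ
  have h2 : ∑ x : OnePoint (ZMod ℓ),
      ∑ i ∈ Finset.range ℓ, c (Additive.ofMul (kap hℓN γ ((perm (γ : SL(2, ℤ)))^[i] x))) = 0 :=
    Finset.sum_eq_zero fun x _ => h1 x
  rw [Finset.sum_comm] at h2
  have h3 : ∀ i ∈ Finset.range ℓ, ∑ x : OnePoint (ZMod ℓ),
      c (Additive.ofMul (kap hℓN γ ((perm (γ : SL(2, ℤ)))^[i] x)))
      = ∑ x : OnePoint (ZMod ℓ), c (Additive.ofMul (kap hℓN γ x)) := by
    intro i _
    have := Equiv.sum_comp ((permEquiv (γ : SL(2, ℤ))) ^ i)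
      (fun x => c (Additive.ofMul (kap hℓN γ x)))
    rw [← this]
    refine Finset.sum_congr rfl fun x _ => ?_
    rw [Equiv.Perm.coe_pow]
    rfl
  rw [Finset.sum_congr rfl h3, Finset.sum_const, Finset.card_range] at h2
  exact h2

/-- `T_ℓ` on parabolic homomorphisms with coefficients in an `R`-module without `ℓ`-torsion -/
def heckePar (hℓN : ¬ ℓ ∣ N) (R : Type*) [Ring R] (A : Type*) [AddCommGroup A] [Module R A]
    (hA : ∀ a : A, ℓ • a = 0 → a = 0) :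
    parabolicHoms R (Gamma0 N) A →ₗ[R] parabolicHoms R (Gamma0 N) A where
  toFun c := ⟨heckeHom A hℓN c.1, heckeHom_isParabolicHom hℓN hA c.2⟩
  map_add' c c' := Subtype.ext (map_add (heckeHom A hℓN) c.1 c'.1)
  map_smul' r c := Subtype.ext (heckeHom_smul hℓN r c.1)

@[simp] theorem coe_heckePar (hℓN : ¬ ℓ ∣ N) (R : Type*) [Ring R] (A : Type*) [AddCommGroup A]
    [Module R A] (hA : ∀ a : A, ℓ • a = 0 → a = 0) (c : parabolicHoms R (Gamma0 N) A) :
    ((heckePar hℓN R A hA c : parabolicHoms R (Gamma0 N) A) : Additive (Gamma0 N) →+ A)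
      = heckeHom A hℓN c.1 := rfl

end Parabolic

end Fermat.Agent.S29.D1
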