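import Mathlib
import Fermat.Agent.S21.Injective
import Fermat.Agent.S21.Parabolic
import Fermat.Agent.S22.Hecke
import Fermat.Agent.S49.QCoeff
import Fermat.Agent.S29.ParHecke

/-!
# S29, piece D1, part 2: the period map is Hecke equivariant

`periodMap N (T_ℓ f) = heckeHom ℂ (periodMap N f)`, and a normalised eigenform is an eigenvector
of `T_ℓ`; hence its period homomorphism is a nonzero parabolic eigen-homomorphism.
-/

set_option autoImplicit false
set_option linter.unusedSectionVars false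
set_option linter.unusedVariables false
set_option linter.style.haveILetI false

noncomputable section

open Matrix.SpecialLinearGroup CongruenceSubgroup UpperHalfPlane
open scoped MatrixGroups
open P2MW.S_ModularForm_heckeT_slash_eq_self_of_mem_Gamma0.ModularForm.HeckeSlashInvariance
open Fermat.Agent.S21 Fermat.Agent.S22 ModularCurve ModularCurve.Period

namespace Fermat.Agent.S29.D1

variable {N : ℕ} [NeZero N] {ℓ : ℕ} [Fact ℓ.Prime]

/-- the sum of the `ℓ + 1` translates of the normalized primitive -/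
def primT (ℓ : ℕ) (f : CuspForm (Gamma0 N) 2) : ℂ → ℂ := fun z =>
  ∑ j ∈ Finset.range ℓ, primN f (aff 1 (j : ℤ) (ℓ : ℤ) z) + primN f (aff (ℓ : ℤ) 0 1 z)

theorem isPrim_primT (hℓN : ¬ ℓ ∣ N) (f : CuspForm (Gamma0 N) 2) :
    IsPrim (primT ℓ f) (toC (CuspForm.heckeTLin 2 (Fact.out : ℓ.Prime) hℓN f)) := by
  have hℓ : ℓ.Prime := Fact.out
  have hpos : (0 : ℤ) < (ℓ : ℤ) := by exact_mod_cast hℓ.pos
  have h1 : ∀ j ∈ Finset.range ℓ, IsPrim (fun z => primN f (aff 1 (j : ℤ) (ℓ : ℤ) z))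
      (fun z => toC f (aff 1 (j : ℤ) (ℓ : ℤ) z) * (((1 : ℤ) : ℂ) / ((ℓ : ℤ) : ℂ))) :=
    fun j _ => (isPrim_primN f).comp_aff one_pos hpos
  have h2 : IsPrim (fun z => primN f (aff (ℓ : ℤ) 0 1 z))
      (fun z => toC f (aff (ℓ : ℤ) 0 1 z) * (((ℓ : ℤ) : ℂ) / ((1 : ℤ) : ℂ))) :=
    (isPrim_primN f).comp_aff hpos one_pos
  have h3 := (IsPrim.sum (Finset.range ℓ) h1).add h2
  refine h3.congr (fun z hz => ?_)
  rw [toC_heckeT hℓ hℓN f hz, Finset.mul_sum]
  congr 1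
  · refine Finset.sum_congr rfl (fun j _ => ?_)
    push_cast
    ring
  · push_cast
    norm_num
    ring

theorem stripDecay_primT (f : CuspForm (Gamma0 N) 2) : StripDecay (primT ℓ f) := by
  have hℓ : ℓ.Prime := Fact.out
  have hpos : (0 : ℤ) < (ℓ : ℤ) := by exact_mod_cast hℓ.pos
  have h1 : ∀ j ∈ Finset.range ℓ, StripDecay (fun z => primN f (aff 1 (j : ℤ) (ℓ : ℤ) z)) :=
    fun j _ => (stripDecay_primN f).comp_aff one_pos hpos
  have h2 : StripDecay (fun z => primN f (aff (ℓ : ℤ) 0 1 z)) :=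
    (stripDecay_primN f).comp_aff hpos one_pos
  exact (StripDecay.sum (Finset.range ℓ) h1).add h2

/-- the normalized primitive of `T_ℓ f` -/
theorem primN_heckeT (hℓN : ¬ ℓ ∣ N) (f : CuspForm (Gamma0 N) 2) {z : ℂ} (hz : 0 < z.im) :
    primN (CuspForm.heckeTLin 2 (Fact.out : ℓ.Prime) hℓN f) z = primT ℓ f z :=
  (primN_eq_of (isPrim_primT hℓN f) (stripDecay_primT f) hz).symm

/-- the same sum, over the coset representatives -/
theorem primT_eq_sum (f : CuspForm (Gamma0 N) 2) (τ : ℍ) :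
    primT ℓ f (τ : ℂ) = ∑ x : OnePoint (ZMod ℓ), primH f (heckeRep ℓ x • τ) := by
  have hℓ : ℓ.Prime := Fact.out
  have hℓ0 : ℓ ≠ 0 := hℓ.ne_zero
  haveI : NeZero ℓ := ⟨hℓ0⟩
  have e : ∑ x : OnePoint (ZMod ℓ), primH f (heckeRep ℓ x • τ)
      = primH f (ModularForm.heckeDiagMatrix ℓ • τ)
        + ∑ j : ZMod ℓ, primH f (ModularForm.heckeMatrix ℓ j.val • τ) :=
    Fintype.sum_option (fun x : OnePoint (ZMod ℓ) => primH f (heckeRep ℓ x • τ))
  rw [e, primT, add_comm]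
  congr 1
  · rw [primH, ModularForm.coe_heckeDiagMatrix_smul hℓ0]
    simp [aff]
  · rw [sum_range_eq_sum_zmod (p := ℓ)
      (fun j : ℕ => primN f (aff 1 (j : ℤ) (ℓ : ℤ) (τ : ℂ)))]
    refine Finset.sum_congr rfl (fun j _ => ?_)
    rw [primH, ModularForm.coe_heckeMatrix_smul hℓ0]
    simp [aff]

theorem primH_smul_of_mem' (f : CuspForm (Gamma0 N) 2) (γ : Gamma0 N) (τ : ℍ) :
    primH f ((γ : SL(2, ℤ)) • τ) = primH f τ + periodMap N f (Additive.ofMul γ) := by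
  rw [periodMap_apply, primH_smul, primN_mob_of_mem f γ.2 τ.im_pos, primH]

theorem smul_smul_eq (g : GL (Fin 2) ℝ) (γ : SL(2, ℤ)) (τ : ℍ) :
    g • (γ • τ) = (g * mapGL ℝ γ) • τ := by
  rw [mul_smul]
  rfl

/-- **the period map is Hecke equivariant** -/
theorem periodMap_heckeT (hℓN : ¬ ℓ ∣ N) (f : CuspForm (Gamma0 N) 2) :
    periodMap N (CuspForm.heckeTLin 2 (Fact.out : ℓ.Prime) hℓN f)
      = heckeHom ℂ hℓN (periodMap N f) := by
  refine AddMonoidHom.ext fun γ' => ?_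
  obtain ⟨γ, rfl⟩ : ∃ γ : Gamma0 N, Additive.ofMul γ = γ' := ⟨Additive.toMul γ', rfl⟩
  rw [heckeHom_apply]
  have h1 := primH_smul_of_mem' (CuspForm.heckeTLin 2 (Fact.out : ℓ.Prime) hℓN f) γ
    UpperHalfPlane.I
  have hT : ∀ τ : ℍ, primH (CuspForm.heckeTLin 2 (Fact.out : ℓ.Prime) hℓN f) τ
      = ∑ x : OnePoint (ZMod ℓ), primH f (heckeRep ℓ x • τ) := by
    intro τ
    rw [← primT_eq_sum, ← primN_heckeT hℓN f τ.im_pos, primH]
  rw [hT, hT] at h1
  have h2 : ∀ x : OnePoint (ZMod ℓ),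
      primH f (heckeRep ℓ x • ((γ : SL(2, ℤ)) • UpperHalfPlane.I))
        = primH f (heckeRep ℓ (perm (γ : SL(2, ℤ)) x) • UpperHalfPlane.I)
          + periodMap N f (Additive.ofMul (kap hℓN γ x)) := by
    intro x
    rw [smul_smul_eq, kap_spec hℓN γ x, mul_smul]
    have e : (mapGL ℝ ((kap hℓN γ x : Gamma0 N) : SL(2, ℤ)))
        • (heckeRep ℓ (perm (γ : SL(2, ℤ)) x) • UpperHalfPlane.I)
        = ((kap hℓN γ x : Gamma0 N) : SL(2, ℤ))
          • (heckeRep ℓ (perm (γ : SL(2, ℤ)) x) • UpperHalfPlane.I) := rfl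
    rw [e, primH_smul_of_mem']
  rw [Finset.sum_congr rfl (fun x _ => h2 x), Finset.sum_add_distrib] at h1
  have h3 : ∑ x : OnePoint (ZMod ℓ), primH f (heckeRep ℓ (perm (γ : SL(2, ℤ)) x) • UpperHalfPlane.I)
      = ∑ x : OnePoint (ZMod ℓ), primH f (heckeRep ℓ x • UpperHalfPlane.I) :=
    Equiv.sum_comp (permEquiv (γ : SL(2, ℤ)))
      (fun x => primH f (heckeRep ℓ x • UpperHalfPlane.I))
  rw [h3] at h1
  exact (add_left_cancel h1).symm

/-! ### normalised eigenforms -/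

open ModularFormClass Fermat.Agent.S49 in
/-- a normalised eigenform is an eigenvector of `T_ℓ`, `ℓ ∤ N` -/
theorem heckeTLin_eigenform {g : CuspForm (Gamma0 N) 2} (hg : g.IsNormalizedEigenform)
    (hℓ : ℓ.Prime) (hℓN : ¬ ℓ ∣ N) :
    CuspForm.heckeTLin 2 hℓ hℓN g = qCoeff g ℓ • g := by
  rw [← sub_eq_zero]
  apply eq_zero_of_qCoeff
  intro n
  have hsub : qCoeff (⇑(CuspForm.heckeTLin 2 hℓ hℓN g - qCoeff g ℓ • g)) n
      = qCoeff (⇑(CuspForm.heckeTLin 2 hℓ hℓN g)) n - qCoeff g ℓ * qCoeff g n := by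
    have := (qLin N n).map_sub (CuspForm.heckeTLin 2 hℓ hℓN g) (qCoeff g ℓ • g)
    rw [qLin_apply, qLin_apply, qLin_apply, qCoeff_smul] at this
    exact this
  rw [hsub, qCoeff_heckeTLin, sub_eq_zero]
  rcases Nat.eq_zero_or_pos n with rfl | hn
  · rw [zero_mul, if_pos (dvd_zero ℓ), Nat.zero_div, qCoeff_zero_eq]
    ring
  -- write `n = ℓ ^ r * m` with `ℓ ∤ m`
  obtain ⟨r, m, hm, rfl⟩ := Nat.exists_eq_pow_mul_and_not_dvd hn.ne' ℓ hℓ.ne_one
  have hcop : Nat.Coprime (ℓ ^ (r + 1)) m := Nat.Coprime.pow_left _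
    ((Nat.Prime.coprime_iff_not_dvd hℓ).mpr hm)
  have hcop' : ∀ s : ℕ, Nat.Coprime (ℓ ^ s) m := fun s => Nat.Coprime.pow_left _
    ((Nat.Prime.coprime_iff_not_dvd hℓ).mpr hm)
  have e1 : ℓ ^ r * m * ℓ = ℓ ^ (r + 1) * m := by ring
  rw [e1, hg.qCoeff_mul_of_coprime _ _ (hcop' (r + 1)), hg.qCoeff_mul_of_coprime _ _ (hcop' r)]
  rcases r with _ | r
  · have hnd : ¬ ℓ ∣ ℓ ^ 0 * m := by simpa using hm
    rw [if_neg hnd, zero_add, pow_one, pow_zero, hg.qCoeff_one]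
    ring
  · have hd : ℓ ∣ ℓ ^ (r + 1) * m := Dvd.dvd.mul_right (dvd_pow_self ℓ (Nat.succ_ne_zero r)) m
    have e2 : ℓ ^ (r + 1) * m / ℓ = ℓ ^ r * m := by
      rw [pow_succ, mul_comm (ℓ ^ r) ℓ, mul_assoc]
      exact Nat.mul_div_cancel_left _ hℓ.pos
    rw [if_pos hd, e2, hg.qCoeff_mul_of_coprime _ _ (hcop' r)]
    have hrec := hg.qCoeff_prime_pow_of_not_dvd ℓ r hℓ hℓN
    rw [hrec]
    have h1 : qCoeff (⇑g) (ℓ ^ (r + 1)) = qCoeff g (ℓ ^ (r + 1)) := rfl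
    ring

theorem eigenform_ne_zero {g : CuspForm (Gamma0 N) 2} (hg : g.IsNormalizedEigenform) : g ≠ 0 := by
  intro h
  have h1 := hg.qCoeff_one
  rw [h] at h1
  have h2 : ModularFormClass.qCoeff (⇑(0 : CuspForm (Gamma0 N) 2)) 1 = 0 := by
    rw [← Fermat.Agent.S49.qLin_apply, map_zero]
  rw [h2] at h1
  exact zero_ne_one h1

theorem periodMap_ne_zero {g : CuspForm (Gamma0 N) 2} (hg : g ≠ 0) : periodMap N g ≠ 0 := by
  intro h
  obtain ⟨pml, hpml, hdef⟩ := periodHomPair_def N (existsPeriodMapLinear N)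
  have h1 : periodHomPair N (g, g) = 0 := by
    rw [hdef, LinearMap.coprod_apply, LinearMap.comp_apply, LinearMap.comp_apply, hpml, h,
      map_zero, map_zero, add_zero]
  have h2 := periodHomPair_injective N (h1.trans (map_zero _).symm)
  exact hg (congrArg Prod.fst h2)

/-- **the period homomorphism of a normalised eigenform** is a nonzero parabolic
eigen-homomorphism -/
theorem periodMap_eigen {g : CuspForm (Gamma0 N) 2} (hg : g.IsNormalizedEigenform)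
    (hℓN : ¬ ℓ ∣ N) :
    heckeHom ℂ hℓN (periodMap N g) = ModularFormClass.qCoeff g ℓ • periodMap N g := by
  rw [← periodMap_heckeT hℓN g, heckeTLin_eigenform hg (Fact.out : ℓ.Prime) hℓN]
  exact (periodLin N).map_smul _ g

end Fermat.Agent.S29.D1
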