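import Mathlib
import Fermat.Agent.S29.ParPeriod
import Fermat.Agent.S22

/-!
# S29, piece D1, (INT): the Hecke eigenvalues of a normalised eigenform are algebraic integers

`a_ℓ(g)` is an eigenvalue of `T_ℓ`, which lies in the Hecke algebra, a finite `ℤ`-module (S22).
-/

set_option autoImplicit false

namespace Fermat.Agent.S29.D1

open Polynomial

/-- **(INT)** the `ℓ`-th coefficient (`ℓ ∤ N` prime) of a normalised eigenform is an algebraic
integer -/
theorem isIntegral_qCoeff {N : ℕ} [NeZero N] {g : CuspForm (CongruenceSubgroup.Gamma0 N) 2}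
    (hg : g.IsNormalizedEigenform) {ℓ : ℕ} (hℓ : ℓ.Prime) (hℓN : ¬ ℓ ∣ N) :
    IsIntegral ℤ (ModularFormClass.qCoeff g ℓ) := by
  have hfin : Module.Finite ℤ (CuspForm.heckeAlgebra N 2 ∅) := Fermat.Agent.S22.result N 2 ∅
  have hT : IsIntegral ℤ
      (CuspForm.heckeAlgebra.T hℓ hℓN (Set.notMem_empty ℓ) : CuspForm.heckeAlgebra N 2 ∅) :=
    IsIntegral.of_finite ℤ _
  obtain ⟨P, hPm, hP⟩ := hT
  refine ⟨P, hPm, ?_⟩
  -- transport to the endomorphism ring
  have h1 : aeval (CuspForm.heckeTLin 2 hℓ hℓN) P = 0 := by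
    have h2 : aeval (CuspForm.heckeAlgebra.T hℓ hℓN (Set.notMem_empty ℓ) :
        CuspForm.heckeAlgebra N 2 ∅) P = 0 := hP
    have h3 := congrArg (CuspForm.heckeAlgebra N 2 ∅).val h2
    rw [← aeval_algHom_apply, map_zero] at h3
    exact h3
  have : Fact ℓ.Prime := ⟨hℓ⟩
  have hev : Module.End.HasEigenvector (CuspForm.heckeTLin 2 hℓ hℓN)
      (ModularFormClass.qCoeff g ℓ) g :=
    ⟨Module.End.mem_eigenspace_iff.2 (heckeTLin_eigenform hg hℓ hℓN), eigenform_ne_zero hg⟩
  have h4 := Module.End.aeval_apply_of_hasEigenvector (p := P.map (algebraMap ℤ ℂ)) hev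
  rw [aeval_map_algebraMap, h1, LinearMap.zero_apply, eval_map] at h4
  rcases smul_eq_zero.1 h4.symm with h5 | h5
  · exact h5
  · exact absurd h5 (eigenform_ne_zero hg)

end Fermat.Agent.S29.D1
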