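import Mathlib

/-!
# S29 / S42 (campaign 79), piece E-a: the residue field of `ℤ̄` at a prime over `p`

For a ring homomorphism `φ : ℤ̄ → k` into a field of characteristic `p`, the quotient
`K0 φ = ℤ̄ ⧸ ker φ` is an algebraically closed field of characteristic `p`, and `φ` factors as
`ℤ̄ → K0 φ → k`.
-/

set_option autoImplicit false
set_option linter.style.haveILetI false

noncomputable section

open Polynomial

namespace Fermat.Agent.S29.ResField

local notation "Zbar" => integralClosure ℤ ℂ

section Max

variable {k : Type*} [Field k] (φ : Zbar →+* k)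

theorem ker_isPrime : (RingHom.ker φ).IsPrime := RingHom.ker_isPrime φ

/-- The kernel of a homomorphism from `ℤ̄` to a field of positive characteristic is maximal. -/
theorem ker_isMaximal (p : ℕ) [hp : Fact p.Prime] [CharP k p] : (RingHom.ker φ).IsMaximal := by
  haveI := ker_isPrime φ
  haveI : Algebra.IsIntegral ℤ Zbar := inferInstance
  have hcomap : (RingHom.ker φ).comap (algebraMap ℤ Zbar) = Ideal.span {(p : ℤ)} := by
    ext n
    rw [Ideal.mem_comap, RingHom.mem_ker, Ideal.mem_span_singleton]
    have : φ (algebraMap ℤ Zbar n) = (n : k) := by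
      rw [eq_intCast (algebraMap ℤ Zbar) n, map_intCast]
    rw [this, CharP.intCast_eq_zero_iff k p]
  have hmax : ((RingHom.ker φ).comap (algebraMap ℤ Zbar)).IsMaximal := by
    rw [hcomap]
    have hp' : Prime (p : ℤ) := Nat.prime_iff_prime_int.mp hp.out
    exact PrincipalIdealRing.isMaximal_of_irreducible hp'.irreducible
  exact Ideal.isMaximal_of_isIntegral_of_isMaximal_comap (R := ℤ) (RingHom.ker φ) hmax

end Max

/-- every monic polynomial of positive degree over a quotient of `ℤ̄` has a root -/
theorem exists_root_quotient (I : Ideal Zbar) (q : (Zbar ⧸ I)[X]) (hq : q.Monic)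
    (hdeg : q.natDegree ≠ 0) : ∃ x, q.eval x = 0 := by
  have hlift : q ∈ Polynomial.lifts (Ideal.Quotient.mk I) := by
    rw [Polynomial.lifts_iff_coeff_lifts]
    intro n
    exact Ideal.Quotient.mk_surjective _
  obtain ⟨Q, hQ, hQdeg, hQm⟩ := Polynomial.lifts_and_natDegree_eq_and_monic hlift hq
  have hinj : Function.Injective (algebraMap Zbar ℂ) := Subtype.val_injective
  have hQ' : (Q.map (algebraMap Zbar ℂ)).degree ≠ 0 := by
    rw [Polynomial.degree_map_eq_of_injective hinj,
      Polynomial.degree_eq_natDegree hQm.ne_zero, hQdeg]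
    exact_mod_cast hdeg
  obtain ⟨α, hα⟩ := IsAlgClosed.exists_root (Q.map (algebraMap Zbar ℂ)) hQ'
  have hint : IsIntegral Zbar α := ⟨Q, hQm, by
    rw [← Polynomial.eval_map]
    exact hα⟩
  have hintZ : IsIntegral ℤ α := isIntegral_trans (R := ℤ) (A := Zbar) α hint
  let a : Zbar := ⟨α, hintZ⟩
  refine ⟨Ideal.Quotient.mk I a, ?_⟩
  rw [← hQ, Polynomial.eval_map, Polynomial.eval₂_at_apply]
  have h0 : Q.eval a = 0 := by
    apply hinj
    rw [map_zero, ← Polynomial.eval₂_at_apply, ← Polynomial.eval_map]
    exact hα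
  rw [h0, map_zero]

section K0

variable {k : Type*} [Field k] (φ : Zbar →+* k) (p : ℕ) [hp : Fact p.Prime] [CharP k p]

/-- **The residue field of `ℤ̄` at `ker φ`**: an algebraically closed field `k₀` of characteristic
`p` with `φ = ι ∘ π`, `π : ℤ̄ → k₀` surjective. -/
theorem exists_residue_data :
    ∃ (k₀ : Type) (_ : Field k₀) (_ : IsAlgClosed k₀) (_ : CharP k₀ p) (π : Zbar →+* k₀)
      (ι : k₀ →+* k), Function.Surjective π ∧ ∀ a, ι (π a) = φ a := by
  have hmax := ker_isMaximal φ p
  letI : Field (Zbar ⧸ RingHom.ker φ) := Ideal.Quotient.field (RingHom.ker φ)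
  have hAC : IsAlgClosed (Zbar ⧸ RingHom.ker φ) :=
    IsAlgClosed.of_exists_root _ fun q hq hirr =>
      exists_root_quotient (RingHom.ker φ) q hq (fun h => by
        have h1 := Polynomial.natDegree_pos_iff_degree_pos.mpr
          (Polynomial.degree_pos_of_irreducible hirr)
        rw [h] at h1
        exact lt_irrefl _ h1)
  have hchar : CharP (Zbar ⧸ RingHom.ker φ) p := by
    refine ⟨fun n => ?_⟩
    have h1 : RingHom.kerLift φ (n : Zbar ⧸ RingHom.ker φ) = (n : k) :=
      map_natCast (RingHom.kerLift φ) n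
    have hinj : Function.Injective (RingHom.kerLift φ) := RingHom.kerLift_injective φ
    rw [← CharP.cast_eq_zero_iff k p n, ← h1]
    constructor
    · intro h
      rw [h, map_zero]
    · intro h
      exact hinj (by rw [h, map_zero])
  exact ⟨Zbar ⧸ RingHom.ker φ, inferInstance, hAC, hchar, Ideal.Quotient.mk (RingHom.ker φ),
    RingHom.kerLift φ, Ideal.Quotient.mk_surjective, fun a => RingHom.kerLift_mk φ a⟩

end K0

end Fermat.Agent.S29.ResField
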