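import Fermat.Agent.S29.Rep
import Fermat.Agent.S29.ResField
import Fermat.Agent.S29.ParInt
import Fermat.Agent.Lib.FrobDensity.Generates

/-!
# S29 (C79), piece E-d: the final assembly

`S29` from the existence of an eigenvector in `k₀ ⊗ J₀(N)[p]` (pieces D1–D5).
-/

set_option autoImplicit false
set_option linter.unusedSectionVars false
set_option linter.style.haveILetI false

noncomputable section

namespace Fermat.Agent.S29.Final

open Polynomial

local notation "Qb" => AlgebraicClosure ℚ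
local notation "Gal" => (AlgebraicClosure ℚ ≃ₐ[ℚ] AlgebraicClosure ℚ)
local notation "Zbar" => integralClosure ℤ ℂ

/-- the trivial two dimensional representation -/
def trivialRep (k : Type) [Field k] : ResidualGaloisRep k where
  V := Fin 2 → k
  finrank_eq := by simp
  ρ := 1
  factorsThroughFiniteLevel := ⟨⊥, inferInstance, fun _ _ => rfl⟩

/-- the interface of the pieces D1–D5 -/
def EigenvectorExists : Prop :=
  ∀ {N : ℕ} [NeZero N] {g : CuspForm (CongruenceSubgroup.Gamma0 N) 2},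
    g.IsNormalizedEigenform → ∀ (p : ℕ) [Fact p.Prime] {k₀ : Type} [Field k₀] [IsAlgClosed k₀]
      [Algebra (ZMod p) k₀] (π : Zbar →+* k₀), Function.Surjective π →
        HasEigenvector g p k₀ π

/-- **S29** from the existence of eigenvectors -/
theorem result_of_eigenvector (hD : EigenvectorExists)
    {N : ℕ} {g : CuspForm (CongruenceSubgroup.Gamma0 N) 2} (hg : g.IsNormalizedEigenform)
    {p : ℕ} (hp : p.Prime) {k : Type} [Field k] [CharP k p]
    (φ : Zbar →+* k) :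
    ∃ ρ : ResidualGaloisRep k, ρ.IsAttachedTo g φ ∧
      ∀ ℓ : ℕ, ℓ.Prime → ¬ ℓ ∣ N * p → ρ.IsUnramifiedAt ℓ := by
  rcases Nat.eq_zero_or_pos N with hN | hN
  · subst hN
    refine ⟨trivialRep k, fun ℓ _ hℓ => absurd (dvd_zero ℓ) hℓ, fun ℓ _ hℓ => ?_⟩
    rw [zero_mul] at hℓ
    exact absurd (dvd_zero ℓ) hℓ
  haveI : NeZero N := ⟨hN.ne'⟩
  haveI : Fact p.Prime := ⟨hp⟩
  obtain ⟨k₀, _, _, _, π, ι, hπ, hι⟩ := Fermat.Agent.S29.ResField.exists_residue_data φ p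
  letI : Algebra (ZMod p) k₀ := ZMod.algebra k₀ p
  obtain ⟨ρ, h1, h2⟩ := Fermat.Agent.S29.Rep.exists_rep p
    Fermat.Agent.Lib.FrobDensity.frobeniusGenerates g π
    (fun ℓ hℓ hℓNp => by
      have hℓN : ¬ ℓ ∣ N := fun h => hℓNp (Dvd.dvd.mul_right h p)
      exact ⟨⟨_, Fermat.Agent.S29.D1.isIntegral_qCoeff hg hℓ hℓN⟩, rfl⟩)
    (hD hg p π hπ) ι
  refine ⟨ρ, fun ℓ hℓ hℓN hℓk A hA σ hσ => ?_, h2⟩
  have hℓp : ¬ ℓ ∣ p := fun h => by
    rw [Nat.prime_dvd_prime_iff_eq hℓ hp] at h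
    exact hℓk (h ▸ CharP.cast_eq_zero k p)
  have hℓNp : ¬ ℓ ∣ N * p := fun h => (hℓ.dvd_mul.1 h).elim hℓN hℓp
  obtain ⟨a, ha, hc⟩ := h1 ℓ hℓ hℓNp A hA σ hσ
  refine ⟨a, ha, ?_⟩
  rw [hc, hι]

end Fermat.Agent.S29.Final
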