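import Mathlib
import Fermat.Agent.S29.ResField

/-!
# S29, piece D1, part 3: reduction of a complex homomorphism modulo a prime of `ℤ̄`

For a finitely generated group `Γ`, a nonzero homomorphism `c : Γ → ℂ` and a ring homomorphism
`π : ℤ̄ → k₀` to a field of characteristic `p`, there is a nonzero homomorphism `c₀ : Γ → k₀`
which satisfies (the reduction of) every `ℤ̄`-linear relation satisfied by the values of `c`.

Proof: a valuation ring `B ⊂ ℂ` containing `ℤ̄` whose maximal ideal contains `ker π`; scale `c` by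
the value of minimal valuation on a finite set of generators so that it takes values in `B`,
one of them `1`; reduce modulo the maximal ideal of `B`; apply a `ℤ̄ ⧸ ker π`-linear functional
on the residue field of `B`.
-/

set_option autoImplicit false
set_option linter.unusedSectionVars false
set_option linter.unusedVariables false
set_option linter.style.haveILetI false

noncomputable section

namespace Fermat.Agent.S29.D1

local notation "Zbar" => integralClosure ℤ ℂ

section Scale

variable {Γ : Type*} [Group Γ]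

/-- scaling a nonzero homomorphism of a finitely generated group into a valuation ring, with one
value equal to `1` -/
theorem exists_scale [hfg : Group.FG Γ] (B : ValuationSubring ℂ) (c : Additive Γ →+ ℂ)
    (hc : c ≠ 0) :
    ∃ (u : ℂ) (γ₀ : Γ), u * c (Additive.ofMul γ₀) = 1 ∧ ∀ γ : Additive Γ, u * c γ ∈ B := by
  classical
  obtain ⟨S, hS, hSfin⟩ := Group.fg_iff.mp hfg
  have hclos : ∀ (P : Γ → Prop), (∀ s ∈ S, P s) → P 1 → (∀ x y, P x → P y → P (x * y)) →
      (∀ x, P x → P x⁻¹) → ∀ γ, P γ := by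
    intro P h1 h2 h3 h4 γ
    have hγ : γ ∈ Subgroup.closure S := by
      rw [hS]
      exact Subgroup.mem_top γ
    exact Subgroup.closure_induction (p := fun g _ => P g) (fun x hx => h1 x hx) h2
      (fun x y _ _ hx hy => h3 x y hx hy) (fun x _ hx => h4 x hx) hγ
  have h1 : ∃ s ∈ S, c (Additive.ofMul s) ≠ 0 := by
    by_contra hcon
    push Not at hcon
    apply hc
    refine AddMonoidHom.ext fun γ => ?_
    have := hclos (fun g => c (Additive.ofMul g) = 0) hcon (map_zero c)
      (fun x y hx hy => by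
        show c (Additive.ofMul x + Additive.ofMul y) = 0
        rw [map_add, hx, hy, add_zero])
      (fun x hx => by
        show c (-(Additive.ofMul x)) = 0
        rw [map_neg, hx, neg_zero]) (Additive.toMul γ)
    exact this
  obtain ⟨s₁, hs₁, hs₁0⟩ := h1
  have hne : hSfin.toFinset.Nonempty := ⟨s₁, hSfin.mem_toFinset.mpr hs₁⟩
  obtain ⟨γ₀, hγ₀, hmax⟩ := Finset.exists_max_image hSfin.toFinset
    (fun s => B.valuation (c (Additive.ofMul s))) hne
  have hv0 : B.valuation (c (Additive.ofMul γ₀)) ≠ 0 := by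
    intro h0
    have h2 := hmax s₁ (hSfin.mem_toFinset.mpr hs₁)
    simp only [h0] at h2
    have h3 : B.valuation (c (Additive.ofMul s₁)) = 0 := le_antisymm h2 zero_le
    exact hs₁0 ((map_eq_zero _).mp h3)
  have hc0 : c (Additive.ofMul γ₀) ≠ 0 := fun h => hv0 (by rw [h, map_zero])
  refine ⟨(c (Additive.ofMul γ₀))⁻¹, γ₀, inv_mul_cancel₀ hc0, fun γ => ?_⟩
  refine hclos (fun g => (c (Additive.ofMul γ₀))⁻¹ * c (Additive.ofMul g) ∈ B) ?_ ?_ ?_ ?_
    (Additive.toMul γ)
  · intro s hs
    rw [← B.valuation_le_one_iff, map_mul, map_inv₀]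
    exact (inv_mul_le_one₀ (zero_lt_iff.mpr hv0)).mpr (hmax s (hSfin.mem_toFinset.mpr hs))
  · show (c (Additive.ofMul γ₀))⁻¹ * c 0 ∈ B
    rw [map_zero, mul_zero]
    exact B.zero_mem
  · intro x y hx hy
    show (c (Additive.ofMul γ₀))⁻¹ * c (Additive.ofMul x + Additive.ofMul y) ∈ B
    rw [map_add, mul_add]
    exact B.add_mem _ _ hx hy
  · intro x hx
    show (c (Additive.ofMul γ₀))⁻¹ * c (-(Additive.ofMul x)) ∈ B
    rw [map_neg, mul_neg]
    exact B.neg_mem _ hx

end Scale

section Functional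

variable {k₀ : Type*} [Field k₀]

/-- a valuation ring `B ⊂ ℂ` containing `ℤ̄`, with an additive map `ψ : B → k₀` which is
`π`-semilinear and maps `1` to `1` -/
theorem exists_semilinear (p : ℕ) [Fact p.Prime] [CharP k₀ p] (π : Zbar →+* k₀) :
    ∃ (B : ValuationSubring ℂ) (ψ : B →+ k₀), (∀ a : Zbar, (a : ℂ) ∈ B) ∧ ψ 1 = 1 ∧
      ∀ (a : Zbar) (b ab : B), (ab : ℂ) = (a : ℂ) * (b : ℂ) → ψ ab = π a * ψ b := by
  classical
  let A : Subring ℂ := (integralClosure ℤ ℂ).toSubring
  let e : A →+* Zbar :=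
    { toFun := fun x => ⟨x.1, x.2⟩
      map_one' := rfl
      map_mul' := fun _ _ => rfl
      map_zero' := rfl
      map_add' := fun _ _ => rfl }
  let I : Ideal A := RingHom.ker (π.comp e)
  have hI : I ≠ ⊤ := RingHom.ker_ne_top _
  obtain ⟨B, hAB, hIB⟩ := Ideal.image_subset_nonunits_valuationSubring I hI
  have hmem : ∀ a : Zbar, (a : ℂ) ∈ B := fun a => hAB (show (a : ℂ) ∈ A from a.2)
  let incl : Zbar →+* B :=
    { toFun := fun a => ⟨a.1, hmem a⟩
      map_one' := rfl
      map_mul' := fun _ _ => rfl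
      map_zero' := rfl
      map_add' := fun _ _ => rfl }
  let res : B →+* IsLocalRing.ResidueField B := IsLocalRing.residue B
  let f : Zbar →+* IsLocalRing.ResidueField B := res.comp incl
  have hf : ∀ a ∈ RingHom.ker π, f a = 0 := by
    intro a ha
    have h1 : (a : ℂ) ∈ B.nonunits :=
      hIB ⟨⟨a.1, a.2⟩, (show π (e ⟨a.1, a.2⟩) = 0 from ha), rfl⟩
    obtain ⟨ha', hm⟩ := ValuationSubring.mem_nonunits_iff_exists_mem_maximalIdeal.mp h1
    exact (IsLocalRing.residue_eq_zero_iff _).mpr hm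
  haveI hmax : (RingHom.ker π).IsMaximal := ResField.ker_isMaximal π p
  letI : Field (Zbar ⧸ RingHom.ker π) := Ideal.Quotient.field _
  let ι₀ : (Zbar ⧸ RingHom.ker π) →+* IsLocalRing.ResidueField B :=
    Ideal.Quotient.lift _ f hf
  letI : Algebra (Zbar ⧸ RingHom.ker π) (IsLocalRing.ResidueField B) := ι₀.toAlgebra
  obtain ⟨φ, hφ⟩ : ∃ φ : Module.Dual (Zbar ⧸ RingHom.ker π) (IsLocalRing.ResidueField B),
      φ 1 ≠ 0 := by
    by_contra h
    push Not at h
    exact one_ne_zero ((Module.forall_dual_apply_eq_zero_iff (Zbar ⧸ RingHom.ker π)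
      (1 : IsLocalRing.ResidueField B)).mp h)
  let τ : IsLocalRing.ResidueField B →ₗ[Zbar ⧸ RingHom.ker π] (Zbar ⧸ RingHom.ker π) :=
    { toFun := fun x => (φ 1)⁻¹ * φ x
      map_add' := fun x y => by rw [map_add, mul_add]
      map_smul' := fun r x => by
        rw [map_smul, smul_eq_mul, RingHom.id_apply, smul_eq_mul]
        ring }
  have hτ : τ 1 = 1 := by
    show (φ 1)⁻¹ * φ 1 = 1
    exact inv_mul_cancel₀ hφ
  let πb : (Zbar ⧸ RingHom.ker π) →+* k₀ := RingHom.kerLift π
  refine ⟨B, (πb.toAddMonoidHom.comp τ.toAddMonoidHom).comp res.toAddMonoidHom, hmem, ?_, ?_⟩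
  · show πb (τ (res 1)) = 1
    rw [map_one, hτ, map_one]
  · intro a b ab h
    show πb (τ (res ab)) = π a * πb (τ (res b))
    have h1 : ab = incl a * b := Subtype.ext h
    have h2 : res ab = (Ideal.Quotient.mk (RingHom.ker π) a) • res b := by
      rw [h1, map_mul, Algebra.smul_def]
      rfl
    rw [h2, map_smul, smul_eq_mul, map_mul]
    rfl

variable {Γ : Type*} [Group Γ]

/-- **reduction of a complex homomorphism**: a nonzero `c₀ : Γ → k₀` satisfying the reduction of
every `ℤ̄`-linear relation between the values of `c` -/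
theorem exists_reduction (p : ℕ) [Fact p.Prime] [CharP k₀ p] (π : Zbar →+* k₀)
    [Group.FG Γ] (c : Additive Γ →+ ℂ) (hc : c ≠ 0) :
    ∃ c₀ : Additive Γ →+ k₀, c₀ ≠ 0 ∧
      ∀ {ι : Type} (s : Finset ι) (a : ι → Zbar) (γ : ι → Additive Γ),
        ∑ i ∈ s, (a i : ℂ) * c (γ i) = 0 → ∑ i ∈ s, π (a i) * c₀ (γ i) = 0 := by
  obtain ⟨B, ψ, hmem, hψ1, hψ⟩ := exists_semilinear p π
  obtain ⟨u, γ₀, hu, huB⟩ := exists_scale B c hc
  let c' : Additive Γ →+ B := ((AddMonoidHom.mulLeft u).comp c).codRestrict B huB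
  refine ⟨ψ.comp c', ?_, ?_⟩
  · intro h
    have h1 := DFunLike.congr_fun h (Additive.ofMul γ₀)
    have e : c' (Additive.ofMul γ₀) = 1 := Subtype.ext hu
    rw [AddMonoidHom.comp_apply, e, hψ1] at h1
    exact one_ne_zero h1
  · intro ι s a γ hrel
    have hab : ∀ i, (a i : ℂ) * (u * c (γ i)) ∈ B := fun i => B.mul_mem _ _ (hmem (a i)) (huB _)
    have h1 : ∀ i, π (a i) * (ψ.comp c') (γ i) = ψ ⟨(a i : ℂ) * (u * c (γ i)), hab i⟩ :=
      fun i => (hψ (a i) (c' (γ i)) ⟨_, hab i⟩ rfl).symm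
    rw [Finset.sum_congr rfl (fun i _ => h1 i), ← map_sum]
    have h2 : (∑ i ∈ s, (⟨(a i : ℂ) * (u * c (γ i)), hab i⟩ : B)) = 0 := by
      apply Subtype.ext
      rw [← ValuationSubring.subtype_apply, map_sum]
      show ∑ i ∈ s, (a i : ℂ) * (u * c (γ i)) = 0
      have h3 : ∑ i ∈ s, (a i : ℂ) * (u * c (γ i)) = u * ∑ i ∈ s, (a i : ℂ) * c (γ i) := by
        rw [Finset.mul_sum]
        refine Finset.sum_congr rfl (fun i _ => ?_)
        ring
      rw [h3, hrel, mul_zero]
    rw [h2, map_zero]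

end Functional

end Fermat.Agent.S29.D1
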