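import Mathlib
import Fermat.Agent.S22.FG
import Fermat.Agent.S29.ParPeriod
import Fermat.Agent.S29.ParVal

/-!
# S29, piece D1, part 4: the eigen-homomorphism modulo `p` of a normalised eigenform

For a normalised eigenform `g` of weight 2 on `Γ₀(N)` and `π : ℤ̄ → k₀`, `k₀` a field of
characteristic `p`: a nonzero homomorphism `c₀ : Γ₀(N) → k₀`, parabolic, killing the elements of
finite order, with `T_ℓ c₀ = π (a_ℓ) c₀` for every prime `ℓ ∤ N`.
-/

set_option autoImplicit false
set_option linter.unusedSectionVars false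
set_option linter.unusedVariables false
set_option linter.style.haveILetI false

noncomputable section

open Matrix.SpecialLinearGroup CongruenceSubgroup UpperHalfPlane
open scoped MatrixGroups
open ModularCurve ModularCurve.Period

namespace Fermat.Agent.S29.D1

local notation "Zbar" => integralClosure ℤ ℂ

variable {N : ℕ} [NeZero N]

/-- a homomorphism to `ℂ` kills the elements of finite order -/
theorem hom_isOfFinOrder_eq_zero {Γ : Type*} [Group Γ] (c : Additive Γ →+ ℂ) (γ : Γ)
    (hγ : IsOfFinOrder γ) : c (Additive.ofMul γ) = 0 := by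
  obtain ⟨n, hn, hγn⟩ := isOfFinOrder_iff_pow_eq_one.mp hγ
  have h1 : c (Additive.ofMul (γ ^ n)) = n • c (Additive.ofMul γ) := by
    rw [ofMul_pow, map_nsmul]
  rw [hγn] at h1
  have h2 : c (Additive.ofMul (1 : Γ)) = 0 := map_zero c
  rw [h2, nsmul_eq_mul] at h1
  rcases mul_eq_zero.mp h1.symm with h | h
  · exact absurd (Nat.cast_eq_zero.mp h) hn.ne'
  · exact h

/-- **the eigen-homomorphism modulo `p`** -/
theorem exists_eigenHom {g : CuspForm (Gamma0 N) 2} (hg : g.IsNormalizedEigenform)
    (p : ℕ) [Fact p.Prime] {k₀ : Type*} [Field k₀] [CharP k₀ p] (π : Zbar →+* k₀) :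
    ∃ c₀ : Additive (Gamma0 N) →+ k₀, c₀ ≠ 0 ∧ IsParabolicHom (Gamma0 N) c₀ ∧
      (∀ γ : Gamma0 N, IsOfFinOrder γ → c₀ (Additive.ofMul γ) = 0) ∧
      ∀ (ℓ : ℕ) [Fact ℓ.Prime] (hℓN : ¬ ℓ ∣ N) (a : Zbar),
        (a : ℂ) = ModularFormClass.qCoeff g ℓ → heckeHom k₀ hℓN c₀ = π a • c₀ := by
  classical
  haveI : Group.FG (Gamma0 N) := Fermat.Agent.S22.groupFG_Gamma0 N
  obtain ⟨c₀, hc₀, hrel⟩ := exists_reduction p π (periodMap N g)
    (periodMap_ne_zero (eigenform_ne_zero hg))
  have hvan : ∀ γ : Additive (Gamma0 N), periodMap N g γ = 0 → c₀ γ = 0 := by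
    intro γ hγ
    have h1 := hrel (ι := Unit) {()} (fun _ => 1) (fun _ => γ)
      (by rw [Finset.sum_singleton, hγ, mul_zero])
    rw [Finset.sum_singleton, map_one, one_mul] at h1
    exact h1
  refine ⟨c₀, hc₀, ?_, ?_, ?_⟩
  · intro γ hγ
    apply hvan
    have := Fermat.Agent.S21.periodMap_mem_parabolicHoms (N := N) g
    rw [mem_parabolicHoms_iff] at this
    exact this γ hγ
  · intro γ hγ
    exact hvan _ (hom_isOfFinOrder_eq_zero _ γ hγ)
  · intro ℓ _ hℓN a ha
    refine AddMonoidHom.ext fun γ' => ?_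
    obtain ⟨γ, rfl⟩ : ∃ γ : Gamma0 N, Additive.ofMul γ = γ' := ⟨Additive.toMul γ', rfl⟩
    rw [heckeHom_apply]
    show _ = π a * c₀ (Additive.ofMul γ)
    have h0 := DFunLike.congr_fun (periodMap_eigen hg hℓN) (Additive.ofMul γ)
    rw [heckeHom_apply] at h0
    have h0' : ∑ x : OnePoint (ZMod ℓ), periodMap N g (Additive.ofMul (kap hℓN γ x))
        = (a : ℂ) * periodMap N g (Additive.ofMul γ) := by
      rw [h0, ha]
      rfl
    have h1 := hrel (ι := Option (OnePoint (ZMod ℓ))) Finset.univ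
      (fun o => o.elim (-a) (fun _ => 1))
      (fun o => o.elim (Additive.ofMul γ) (fun x => Additive.ofMul (kap hℓN γ x)))
      (by
        rw [Fintype.sum_option]
        simp only [Option.elim_none, Option.elim_some]
        have e1 : (((1 : Zbar)) : ℂ) = 1 := rfl
        have e2 : (((-a : Zbar)) : ℂ) = -(a : ℂ) := rfl
        simp only [e1, e2, one_mul]
        rw [h0']
        ring)
    rw [Fintype.sum_option] at h1
    simp only [Option.elim_none, Option.elim_some, map_one, one_mul, map_neg] at h1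
    linear_combination h1

end Fermat.Agent.S29.D1
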