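import Mathlib
import Fermat.Agent.S29.ParHecke

/-!
# S29, piece D1, part 1b: orbit sums; `T_ℓ` preserves parabolic and torsion-killing homomorphisms
(no assumption on the coefficient group)
-/

set_option autoImplicit false
set_option linter.unusedSectionVars false
set_option linter.unusedVariables false

noncomputable section

open Matrix.SpecialLinearGroup CongruenceSubgroup
open scoped MatrixGroups
open P2MW.S_ModularForm_heckeT_slash_eq_self_of_mem_Gamma0.ModularForm.HeckeSlashInvariance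

namespace Fermat.Agent.S29.D1

/-! ### sums over the orbits of a permutation -/

section Orbit

variable {X : Type*} [Fintype X] [DecidableEq X] {A : Type*} [AddCommMonoid A]

theorem isPeriodicPt_perm (π : Equiv.Perm X) (x : X) :
    ∃ n > 0, Function.IsPeriodicPt π n x := by
  refine ⟨orderOf π, orderOf_pos π, ?_⟩
  show (⇑π)^[orderOf π] x = x
  rw [Equiv.Perm.iterate_eq_pow, pow_orderOf_eq_one]
  rfl

theorem sum_stable_eq_zero (π : Equiv.Perm X) (f : X → A)
    (h : ∀ x : X, ∀ m : ℕ, 0 < m → (⇑π)^[m] x = x →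
      ∑ i ∈ Finset.range m, f ((⇑π)^[i] x) = 0) :
    ∀ (n : ℕ) (s : Finset X), s.card = n → (∀ y ∈ s, π y ∈ s) → ∑ x ∈ s, f x = 0 := by
  intro n
  induction n using Nat.strong_induction_on with
  | _ n ih =>
    intro s hs hst
    rcases s.eq_empty_or_nonempty with rfl | ⟨x, hx⟩
    · simp
    have hper := isPeriodicPt_perm π x
    set m := Function.minimalPeriod π x with hm
    have hmpos : 0 < m := Function.minimalPeriod_pos_of_mem_periodicPts hper
    have hmx : (⇑π)^[m] x = x := Function.isPeriodicPt_minimalPeriod π x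
    set O : Finset X := (Finset.range m).image (fun i => (⇑π)^[i] x) with hO
    have hiter : ∀ i : ℕ, (⇑π)^[i] x ∈ s := by
      intro i
      induction i with
      | zero => exact hx
      | succ i ihi =>
        rw [Function.iterate_succ_apply']
        exact hst _ ihi
    have hOs : O ⊆ s := by
      intro y hy
      rw [hO, Finset.mem_image] at hy
      obtain ⟨i, -, rfl⟩ := hy
      exact hiter i
    have hxO : x ∈ O := by
      rw [hO, Finset.mem_image]
      exact ⟨0, Finset.mem_range.mpr hmpos, rfl⟩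
    have hsumO : ∑ y ∈ O, f y = 0 := by
      rw [hO, Finset.sum_image]
      · exact h x m hmpos hmx
      · intro i hi j hj hij
        exact (Function.iterate_eq_iterate_iff_of_lt_minimalPeriod (Finset.mem_range.mp hi)
          (Finset.mem_range.mp hj)).mp hij
    have hstab : ∀ y ∈ s \ O, π y ∈ s \ O := by
      intro y hy
      rw [Finset.mem_sdiff] at hy ⊢
      refine ⟨hst y hy.1, fun hπ => hy.2 ?_⟩
      rw [hO, Finset.mem_image] at hπ
      obtain ⟨i, hi, hiy⟩ := hπ
      rw [hO, Finset.mem_image]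
      rcases Nat.eq_zero_or_pos i with rfl | hipos
      · refine ⟨m - 1, Finset.mem_range.mpr (by omega), ?_⟩
        apply π.injective
        rw [← Function.iterate_succ_apply' (⇑π), ← hiy]
        have : (m - 1).succ = m := by omega
        rw [this, hmx]
        rfl
      · refine ⟨i - 1, Finset.mem_range.mpr (by have := Finset.mem_range.mp hi; omega), ?_⟩
        apply π.injective
        rw [← Function.iterate_succ_apply' (⇑π), ← hiy]
        have : (i - 1).succ = i := by omega
        rw [this]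
    have hcard : (s \ O).card < n := by
      rw [← hs]
      exact Finset.card_lt_card (Finset.sdiff_ssubset hOs ⟨x, hxO⟩)
    have h1 := ih _ hcard (s \ O) rfl hstab
    rw [← Finset.sum_sdiff hOs, h1, hsumO, add_zero]

/-- if all orbit sums vanish, the total sum vanishes -/
theorem sum_eq_zero_of_orbit_sums (π : Equiv.Perm X) (f : X → A)
    (h : ∀ x : X, ∀ m : ℕ, 0 < m → (⇑π)^[m] x = x →
      ∑ i ∈ Finset.range m, f ((⇑π)^[i] x) = 0) :
    ∑ x, f x = 0 :=
  sum_stable_eq_zero π f h _ Finset.univ rfl (fun y _ => Finset.mem_univ _)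

end Orbit

variable {N : ℕ} {ℓ : ℕ} [Fact ℓ.Prime]

/-- the value of `T_ℓ c` at `γ` vanishes as soon as `c` vanishes at all the elements
`κ(γ^m, x)` with `γ^m · x = x` -/
theorem heckeHom_apply_eq_zero (hℓN : ¬ ℓ ∣ N) {A : Type*} [AddCommGroup A]
    (c : Additive (Gamma0 N) →+ A) (γ : Gamma0 N)
    (h : ∀ (x : OnePoint (ZMod ℓ)) (m : ℕ), 0 < m → perm ((γ ^ m : Gamma0 N) : SL(2, ℤ)) x = x →
      c (Additive.ofMul (kap hℓN (γ ^ m) x)) = 0) :
    heckeHom A hℓN c (Additive.ofMul γ) = 0 := by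
  classical
  rw [heckeHom_apply]
  apply sum_eq_zero_of_orbit_sums (permEquiv (γ : SL(2, ℤ)))
    (fun x => c (Additive.ofMul (kap hℓN γ x)))
  intro x m hm hx
  have hx' : perm ((γ ^ m : Gamma0 N) : SL(2, ℤ)) x = x := by
    rw [Subgroup.coe_pow, perm_pow]
    exact hx
  have := sum_range_kap hℓN c γ m x
  rw [← h x m hm hx', ← this]
  rfl

/-- if `γ` fixes the coset `x`, then `κ(γ, x)` is conjugate to `γ` in `GL₂(ℝ)` -/
theorem mapGL_kap_of_perm_eq (hℓN : ¬ ℓ ∣ N) (γ : Gamma0 N) (x : OnePoint (ZMod ℓ))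
    (hx : perm (γ : SL(2, ℤ)) x = x) :
    mapGL ℝ ((kap hℓN γ x : Gamma0 N) : SL(2, ℤ))
      = heckeRep ℓ x * mapGL ℝ (γ : SL(2, ℤ)) * (heckeRep ℓ x)⁻¹ := by
  have h := kap_spec hℓN γ x
  rw [hx] at h
  rw [h, mul_assoc, mul_inv_cancel, mul_one]

theorem kap_pow_eq_one_of_perm_eq (hℓN : ¬ ℓ ∣ N) (γ : Gamma0 N) (x : OnePoint (ZMod ℓ))
    (hx : perm (γ : SL(2, ℤ)) x = x) (n : ℕ) (hn : γ ^ n = 1) :
    kap hℓN γ x ^ n = 1 := by
  apply Subtype.ext
  apply mapGL_injective (R := ℤ) (S := ℝ)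
  rw [Subgroup.coe_pow, map_pow, mapGL_kap_of_perm_eq hℓN γ x hx, conj_pow, ← map_pow,
    ← Subgroup.coe_pow, hn, Subgroup.coe_one, map_one, mul_one, mul_inv_cancel]

/-- **`T_ℓ` preserves homomorphisms killing the elements of finite order** -/
theorem heckeHom_isOfFinOrder (hℓN : ¬ ℓ ∣ N) {A : Type*} [AddCommGroup A]
    {c : Additive (Gamma0 N) →+ A}
    (hc : ∀ γ : Gamma0 N, IsOfFinOrder γ → c (Additive.ofMul γ) = 0)
    (γ : Gamma0 N) (hγ : IsOfFinOrder γ) :
    heckeHom A hℓN c (Additive.ofMul γ) = 0 := by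
  apply heckeHom_apply_eq_zero
  intro x m hm hx
  apply hc
  obtain ⟨n, hn, hγn⟩ := isOfFinOrder_iff_pow_eq_one.mp hγ
  rw [isOfFinOrder_iff_pow_eq_one]
  refine ⟨n, hn, kap_pow_eq_one_of_perm_eq hℓN (γ ^ m) x hx n ?_⟩
  rw [← pow_mul, mul_comm, pow_mul, hγn, one_pow]

/-- **`T_ℓ` preserves parabolic homomorphisms** (any coefficient group) -/
theorem heckeHom_isParabolicHom' (hℓN : ¬ ℓ ∣ N) {A : Type*} [AddCommGroup A]
    {c : Additive (Gamma0 N) →+ A} (hc : ModularCurve.Period.IsParabolicHom (Gamma0 N) c) :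
    ModularCurve.Period.IsParabolicHom (Gamma0 N) (heckeHom A hℓN c) := by
  intro γ hγ
  apply heckeHom_apply_eq_zero
  intro x m hm hx
  apply hc
  rw [trace_kap_of_perm_eq hℓN (γ ^ m) x hx, Subgroup.coe_pow]
  exact trace_pow_sq_of_trace_sq _ hγ m

/-- `T_ℓ` on parabolic homomorphisms, any coefficient module -/
def heckePar' (hℓN : ¬ ℓ ∣ N) (R : Type*) [Ring R] (A : Type*) [AddCommGroup A] [Module R A] :
    ModularCurve.Period.parabolicHoms R (Gamma0 N) A
      →ₗ[R] ModularCurve.Period.parabolicHoms R (Gamma0 N) A where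
  toFun c := ⟨heckeHom A hℓN c.1, heckeHom_isParabolicHom' hℓN c.2⟩
  map_add' c c' := Subtype.ext (map_add (heckeHom A hℓN) c.1 c'.1)
  map_smul' r c := Subtype.ext (heckeHom_smul hℓN r c.1)

@[simp] theorem coe_heckePar' (hℓN : ¬ ℓ ∣ N) (R : Type*) [Ring R] (A : Type*) [AddCommGroup A]
    [Module R A] (c : ModularCurve.Period.parabolicHoms R (Gamma0 N) A) :
    ((heckePar' hℓN R A c : ModularCurve.Period.parabolicHoms R (Gamma0 N) A)
      : Additive (Gamma0 N) →+ A) = heckeHom A hℓN c.1 := rfl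

end Fermat.Agent.S29.D1
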