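import Mathlib

/-!
# S29, piece D1, (TEN): from `Hom(Γ, k₀)` to `k₀ ⊗ Hom(Γ, 𝔽_p)`

For a submodule `H` of `Hom(Γ, ZMod p)` and a field `k₀` of characteristic `p` the natural map
`k₀ ⊗[ZMod p] H → Hom(Γ, k₀)`, `e ⊗ c ↦ (γ ↦ c γ • e)`, is injective, and (for `Γ` finitely
generated) its range contains every `c : Γ → k₀` all of whose `ZMod p`-linear projections lie
in `H`.
-/

set_option autoImplicit false

open scoped TensorProduct

namespace Fermat.Agent.S29.D1T

variable {Γ : Type*} [Group Γ] {p : ℕ} [Fact p.Prime] {k₀ : Type*} [Field k₀] [Algebra (ZMod p) k₀]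
  (H : Submodule (ZMod p) (Additive Γ →+ ZMod p))

/-- `γ ↦ c γ • e` -/
noncomputable def smulHom (e : k₀) (c : Additive Γ →+ ZMod p) : Additive Γ →+ k₀ :=
  ((smulAddHom (ZMod p) k₀).flip e).comp c

@[simp]
theorem smulHom_apply (e : k₀) (c : Additive Γ →+ ZMod p) (γ : Additive Γ) :
    smulHom e c γ = c γ • e := rfl

/-- `e ⊗ c ↦ (γ ↦ c γ • e)` -/
noncomputable def tensorToHom : k₀ ⊗[ZMod p] H →ₗ[ZMod p] (Additive Γ →+ k₀) :=
  TensorProduct.lift
    (LinearMap.mk₂ (ZMod p)
      (fun (e : k₀) (c : H) => smulHom e (c : Additive Γ →+ ZMod p))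
      (fun e e' c => by
        apply AddMonoidHom.ext
        intro γ
        show (c : Additive Γ →+ ZMod p) γ • (e + e')
          = (c : Additive Γ →+ ZMod p) γ • e + (c : Additive Γ →+ ZMod p) γ • e'
        rw [smul_add])
      (fun a e c => by
        apply AddMonoidHom.ext
        intro γ
        show (c : Additive Γ →+ ZMod p) γ • (a • e) = a • ((c : Additive Γ →+ ZMod p) γ • e)
        rw [smul_comm])
      (fun e c c' => by
        apply AddMonoidHom.ext
        intro γ
        show ((c : Additive Γ →+ ZMod p) γ + (c' : Additive Γ →+ ZMod p) γ) • e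
          = (c : Additive Γ →+ ZMod p) γ • e + (c' : Additive Γ →+ ZMod p) γ • e
        rw [add_smul])
      (fun a e c => by
        apply AddMonoidHom.ext
        intro γ
        show (a • (c : Additive Γ →+ ZMod p) γ) • e = a • ((c : Additive Γ →+ ZMod p) γ • e)
        rw [smul_assoc]))

variable {H}

@[simp]
theorem tensorToHom_tmul (e : k₀) (c : H) (γ : Additive Γ) :
    tensorToHom H (e ⊗ₜ[ZMod p] c) γ = (c : Additive Γ →+ ZMod p) γ • e := by
  rw [tensorToHom, TensorProduct.lift.tmul]
  rfl

theorem tensorToHom_smul (a : k₀) (v : k₀ ⊗[ZMod p] H) (γ : Additive Γ) :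
    tensorToHom H (a • v) γ = a * tensorToHom H v γ := by
  induction v using TensorProduct.induction_on with
  | zero => simp
  | tmul e c =>
    rw [TensorProduct.smul_tmul', tensorToHom_tmul, tensorToHom_tmul, smul_eq_mul,
      mul_smul_comm]
  | add x y hx hy =>
    rw [smul_add, map_add, map_add, AddMonoidHom.add_apply, AddMonoidHom.add_apply, hx, hy,
      mul_add]

variable (H) in
theorem tensorToHom_injective : Function.Injective (tensorToHom (k₀ := k₀) H) := by
  classical
  rw [injective_iff_map_eq_zero]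
  intro v hv
  let b := Module.Free.chooseBasis (ZMod p) k₀
  let E := TensorProduct.equivFinsuppOfBasisLeft (N := H) b
  have hE : ∀ w : k₀ ⊗[ZMod p] H, w = ∑ i ∈ (E w).support, b i ⊗ₜ[ZMod p] (E w i) := by
    intro w
    have h1 : E.symm (E w) = w := E.symm_apply_apply w
    conv_lhs => rw [← h1]
    rw [TensorProduct.equivFinsuppOfBasisLeft_symm_apply]
    rfl
  have hv0 : E v = 0 := by
    ext i : 1
    rw [Finsupp.zero_apply]
    apply Subtype.ext
    apply AddMonoidHom.ext
    intro γ
    have h1 : tensorToHom H v γ = 0 := by rw [hv]; rfl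
    rw [hE v, map_sum, AddMonoidHom.finsetSum_apply] at h1
    simp only [tensorToHom_tmul] at h1
    by_cases hi : i ∈ (E v).support
    · exact linearIndependent_iff'.1 b.linearIndependent (E v).support
        (fun j => ((E v j : H) : Additive Γ →+ ZMod p) γ) h1 i hi
    · rw [Finsupp.notMem_support_iff.1 hi]
  have := E.injective (hv0.trans (map_zero E).symm)
  exact this

/-- **range**: for `Γ` finitely generated, a homomorphism `c : Γ → k₀` all of whose projections
lie in `H` comes from the tensor product. -/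
theorem mem_range_tensorToHom [Group.FG Γ] (c : Additive Γ →+ k₀)
    (hc : ∀ φ : k₀ →ₗ[ZMod p] ZMod p, φ.toAddMonoidHom.comp c ∈ H) :
    ∃ v, tensorToHom H v = c := by
  classical
  obtain ⟨S, hS⟩ := Group.fg_def.1 (inferInstance : Group.FG Γ)
  -- the span of the values on the generators
  let W : Submodule (ZMod p) k₀ :=
    Submodule.span (ZMod p) ((fun γ : Γ => c (Additive.ofMul γ)) '' (S : Set Γ))
  have hWfin : Module.Finite (ZMod p) W :=
    Module.Finite.span_of_finite _ ((Finset.finite_toSet S).image _)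
  have hcW : ∀ γ : Additive Γ, c γ ∈ W := by
    intro γ
    have hγ : Additive.toMul γ ∈ Subgroup.closure (S : Set Γ) := by rw [hS]; trivial
    have key : ∀ g : Γ, g ∈ Subgroup.closure (S : Set Γ) → c (Additive.ofMul g) ∈ W := by
      intro g hg
      induction hg using Subgroup.closure_induction with
      | mem x hx => exact Submodule.subset_span ⟨x, hx, rfl⟩
      | one => rw [ofMul_one, map_zero]; exact W.zero_mem
      | mul x y _ _ hx hy => rw [ofMul_mul, map_add]; exact W.add_mem hx hy
      | inv x _ hx => rw [ofMul_inv, map_neg]; exact W.neg_mem hx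
    exact key _ hγ
  let bW := Module.finBasis (ZMod p) W
  -- extensions of the coordinate functionals
  have hext : ∀ s, ∃ φ : k₀ →ₗ[ZMod p] ZMod p, φ.comp W.subtype = bW.coord s :=
    fun s => LinearMap.exists_extend (bW.coord s)
  choose φ hφ using hext
  refine ⟨∑ s, ((bW s : W) : k₀) ⊗ₜ[ZMod p] (⟨(φ s).toAddMonoidHom.comp c, hc (φ s)⟩ : H), ?_⟩
  apply AddMonoidHom.ext
  intro γ
  rw [map_sum, AddMonoidHom.finsetSum_apply]
  simp only [tensorToHom_tmul]
  have h1 : ∀ s, ((φ s).toAddMonoidHom.comp c) γ = bW.coord s ⟨c γ, hcW γ⟩ := by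
    intro s
    rw [← hφ s]
    rfl
  simp only [h1]
  have h2 := bW.sum_repr ⟨c γ, hcW γ⟩
  have h3 := congrArg (W.subtype) h2
  rw [map_sum] at h3
  simpa using h3

theorem tensorToHom_smul' (a : k₀) (v : k₀ ⊗[ZMod p] H) :
    tensorToHom H (a • v) = a • tensorToHom H v := by
  apply AddMonoidHom.ext
  intro γ
  rw [tensorToHom_smul]
  rfl

theorem tensorToHom_tmul' (e : k₀) (c : H) :
    tensorToHom H (e ⊗ₜ[ZMod p] c) = smulHom e (c : Additive Γ →+ ZMod p) := by
  apply AddMonoidHom.ext
  intro γ
  rw [tensorToHom_tmul]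
  rfl

/-- **naturality**: an operator `f` on `H` and an additive operator `T'` on `Hom(Γ, k₀)` which
agree on the elementary homomorphisms `γ ↦ c γ • e` are intertwined by `tensorToHom`. -/
theorem tensorToHom_baseChange (f : H →ₗ[ZMod p] H)
    (T' : (Additive Γ →+ k₀) →+ (Additive Γ →+ k₀))
    (hnat : ∀ (e : k₀) (c : H), T' (smulHom e (c : Additive Γ →+ ZMod p))
      = smulHom e ((f c : H) : Additive Γ →+ ZMod p))
    (v : k₀ ⊗[ZMod p] H) :
    tensorToHom H (f.baseChange k₀ v) = T' (tensorToHom H v) := by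
  induction v using TensorProduct.induction_on with
  | zero => simp
  | tmul e c =>
    rw [LinearMap.baseChange_tmul, tensorToHom_tmul', tensorToHom_tmul', hnat]
  | add x y hx hy =>
    rw [map_add, map_add, map_add, map_add, hx, hy]

/-- **transfer of eigenvectors**: if `tensorToHom v` is an eigenvector of `T'` with eigenvalue
`a`, then `v` is an eigenvector of `1 ⊗ f` with eigenvalue `a`. -/
theorem baseChange_eq_smul_of_tensorToHom (f : H →ₗ[ZMod p] H)
    (T' : (Additive Γ →+ k₀) →+ (Additive Γ →+ k₀))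
    (hnat : ∀ (e : k₀) (c : H), T' (smulHom e (c : Additive Γ →+ ZMod p))
      = smulHom e ((f c : H) : Additive Γ →+ ZMod p))
    (v : k₀ ⊗[ZMod p] H) (a : k₀) (hv : T' (tensorToHom H v) = a • tensorToHom H v) :
    f.baseChange k₀ v = a • v := by
  apply tensorToHom_injective H
  rw [tensorToHom_baseChange f T' hnat, hv, tensorToHom_smul']

end Fermat.Agent.S29.D1T
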