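import Mathlib
import Fermat.Agent.S29.ParEigen
import Fermat.Agent.S29.ParOrbit
import Fermat.Agent.S29.ParTensor

/-!
# S29, piece D1, final form: the eigenclass in `k₀ ⊗ H`

`H` is any `ZMod p`-submodule of `Hom(Γ₀(N), ZMod p)` containing the parabolic homomorphisms which
kill the elements of finite order, with operators `TH ℓ` induced by `heckeHom`.
-/

set_option autoImplicit false
set_option linter.unusedSectionVars false
set_option linter.unusedVariables false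
set_option linter.style.haveILetI false

noncomputable section

open Matrix.SpecialLinearGroup CongruenceSubgroup
open scoped MatrixGroups
open ModularCurve ModularCurve.Period TensorProduct

namespace Fermat.Agent.S29.D1

local notation "Zbar" => integralClosure ℤ ℂ

variable {N : ℕ} [NeZero N] {p : ℕ}

/-- the maximal choice of `H`: parabolic homomorphisms killing the elements of finite order -/
def parFin (N p : ℕ) : Submodule (ZMod p) (Additive (Gamma0 N) →+ ZMod p) where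
  carrier := {c | IsParabolicHom (Gamma0 N) c ∧
    ∀ γ : Gamma0 N, IsOfFinOrder γ → c (Additive.ofMul γ) = 0}
  zero_mem' := ⟨fun _ _ => rfl, fun _ _ => rfl⟩
  add_mem' := by
    rintro a b ⟨ha1, ha2⟩ ⟨hb1, hb2⟩
    refine ⟨fun γ hγ => ?_, fun γ hγ => ?_⟩
    · rw [AddMonoidHom.add_apply, ha1 γ hγ, hb1 γ hγ, add_zero]
    · rw [AddMonoidHom.add_apply, ha2 γ hγ, hb2 γ hγ, add_zero]
  smul_mem' := by
    rintro r a ⟨ha1, ha2⟩
    refine ⟨fun γ hγ => ?_, fun γ hγ => ?_⟩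
    · rw [AddMonoidHom.smul_apply, ha1 γ hγ, smul_zero]
    · rw [AddMonoidHom.smul_apply, ha2 γ hγ, smul_zero]

theorem mem_parFin {c : Additive (Gamma0 N) →+ ZMod p} :
    c ∈ parFin N p ↔ IsParabolicHom (Gamma0 N) c ∧
      ∀ γ : Gamma0 N, IsOfFinOrder γ → c (Additive.ofMul γ) = 0 := Iff.rfl

/-- `T_ℓ` on `parFin N p` -/
def heckeParFin (N p : ℕ) (ℓ : ℕ) (hℓ : ℓ.Prime) :
    parFin N p →ₗ[ZMod p] parFin N p :=
  if hℓN : ℓ ∣ N then 0 else
    haveI : Fact ℓ.Prime := ⟨hℓ⟩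
    { toFun := fun c => ⟨heckeHom (ZMod p) hℓN c.1,
        heckeHom_isParabolicHom' hℓN c.2.1, heckeHom_isOfFinOrder hℓN c.2.2⟩
      map_add' := fun c d => Subtype.ext (map_add (heckeHom (ZMod p) hℓN) c.1 d.1)
      map_smul' := fun r c => Subtype.ext (heckeHom_smul hℓN r c.1) }

theorem coe_heckeParFin {ℓ : ℕ} (hℓ : ℓ.Prime) (hℓN : ¬ ℓ ∣ N) (c : parFin N p) :
    ((heckeParFin N p ℓ hℓ c : parFin N p) : Additive (Gamma0 N) →+ ZMod p)
      = @heckeHom N ℓ ⟨hℓ⟩ (ZMod p) _ hℓN c := by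
  unfold heckeParFin
  rw [dif_neg hℓN]
  rfl

variable [Fact p.Prime]

section Tensor

variable {k₀ : Type*} [Field k₀] [Algebra (ZMod p) k₀]
  (H : Submodule (ZMod p) (Additive (Gamma0 N) →+ ZMod p))

/-- `x ↦ x • e` -/
def smulRight (e : k₀) : ZMod p →+ k₀ where
  toFun x := x • e
  map_zero' := zero_smul _ _
  map_add' := fun x y => add_smul x y e

theorem tensorToHom_tmul_eq (e : k₀) (c : H) :
    D1T.tensorToHom H (e ⊗ₜ[ZMod p] c)
      = (smulRight (p := p) e).comp (c : Additive (Gamma0 N) →+ ZMod p) :=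
  AddMonoidHom.ext fun γ => D1T.tensorToHom_tmul e c γ

/-- `tensorToHom` intertwines `1 ⊗ TH` and `heckeHom k₀` -/
theorem tensorToHom_heckeHom {ℓ : ℕ} [Fact ℓ.Prime] (hℓN : ¬ ℓ ∣ N) (T : H →ₗ[ZMod p] H)
    (hT : ∀ c : H, ((T c : H) : Additive (Gamma0 N) →+ ZMod p) = heckeHom (ZMod p) hℓN c)
    (v : k₀ ⊗[ZMod p] H) :
    D1T.tensorToHom H (T.baseChange k₀ v) = heckeHom k₀ hℓN (D1T.tensorToHom H v) := by
  induction v using TensorProduct.induction_on with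
  | zero => rw [map_zero, map_zero, map_zero]
  | tmul e c =>
    rw [LinearMap.baseChange_tmul, tensorToHom_tmul_eq, tensorToHom_tmul_eq, hT, heckeHom_comp]
  | add x y hx hy => rw [map_add, map_add, hx, hy, map_add, map_add]

end Tensor

/-- **D1, final form** -/
theorem exists_eigenclass {g : CuspForm (Gamma0 N) 2} (hg : g.IsNormalizedEigenform)
    {k₀ : Type*} [Field k₀] [Algebra (ZMod p) k₀] (π : Zbar →+* k₀)
    (H : Submodule (ZMod p) (Additive (Gamma0 N) →+ ZMod p))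
    (hH : ∀ c : Additive (Gamma0 N) →+ ZMod p, IsParabolicHom (Gamma0 N) c →
      (∀ γ : Gamma0 N, IsOfFinOrder γ → c (Additive.ofMul γ) = 0) → c ∈ H)
    (TH : ∀ ℓ : ℕ, ℓ.Prime → H →ₗ[ZMod p] H)
    (hTH : ∀ (ℓ : ℕ) (hℓ : ℓ.Prime) (hℓN : ¬ ℓ ∣ N) (c : H),
      ((TH ℓ hℓ c : H) : Additive (Gamma0 N) →+ ZMod p)
        = @heckeHom N ℓ ⟨hℓ⟩ (ZMod p) _ hℓN c) :
    ∃ c : k₀ ⊗[ZMod p] H, c ≠ 0 ∧
      ∀ (ℓ : ℕ) (hℓ : ℓ.Prime), ¬ ℓ ∣ N → ∀ a : Zbar,
        (a : ℂ) = ModularFormClass.qCoeff g ℓ → (TH ℓ hℓ).baseChange k₀ c = π a • c := by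
  classical
  haveI : CharP k₀ p := charP_of_injective_algebraMap (algebraMap (ZMod p) k₀).injective p
  haveI : Group.FG (Gamma0 N) := Fermat.Agent.S22.groupFG_Gamma0 N
  obtain ⟨c₀, hc₀, hpar, hfin, heig⟩ := exists_eigenHom hg p π
  obtain ⟨v, hv⟩ := D1T.mem_range_tensorToHom (H := H) c₀ (fun φ => hH _
    (fun γ hγ => by
      rw [AddMonoidHom.comp_apply, hpar γ hγ]
      exact map_zero φ)
    (fun γ hγ => by
      rw [AddMonoidHom.comp_apply, hfin γ hγ]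
      exact map_zero φ))
  refine ⟨v, fun h => hc₀ ?_, fun ℓ hℓ hℓN a ha => ?_⟩
  · rw [← hv, h, map_zero]
  · haveI : Fact ℓ.Prime := ⟨hℓ⟩
    apply D1T.tensorToHom_injective H
    rw [tensorToHom_heckeHom H hℓN (TH ℓ hℓ) (hTH ℓ hℓ hℓN) v, hv, heig ℓ hℓN a ha]
    refine AddMonoidHom.ext fun γ => ?_
    rw [D1T.tensorToHom_smul, hv]
    rfl

/-- **D1, final form for `parFin`** -/
theorem exists_eigenclass_parFin {g : CuspForm (Gamma0 N) 2} (hg : g.IsNormalizedEigenform)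
    {k₀ : Type*} [Field k₀] [Algebra (ZMod p) k₀] (π : Zbar →+* k₀) :
    ∃ c : k₀ ⊗[ZMod p] parFin N p, c ≠ 0 ∧
      ∀ (ℓ : ℕ) (hℓ : ℓ.Prime), ¬ ℓ ∣ N → ∀ a : Zbar,
        (a : ℂ) = ModularFormClass.qCoeff g ℓ →
          (heckeParFin N p ℓ hℓ).baseChange k₀ c = π a • c :=
  exists_eigenclass hg π (parFin N p) (fun c h1 h2 => ⟨h1, h2⟩) (heckeParFin N p)
    (fun ℓ hℓ hℓN c => coe_heckeParFin hℓ hℓN c)

end Fermat.Agent.S29.D1
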