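import Mathlib
import Fermat.Prelude.Def_ModularCurve_PeriodMap
import Fermat.Agent.Lib.ModCK.OverC

/-!
# C79 (S29/S42), piece D2: definitions

* `zetaP p = exp (2πi/p)`, `chi N p c γ = ζ_p ^ c(γ)` for `c : Γ₀(N) → ZMod p`;
* `HasChar N p c h`: `h` is a non-zero meromorphic function on `ℍ` with `h ^ p ∈ ℂ(X₀(N))` and
  `h(γ τ) = χ_c(γ) h(τ)` for `γ ∈ Γ₀(N)` (`merAct γ F = F ∘ γ⁻¹`).
-/

set_option autoImplicit false
set_option linter.unusedSectionVars false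

noncomputable section

open UpperHalfPlane CongruenceSubgroup AlgebraicCurve
open scoped MatrixGroups

namespace Fermat.Agent.S29.D2

open Fermat.Agent.Lib.ModC Fermat.Agent.Lib.ModCK

/-- `ζ_p = exp (2πi / p)` -/
def zetaP (p : ℕ) : ℂ := Complex.exp (2 * Real.pi * Complex.I / p)

theorem isPrimitiveRoot_zetaP (p : ℕ) [NeZero p] : IsPrimitiveRoot (zetaP p) p :=
  Complex.isPrimitiveRoot_exp p (NeZero.ne p)

theorem zetaP_pow (p : ℕ) [NeZero p] : zetaP p ^ p = 1 := (isPrimitiveRoot_zetaP p).pow_eq_one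

theorem zetaP_ne_zero (p : ℕ) [NeZero p] : zetaP p ≠ 0 := Complex.exp_ne_zero _

theorem norm_zetaP (p : ℕ) [NeZero p] : ‖zetaP p‖ = 1 :=
  (isPrimitiveRoot_zetaP p).norm'_eq_one (NeZero.ne p)

variable (N : ℕ) (p : ℕ)

/-- the character `χ_c(γ) = ζ_p ^ c(γ)` -/
def chi (c : Additive ↥(Gamma0 N) →+ ZMod p) (γ : ↥(Gamma0 N)) : ℂ :=
  zetaP p ^ (c (Additive.ofMul γ)).val

variable {N p}

theorem zetaP_pow_val_add [NeZero p] (a b : ZMod p) :
    zetaP p ^ (a + b).val = zetaP p ^ a.val * zetaP p ^ b.val := by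
  rw [← pow_add]
  have h := ZMod.val_add a b
  have h2 := Nat.div_add_mod (a.val + b.val) p
  rw [← h] at h2
  rw [← h2, pow_add, pow_mul, zetaP_pow, one_pow, one_mul]

theorem chi_mul [NeZero p] (c : Additive ↥(Gamma0 N) →+ ZMod p) (γ δ : ↥(Gamma0 N)) :
    chi N p c (γ * δ) = chi N p c γ * chi N p c δ := by
  unfold chi
  rw [ofMul_mul, map_add, zetaP_pow_val_add]

theorem chi_one [NeZero p] (c : Additive ↥(Gamma0 N) →+ ZMod p) : chi N p c 1 = 1 := by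
  unfold chi
  rw [ofMul_one, map_zero, ZMod.val_zero, pow_zero]

/-- `χ_c` as a monoid homomorphism -/
def chiHom [NeZero p] (c : Additive ↥(Gamma0 N) →+ ZMod p) : ↥(Gamma0 N) →* ℂ where
  toFun := chi N p c
  map_one' := chi_one c
  map_mul' := chi_mul c

@[simp]
theorem chiHom_apply [NeZero p] (c : Additive ↥(Gamma0 N) →+ ZMod p) (γ : ↥(Gamma0 N)) :
    chiHom c γ = chi N p c γ := rfl

theorem norm_chi [NeZero p] (c : Additive ↥(Gamma0 N) →+ ZMod p) (γ : ↥(Gamma0 N)) :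
    ‖chi N p c γ‖ = 1 := by
  unfold chi
  rw [norm_pow, norm_zetaP, one_pow]

theorem chi_pow [NeZero p] (c : Additive ↥(Gamma0 N) →+ ZMod p) (γ : ↥(Gamma0 N)) :
    chi N p c γ ^ p = 1 := by
  unfold chi
  rw [← pow_mul, mul_comm, pow_mul, zetaP_pow, one_pow]

theorem chi_eq_one_iff [NeZero p] (c : Additive ↥(Gamma0 N) →+ ZMod p) (γ : ↥(Gamma0 N)) :
    chi N p c γ = 1 ↔ c (Additive.ofMul γ) = 0 := by
  unfold chi
  constructor
  · intro h
    have h1 := (isPrimitiveRoot_zetaP p).dvd_of_pow_eq_one _ h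
    have h2 := ZMod.val_lt (c (Additive.ofMul γ))
    have h3 : (c (Additive.ofMul γ)).val = 0 := Nat.eq_zero_of_dvd_of_lt h1 h2
    exact (ZMod.val_eq_zero _).mp h3
  · intro h
    rw [h, ZMod.val_zero, pow_zero]

theorem chi_add [NeZero p] (c c' : Additive ↥(Gamma0 N) →+ ZMod p) (γ : ↥(Gamma0 N)) :
    chi N p (c + c') γ = chi N p c γ * chi N p c' γ := by
  unfold chi
  rw [AddMonoidHom.add_apply, zetaP_pow_val_add]

theorem chi_zero [NeZero p] (γ : ↥(Gamma0 N)) :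
    chi N p (0 : Additive ↥(Gamma0 N) →+ ZMod p) γ = 1 := by
  unfold chi
  rw [AddMonoidHom.zero_apply, ZMod.val_zero, pow_zero]

variable (N p)

/-- `h ∈ Mer^×` with `h ^ p ∈ ℂ(X₀(N))` and `h(γ τ) = χ_c(γ) h(τ)` for `γ ∈ Γ₀(N)` -/
structure HasChar [NeZero N] (c : Additive ↥(Gamma0 N) →+ ZMod p) (h : Mer) : Prop where
  ne_zero : h ≠ 0
  pow_mem : ∃ u : FC N, embC N u = h ^ p
  act : ∀ γ : ↥(Gamma0 N), merAct ((γ : SL(2, ℤ))⁻¹) h
    = algebraMap Hol Mer (constHol (chi N p c γ)) * h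

end Fermat.Agent.S29.D2
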