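import Mathlib

/-!
# C79 (S29/S42), piece D2, part I: twisted Eisenstein series

For a character `χ` of `Γ₀(N)` with values of norm one which is trivial on the upper triangular
elements, `E_χ(z) = ∑_{(c,d)} χ̄(γ_{c,d}) (cz + d)^{-k}` (`k ≥ 3`) is holomorphic on `ℍ`, satisfies
`E_χ(γ z) = χ(γ) (cz + d)^k E_χ(z)` for `γ ∈ Γ₀(N)`, has moderate growth, and is not zero
(for even `k`).
-/

set_option autoImplicit false
set_option linter.unusedSectionVars false

noncomputable section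

open UpperHalfPlane Function Complex ModularForm CongruenceSubgroup EisensteinSeries Filter
  Topology Set
open scoped Manifold MatrixGroups ModularForm

namespace Fermat.Agent.S29.D2

/-! ### weighted Eisenstein series -/

/-- the weighted Eisenstein series `∑_v ω(v) (v₀ z + v₁)^{-k}` -/
def wEis (ω : (Fin 2 → ℤ) → ℂ) (k : ℤ) (z : ℍ) : ℂ := ∑' v : Fin 2 → ℤ, ω v * eisSummand k v z

section Weighted

variable {ω : (Fin 2 → ℤ) → ℂ} (hω : ∀ v, ‖ω v‖ ≤ 1) {k : ℤ} (hk : 3 ≤ k)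

include hω in
theorem norm_wsummand_le (v : Fin 2 → ℤ) (z : ℍ) :
    ‖ω v * eisSummand k v z‖ ≤ ‖eisSummand k v z‖ := by
  rw [norm_mul]
  exact mul_le_of_le_one_left (norm_nonneg _) (hω v)

include hω hk in
theorem summable_wsummand (z : ℍ) : Summable fun v : Fin 2 → ℤ => ω v * eisSummand k v z :=
  Summable.of_norm_bounded (summable_norm_eisSummand hk z) (fun v => norm_wsummand_le hω v z)

include hω hk in
theorem norm_wEis_le (z : ℍ) : ‖wEis ω k z‖ ≤ ∑' v : Fin 2 → ℤ, ‖eisSummand k v z‖ := by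
  have h1 : Summable fun v : Fin 2 → ℤ => ‖ω v * eisSummand k v z‖ :=
    (summable_norm_eisSummand hk z).of_nonneg_of_le (fun _ => norm_nonneg _)
      (fun v => norm_wsummand_le hω v z)
  exact (norm_tsum_le_tsum_norm h1).trans
    (h1.tsum_le_tsum (fun v => norm_wsummand_le hω v z) (summable_norm_eisSummand hk z))

include hω hk in
theorem wEis_tendstoLocallyUniformly :
    TendstoLocallyUniformly (fun (s : Finset (Fin 2 → ℤ)) ↦ (∑ x ∈ s, ω x * eisSummand k x ·))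
      (wEis ω k ·) Filter.atTop := by
  have hk' : (2 : ℝ) < k := by norm_cast
  have p_sum : Summable fun x : Fin 2 → ℤ ↦ ‖x‖ ^ (-k) :=
    mod_cast (summable_one_div_norm_rpow hk')
  simp only [tendstoLocallyUniformly_iff_forall_isCompact, wEis]
  intro K hK
  obtain ⟨A, B, hB, HABK⟩ := subset_verticalStrip_of_isCompact hK
  refine (tendstoUniformlyOn_tsum (hu := p_sum.mul_left <| r ⟨⟨A, B⟩, hB⟩ ^ (-k : ℝ))
    (fun p z hz ↦ ?_)).mono HABK
  refine (norm_wsummand_le hω p z).trans ?_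
  simpa only [eisSummand, one_div, ← zpow_neg, norm_zpow, ← Real.rpow_intCast,
    Int.cast_neg] using summand_bound_of_mem_verticalStrip (by positivity) p hB hz

include hω hk in
theorem wEis_tendstoLocallyUniformlyOn :
    TendstoLocallyUniformlyOn (fun (s : Finset (Fin 2 → ℤ)) ↦
      ↑ₕ(fun (z : ℍ) ↦ ∑ x ∈ s, ω x * eisSummand k x z)) (↑ₕ(wEis ω k))
          Filter.atTop {z : ℂ | 0 < z.im} := by
  rw [← upperHalfPlaneSet, ← range_coe, ← image_univ]
  apply TendstoLocallyUniformlyOn.comp (s := ⊤) _ _ _ (OpenPartialHomeomorph.continuousOn_symm _)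
  · simp only [Set.top_eq_univ, tendstoLocallyUniformlyOn_univ]
    apply wEis_tendstoLocallyUniformly hω hk
  · simp only [IsOpenEmbedding.toOpenPartialHomeomorph_target, Set.top_eq_univ, mapsTo_range_iff,
    Set.mem_univ, forall_const]

theorem wsummand_extension_differentiableOn (c : ℂ) (a : Fin 2 → ℤ) :
    DifferentiableOn ℂ (↑ₕ(fun z : ℍ => c * eisSummand k a z)) {z : ℂ | 0 < z.im} := by
  have h := (eisSummand_extension_differentiableOn k a).const_mul c
  exact h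

include hω hk in
/-- weighted Eisenstein series are holomorphic -/
theorem wEis_mdifferentiable : MDiff (wEis ω k) := by
  intro τ
  suffices DifferentiableAt ℂ (↑ₕ(wEis ω k)) τ.1 by
    convert!
      MDifferentiableAt.comp τ (DifferentiableAt.mdifferentiableAt this) τ.mdifferentiable_coe
    exact funext fun z ↦ (comp_ofComplex (wEis ω k) z).symm
  refine DifferentiableOn.differentiableAt ?_ (isOpen_upperHalfPlaneSet.mem_nhds τ.2)
  refine (wEis_tendstoLocallyUniformlyOn hω hk).differentiableOn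
    (Eventually.of_forall fun s ↦ ?_) isOpen_upperHalfPlaneSet
  have : (↑ₕ(fun (z : ℍ) ↦ ∑ x ∈ s, ω x * eisSummand k x z))
      = fun w : ℂ => ∑ x ∈ s, (↑ₕ(fun z : ℍ => ω x * eisSummand k x z)) w := by
    funext w
    simp [Function.comp]
  rw [this]
  exact DifferentiableOn.fun_sum fun x _ ↦ wsummand_extension_differentiableOn (ω x) x

end Weighted

/-! ### the transformation law -/

/-- right multiplication by `g ∈ SL(2,ℤ)` on row vectors, as an equivalence -/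
def vecMulEquivSL (g : SL(2, ℤ)) : (Fin 2 → ℤ) ≃ (Fin 2 → ℤ) where
  toFun v := Matrix.vecMul v (g : Matrix (Fin 2) (Fin 2) ℤ)
  invFun v := Matrix.vecMul v ((g⁻¹ : SL(2, ℤ)) : Matrix (Fin 2) (Fin 2) ℤ)
  left_inv v := by
    beta_reduce
    rw [Matrix.vecMul_vecMul, ← Matrix.SpecialLinearGroup.coe_mul, mul_inv_cancel]
    simp
  right_inv v := by
    beta_reduce
    rw [Matrix.vecMul_vecMul, ← Matrix.SpecialLinearGroup.coe_mul, inv_mul_cancel]
    simp

theorem wEis_smul (ω : (Fin 2 → ℤ) → ℂ) (k : ℤ) (g : SL(2, ℤ)) (z : ℍ) :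
    wEis ω k (g • z) = (denom g z) ^ k
      * wEis (fun v => ω (Matrix.vecMul v ((g⁻¹ : SL(2, ℤ)) : Matrix (Fin 2) (Fin 2) ℤ))) k z := by
  unfold wEis
  rw [← tsum_mul_left]
  rw [← (vecMulEquivSL g).tsum_eq
    (fun v => (denom g z) ^ k * (ω (Matrix.vecMul v ((g⁻¹ : SL(2, ℤ)) : Matrix (Fin 2) (Fin 2) ℤ))
      * eisSummand k v z))]
  refine tsum_congr (fun v => ?_)
  have h1 : Matrix.vecMul ((vecMulEquivSL g) v) ((g⁻¹ : SL(2, ℤ)) : Matrix (Fin 2) (Fin 2) ℤ)
      = v := (vecMulEquivSL g).left_inv v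
  rw [h1, eisSummand_SL2_apply]
  show ω v * (denom (↑g) z ^ k * eisSummand k (Matrix.vecMul v (g : Matrix (Fin 2) (Fin 2) ℤ)) z) = _
  show _ = denom (↑g) z ^ k * (ω v * eisSummand k (Matrix.vecMul v (g : Matrix (Fin 2) (Fin 2) ℤ)) z)
  ring

/-! ### growth -/

/-- the constant `∑_v ‖v‖^{-4}` -/
def eisConst : ℝ := ∑' v : Fin 2 → ℤ, ‖v‖ ^ (-(4 : ℝ))

theorem summable_eisConst : Summable fun v : Fin 2 → ℤ => ‖v‖ ^ (-(4 : ℝ)) := by
  have := summable_one_div_norm_rpow (k := (4 : ℝ)) (by norm_num)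
  simpa [one_div, Real.rpow_neg] using this

theorem eisConst_nonneg : 0 ≤ eisConst :=
  tsum_nonneg fun _ => Real.rpow_nonneg (norm_nonneg _) _

theorem norm_eisSummand_four_le (v : Fin 2 → ℤ) (z : ℍ) :
    ‖eisSummand 4 v z‖ ≤ (r z) ^ (-(4 : ℝ)) * ‖v‖ ^ (-(4 : ℝ)) := by
  have h := summand_bound z (show (0 : ℝ) ≤ 4 by norm_num) v
  have e : ‖eisSummand 4 v z‖ = ‖(v 0 : ℂ) * (z : ℂ) + v 1‖ ^ (-(4 : ℝ)) := by
    rw [eisSummand, norm_zpow]
    rw [← Real.rpow_intCast]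
    norm_num
  rw [e]
  exact h

theorem tsum_norm_eisSummand_four_le (z : ℍ) :
    ∑' v : Fin 2 → ℤ, ‖eisSummand 4 v z‖ ≤ (r z) ^ (-(4 : ℝ)) * eisConst := by
  rw [eisConst, ← tsum_mul_left]
  exact (summable_norm_eisSummand (by norm_num) z).tsum_le_tsum
    (fun v => norm_eisSummand_four_le v z) (summable_eisConst.mul_left _)

theorem half_min_le_r (z : ℍ) (hz : |z.re| ≤ 1) : min z.im 1 / 2 ≤ r z := by
  have him := z.im_pos
  set B : ℝ := min z.im 1 with hB
  have hB0 : 0 < B := lt_min him one_pos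
  have hB1 : B ≤ 1 := min_le_right _ _
  have hBz : B ≤ z.im := min_le_left _ _
  have hmem : z ∈ verticalStrip 1 B := ⟨hz, hBz⟩
  refine le_trans ?_ (r_lower_bound_on_verticalStrip (z := z) hB0 hmem)
  unfold r
  apply le_min
  · show B / 2 ≤ B
    linarith
  · apply Real.le_sqrt_of_sq_le
    unfold r1
    show (B / 2) ^ 2 ≤ B ^ 2 / (1 ^ 2 + B ^ 2)
    rw [le_div_iff₀ (by positivity)]
    have hB2 : B ^ 2 ≤ 1 := by nlinarith
    nlinarith [sq_nonneg B, mul_pos hB0 hB0, mul_nonneg (sq_nonneg B) (sub_nonneg.mpr hB2)]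

theorem r_rpow_le (z : ℍ) (hz : |z.re| ≤ 1) :
    (r z) ^ (-(4 : ℝ)) ≤ 16 * (1 + (z.im⁻¹) ^ 4) := by
  have h1 := half_min_le_r z hz
  have him := z.im_pos
  set B : ℝ := min z.im 1 with hB
  have hB0 : 0 < B := lt_min him one_pos
  have h2 : (r z) ^ (-(4 : ℝ)) ≤ (B / 2) ^ (-(4 : ℝ)) :=
    Real.rpow_le_rpow_of_nonpos (by positivity) h1 (by norm_num)
  refine h2.trans ?_
  have e : (B / 2) ^ (-(4 : ℝ)) = 16 * (B⁻¹) ^ 4 := by
    rw [Real.rpow_neg (by positivity)]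
    have : (B / 2) ^ (4 : ℝ) = (B / 2) ^ (4 : ℕ) := by
      rw [← Real.rpow_natCast]
      norm_num
    rw [this]
    field_simp
    norm_num
  rw [e]
  apply mul_le_mul_of_nonneg_left _ (by norm_num)
  rcases le_total z.im 1 with h | h
  · have : B = z.im := min_eq_left h
    rw [this]
    linarith [pow_nonneg (inv_nonneg.mpr him.le) 4]
  · have : B = 1 := min_eq_right h
    rw [this]
    simp
    positivity

/-- growth of a weighted Eisenstein series in the strip `|re z| ≤ 1` -/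
theorem norm_wEis_four_le {ω : (Fin 2 → ℤ) → ℂ} (hω : ∀ v, ‖ω v‖ ≤ 1) (z : ℍ)
    (hz : |z.re| ≤ 1) : ‖wEis ω 4 z‖ ≤ 16 * eisConst * (1 + (z.im⁻¹) ^ 4) := by
  refine (norm_wEis_le hω (by norm_num) z).trans ?_
  refine (tsum_norm_eisSummand_four_le z).trans ?_
  have := mul_le_mul_of_nonneg_right (r_rpow_le z hz) eisConst_nonneg
  linarith

/-! ### the weights of a character -/

section Character

variable {N : ℕ} (χ : ↥(Gamma0 N) →* ℂ)

/-- the bottom row of a matrix -/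
def brow (g : SL(2, ℤ)) : Fin 2 → ℤ := fun i => g 1 i

theorem brow_mul (g' g : SL(2, ℤ)) :
    brow (g' * g) = Matrix.vecMul (brow g') (g : Matrix (Fin 2) (Fin 2) ℤ) := by
  funext i
  simp only [brow, Matrix.SpecialLinearGroup.coe_mul, Matrix.mul_apply, Matrix.vecMul,
    dotProduct]

/-- the weight `χ(γ)⁻¹` of the bottom row of `γ ∈ Γ₀(N)`, zero on all other vectors -/
def chiWeight (v : Fin 2 → ℤ) : ℂ := by
  classical
  exact if h : ∃ g : ↥(Gamma0 N), brow (g : SL(2, ℤ)) = v then (χ h.choose)⁻¹ else 0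

variable (hpar : ∀ g : ↥(Gamma0 N), (g : SL(2, ℤ)) 1 0 = 0 → χ g = 1)

theorem chi_ne_zero (g : ↥(Gamma0 N)) : χ g ≠ 0 := by
  intro h
  have h1 : χ g * χ g⁻¹ = 1 := by rw [← map_mul, mul_inv_cancel, map_one]
  rw [h, zero_mul] at h1
  exact zero_ne_one h1

include hpar in
theorem chi_eq_of_brow_eq (g g' : ↥(Gamma0 N))
    (h : brow (g : SL(2, ℤ)) = brow (g' : SL(2, ℤ))) : χ g = χ g' := by
  have h0 : ((g * g'⁻¹ : ↥(Gamma0 N)) : SL(2, ℤ)) 1 0 = 0 := by
    have e0 := congrFun h 0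
    have e1 := congrFun h 1
    simp only [brow] at e0 e1
    have : ((g * g'⁻¹ : ↥(Gamma0 N)) : SL(2, ℤ)) = (g : SL(2, ℤ)) * (g' : SL(2, ℤ))⁻¹ := rfl
    rw [this, Matrix.SpecialLinearGroup.coe_mul, Matrix.mul_apply, Fin.sum_univ_two,
      Matrix.SpecialLinearGroup.coe_inv, Matrix.adjugate_fin_two]
    simp only [Matrix.of_apply, Matrix.cons_val', Matrix.cons_val_zero, Matrix.cons_val_one,
      Matrix.cons_val_fin_one]
    rw [e0, e1]
    ring
  have h1 := hpar _ h0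
  rw [map_mul] at h1
  have h2 : χ g' * χ g'⁻¹ = 1 := by rw [← map_mul, mul_inv_cancel, map_one]
  calc χ g = χ g * (χ g' * χ g'⁻¹) := by rw [h2, mul_one]
    _ = (χ g * χ g'⁻¹) * χ g' := by ring
    _ = χ g' := by rw [h1, one_mul]

include hpar in
theorem chiWeight_brow (g : ↥(Gamma0 N)) : chiWeight χ (brow (g : SL(2, ℤ))) = (χ g)⁻¹ := by
  classical
  have h : ∃ g' : ↥(Gamma0 N), brow (g' : SL(2, ℤ)) = brow (g : SL(2, ℤ)) := ⟨g, rfl⟩
  unfold chiWeight
  rw [dif_pos h]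
  rw [chi_eq_of_brow_eq χ hpar _ _ h.choose_spec]

include hpar in
theorem chiWeight_vecMul (g : ↥(Gamma0 N)) (v : Fin 2 → ℤ) :
    chiWeight χ (Matrix.vecMul v ((g : SL(2, ℤ)) : Matrix (Fin 2) (Fin 2) ℤ))
      = (χ g)⁻¹ * chiWeight χ v := by
  classical
  by_cases h : ∃ g' : ↥(Gamma0 N), brow (g' : SL(2, ℤ)) = v
  · obtain ⟨g', rfl⟩ := h
    have e : Matrix.vecMul (brow (g' : SL(2, ℤ))) ((g : SL(2, ℤ)) : Matrix (Fin 2) (Fin 2) ℤ)
        = brow (((g' * g : ↥(Gamma0 N))) : SL(2, ℤ)) := (brow_mul _ _).symm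
    rw [e, chiWeight_brow χ hpar, chiWeight_brow χ hpar, map_mul, mul_inv, mul_comm]
  · have h' : ¬ ∃ g' : ↥(Gamma0 N), brow (g' : SL(2, ℤ))
        = Matrix.vecMul v ((g : SL(2, ℤ)) : Matrix (Fin 2) (Fin 2) ℤ) := by
      rintro ⟨g', hg'⟩
      apply h
      refine ⟨g' * g⁻¹, ?_⟩
      have : ((g' * g⁻¹ : ↥(Gamma0 N)) : SL(2, ℤ)) = (g' : SL(2, ℤ)) * (g : SL(2, ℤ))⁻¹ := rfl
      rw [this, brow_mul, hg', Matrix.vecMul_vecMul, ← Matrix.SpecialLinearGroup.coe_mul,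
        mul_inv_cancel]
      simp
    unfold chiWeight
    rw [dif_neg h, dif_neg h', mul_zero]

theorem norm_chiWeight_le (hnorm : ∀ g : ↥(Gamma0 N), ‖χ g‖ = 1) (v : Fin 2 → ℤ) :
    ‖chiWeight χ v‖ ≤ 1 := by
  classical
  unfold chiWeight
  split_ifs with h
  · rw [norm_inv, hnorm, inv_one]
  · rw [norm_zero]
    exact zero_le_one

/-- the twisted Eisenstein series of weight `k` -/
def twEis (k : ℤ) : ℍ → ℂ := wEis (chiWeight χ) k

include hpar in
/-- the transformation law -/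
theorem twEis_smul (k : ℤ) (g : ↥(Gamma0 N)) (z : ℍ) :
    twEis χ k ((g : SL(2, ℤ)) • z) = χ g * (denom (g : SL(2, ℤ)) z) ^ k * twEis χ k z := by
  unfold twEis
  rw [wEis_smul]
  have e : (fun v => chiWeight χ
      (Matrix.vecMul v (((g : SL(2, ℤ))⁻¹ : SL(2, ℤ)) : Matrix (Fin 2) (Fin 2) ℤ)))
      = fun v => χ g * chiWeight χ v := by
    funext v
    have := chiWeight_vecMul χ hpar g⁻¹ v
    have e1 : ((g⁻¹ : ↥(Gamma0 N)) : SL(2, ℤ)) = (g : SL(2, ℤ))⁻¹ := rfl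
    rw [e1] at this
    have h2 : χ g * χ g⁻¹ = 1 := by rw [← map_mul, mul_inv_cancel, map_one]
    rw [this, inv_eq_of_mul_eq_one_left h2]
  rw [e]
  unfold wEis
  simp_rw [mul_assoc]
  rw [tsum_mul_left]
  ring

/-- `T ^ n` as an element of `Γ₀(N)` -/
def tPow (N : ℕ) (n : ℤ) : ↥(Gamma0 N) :=
  ⟨ModularGroup.T ^ n, by
    rw [Gamma0_mem, ModularGroup.coe_T_zpow]
    simp⟩

theorem tPow_lower (n : ℤ) : ((tPow N n : ↥(Gamma0 N)) : SL(2, ℤ)) 1 0 = 0 := by
  show (ModularGroup.T ^ n : SL(2, ℤ)) 1 0 = 0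
  rw [ModularGroup.coe_T_zpow]
  simp

include hpar in
theorem twEis_T_zpow_smul (k : ℤ) (n : ℤ) (z : ℍ) :
    twEis χ k ((ModularGroup.T ^ n : SL(2, ℤ)) • z) = twEis χ k z := by
  have h := twEis_smul χ hpar k (tPow N n) z
  have h1 : χ (tPow N n) = 1 := hpar _ (tPow_lower n)
  have h2 : denom ((tPow N n : ↥(Gamma0 N)) : SL(2, ℤ)) z = 1 := by
    show denom ((ModularGroup.T ^ n : SL(2, ℤ))) z = 1
    rw [ModularGroup.denom_apply, ModularGroup.coe_T_zpow]
    simp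
  rw [h1, h2, one_zpow, one_mul, one_mul] at h
  exact h

include hpar in
/-- **moderate growth** of the twisted Eisenstein series of weight `4` -/
theorem norm_twEis_four_le (hnorm : ∀ g : ↥(Gamma0 N), ‖χ g‖ = 1) (z : ℍ) :
    ‖twEis χ 4 z‖ ≤ 16 * eisConst * (1 + (z.im⁻¹) ^ 4) := by
  obtain ⟨n, hn⟩ := ModularGroup_T_zpow_mem_verticalStrip z (N := 1) one_pos
  rw [← twEis_T_zpow_smul χ hpar 4 ((1 : ℕ) * n) z]
  have h1 := norm_wEis_four_le (norm_chiWeight_le χ hnorm)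
    ((ModularGroup.T ^ (((1 : ℕ) : ℤ) * n) : SL(2, ℤ)) • z) (by simpa using hn.1)
  have h2 : ((ModularGroup.T ^ (((1 : ℕ) : ℤ) * n) : SL(2, ℤ)) • z).im = z.im := by
    rw [modular_T_zpow_smul]
    simp
  rw [h2] at h1
  exact h1

theorem twEis_mdifferentiable (hnorm : ∀ g : ↥(Gamma0 N), ‖χ g‖ = 1) {k : ℤ} (hk : 3 ≤ k) :
    MDiff (twEis χ k) :=
  wEis_mdifferentiable (norm_chiWeight_le χ hnorm) hk

/-! ### non-vanishing -/

/-- the points `i (n + 1)` -/
def iPt (n : ℕ) : ℍ := ⟨Complex.I * ((n : ℂ) + 1), by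
  have : (Complex.I * ((n : ℂ) + 1)).im = (n : ℝ) + 1 := by simp
  rw [this]
  positivity⟩

theorem iPt_re (n : ℕ) : (iPt n).re = 0 := by
  show (Complex.I * ((n : ℂ) + 1)).re = 0
  simp

theorem iPt_im (n : ℕ) : (iPt n).im = (n : ℝ) + 1 := by
  show (Complex.I * ((n : ℂ) + 1)).im = (n : ℝ) + 1
  simp

theorem coe_iPt (n : ℕ) : ((iPt n : ℍ) : ℂ) = Complex.I * ((n : ℂ) + 1) := rfl

/-- the limit of the summands along `i (n + 1)` -/
def limSummand (ω : (Fin 2 → ℤ) → ℂ) (v : Fin 2 → ℤ) : ℂ :=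
  if v 0 = 0 then ω v * ((v 1 : ℂ)) ^ (-(4 : ℤ)) else 0

theorem tendsto_summand (ω : (Fin 2 → ℤ) → ℂ) (v : Fin 2 → ℤ) :
    Tendsto (fun n : ℕ => ω v * eisSummand 4 v (iPt n)) atTop (𝓝 (limSummand ω v)) := by
  unfold limSummand
  by_cases h : v 0 = 0
  · rw [if_pos h]
    have : (fun n : ℕ => ω v * eisSummand 4 v (iPt n)) = fun _ => ω v * ((v 1 : ℂ)) ^ (-(4 : ℤ)) := by
      funext n
      rw [eisSummand, h]
      simp
    rw [this]
    exact tendsto_const_nhds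
  · rw [if_neg h]
    apply squeeze_zero_norm (a := fun n : ℕ => ‖ω v‖ * ((n : ℝ) + 1)⁻¹ ^ 4)
    · intro n
      rw [norm_mul]
      apply mul_le_mul_of_nonneg_left _ (norm_nonneg _)
      rw [eisSummand, norm_zpow, coe_iPt]
      have h1 : (n : ℝ) + 1 ≤ ‖(v 0 : ℂ) * (Complex.I * ((n : ℂ) + 1)) + (v 1 : ℂ)‖ := by
        have h2 : |((v 0 : ℂ) * (Complex.I * ((n : ℂ) + 1)) + (v 1 : ℂ)).im|
            ≤ ‖(v 0 : ℂ) * (Complex.I * ((n : ℂ) + 1)) + (v 1 : ℂ)‖ := Complex.abs_im_le_norm _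
        have h3 : ((v 0 : ℂ) * (Complex.I * ((n : ℂ) + 1)) + (v 1 : ℂ)).im
            = (v 0 : ℝ) * ((n : ℝ) + 1) := by
          simp
        rw [h3, abs_mul] at h2
        have h4 : (1 : ℝ) ≤ |(v 0 : ℝ)| := by
          have : (1 : ℤ) ≤ |v 0| := Int.one_le_abs h
          exact_mod_cast this
        have h5 : |(n : ℝ) + 1| = (n : ℝ) + 1 := abs_of_pos (by positivity)
        rw [h5] at h2
        nlinarith [show (0 : ℝ) ≤ (n : ℝ) + 1 by positivity]
      have hpos : (0 : ℝ) < (n : ℝ) + 1 := by positivity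
      rw [zpow_neg]
      have e : (‖(v 0 : ℂ) * (Complex.I * ((n : ℂ) + 1)) + (v 1 : ℂ)‖ ^ (4 : ℤ))⁻¹
          = (‖(v 0 : ℂ) * (Complex.I * ((n : ℂ) + 1)) + (v 1 : ℂ)‖⁻¹) ^ 4 := by
        rw [inv_pow]
        norm_cast
      rw [e]
      apply pow_le_pow_left₀ (by positivity)
      exact inv_anti₀ hpos h1
    · have h1 : Tendsto (fun n : ℕ => ((n : ℝ) + 1)⁻¹) atTop (𝓝 0) := by
        have := tendsto_one_div_add_atTop_nhds_zero_nat (𝕜 := ℝ)
        simpa [one_div] using this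
      have h2 := (h1.pow 4).const_mul ‖ω v‖
      simpa using h2

theorem tendsto_wEis_iPt {ω : (Fin 2 → ℤ) → ℂ} (hω : ∀ v, ‖ω v‖ ≤ 1) :
    Tendsto (fun n : ℕ => wEis ω 4 (iPt n)) atTop (𝓝 (∑' v, limSummand ω v)) := by
  unfold wEis
  have hI : (0 : ℝ) < 1 := one_pos
  refine tendsto_tsum_of_dominated_convergence
    (bound := fun v : Fin 2 → ℤ => (r ⟨⟨0, 1⟩, hI⟩) ^ (-(4 : ℝ)) * ‖v‖ ^ (-(4 : ℝ)))
    (summable_eisConst.mul_left _) (fun v => tendsto_summand ω v) ?_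
  refine Eventually.of_forall (fun n v => ?_)
  refine (norm_wsummand_le hω v (iPt n)).trans ?_
  refine (norm_eisSummand_four_le v (iPt n)).trans ?_
  apply mul_le_mul_of_nonneg_right _ (Real.rpow_nonneg (norm_nonneg _) _)
  have hmem : iPt n ∈ verticalStrip 0 1 := by
    refine ⟨?_, ?_⟩
    · rw [iPt_re]
      simp
    · rw [iPt_im]
      have : (0 : ℝ) ≤ n := Nat.cast_nonneg n
      linarith
  have h1 := r_lower_bound_on_verticalStrip (z := iPt n) hI hmem
  exact Real.rpow_le_rpow_of_nonpos (r_pos _) h1 (by norm_num)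

/-- `-1` as an element of `Γ₀(N)` -/
def negOne (N : ℕ) : ↥(Gamma0 N) :=
  ⟨-1, by
    rw [Gamma0_mem]
    simp⟩

theorem brow_one : brow (1 : SL(2, ℤ)) = ![0, 1] := by
  funext i
  fin_cases i <;> simp [brow]

theorem brow_negOne : brow ((negOne N : ↥(Gamma0 N)) : SL(2, ℤ)) = ![0, -1] := by
  funext i
  fin_cases i <;> simp [brow, negOne]

include hpar in
theorem chiWeight_zero_one : chiWeight χ ![0, 1] = 1 := by
  have h := chiWeight_brow χ hpar 1
  have e : brow (((1 : ↥(Gamma0 N))) : SL(2, ℤ)) = ![0, 1] := brow_one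
  rw [e, map_one, inv_one] at h
  exact h

include hpar in
theorem chiWeight_zero_negOne : chiWeight χ ![0, -1] = 1 := by
  have h := chiWeight_brow χ hpar (negOne N)
  rw [brow_negOne] at h
  have h1 : χ (negOne N) = 1 := hpar _ (by simp [negOne])
  rw [h1, inv_one] at h
  exact h

theorem eq_of_chiWeight_ne_zero {v : Fin 2 → ℤ} (h0 : v 0 = 0) (h : chiWeight χ v ≠ 0) :
    v = ![0, 1] ∨ v = ![0, -1] := by
  classical
  have hex : ∃ g : ↥(Gamma0 N), brow (g : SL(2, ℤ)) = v := by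
    by_contra hcon
    apply h
    unfold chiWeight
    rw [dif_neg hcon]
  obtain ⟨g, rfl⟩ := hex
  have hdet := (g : SL(2, ℤ)).det_coe
  rw [Matrix.det_fin_two] at hdet
  have h10 : (g : SL(2, ℤ)) 1 0 = 0 := h0
  rw [h10, mul_zero, sub_zero] at hdet
  have h11 : (g : SL(2, ℤ)) 1 1 = 1 ∨ (g : SL(2, ℤ)) 1 1 = -1 :=
    Int.isUnit_iff.mp (IsUnit.of_mul_eq_one _ (by rw [mul_comm]; exact hdet))
  rcases h11 with h11 | h11
  · left
    funext i
    fin_cases i
    · exact h10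
    · exact h11
  · right
    funext i
    fin_cases i
    · exact h10
    · exact h11

include hpar in
theorem tsum_limSummand : ∑' v, limSummand (chiWeight χ) v = 2 := by
  classical
  have hne : (![0, 1] : Fin 2 → ℤ) ≠ ![0, -1] := by
    intro h
    have := congrFun h 1
    simp at this
  rw [tsum_eq_sum (s := {![0, 1], ![0, -1]})]
  · rw [Finset.sum_pair hne]
    unfold limSummand
    simp only [Matrix.cons_val_zero, if_true, Matrix.cons_val_one, Matrix.cons_val_fin_one]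
    rw [chiWeight_zero_one χ hpar, chiWeight_zero_negOne χ hpar]
    norm_num
  · intro v hv
    unfold limSummand
    split_ifs with h0
    · by_cases hw : chiWeight χ v = 0
      · rw [hw, zero_mul]
      · exfalso
        apply hv
        rcases eq_of_chiWeight_ne_zero χ h0 hw with h | h
        · rw [h]; simp
        · rw [h]; simp
    · rfl

include hpar in
/-- the twisted Eisenstein series of weight `4` is not zero -/
theorem exists_twEis_ne_zero (hnorm : ∀ g : ↥(Gamma0 N), ‖χ g‖ = 1) :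
    ∃ z : ℍ, twEis χ 4 z ≠ 0 := by
  have h := tendsto_wEis_iPt (norm_chiWeight_le χ hnorm)
  rw [tsum_limSummand χ hpar] at h
  by_contra hcon
  rw [not_exists] at hcon
  have h0 : (fun n : ℕ => wEis (chiWeight χ) 4 (iPt n)) = fun _ => 0 := by
    funext n
    have := hcon (iPt n)
    rw [not_not] at this
    exact this
  rw [h0] at h
  have := tendsto_nhds_unique h tendsto_const_nhds
  norm_num at this

end Character

end Fermat.Agent.S29.D2
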