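import Mathlib
import Fermat.Agent.Lib.ModJ.SturmFrac
import Fermat.Agent.Lib.ModJ.DegreeGlue
import Fermat.Agent.Lib.ModJ.Degree
import Fermat.Agent.Lib.ModCK.OverC

/-!
# C79 (S29/S42), piece D2, part II: a ratio of two modular forms of equal weight on `Γ₀(N)`
is (the analytic function of) an element of the function field `FC N` of `X₀(N)` over `ℂ`.
-/

set_option autoImplicit false
set_option linter.unusedSectionVars false

noncomputable section

open UpperHalfPlane Function Complex ModularForm CongruenceSubgroup IntermediateField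
open scoped Manifold MatrixGroups ModularForm

namespace Fermat.Agent.S29.D2

open Fermat.Agent.Lib.ModJ Fermat.Agent.Lib.ModC Fermat.Agent.Lib.ModCK

variable (N : ℕ) [NeZero N]

/-- a modular form on `Γ₀(N)` has a `q`-expansion -/
theorem exists_hasQ_of_isMF {k : ℤ} {g : ℍ → ℂ} (hg : IsMF N k g) :
    ∃ S : PowerSeries ℂ, HasQ 1 g S := by
  obtain ⟨f, rfl⟩ := hg
  exact ⟨qExpansion 1 f, fun τ =>
    ModularForm.hasSum_qExpansion (f := f) one_pos (one_mem_strictPeriods_Gamma0 N) τ⟩

/-- the index type: the generators `j(dz)`, `d ∣ N`, and one more fraction -/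
abbrev FIdx : Type := Option (DivN N)

section Data

variable {N}
variable {k : ℕ} {A B : ℍ → ℂ} (hA : IsMF N k A) (hB : IsMF N k B) {a b : PowerSeries ℂ}
  (ha : HasQ 1 A a) (hb : HasQ 1 B b) (hb0 : b ≠ 0)

/-- the fraction data: `j(dz) = E₄(dz)³ / Δ(dz)` and `A / B` -/
def fracData : FracData ℂ (RingHom.id ℂ) N (FIdx N) where
  w i := i.elim k (fun _ => 12)
  A i := i.elim A (fun d z => jFunD (divPNat N d) z ^ 1
    * ModularForm.discriminant (pnatSMul (divPNat N d) z) ^ 1)
  B i := i.elim B (fun d z => ModularForm.discriminant (pnatSMul (divPNat N d) z))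
  a i := i.elim (HahnSeries.ofPowerSeries ℤ ℂ a)
    (fun d => jqK ℂ (divPNat N d) * deltaK ℂ (divPNat N d))
  b i := i.elim (HahnSeries.ofPowerSeries ℤ ℂ b) (fun d => deltaK ℂ (divPNat N d))
  isMF_A i := by
    cases i with
    | none => exact hA
    | some d =>
      have := isMF_factor (N := N) (divPNat N) (divPNat_dvd N) d (le_refl 1)
      exact this
  isMF_B i := by
    cases i with
    | none => exact hB
    | some d => exact isMF_disc (divPNat N d) (divPNat_dvd N d)
  hasQL_A i := by
    cases i with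
    | none =>
      rw [ModularCurve.coeffMap_id]
      exact ha.hasQL
    | some d =>
      rw [ModularCurve.coeffMap_id]
      have h1 : HasQL 1 (jFunD (divPNat N d)) (jqK ℂ (divPNat N d)) := by
        have := hasQL_jFunD (divPNat N d)
        rwa [← coeffMap_jqK (RingHom.id ℂ), ModularCurve.coeffMap_id] at this
      have h2 := hasQL_deltaK (RingHom.id ℂ) (divPNat N d)
      rw [ModularCurve.coeffMap_id] at h2
      exact (h1.mul h2).congr (fun z => by simp)
  hasQL_B i := by
    cases i with
    | none =>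
      rw [ModularCurve.coeffMap_id]
      exact hb.hasQL
    | some d =>
      exact hasQL_deltaK (RingHom.id ℂ) (divPNat N d)
  b_ne i := by
    cases i with
    | none =>
      intro h
      apply hb0
      have h' : HahnSeries.ofPowerSeries ℤ ℂ b = 0 := h
      exact HahnSeries.ofPowerSeries_injective (by rw [h', map_zero])
    | some d => exact deltaK_ne_zero (RingHom.id ℂ) (divPNat N d)

theorem fracData_gen_some (d : DivN N) :
    (fracData hA hB ha hb hb0).gen (some d) = jqK ℂ (divPNat N d) := by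
  show jqK ℂ (divPNat N d) * deltaK ℂ (divPNat N d) / deltaK ℂ (divPNat N d) = _
  rw [mul_div_assoc, div_self (deltaK_ne_zero (RingHom.id ℂ) (divPNat N d)), mul_one]

theorem fracData_gen_none :
    (fracData hA hB ha hb hb0).gen none
      = HahnSeries.ofPowerSeries ℤ ℂ a / HahnSeries.ofPowerSeries ℤ ℂ b := rfl

end Data

/-! ### field theory -/

theorem relfinrank_adjoin_simple_eq {K L : Type*} [Field K] [Field L] [Algebra K L]
    (E : IntermediateField K L) (x : E) :
    relfinrank K⟮(x : L)⟯ E = Module.finrank K⟮x⟯ E := by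
  have h1 : (K⟮(x : L)⟯).comap E.val = K⟮x⟯ := by
    apply le_antisymm
    · intro y hy
      have hy' : (y : L) ∈ K⟮(x : L)⟯ := hy
      have e : K⟮(x : L)⟯ = (K⟮x⟯).map E.val := by
        rw [IntermediateField.adjoin_map]
        simp
      rw [e] at hy'
      obtain ⟨z, hz, hzy⟩ := hy'
      have : z = y := Subtype.ext hzy
      rwa [← this]
    · rw [IntermediateField.adjoin_le_iff]
      intro y hy
      rw [Set.mem_singleton_iff] at hy
      subst hy
      show (y : L) ∈ K⟮(y : L)⟯
      exact IntermediateField.mem_adjoin_simple_self K _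
  have h2 := IntermediateField.relfinrank_comap (K⟮(x : L)⟯) E.val (⊤ : IntermediateField K E)
  rw [h1, IntermediateField.relfinrank_top_right] at h2
  rw [h2]
  congr 1
  ext y
  constructor
  · intro hy
    exact ⟨⟨y, hy⟩, trivial, rfl⟩
  · rintro ⟨z, -, rfl⟩
    exact z.2

section Degree

variable {N}
variable {k : ℕ} {A B : ℍ → ℂ} (hA : IsMF N k A) (hB : IsMF N k B) {a b : PowerSeries ℂ}
  (ha : HasQ 1 A a) (hb : HasQ 1 B b) (hb0 : b ≠ 0)

/-- the field generated by the `j(dz)` and `a / b` -/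
def bigField : IntermediateField ℂ (LaurentSeries ℂ) :=
  IntermediateField.adjoin ℂ (Set.range (fracData hA hB ha hb hb0).gen)

/-- the generators, in the big field -/
def bigGen (i : FIdx N) : bigField hA hB ha hb hb0 :=
  ⟨(fracData hA hB ha hb hb0).gen i, IntermediateField.subset_adjoin ℂ _ ⟨i, rfl⟩⟩

theorem adjoin_bigGen_eq_top :
    IntermediateField.adjoin ℂ (Set.range (bigGen hA hB ha hb hb0)) = ⊤ := by
  rw [eq_top_iff]
  intro z _
  have h1 : ((IntermediateField.adjoin ℂ (Set.range (bigGen hA hB ha hb hb0))).map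
      (bigField hA hB ha hb hb0).val) = bigField hA hB ha hb hb0 := by
    rw [IntermediateField.adjoin_map]
    unfold bigField
    congr 1
    ext w
    constructor
    · rintro ⟨_, ⟨i, rfl⟩, rfl⟩
      exact ⟨i, rfl⟩
    · rintro ⟨i, rfl⟩
      exact ⟨bigGen hA hB ha hb hb0 i, ⟨i, rfl⟩, rfl⟩
  have h2 : (z : LaurentSeries ℂ) ∈
      (IntermediateField.adjoin ℂ (Set.range (bigGen hA hB ha hb hb0))).map
        (bigField hA hB ha hb hb0).val := by
    rw [h1]
    exact z.2
  obtain ⟨w, hw, hwz⟩ := h2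
  have : w = z := Subtype.ext hwz
  rwa [← this]

theorem val_aeval_bigGen (Q : MvPolynomial (FIdx N) ℂ) :
    ((MvPolynomial.aeval (bigGen hA hB ha hb hb0) Q : bigField hA hB ha hb hb0)
        : LaurentSeries ℂ)
      = MvPolynomial.aeval (fracData hA hB ha hb hb0).gen Q := by
  have : ((bigField hA hB ha hb hb0).val).comp (MvPolynomial.aeval (bigGen hA hB ha hb hb0))
      = MvPolynomial.aeval (fracData hA hB ha hb hb0).gen := by
    refine MvPolynomial.algHom_ext (fun i => ?_)
    simp [bigGen]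
  exact congrArg (fun f : MvPolynomial (FIdx N) ℂ →ₐ[ℂ] LaurentSeries ℂ => f Q) this

theorem val_aeval_poly_big (x : bigField hA hB ha hb hb0) (p : Polynomial ℂ) :
    ((Polynomial.aeval x p : bigField hA hB ha hb hb0) : LaurentSeries ℂ)
      = Polynomial.aeval (x : LaurentSeries ℂ) p :=
  (Polynomial.aeval_algHom_apply (bigField hA hB ha hb hb0).val x p).symm

theorem coe_bigGen_one :
    ((bigGen hA hB ha hb hb0 (some (divOne N)) : bigField hA hB ha hb hb0) : LaurentSeries ℂ)
      = jqK ℂ 1 := by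
  show (fracData hA hB ha hb hb0).gen (some (divOne N)) = _
  rw [fracData_gen_some, divPNat_divOne]

theorem transcendental_bigGen_one :
    Transcendental ℂ (bigGen hA hB ha hb hb0 (some (divOne N))) := by
  rw [transcendental_iff]
  intro p hp
  have h1 := val_aeval_poly_big hA hB ha hb hb0 (bigGen hA hB ha hb hb0 (some (divOne N))) p
  rw [hp, coe_bigGen_one] at h1
  exact (transcendental_iff.mp transcendental_jqK) p h1.symm

theorem exists_dependence_big
    (Q : Fin (ModularCurve.dedekindPsi N + 1) → MvPolynomial (FIdx N) ℂ) :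
    ∃ p : Fin (ModularCurve.dedekindPsi N + 1) → Polynomial ℂ, p ≠ 0 ∧
      ∑ i, Polynomial.aeval (bigGen hA hB ha hb hb0 (some (divOne N))) (p i)
        * MvPolynomial.aeval (bigGen hA hB ha hb hb0) (Q i) = 0 := by
  classical
  obtain ⟨m, c, hc, h0⟩ := (fracData hA hB ha hb hb0).exists_dependence_aux (some (divOne N)) rfl
    (ModularCurve.dedekindPsi N) (index_Gamma0 N).le Q
  refine ⟨depPoly c, depPoly_ne_zero hc, ?_⟩
  apply Subtype.ext
  rw [aeval_depFam_sum'] at h0
  rw [ZeroMemClass.coe_zero, ← h0]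
  simp only [IntermediateField.coe_sum, IntermediateField.coe_mul, val_aeval_bigGen,
    val_aeval_poly_big]
  rfl

theorem finrank_bigField_le :
    FiniteDimensional ℂ⟮bigGen hA hB ha hb hb0 (some (divOne N))⟯ (bigField hA hB ha hb hb0) ∧
    Module.finrank ℂ⟮bigGen hA hB ha hb hb0 (some (divOne N))⟯ (bigField hA hB ha hb hb0)
      ≤ ModularCurve.dedekindPsi N :=
  finrank_le_of_dependence (bigGen hA hB ha hb hb0) (adjoin_bigGen_eq_top hA hB ha hb hb0)
    _ (ModularCurve.dedekindPsi N) (transcendental_bigGen_one hA hB ha hb hb0)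
    (exists_dependence_big hA hB ha hb hb0)

theorem FFK_le_bigField : FFK ℂ N ≤ bigField hA hB ha hb hb0 := by
  refine (FFK_le_adjoin ℂ N).trans ?_
  rw [bigField]
  apply IntermediateField.adjoin.mono
  rintro _ ⟨i, rfl⟩
  exact ⟨some i, fracData_gen_some hA hB ha hb hb0 i⟩

include hA hB ha hb hb0 in
/-- **(M′), formal version**: the formal fraction `a / b` lies in the function field. -/
theorem div_mem_FFK :
    (HahnSeries.ofPowerSeries ℤ ℂ a / HahnSeries.ofPowerSeries ℤ ℂ b : LaurentSeries ℂ)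
      ∈ FFK ℂ N := by
  have hle := FFK_le_bigField hA hB ha hb hb0
  -- degrees
  have h1 : relfinrank ℂ⟮jqK ℂ 1⟯ (FFK ℂ N) = ModularCurve.dedekindPsi N := by
    have e := relfinrank_adjoin_simple_eq (FFK ℂ N) (jK ℂ N)
    have e' : ((jK ℂ N : FFK ℂ N) : LaurentSeries ℂ) = jqK ℂ 1 := by
      rw [coe_jK, jqK]
      congr 1
      exact (ModularCurve.qExpand_one_apply _).symm
    rw [e'] at e
    rw [e]
    exact finrank_jFC N
  obtain ⟨hfd, h2⟩ := finrank_bigField_le hA hB ha hb hb0
  have h2' : relfinrank ℂ⟮jqK ℂ 1⟯ (bigField hA hB ha hb hb0)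
      = Module.finrank ℂ⟮bigGen hA hB ha hb hb0 (some (divOne N))⟯
          (bigField hA hB ha hb hb0) := by
    have e := relfinrank_adjoin_simple_eq (bigField hA hB ha hb hb0)
      (bigGen hA hB ha hb hb0 (some (divOne N)))
    rwa [coe_bigGen_one] at e
  have hpos : 0 < Module.finrank ℂ⟮bigGen hA hB ha hb hb0 (some (divOne N))⟯
      (bigField hA hB ha hb hb0) := Module.finrank_pos
  have hk1 : ℂ⟮jqK ℂ 1⟯ ≤ FFK ℂ N := by
    rw [IntermediateField.adjoin_le_iff]
    intro y hy
    rw [Set.mem_singleton_iff] at hy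
    subst hy
    have := jqK_mem ℂ N (divOne N)
    rwa [divPNat_divOne] at this
  have hmul := IntermediateField.relfinrank_mul_relfinrank hk1 hle
  rw [h1, h2'] at hmul
  have hψ : 0 < ModularCurve.dedekindPsi N := by
    rw [← h1]
    by_contra hcon
    rw [not_lt, Nat.le_zero] at hcon
    rw [h1] at hcon
    rw [hcon, zero_mul] at hmul
    omega
  have hr : relfinrank (FFK ℂ N) (bigField hA hB ha hb hb0) = 1 := by
    set r := relfinrank (FFK ℂ N) (bigField hA hB ha hb hb0)
    have hr0 : r ≠ 0 := by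
      rintro hr0
      rw [hr0, mul_zero] at hmul
      omega
    have : ModularCurve.dedekindPsi N * r ≤ ModularCurve.dedekindPsi N * 1 := by
      rw [hmul, mul_one]
      exact h2
    have := Nat.le_of_mul_le_mul_left this hψ
    omega
  have hle2 := IntermediateField.relfinrank_eq_one_iff.mp hr
  apply hle2
  have := (bigGen hA hB ha hb hb0 none).2
  exact this

end Degree

/-! ### the analytic statement -/

/-- **(M′)**: a ratio of two modular forms of the same weight on `Γ₀(N)` lies in the function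
field: `embC u · B = A`. -/
theorem exists_embC_mul_eq {k : ℕ} (A B : Hol) (hA : IsMF N k (A : ℍ → ℂ))
    (hB : IsMF N k (B : ℍ → ℂ)) (hB0 : B ≠ 0) :
    ∃ u : FC N, embC N u * algebraMap Hol Mer B = algebraMap Hol Mer A := by
  obtain ⟨a, ha⟩ := exists_hasQ_of_isMF N hA
  obtain ⟨b, hb⟩ := exists_hasQ_of_isMF N hB
  have hb0 : b ≠ 0 := by
    intro h
    apply hB0
    have := (hb.eq_zero_iff one_pos).mp h
    exact Subtype.ext (funext this)
  have hmem := div_mem_FFK hA hB ha hb hb0
  set u₀ : FC N := ⟨_, hmem⟩ with hu₀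
  obtain ⟨P, Q, hQ, hPQ⟩ := exists_aevalF_div N u₀
  refine ⟨u₀, ?_⟩
  -- the identity of Laurent series
  have hb0' : (HahnSeries.ofPowerSeries ℤ ℂ b : LaurentSeries ℂ) ≠ 0 := by
    intro h
    exact hb0 (HahnSeries.ofPowerSeries_injective (by rw [h, map_zero]))
  have hser : (HahnSeries.ofPowerSeries ℤ ℂ a : LaurentSeries ℂ)
        * MvPolynomial.aeval (gensK ℂ N) Q
      = MvPolynomial.aeval (gensK ℂ N) P * HahnSeries.ofPowerSeries ℤ ℂ b := by
    have h1 := congrArg (fun x : FC N => (x : LaurentSeries ℂ)) hPQ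
    simp only [IntermediateField.coe_mul, coe_aevalF] at h1
    have h2 : ((u₀ : FC N) : LaurentSeries ℂ)
        = HahnSeries.ofPowerSeries ℤ ℂ a / HahnSeries.ofPowerSeries ℤ ℂ b := rfl
    rw [h2] at h1
    rw [← h1]
    field_simp
  -- the identity of functions
  have hfun : ∀ z : ℍ, (A : ℍ → ℂ) z * (evalHol (RingHom.id ℂ) N Q : ℍ → ℂ) z
      = (evalHol (RingHom.id ℂ) N P : ℍ → ℂ) z * (B : ℍ → ℂ) z := by
    have hP := hasQL_eval (RingHom.id ℂ) (fun d : DivIdx N => d.1) P
    have hQ' := hasQL_eval (RingHom.id ℂ) (fun d : DivIdx N => d.1) Q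
    rw [ModularCurve.coeffMap_id] at hP hQ'
    have e1 := ha.hasQL.mul hQ'
    have e2 := hP.mul hb.hasQL
    have hser' : (HahnSeries.ofPowerSeries ℤ ℂ a : LaurentSeries ℂ)
          * MvPolynomial.aeval (fun i : DivIdx N => jqK ℂ i.1) Q
        = MvPolynomial.aeval (fun i : DivIdx N => jqK ℂ i.1) P
          * HahnSeries.ofPowerSeries ℤ ℂ b := hser
    rw [hser'] at e1
    intro z
    have := HasQL.unique_fun one_pos e1 e2 z
    rw [Fermat.Agent.Lib.ModCK.evalHol_apply, Fermat.Agent.Lib.ModCK.evalHol_apply]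
    exact this
  have hHol : A * evalHol (RingHom.id ℂ) N Q = evalHol (RingHom.id ℂ) N P * B := by
    apply Subtype.ext
    funext z
    exact hfun z
  have hQ0 : algebraMap Hol Mer (evalHol (RingHom.id ℂ) N Q) ≠ 0 := by
    intro h
    apply hQ
    have h1 : evalHol (RingHom.id ℂ) N Q = 0 :=
      IsFractionRing.injective Hol Mer (by rw [h, map_zero])
    rw [aevalF_eq_zero_iff]
    exact (Fermat.Agent.Lib.ModCK.evalHol_eq_zero_iff (RingHom.id ℂ) N Q).mp h1
  have h3 : embC N u₀ * algebraMap Hol Mer (evalHol (RingHom.id ℂ) N Q)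
      = algebraMap Hol Mer (evalHol (RingHom.id ℂ) N P) := by
    have e1 : embC N (aevalF N Q) = algebraMap Hol Mer (evalHol (RingHom.id ℂ) N Q) :=
      Fermat.Agent.Lib.ModCK.embAn_aevalF (RingHom.id ℂ) N Q
    have e2 : embC N (aevalF N P) = algebraMap Hol Mer (evalHol (RingHom.id ℂ) N P) :=
      Fermat.Agent.Lib.ModCK.embAn_aevalF (RingHom.id ℂ) N P
    rw [← e1, ← e2, ← map_mul, hPQ]
  apply mul_right_cancel₀ hQ0
  have h4 := congrArg (algebraMap Hol Mer) hHol
  rw [map_mul, map_mul] at h4
  rw [h4, ← h3]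
  ring

end Fermat.Agent.S29.D2
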