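import Mathlib
import Fermat.Agent.S29.ThetaDefs
import Fermat.Agent.S29.ThetaEis
import Fermat.Agent.S29.ThetaFrac
import Fermat.Agent.S16.ThetaTrGrowth

/-!
# C79 (S29/S42), piece D2: existence of a function with a given parabolic character

`exists_hasChar`: for a parabolic `c : Γ₀(N) → ZMod p`, the function `h = E_{4,χ_c} / E_4`
satisfies `HasChar N p c h`.
-/

set_option autoImplicit false
set_option linter.unusedSectionVars false

noncomputable section

open UpperHalfPlane Function Complex ModularForm CongruenceSubgroup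
open scoped Manifold MatrixGroups ModularForm

namespace Fermat.Agent.S29.D2

open Fermat.Agent.Lib.ModJ Fermat.Agent.Lib.ModC Fermat.Agent.Lib.ModCK
open ModularCurve.Period

variable {N : ℕ} [NeZero N] {p : ℕ} [NeZero p]

/-- an upper triangular element of `SL(2,ℤ)` has trace `±2` -/
theorem trace_sq_of_lower_zero (g : SL(2, ℤ)) (h : g 1 0 = 0) :
    (g : Matrix (Fin 2) (Fin 2) ℤ).trace ^ 2 = 4 := by
  have hdet := g.det_coe
  rw [Matrix.det_fin_two, h, mul_zero, sub_zero] at hdet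
  rw [Matrix.trace_fin_two]
  rcases Int.isUnit_iff.mp (IsUnit.of_mul_eq_one _ hdet) with h0 | h0
  · rw [h0, one_mul] at hdet
    rw [h0, hdet]
    norm_num
  · rw [h0] at hdet
    have h1 : (g : Matrix (Fin 2) (Fin 2) ℤ) 1 1 = -1 := by linarith
    rw [h0, h1]
    norm_num

theorem chiHom_eq_one_of_lower_zero {c : Additive ↥(Gamma0 N) →+ ZMod p}
    (hpar : IsParabolicHom (Gamma0 N) c) (g : ↥(Gamma0 N)) (h : (g : SL(2, ℤ)) 1 0 = 0) :
    chiHom c g = 1 := by
  rw [chiHom_apply, chi_eq_one_iff]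
  exact hpar g (trace_sq_of_lower_zero _ h)

/-- the twisted Eisenstein series of weight 4 attached to `c` -/
def eisOf (c : Additive ↥(Gamma0 N) →+ ZMod p) : ℍ → ℂ := twEis (chiHom c) 4

theorem eisOf_mdiff (c : Additive ↥(Gamma0 N) →+ ZMod p) : MDiff (eisOf c) :=
  twEis_mdifferentiable (chiHom c) (fun g => norm_chi c g) (by norm_num)

theorem eisOf_smul {c : Additive ↥(Gamma0 N) →+ ZMod p} (hpar : IsParabolicHom (Gamma0 N) c)
    (g : ↥(Gamma0 N)) (z : ℍ) :
    eisOf c ((g : SL(2, ℤ)) • z) = chi N p c g * (denom (g : SL(2, ℤ)) z) ^ 4 * eisOf c z := by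
  have := twEis_smul (chiHom c) (chiHom_eq_one_of_lower_zero hpar) 4 g z
  rw [chiHom_apply] at this
  exact_mod_cast this

theorem norm_eisOf_le {c : Additive ↥(Gamma0 N) →+ ZMod p} (hpar : IsParabolicHom (Gamma0 N) c)
    (z : ℍ) : ‖eisOf c z‖ ≤ 16 * eisConst * (1 + (z.im⁻¹) ^ 4) :=
  norm_twEis_four_le (chiHom c) (chiHom_eq_one_of_lower_zero hpar) (fun g => norm_chi c g) z

theorem exists_eisOf_ne_zero {c : Additive ↥(Gamma0 N) →+ ZMod p}
    (hpar : IsParabolicHom (Gamma0 N) c) : ∃ z : ℍ, eisOf c z ≠ 0 :=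
  exists_twEis_ne_zero (chiHom c) (chiHom_eq_one_of_lower_zero hpar) (fun g => norm_chi c g)

/-- `E_χ ^ p` is a modular form of weight `4p` on `Γ₀(N)` -/
theorem isMF_eisOf_pow {c : Additive ↥(Gamma0 N) →+ ZMod p}
    (hpar : IsParabolicHom (Gamma0 N) c) :
    IsMF N ((4 * p : ℕ) : ℤ) (fun z => eisOf c z ^ p) := by
  have hC0 : 0 ≤ 16 * eisConst := mul_nonneg (by norm_num) eisConst_nonneg
  obtain ⟨f, hf⟩ := Fermat.Agent.S16.ThetaTr.exists_modularForm_of_growth (N := N) (k := 4 * p)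
    (fun z => eisOf c z ^ p) ((eisOf_mdiff c).pow p)
    (fun g hg z => by
      have h := eisOf_smul hpar ⟨g, hg⟩ z
      simp only at h
      rw [h, mul_pow, mul_pow, chi_pow, one_mul, ← pow_mul])
    (C := (2 * (16 * eisConst)) ^ p)
    (fun z => by
      rw [norm_pow]
      have h1 := norm_eisOf_le hpar z
      have hy : 0 ≤ (z.im⁻¹) ^ 4 := by positivity
      rcases le_total ((z.im⁻¹) ^ 4) 1 with h | h
      · have h2 : ‖eisOf c z‖ ≤ 2 * (16 * eisConst) := by nlinarith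
        calc ‖eisOf c z‖ ^ p ≤ (2 * (16 * eisConst)) ^ p :=
              pow_le_pow_left₀ (norm_nonneg _) h2 p
          _ ≤ (2 * (16 * eisConst)) ^ p * (1 + (z.im⁻¹) ^ (4 * p)) := by
              apply le_mul_of_one_le_right (by positivity)
              have : 0 ≤ (z.im⁻¹) ^ (4 * p) := by positivity
              linarith
      · have h2 : ‖eisOf c z‖ ≤ 2 * (16 * eisConst) * (z.im⁻¹) ^ 4 := by nlinarith
        calc ‖eisOf c z‖ ^ p ≤ (2 * (16 * eisConst) * (z.im⁻¹) ^ 4) ^ p :=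
              pow_le_pow_left₀ (norm_nonneg _) h2 p
          _ = (2 * (16 * eisConst)) ^ p * (z.im⁻¹) ^ (4 * p) := by
              rw [mul_pow, ← pow_mul]
          _ ≤ (2 * (16 * eisConst)) ^ p * (1 + (z.im⁻¹) ^ (4 * p)) := by
              apply mul_le_mul_of_nonneg_left _ (by positivity)
              linarith)
  exact ⟨f, hf⟩

/-- `E_χ` as a holomorphic function -/
def eisHol (c : Additive ↥(Gamma0 N) →+ ZMod p) : Hol := ⟨eisOf c, eisOf_mdiff c⟩

/-- `E₄` as a holomorphic function -/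
def e4Hol : Hol := ⟨fun z => E₄ z, ModularFormClass.holo E₄⟩

theorem e4Hol_ne_zero : e4Hol ≠ 0 := by
  intro h
  have h1 : (e4Hol : ℍ → ℂ) UpperHalfPlane.I = 0 := by rw [h]; rfl
  have h2 : E₄ UpperHalfPlane.I ≠ 0 :=
    E₄_ne_zero_of_jFun_ne UpperHalfPlane.I (by rw [jFun_I]; norm_num)
  exact h2 h1

theorem eisHol_ne_zero {c : Additive ↥(Gamma0 N) →+ ZMod p}
    (hpar : IsParabolicHom (Gamma0 N) c) : eisHol c ≠ 0 := by
  intro h
  obtain ⟨z, hz⟩ := exists_eisOf_ne_zero hpar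
  apply hz
  have h1 : (eisHol c : ℍ → ℂ) z = 0 := by rw [h]; rfl
  exact h1

theorem isMF_e4_pow : IsMF N ((4 * p : ℕ) : ℤ) (fun z => E₄ z ^ p) := by
  have h := (isMF_E4 (N := N) 1 (one_dvd N)).pow p
  refine (h.cast ?_).congr (fun z => ?_)
  · push_cast
    ring
  · have : pnatSMul 1 z = z := by
      apply UpperHalfPlane.ext
      rw [coe_pnatSMul]
      simp
    rw [this]

/-- **existence of a function with character `χ_c`**, for parabolic `c` -/
theorem exists_hasChar {c : Additive ↥(Gamma0 N) →+ ZMod p}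
    (hpar : IsParabolicHom (Gamma0 N) c) : ∃ h : Mer, HasChar N p c h := by
  have hE0 := eisHol_ne_zero hpar
  have h40 := e4Hol_ne_zero
  have hinj := IsFractionRing.injective Hol Mer
  have hE0' : algebraMap Hol Mer (eisHol c) ≠ 0 := fun h => hE0 (hinj (by rw [h, map_zero]))
  have h40' : algebraMap Hol Mer e4Hol ≠ 0 := fun h => h40 (hinj (by rw [h, map_zero]))
  refine ⟨algebraMap Hol Mer (eisHol c) / algebraMap Hol Mer e4Hol, ⟨div_ne_zero hE0' h40', ?_, ?_⟩⟩
  · -- the p-th power lies in the function field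
    have hA : IsMF N ((4 * p : ℕ) : ℤ) ((eisHol c ^ p : Hol) : ℍ → ℂ) := isMF_eisOf_pow hpar
    have hB : IsMF N ((4 * p : ℕ) : ℤ) ((e4Hol ^ p : Hol) : ℍ → ℂ) := isMF_e4_pow
    obtain ⟨u, hu⟩ := exists_embC_mul_eq N (eisHol c ^ p) (e4Hol ^ p) hA hB (pow_ne_zero p h40)
    refine ⟨u, ?_⟩
    rw [div_pow, ← map_pow, ← map_pow, eq_div_iff]
    · exact hu
    · rw [map_pow]
      exact pow_ne_zero p h40'
  · intro γ
    rw [map_div₀, merAct_algebraMap, merAct_algebraMap, mul_div_assoc', div_eq_div_iff]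
    · rw [← map_mul, ← map_mul, ← map_mul]
      congr 1
      apply Subtype.ext
      funext z
      show (eisHol c : ℍ → ℂ) (((γ : SL(2, ℤ))⁻¹)⁻¹ • z) * E₄ z
        = chi N p c γ * (eisHol c : ℍ → ℂ) z * E₄ (((γ : SL(2, ℤ))⁻¹)⁻¹ • z)
      rw [inv_inv]
      have h1 := eisOf_smul hpar γ z
      have h2 := levelOne_smul E₄ (γ : SL(2, ℤ)) z
      have h3 : denom ((γ : SL(2, ℤ))) z
          = (((γ : SL(2, ℤ)) 1 0 : ℤ) : ℂ) * z + (((γ : SL(2, ℤ)) 1 1 : ℤ) : ℂ) := by
        rw [ModularGroup.denom_apply]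
      show eisOf c ((γ : SL(2, ℤ)) • z) * E₄ z = chi N p c γ * eisOf c z * E₄ ((γ : SL(2, ℤ)) • z)
      rw [h1, h2, h3, zpow_ofNat]
      ring
    · rw [Ne, ← map_zero (algebraMap Hol Mer)]
      intro h
      have := (holAct ((γ : SL(2, ℤ))⁻¹)).injective ((hinj h).trans (map_zero _).symm)
      exact h40 this
    · exact h40'

end Fermat.Agent.S29.D2
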