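import Mathlib
import Fermat.Agent.Lib.ModC.HolAct
import Fermat.Agent.Lib.ModC.HolJ
import Fermat.Agent.S29.ParHecke

/-!
# S29 (C79), piece D3, part 1: precomposition with `GL₂⁺(ℝ)` on `Mer`, and the character of
the Hecke product

* `merPre g hg : Mer →+* Mer`, `F ↦ F ∘ g` for `g ∈ GL₂(ℝ)` of positive determinant;
  `merPre (g * h) = merPre h ∘ merPre g`, `merPre (mapGL γ) = merAct γ⁻¹`;
* `heckeProd ℓ h = ∏_{x ∈ ℙ¹(𝔽_ℓ)} h ∘ α_x` (`α_x = heckeRep ℓ x`);
* `act_heckeProd`: if `h(γ τ) = χ(γ) h(τ)` for `γ ∈ Γ₀(N)`, then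
  `H = heckeProd ℓ h` satisfies `H(γ τ) = (∏_x χ(κ(γ, x))) H(τ)`  (`κ` = helper4's `D1.kap`).
-/

set_option autoImplicit false
set_option linter.unusedSectionVars false

open UpperHalfPlane CongruenceSubgroup Matrix.SpecialLinearGroup
open scoped Manifold MatrixGroups
open Fermat.Agent.Lib.ModC Fermat.Agent.S29.D1
open P2MW.S_ModularForm_heckeT_slash_eq_self_of_mem_Gamma0.ModularForm.HeckeSlashInvariance
open ModularForm

noncomputable section

namespace Fermat.Agent.S29.D3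

/-! ### Precomposition with an element of `GL₂⁺(ℝ)` -/

/-- precomposition with `g ∈ GL₂⁺(ℝ)` on holomorphic functions -/
def holPre (g : GL (Fin 2) ℝ) (hg : 0 < g.det.val) : Hol →+* Hol where
  toFun f := ⟨fun z => (f : ℍ → ℂ) (g • z), f.2.comp (mdifferentiable_smul hg)⟩
  map_one' := rfl
  map_mul' _ _ := rfl
  map_zero' := rfl
  map_add' _ _ := rfl

@[simp]
theorem holPre_apply (g : GL (Fin 2) ℝ) (hg : 0 < g.det.val) (f : Hol) (z : ℍ) :
    (holPre g hg f : ℍ → ℂ) z = (f : ℍ → ℂ) (g • z) := rfl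

theorem holPre_injective (g : GL (Fin 2) ℝ) (hg : 0 < g.det.val) :
    Function.Injective (holPre g hg) := by
  intro f f' h
  ext z
  have := congrArg (fun u : Hol => (u : ℍ → ℂ) (g⁻¹ • z)) h
  simpa [← mul_smul] using this

theorem algebraMap_holPre_injective (g : GL (Fin 2) ℝ) (hg : 0 < g.det.val) :
    Function.Injective ((algebraMap Hol Mer).comp (holPre g hg)) :=
  (IsFractionRing.injective Hol Mer).comp (holPre_injective g hg)

/-- precomposition with `g ∈ GL₂⁺(ℝ)` on meromorphic functions -/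
def merPre (g : GL (Fin 2) ℝ) (hg : 0 < g.det.val) : Mer →+* Mer :=
  IsFractionRing.lift (algebraMap_holPre_injective g hg)

@[simp]
theorem merPre_algebraMap (g : GL (Fin 2) ℝ) (hg : 0 < g.det.val) (f : Hol) :
    merPre g hg (algebraMap Hol Mer f) = algebraMap Hol Mer (holPre g hg f) :=
  IsFractionRing.lift_algebraMap (algebraMap_holPre_injective g hg) f

theorem merPre_const (g : GL (Fin 2) ℝ) (hg : 0 < g.det.val) (c : ℂ) :
    merPre g hg (algebraMap Hol Mer (constHol c)) = algebraMap Hol Mer (constHol c) := by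
  rw [merPre_algebraMap]
  rfl

theorem merPre_congr {g g' : GL (Fin 2) ℝ} (h : g = g') (hg : 0 < g.det.val)
    (hg' : 0 < g'.det.val) : merPre g hg = merPre g' hg' := by
  subst h
  rfl

theorem det_mul_pos {g h : GL (Fin 2) ℝ} (hg : 0 < g.det.val) (hh : 0 < h.det.val) :
    0 < (g * h).det.val := by
  rw [map_mul, Units.val_mul]
  exact mul_pos hg hh

theorem merPre_mul (g h : GL (Fin 2) ℝ) (hg : 0 < g.det.val) (hh : 0 < h.det.val) (u : Mer) :
    merPre (g * h) (det_mul_pos hg hh) u = merPre h hh (merPre g hg u) := by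
  obtain ⟨a, b, hb, rfl⟩ := IsFractionRing.div_surjective (A := Hol) u
  simp only [map_div₀, merPre_algebraMap]
  congr 2 <;>
  · ext z
    simp only [holPre_apply, mul_smul]

theorem det_mapGL_pos' (γ : SL(2, ℤ)) : 0 < (mapGL ℝ γ).det.val := by simp

theorem merPre_mapGL (γ : SL(2, ℤ)) (u : Mer) :
    merPre (mapGL ℝ γ) (det_mapGL_pos' γ) u = merAct γ⁻¹ u := by
  obtain ⟨a, b, hb, rfl⟩ := IsFractionRing.div_surjective (A := Hol) u
  simp only [map_div₀, merPre_algebraMap, merAct_algebraMap]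
  congr 2 <;>
  · ext z
    simp only [holPre_apply, holAct_apply, inv_inv]
    rfl

/-! ### The Hecke product -/

variable {N : ℕ} {ℓ : ℕ} [Fact ℓ.Prime]

theorem det_heckeRep_pos (x : OnePoint (ZMod ℓ)) : 0 < (heckeRep ℓ x).det.val := by
  induction x using OnePoint.rec with
  | infty => exact det_heckeDiagMatrix_pos ℓ
  | coe j => exact det_heckeMatrix_pos ℓ j.val

/-- precomposition with the coset representative `α_x` -/
def merRep (ℓ : ℕ) [Fact ℓ.Prime] (x : OnePoint (ZMod ℓ)) : Mer →+* Mer :=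
  merPre (heckeRep ℓ x) (det_heckeRep_pos x)

/-- the Hecke product `∏_x h ∘ α_x` -/
def heckeProd (ℓ : ℕ) [Fact ℓ.Prime] (h : Mer) : Mer :=
  ∏ x : OnePoint (ZMod ℓ), merRep ℓ x h

theorem heckeProd_mul (h h' : Mer) : heckeProd ℓ (h * h') = heckeProd ℓ h * heckeProd ℓ h' := by
  unfold heckeProd
  rw [← Finset.prod_mul_distrib]
  exact Finset.prod_congr rfl fun x _ => map_mul _ _ _

theorem heckeProd_pow (h : Mer) (n : ℕ) : heckeProd ℓ (h ^ n) = heckeProd ℓ h ^ n := by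
  unfold heckeProd
  rw [← Finset.prod_pow]
  exact Finset.prod_congr rfl fun x _ => map_pow _ _ _

theorem heckeProd_ne_zero {h : Mer} (hh : h ≠ 0) : heckeProd ℓ h ≠ 0 := by
  unfold heckeProd
  rw [Finset.prod_ne_zero_iff]
  intro x _
  exact (map_ne_zero_iff _ (merRep ℓ x).injective).mpr hh

/-- `(h ∘ α_x) ∘ γ = (h ∘ κ(γ, x)) ∘ α_{γ·x}` -/
theorem merAct_merRep (hℓN : ¬ ℓ ∣ N) (γ : Gamma0 N) (x : OnePoint (ZMod ℓ)) (h : Mer) :
    merAct ((γ : SL(2, ℤ))⁻¹) (merRep ℓ x h) =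
      merRep ℓ (perm (γ : SL(2, ℤ)) x)
        (merAct (((kap hℓN γ x : Gamma0 N) : SL(2, ℤ)))⁻¹ h) := by
  rw [← merPre_mapGL, ← merPre_mapGL, merRep, merRep, ← merPre_mul, ← merPre_mul]
  exact congrFun (congrArg DFunLike.coe (merPre_congr (kap_spec hℓN γ x) _ _)) h

/-- **The character of the Hecke product.** -/
theorem act_heckeProd (hℓN : ¬ ℓ ∣ N) (χ : Gamma0 N → ℂ) (h : Mer)
    (hact : ∀ γ : Gamma0 N, merAct ((γ : SL(2, ℤ))⁻¹) h =
      algebraMap Hol Mer (constHol (χ γ)) * h) (γ : Gamma0 N) :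
    merAct ((γ : SL(2, ℤ))⁻¹) (heckeProd ℓ h) =
      algebraMap Hol Mer (constHol (∏ x : OnePoint (ZMod ℓ), χ (kap hℓN γ x))) *
        heckeProd ℓ h := by
  unfold heckeProd
  rw [map_prod]
  have h1 : ∀ x : OnePoint (ZMod ℓ), merAct ((γ : SL(2, ℤ))⁻¹) (merRep ℓ x h) =
      algebraMap Hol Mer (constHol (χ (kap hℓN γ x))) *
        merRep ℓ (permEquiv (γ : SL(2, ℤ)) x) h := by
    intro x
    rw [merAct_merRep hℓN, hact, map_mul, merRep, merPre_const]
    rfl
  rw [Finset.prod_congr rfl (fun x _ => h1 x), Finset.prod_mul_distrib, map_prod, map_prod]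
  congr 1
  exact Equiv.prod_comp (permEquiv (γ : SL(2, ℤ))) (fun x => merRep ℓ x h)

end Fermat.Agent.S29.D3
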