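import Mathlib
import Fermat.Agent.S37.ALDeg
import Fermat.Agent.Lib.ModCK.GlueK
import Fermat.Agent.S29.ThetaHeckeAct

/-!
# S29 (C79), piece D3, part 2: the analytic embeddings and the two degeneracy maps

For a field `K` with `σ : K →+* ℂ`:
* `embAn_alpha`: `embAn (Nℓ) (α f) = embAn N f`   (`α` = inclusion `F(N) ⊆ F(Nℓ)`);
* `embAn_beta`:  `embAn (Nℓ) (β f) = (embAn N f) ∘ α_∞`   (`β` = `q ↦ q^ℓ`, `α_∞ = diag(ℓ, 1)`).
-/

set_option autoImplicit false
set_option linter.unusedSectionVars false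

open UpperHalfPlane CongruenceSubgroup Matrix.SpecialLinearGroup
open scoped Manifold MatrixGroups
open Fermat.Agent.Lib.ModC Fermat.Agent.Lib.ModJ Fermat.Agent.S29.D1 OnePoint
open P2MW.S_ModularForm_heckeT_slash_eq_self_of_mem_Gamma0.ModularForm.HeckeSlashInvariance
open ModularForm ModularCurve Fermat.Agent.S37.AL

local notation "embAnK" => Fermat.Agent.Lib.ModCK.embAn
local notation "tauK" => Fermat.Agent.Lib.ModCK.tau
local notation "evalHolK" => Fermat.Agent.Lib.ModCK.evalHol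

noncomputable section

namespace Fermat.Agent.S29.D3

variable {K : Type*} [Field K] [Algebra ℚ K] (σ : K →+* ℂ) {N ℓ : ℕ} [NeZero N] [NeZero ℓ]

theorem alpha_aevalFK (P : MvPolynomial (DivIdx N) K) :
    heckeAlphaBar K N ℓ (aevalF N P) = aevalF (N * ℓ) (MvPolynomial.rename (idxA N ℓ) P) := by
  apply Subtype.ext
  rw [coe_heckeAlphaBar, coe_aevalF, coe_aevalF, MvPolynomial.aeval_rename]
  rfl

theorem qExpand_jqKK (d : ℕ+) : qExpand K ℓ (jqK K d) = jqK K (d * lP ℓ) := by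
  rw [Fermat.Agent.S18.Desc.jqK_eq_qExpand K d,
    Fermat.Agent.S18.Desc.jqK_eq_qExpand K (d * lP ℓ), qExpand_qExpand]
  apply qExpand_congr
  rw [PNat.mul_coe]
  exact mul_comm _ _

theorem beta_aevalFK (P : MvPolynomial (DivIdx N) K) :
    heckeBetaBar K N ℓ (aevalF N P) = aevalF (N * ℓ) (MvPolynomial.rename (idxB N ℓ) P) := by
  apply Subtype.ext
  rw [coe_heckeBetaBar, coe_aevalF, coe_aevalF, MvPolynomial.aeval_rename]
  have h1 : qExpand K ℓ (MvPolynomial.aeval (gensK K N) P) =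
      MvPolynomial.aeval (fun d => qExpandAlgHomC K ℓ (gensK K N d)) P := by
    rw [← qExpandAlgHomC_apply]
    exact MvPolynomial.comp_aeval_apply (gensK K N) (qExpandAlgHomC K ℓ) P
  rw [h1]
  have h2 : (fun d => qExpandAlgHomC K ℓ (gensK K N d)) =
      (gensK K (N * ℓ) ∘ idxB N ℓ) := by
    funext d
    rw [qExpandAlgHomC_apply]
    exact qExpand_jqKK d.1
  rw [h2]

theorem evalHol_rename_idxA (P : MvPolynomial (DivIdx N) K) :
    evalHolK σ (N * ℓ) (MvPolynomial.rename (idxA N ℓ) P) = evalHolK σ N P := by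
  simp only [Fermat.Agent.Lib.ModCK.evalHol, MvPolynomial.coe_eval₂Hom, MvPolynomial.eval₂_rename]
  rfl

/-- `embAn` is compatible with the inclusion `α`. -/
theorem embAn_alpha (f : ↥(FFK K N)) :
    embAnK σ (N * ℓ) (heckeAlphaBar K N ℓ f) = embAnK σ N f := by
  have h : (embAnK σ (N * ℓ)).comp (heckeAlphaBar K N ℓ).toRingHom = embAnK σ N := by
    apply ringHom_ext N
    intro P
    show embAnK σ (N * ℓ) (heckeAlphaBar K N ℓ (aevalF N P)) = _
    rw [alpha_aevalFK, Fermat.Agent.Lib.ModCK.embAn_aevalF, Fermat.Agent.Lib.ModCK.embAn_aevalF, evalHol_rename_idxA]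
  exact congrFun (congrArg DFunLike.coe h) f

theorem tau_alpha (γ : SL(2, ℤ)) (f : ↥(FFK K N)) :
    tauK σ (N * ℓ) γ (heckeAlphaBar K N ℓ f) = tauK σ N γ f := by
  rw [Fermat.Agent.Lib.ModCK.tau_apply, Fermat.Agent.Lib.ModCK.tau_apply, embAn_alpha]

variable [Fact ℓ.Prime]

theorem heckeRep_infty_smul (z : ℍ) :
    ((heckeRep ℓ (∞ : OnePoint (ZMod ℓ)) • z : ℍ) : ℂ) = (ℓ : ℂ) * z := by
  have hℓ : ℓ ≠ 0 := NeZero.ne ℓ
  rw [coe_smul_of_det_pos (det_heckeRep_pos (ℓ := ℓ) ∞)]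
  simp [heckeRep_infty, UpperHalfPlane.num, UpperHalfPlane.denom, val_heckeDiagMatrix hℓ]

theorem holPre_jHol (d : ℕ+) :
    holPre (heckeRep ℓ (∞ : OnePoint (ZMod ℓ))) (det_heckeRep_pos ∞) (jHol d) =
      jHol (d * lP ℓ) := by
  ext z
  rw [holPre_apply, jHol_apply, jHol_apply, jFunD, jFunD]
  congr 1
  apply UpperHalfPlane.ext
  have hl : ((lP ℓ : ℕ+) : ℕ) = ℓ := rfl
  rw [coe_pnatSMul, coe_pnatSMul, heckeRep_infty_smul, PNat.mul_coe, hl]
  push_cast
  ring

theorem evalHol_rename_idxB (P : MvPolynomial (DivIdx N) K) :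
    evalHolK σ (N * ℓ) (MvPolynomial.rename (idxB N ℓ) P) =
      holPre (heckeRep ℓ (∞ : OnePoint (ZMod ℓ))) (det_heckeRep_pos ∞) (evalHolK σ N P) := by
  induction P using MvPolynomial.induction_on with
  | C a =>
    rw [MvPolynomial.rename_C]
    simp only [Fermat.Agent.Lib.ModCK.evalHol, MvPolynomial.coe_eval₂Hom, MvPolynomial.eval₂_C,
      RingHom.comp_apply]
    rfl
  | add p q hp hq => rw [map_add, map_add, map_add, map_add, hp, hq]
  | mul_X p i hp =>
    rw [map_mul, map_mul, map_mul, map_mul, hp, MvPolynomial.rename_X]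
    congr 1
    simp only [Fermat.Agent.Lib.ModCK.evalHol, MvPolynomial.coe_eval₂Hom, MvPolynomial.eval₂_X]
    exact (holPre_jHol i.1).symm

/-- `embAn` and `β`: `embAn (Nℓ) (β f) = (embAn N f) ∘ diag(ℓ, 1)`. -/
theorem embAn_beta (f : ↥(FFK K N)) :
    embAnK σ (N * ℓ) (heckeBetaBar K N ℓ f) = merRep ℓ ∞ (embAnK σ N f) := by
  have h : (embAnK σ (N * ℓ)).comp (heckeBetaBar K N ℓ).toRingHom =
      (merRep ℓ ∞).comp (embAnK σ N) := by
    apply ringHom_ext N
    intro P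
    show embAnK σ (N * ℓ) (heckeBetaBar K N ℓ (aevalF N P)) = merRep ℓ ∞ (embAnK σ N (aevalF N P))
    rw [beta_aevalFK, Fermat.Agent.Lib.ModCK.embAn_aevalF, Fermat.Agent.Lib.ModCK.embAn_aevalF, evalHol_rename_idxB, merRep, merPre_algebraMap]
  exact congrFun (congrArg DFunLike.coe h) f

end Fermat.Agent.S29.D3
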