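import Mathlib
import Fermat.Agent.S37.ALAlg
import Fermat.Agent.Lib.Gamma0Count.PrimCount
import Fermat.Agent.S29.ThetaHeckeEmb

/-!
# S29 (C79), piece D3, part 3: the norm along `α` is the Hecke product

For a field `K` with `σ : K →+* ℂ` and a prime `ℓ ∤ N`:
* `exists_perm_infty`: `Γ₀(N)` acts transitively on `ℙ¹(𝔽_ℓ)`;
* `finrank_alphaK`: `[F(Nℓ) : α F(N)] = ℓ + 1`;
* `embAn_norm_beta`: `embAn N (N_α (β u)) = ∏_x (embAn N u) ∘ α_x = heckeProd ℓ (embAn N u)`.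
-/

set_option autoImplicit false
set_option linter.unusedSectionVars false
set_option linter.style.haveILetI false

open UpperHalfPlane CongruenceSubgroup Matrix.SpecialLinearGroup AlgebraicCurve
open scoped Manifold MatrixGroups
open Fermat.Agent.Lib.ModC Fermat.Agent.Lib.ModJ Fermat.Agent.S29.D1 OnePoint
open P2MW.S_ModularForm_heckeT_slash_eq_self_of_mem_Gamma0.ModularForm.HeckeSlashInvariance
open ModularForm ModularCurve Fermat.Agent.S37.AL IntermediateField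

local notation "embAnK" => Fermat.Agent.Lib.ModCK.embAn
local notation "tauK" => Fermat.Agent.Lib.ModCK.tau

noncomputable section

namespace Fermat.Agent.S29.D3

/-! ### Transitivity of `Γ₀(N)` on `ℙ¹(𝔽_ℓ)` -/

section Trans

variable {N ℓ : ℕ} [Fact ℓ.Prime]

theorem perm_infty_of_mem (g : SL(2, ℤ)) (hg : (ℓ : ℤ) ∣ g 1 0) :
    perm g (∞ : OnePoint (ZMod ℓ)) = ∞ := by
  rw [perm, smul_infty_eq_self_iff, redMatrix_apply_one_zero]
  exact (ZMod.intCast_zmod_eq_zero_iff_dvd _ _).mpr hg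

theorem dvd_of_perm_infty (g : SL(2, ℤ)) (h : perm g (∞ : OnePoint (ZMod ℓ)) = ∞) :
    (ℓ : ℤ) ∣ g 1 0 := by
  rw [perm, smul_infty_eq_self_iff, redMatrix_apply_one_zero] at h
  exact (ZMod.intCast_zmod_eq_zero_iff_dvd _ _).mp h

/-- `Γ₀(N)` acts transitively on `ℙ¹(𝔽_ℓ)` for `ℓ ∤ N`. -/
theorem exists_perm_infty (hℓN : ¬ ℓ ∣ N) (x : OnePoint (ZMod ℓ)) :
    ∃ g : Gamma0 N, perm (g : SL(2, ℤ)) (∞ : OnePoint (ZMod ℓ)) = x := by
  have hℓ : ℓ.Prime := Fact.out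
  induction x using OnePoint.rec with
  | infty => exact ⟨1, by rw [Subgroup.coe_one, perm_one]⟩
  | coe j =>
    -- `g = [[a, b], [N, d]]` with `d = j N + ℓ`
    set d : ℤ := (j.val : ℤ) * N + ℓ with hd
    have hcop : IsCoprime d (N : ℤ) := by
      have h1 : IsCoprime (ℓ : ℤ) (N : ℤ) :=
        Nat.isCoprime_iff_coprime.mpr ((Nat.Prime.coprime_iff_not_dvd hℓ).mpr hℓN)
      rw [hd, add_comm]
      exact h1.add_mul_right_left _
    obtain ⟨u, v, huv⟩ := hcop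
    let g : SL(2, ℤ) := ⟨!![u, -v; (N : ℤ), d], by
      rw [Matrix.det_fin_two_of]
      linear_combination huv⟩
    have hg10 : g 1 0 = (N : ℤ) := rfl
    have hg11 : g 1 1 = d := rfl
    have hgN : g ∈ Gamma0 N := by
      rw [Gamma0_mem, hg10]
      simp
    refine ⟨⟨g, hgN⟩, ?_⟩
    have hN0 : ((N : ℤ) : ZMod ℓ) ≠ 0 := by
      rw [Ne, ZMod.intCast_zmod_eq_zero_iff_dvd]
      exact fun h => hℓN (Int.natCast_dvd_natCast.mp h)
    show perm g ∞ = _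
    rw [perm, smul_infty_eq_ite, redMatrix_apply_one_zero, redMatrix_apply_zero_zero, hg10, hg11,
      if_neg hN0]
    congr 1
    rw [div_eq_iff hN0, hd]
    push_cast
    simp

end Trans

/-! ### The degree of `α` -/

section DegreeAbs

variable {K F₁ F₂ : Type*} [Field K] [Field F₁] [Field F₂] [Algebra K F₁] [Algebra K F₂]

/-- the tower law along an algebra homomorphism -/
theorem finrank_adjoin_mul_finrank_along (φ : F₁ →ₐ[K] F₂) (y : F₁) :
    letI := algebraAlong φ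
    Module.finrank K⟮y⟯ F₁ * Module.finrank F₁ F₂ = Module.finrank K⟮φ y⟯ F₂ := by
  letI := algebraAlong φ
  letI algA : Algebra K⟮y⟯ F₂ := ((algebraMap F₁ F₂).comp (algebraMap K⟮y⟯ F₁)).toAlgebra
  haveI : IsScalarTower K⟮y⟯ F₁ F₂ := IsScalarTower.of_algebraMap_eq (fun _ => rfl)
  have h1 := Module.finrank_mul_finrank K⟮y⟯ F₁ F₂
  have hmap : K⟮y⟯.map φ = K⟮φ y⟯ := by
    rw [IntermediateField.adjoin_map, Set.image_singleton]
  let i : K⟮y⟯ ≃+* K⟮φ y⟯ :=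
    ((IntermediateField.equivMap K⟮y⟯ φ).trans (IntermediateField.equivOfEq hmap)).toRingEquiv
  have h2 : Module.finrank K⟮y⟯ F₂ = Module.finrank K⟮φ y⟯ F₂ := by
    refine Algebra.finrank_eq_of_equiv_equiv i (RingEquiv.refl _) ?_
    ext a
    rfl
  rw [← h2]
  exact h1

end DegreeAbs

section Degree

variable {K : Type*} [Field K] [Algebra ℚ K] (σ : K →+* ℂ) {N ℓ : ℕ} [NeZero N] [NeZero ℓ]

theorem alpha_jK :
    heckeAlphaBar K N ℓ (Fermat.Agent.Lib.ModCK.jK K N) = Fermat.Agent.Lib.ModCK.jK K (N * ℓ) :=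
  Subtype.ext rfl

include σ in
/-- `ψ(N) · [F(Nℓ) : α F(N)] = ψ(Nℓ)` -/
theorem dedekindPsi_mul_finrank_alphaK :
    letI := algebraAlong (heckeAlphaBar K N ℓ)
    dedekindPsi N * Module.finrank ↥(FFK K N) ↥(FFK K (N * ℓ)) = dedekindPsi (N * ℓ) := by
  have h1 := finrank_adjoin_mul_finrank_along (heckeAlphaBar K N ℓ)
    (Fermat.Agent.Lib.ModCK.jK K N)
  rw [alpha_jK, Fermat.Agent.Lib.ModCK.finrank_jK σ N,
    Fermat.Agent.Lib.ModCK.finrank_jK σ (N * ℓ)] at h1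
  exact h1

include σ in
/-- the degree of `α` is `ℓ + 1` for a prime `ℓ ∤ N` -/
theorem finrank_alphaK (hℓ : ℓ.Prime) (hℓN : ¬ ℓ ∣ N) :
    letI := algebraAlong (heckeAlphaBar K N ℓ)
    Module.finrank ↥(FFK K N) ↥(FFK K (N * ℓ)) = ℓ + 1 := by
  have h1 := dedekindPsi_mul_finrank_alphaK σ (N := N) (ℓ := ℓ)
  have hcop : N.Coprime ℓ := ((Nat.Prime.coprime_iff_not_dvd hℓ).mpr hℓN).symm
  have h2 : dedekindPsi (N * ℓ) = dedekindPsi N * (ℓ + 1) := by
    rw [Fermat.Agent.Lib.Gamma0Count.dedekindPsi_mul hcop]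
    congr 1
    have := Fermat.Agent.Lib.Gamma0Count.dedekindPsi_prime_pow hℓ (k := 1) one_pos
    simpa using this
  rw [h2] at h1
  have hpos : 0 < dedekindPsi N := by
    rw [dedekindPsi]
    apply Finset.sum_pos'
    · intro d _
      exact Nat.zero_le _
    · refine ⟨1, ?_, ?_⟩
      · simp [NeZero.ne N]
      · simpa using Nat.pos_of_ne_zero (NeZero.ne N)
  exact Nat.eq_of_mul_eq_mul_left hpos h1

end Degree

/-! ### The `ℓ + 1` embeddings of `F(Nℓ)` over `α F(N)` -/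

section Norm

variable {K : Type*} [Field K] [Algebra ℚ K] (σ : K →+* ℂ) {N ℓ : ℕ} [NeZero N] [NeZero ℓ]
  [Fact ℓ.Prime]

/-- an element of `Γ₀(N)` moving `∞` to `x` -/
def gRep (hℓN : ¬ ℓ ∣ N) (x : OnePoint (ZMod ℓ)) : Gamma0 N := (exists_perm_infty hℓN x).choose

theorem perm_gRep (hℓN : ¬ ℓ ∣ N) (x : OnePoint (ZMod ℓ)) :
    perm ((gRep hℓN x : Gamma0 N) : SL(2, ℤ)) (∞ : OnePoint (ZMod ℓ)) = x :=
  (exists_perm_infty hℓN x).choose_spec

/-- the embedding of `F(Nℓ)` attached to `x ∈ ℙ¹(𝔽_ℓ)` -/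
def tauRep (hℓN : ¬ ℓ ∣ N) (x : OnePoint (ZMod ℓ)) : ↥(FFK K (N * ℓ)) →+* Mer :=
  tauK σ (N * ℓ) (((gRep hℓN x : Gamma0 N) : SL(2, ℤ))⁻¹)

theorem tau_of_mem (g : Gamma0 N) (f : ↥(FFK K N)) :
    tauK σ N (g : SL(2, ℤ)) f = embAnK σ N f := by
  have h := Fermat.Agent.Lib.ModCK.tau_mul_of_mem σ N 1 (g : SL(2, ℤ)) g.2
  rw [one_mul] at h
  rw [h, Fermat.Agent.Lib.ModCK.tau_one]

theorem merAct_embAn (g : Gamma0 N) (f : ↥(FFK K N)) :
    merAct (g : SL(2, ℤ)) (embAnK σ N f) = embAnK σ N f := by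
  rw [← Fermat.Agent.Lib.ModCK.tau_apply]
  exact tau_of_mem σ g f

theorem tauRep_alpha (hℓN : ¬ ℓ ∣ N) (x : OnePoint (ZMod ℓ)) (f : ↥(FFK K N)) :
    tauRep σ hℓN x (heckeAlphaBar K N ℓ f) = embAnK σ N f := by
  rw [tauRep, tau_alpha]
  exact tau_of_mem σ (gRep hℓN x)⁻¹ f

theorem tauRep_beta (hℓN : ¬ ℓ ∣ N) (x : OnePoint (ZMod ℓ)) (f : ↥(FFK K N)) :
    tauRep σ hℓN x (heckeBetaBar K N ℓ f) = merRep ℓ x (embAnK σ N f) := by
  rw [tauRep, Fermat.Agent.Lib.ModCK.tau_apply, embAn_beta, merAct_merRep hℓN (gRep hℓN x) ∞,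
    perm_gRep]
  congr 1
  exact merAct_embAn σ (kap hℓN (gRep hℓN x) ∞)⁻¹ f

theorem tauRep_injective (hℓN : ¬ ℓ ∣ N) :
    Function.Injective (tauRep (K := K) σ (N := N) hℓN) := by
  intro x y h
  rw [tauRep, tauRep, Fermat.Agent.Lib.ModCK.tau_eq_iff, inv_inv] at h
  have h1 : (ℓ : ℤ) ∣ (((gRep hℓN x : Gamma0 N) : SL(2, ℤ)) *
      ((gRep hℓN y : Gamma0 N) : SL(2, ℤ))⁻¹) 1 0 :=
    (Int.natCast_dvd_natCast.mpr (Dvd.intro_left N rfl)).trans (dvd_of_mem_Gamma0 h)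
  have h2 := perm_infty_of_mem _ h1
  rw [perm_mul, perm_gRep] at h2
  have h3 := congrArg (perm ((gRep hℓN y : Gamma0 N) : SL(2, ℤ))) h2
  rw [← perm_mul, inv_mul_cancel, perm_one, perm_gRep] at h3
  exact h3

theorem card_onePoint : Fintype.card (OnePoint (ZMod ℓ)) = ℓ + 1 := by
  have : Fintype.card (OnePoint (ZMod ℓ)) = Fintype.card (Option (ZMod ℓ)) :=
    Fintype.card_congr (Equiv.refl _)
  rw [this, Fintype.card_option, ZMod.card]

include σ in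
theorem finiteDimensional_alphaK (hℓN : ¬ ℓ ∣ N) :
    letI := algebraAlong (heckeAlphaBar K N ℓ)
    FiniteDimensional ↥(FFK K N) ↥(FFK K (N * ℓ)) := by
  letI := algebraAlong (heckeAlphaBar K N ℓ)
  refine Module.finite_of_finrank_pos ?_
  rw [finrank_alphaK σ Fact.out hℓN]
  exact Nat.succ_pos _

/-- **The norm along `α` is the product over the `ℓ + 1` embeddings.** -/
theorem embAn_norm (hℓN : ¬ ℓ ∣ N) (y : ↥(FFK K (N * ℓ))) :
    letI := algebraAlong (heckeAlphaBar K N ℓ)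
    embAnK σ N (Algebra.norm ↥(FFK K N) y) = ∏ x : OnePoint (ZMod ℓ), tauRep σ hℓN x y := by
  letI := algebraAlong (heckeAlphaBar K N ℓ)
  haveI := finiteDimensional_alphaK σ (N := N) (ℓ := ℓ) hℓN
  haveI : CharZero K := algebraRat.charZero K
  haveI : CharZero ↥(FFK K N) := charZero_of_injective_algebraMap (algebraMap K _).injective
  refine norm_eq_prod (embAnK σ N) (tauRep σ hℓN) (fun x f => tauRep_alpha σ hℓN x f)
    (tauRep_injective σ hℓN) ?_ y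
  rw [finrank_alphaK σ Fact.out hℓN, card_onePoint]

/-- **Norm formula**: `embAn (N_α (β u)) = ∏_x (embAn u) ∘ α_x`. -/
theorem embAn_norm_beta (hℓN : ¬ ℓ ∣ N) (u : ↥(FFK K N)) :
    letI := algebraAlong (heckeAlphaBar K N ℓ)
    embAnK σ N (Algebra.norm ↥(FFK K N) (heckeBetaBar K N ℓ u)) =
      heckeProd ℓ (embAnK σ N u) := by
  rw [embAn_norm σ hℓN, heckeProd]
  exact Finset.prod_congr rfl fun x _ => tauRep_beta σ hℓN x u

end Norm

end Fermat.Agent.S29.D3
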