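import Mathlib
import Fermat.Agent.S29.HeckeC
import Fermat.Agent.S29.ThetaHeckeNorm

/-!
# S29 (C79), piece D3, part 4: the Hecke correspondence on the data `(h, u, D)`

A *theta datum* for a function `χ : Γ₀(N) → ℂ` is `(h, u, D)` with `h ∈ Mer` nonzero,
`h(γ τ) = χ(γ) h(τ)`, `u ∈ ℂ(X₀(N))` with `u_an = h^p`, and a divisor `D` with `p D = div u`.
For a prime `ℓ ∤ N`, `(heckeProd ℓ h, N_α(β u), T_ℓ D)` is a theta datum for
`γ ↦ ∏_x χ(κ(γ, x))`, and `[T_ℓ D] = T_ℓ [D]` in `Pic⁰`.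
-/

set_option autoImplicit false
set_option linter.unusedSectionVars false
set_option linter.style.haveILetI false

open UpperHalfPlane CongruenceSubgroup Matrix.SpecialLinearGroup AlgebraicCurve
open scoped Manifold MatrixGroups
open Fermat.Agent.Lib.ModC Fermat.Agent.Lib.ModJ Fermat.Agent.S29.D1 OnePoint
open ModularForm ModularCurve Fermat.Agent.Lib.ModCK Fermat.Agent.S29.HC

noncomputable section

namespace Fermat.Agent.S29.D3

variable {N ℓ : ℕ} [NeZero N] [NeZero ℓ]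

/-- the norm of `β u` along `α`, as an element of `ℂ(X₀(N))` -/
def normBeta (N ℓ : ℕ) [NeZero N] [NeZero ℓ] (u : ↥(FFK ℂ N)) : ↥(FFK ℂ N) :=
  letI := algebraAlong (heckeAlphaBar ℂ N ℓ)
  Algebra.norm ↥(FFK ℂ N) (heckeBetaBar ℂ N ℓ u)

/-- `div (N_α (β u)) = T_ℓ (div u)` -/
theorem heckeDivK_apply_of_ord {u : FC N} (hu : u ≠ 0) {D₀ : Divisor ℂ (FC N)}
    (hD₀ : ∀ v : Place ℂ (FC N), D₀ v = v.ord u) (v : Place ℂ (FC N)) :
    heckeDivK (RingHom.id ℂ) N ℓ D₀ v = v.ord (normBeta N ℓ u) := by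
  haveI := hasPrincipalDivisorsK (RingHom.id ℂ) (N * ℓ)
  rw [heckeDivK_apply]
  have h1 : ∀ w : Place ℂ (FC (N * ℓ)),
      Divisor.pullbackAlong (heckeBetaBar ℂ N ℓ) (betaIntK (RingHom.id ℂ) N ℓ) D₀ w =
        w.ord (heckeBetaBar ℂ N ℓ u) := by
    intro w
    letI := algebraAlong (heckeBetaBar ℂ N ℓ)
    haveI := isScalarTower_along (heckeBetaBar ℂ N ℓ)
    haveI := isIntegral_along (heckeBetaBar ℂ N ℓ) (betaIntK (RingHom.id ℂ) N ℓ)
    exact Divisor.pullback_apply_eq_ord hD₀ w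
  have h2 := normFormula_alphaK (RingHom.id ℂ) N ℓ
  exact h2 (heckeBetaBar ℂ N ℓ u) ((map_ne_zero _).mpr hu) _ h1 v

variable [Fact ℓ.Prime]

/-- `(N_α (β u))_an = ∏_x u_an ∘ α_x` -/
theorem embC_normBeta (hℓN : ¬ ℓ ∣ N) (u : FC N) :
    embC N (normBeta N ℓ u) = heckeProd ℓ (embC N u) :=
  embAn_norm_beta (RingHom.id ℂ) hℓN u

/-- **Piece D3, core**: the Hecke correspondence on theta data. -/
theorem hecke_datum (hℓN : ¬ ℓ ∣ N) (p : ℕ) (χ : Gamma0 N → ℂ) {h : Mer} (hh : h ≠ 0)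
    (hact : ∀ γ : Gamma0 N, merAct ((γ : SL(2, ℤ))⁻¹) h =
      algebraMap Hol Mer (constHol (χ γ)) * h)
    {u : FC N} (hu : embC N u = h ^ p)
    (D : Divisor.degZero (K := ℂ) (F := FC N))
    (hD : ∀ v : Place ℂ (FC N), (p : ℤ) * D.1 v = v.ord u) :
    heckeProd ℓ h ≠ 0 ∧
    (∀ γ : Gamma0 N, merAct ((γ : SL(2, ℤ))⁻¹) (heckeProd ℓ h) =
      algebraMap Hol Mer (constHol (∏ x : OnePoint (ZMod ℓ), χ (kap hℓN γ x))) *
        heckeProd ℓ h) ∧
    embC N (normBeta N ℓ u) = heckeProd ℓ h ^ p ∧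
    (∀ v : Place ℂ (FC N),
      (p : ℤ) * (heckeDivK (RingHom.id ℂ) N ℓ D.1) v = v.ord (normBeta N ℓ u)) ∧
    heckeOperatorAlong ℂ N ℓ (Pic0.mk D) =
      Pic0.mk ⟨heckeDivK (RingHom.id ℂ) N ℓ D.1,
        heckeDivK_mem_degZero (RingHom.id ℂ) N ℓ D.2⟩ := by
  refine ⟨heckeProd_ne_zero hh, act_heckeProd hℓN χ h hact, ?_, ?_,
    heckeOperatorAlong_mkK (RingHom.id ℂ) N ℓ D⟩
  · rw [embC_normBeta hℓN, hu, heckeProd_pow]
  · intro v
    have hu0 : u ≠ 0 := by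
      rintro rfl
      rw [map_zero] at hu
      exact hh (pow_eq_zero_iff (M₀ := Mer) (n := p) (a := h) (by
        rintro rfl
        rw [pow_zero] at hu
        exact one_ne_zero hu.symm) |>.mp hu.symm)
    have h1 : ∀ v : Place ℂ (FC N), ((p : ℤ) • D.1) v = v.ord u := fun v => by
      rw [Finsupp.smul_apply, smul_eq_mul]
      exact hD v
    have h2 := heckeDivK_apply_of_ord (ℓ := ℓ) hu0 h1 v
    rw [map_zsmul, Finsupp.smul_apply, smul_eq_mul] at h2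
    exact h2

end Fermat.Agent.S29.D3
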