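import Mathlib
import Fermat.Agent.S29.ThetaDefs
import Fermat.Agent.S29.ThetaHeckeDiv

/-!
# S29 (C79), piece D3, part 5: the Hecke product of a function with character `χ_c`
has character `χ_{T_ℓ c}`

`hasChar_heckeProd`: `HasChar N p c h → HasChar N p (T_ℓ c) (heckeProd ℓ h)`, where
`T_ℓ = D1.heckeHom (ZMod p) hℓN`; `hecke_spec`: the full datum `(H, N_α(β u), T_ℓ D)` for `T_ℓ c`
and `T_ℓ [D] = [T_ℓ D]`.
-/

set_option autoImplicit false
set_option linter.unusedSectionVars false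
set_option linter.style.haveILetI false

open UpperHalfPlane CongruenceSubgroup Matrix.SpecialLinearGroup AlgebraicCurve
open scoped Manifold MatrixGroups
open Fermat.Agent.Lib.ModC Fermat.Agent.Lib.ModJ Fermat.Agent.S29.D1 OnePoint
open ModularForm ModularCurve Fermat.Agent.Lib.ModCK Fermat.Agent.S29.HC Fermat.Agent.S29.D2

noncomputable section

namespace Fermat.Agent.S29.D3

theorem zetaP_pow_val_sum {p : ℕ} [NeZero p] {ι : Type*} (s : Finset ι) (a : ι → ZMod p) :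
    zetaP p ^ (∑ i ∈ s, a i).val = ∏ i ∈ s, zetaP p ^ (a i).val := by
  classical
  induction s using Finset.induction_on with
  | empty => simp
  | insert i s hi ih =>
    rw [Finset.sum_insert hi, Finset.prod_insert hi, zetaP_pow_val_add, ih]

variable {N ℓ : ℕ} [NeZero N] [Fact ℓ.Prime] {p : ℕ} [NeZero p]

/-- `χ_{T_ℓ c}(γ) = ∏_x χ_c(κ(γ, x))` -/
theorem chi_heckeHom (hℓN : ¬ ℓ ∣ N) (c : Additive ↥(Gamma0 N) →+ ZMod p) (γ : Gamma0 N) :
    chi N p (heckeHom (ZMod p) hℓN c) γ = ∏ x : OnePoint (ZMod ℓ), chi N p c (kap hℓN γ x) := by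
  unfold chi
  rw [heckeHom_apply, zetaP_pow_val_sum]

/-- **the Hecke product of a function with character `χ_c` has character `χ_{T_ℓ c}`** -/
theorem hasChar_heckeProd (hℓN : ¬ ℓ ∣ N) {c : Additive ↥(Gamma0 N) →+ ZMod p} {h : Mer}
    (hh : HasChar N p c h) :
    HasChar N p (heckeHom (ZMod p) hℓN c) (heckeProd ℓ h) := by
  haveI : NeZero ℓ := ⟨(Fact.out : ℓ.Prime).ne_zero⟩
  obtain ⟨u, hu⟩ := hh.pow_mem
  refine ⟨heckeProd_ne_zero hh.ne_zero, ⟨normBeta N ℓ u, ?_⟩, fun γ => ?_⟩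
  · rw [embC_normBeta hℓN, hu, heckeProd_pow]
  · rw [act_heckeProd hℓN (chi N p c) h hh.act γ, chi_heckeHom]

/-- **Piece D3, datum form**: from a datum `(h, u, D)` for `c` to the datum
`(heckeProd ℓ h, N_α (β u), T_ℓ D)` for `T_ℓ c`, with `T_ℓ [D] = [T_ℓ D]`. -/
theorem hecke_spec (hℓN : ¬ ℓ ∣ N) {c : Additive ↥(Gamma0 N) →+ ZMod p} {h : Mer}
    (hh : HasChar N p c h) {u : FC N} (hu : embC N u = h ^ p)
    (D : Divisor.degZero (K := ℂ) (F := FC N))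
    (hD : ∀ v : Place ℂ (FC N), (p : ℤ) * D.1 v = v.ord u) :
    haveI : NeZero ℓ := ⟨(Fact.out : ℓ.Prime).ne_zero⟩
    HasChar N p (heckeHom (ZMod p) hℓN c) (heckeProd ℓ h) ∧
    embC N (normBeta N ℓ u) = heckeProd ℓ h ^ p ∧
    (∀ v : Place ℂ (FC N),
      (p : ℤ) * (heckeDivK (RingHom.id ℂ) N ℓ D.1) v = v.ord (normBeta N ℓ u)) ∧
    heckeOperatorAlong ℂ N ℓ (Pic0.mk D) =
      Pic0.mk ⟨heckeDivK (RingHom.id ℂ) N ℓ D.1,
        heckeDivK_mem_degZero (RingHom.id ℂ) N ℓ D.2⟩ := by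
  haveI : NeZero ℓ := ⟨(Fact.out : ℓ.Prime).ne_zero⟩
  obtain ⟨-, -, h3, h4, h5⟩ := hecke_datum hℓN p (chi N p c) hh.ne_zero hh.act hu D hD
  exact ⟨hasChar_heckeProd hℓN hh, h3, h4, h5⟩

/-- **Piece D3, final form (abstract in `Θ`)**: any map `Θ` on a set `H` of characters which is
computed by theta data (`hspec` = helper2's `Theta_spec`) and for which data exist (`hdatum`)
commutes with `T_ℓ`. -/
theorem theta_hecke_of_spec (hℓN : ¬ ℓ ∣ N)
    {H : Set (Additive ↥(Gamma0 N) →+ ZMod p)} (Θ : H → Pic0 ℂ (FC N))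
    (hspec : ∀ (c : H) (h : Mer), HasChar N p c.1 h → ∀ u : FC N, embC N u = h ^ p →
      ∀ D : Divisor.degZero (K := ℂ) (F := FC N),
        (∀ v : Place ℂ (FC N), (p : ℤ) * D.1 v = v.ord u) → Θ c = Pic0.mk D)
    (hdatum : ∀ c : H, ∃ (h : Mer) (u : FC N) (D : Divisor.degZero (K := ℂ) (F := FC N)),
      HasChar N p c.1 h ∧ embC N u = h ^ p ∧ ∀ v : Place ℂ (FC N), (p : ℤ) * D.1 v = v.ord u)
    (c : H) (hTc : heckeHom (ZMod p) hℓN c.1 ∈ H) :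
    haveI : NeZero ℓ := ⟨(Fact.out : ℓ.Prime).ne_zero⟩
    Θ ⟨heckeHom (ZMod p) hℓN c.1, hTc⟩ = heckeOperatorAlong ℂ N ℓ (Θ c) := by
  haveI : NeZero ℓ := ⟨(Fact.out : ℓ.Prime).ne_zero⟩
  obtain ⟨h, u, D, hh, hu, hD⟩ := hdatum c
  obtain ⟨h1, h2, h3, h4⟩ := hecke_spec hℓN hh hu D hD
  rw [hspec c h hh u hu D hD, h4]
  exact hspec ⟨_, hTc⟩ _ h1 _ h2 _ h3

end Fermat.Agent.S29.D3
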