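import Mathlib
import Fermat.Prelude.Def_AlgebraicCurve_BaseChangeGalois
import Fermat.Agent.S29.ThetaDefs
import Fermat.Agent.S20.Finite
import Fermat.Agent.Lib.FunctionField.DWRat

/-!
# C79 (S29/S42), piece D2-(IV): the map `Θ` from characters to `p`-torsion classes

Abstract in three hypotheses on a submodule `H` of `Hom(Γ₀(N), ZMod p)`:
* `hex`: every `c ∈ H` has a function `h` with character `c` (`HasChar N p c h`);
* `hdvd`: for such `h`, `h ^ p = embC u` has all orders divisible by `p`;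
* `hrange`: a function with trivial character lies in `embC (FC N)`.

`thetaOf c = [div(u) / p]`; it is `ZMod p`-linear and injective, and computed by any datum
(`thetaOf_spec`).
-/

set_option autoImplicit false
set_option linter.unusedSectionVars false
set_option linter.unusedVariables false
set_option linter.style.haveILetI false

noncomputable section

open UpperHalfPlane CongruenceSubgroup AlgebraicCurve
open scoped MatrixGroups

namespace Fermat.Agent.S29.D2

open Fermat.Agent.Lib.ModC Fermat.Agent.Lib.ModCK Fermat.Agent.Lib.FF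

variable {N : ℕ} [NeZero N] {p : ℕ} [NeZero p]

local notation "cst" => fun a : ℂ => algebraMap Hol Mer (constHol a)

/-! ### algebra of `HasChar` -/

theorem cst_injective : Function.Injective (fun a : ℂ => algebraMap Hol Mer (constHol a)) :=
  (IsFractionRing.injective Hol Mer).comp constHol_injective

theorem merAct_cst (γ : SL(2, ℤ)) (a : ℂ) :
    merAct γ (algebraMap Hol Mer (constHol a)) = algebraMap Hol Mer (constHol a) := by
  rw [merAct_algebraMap, holAct_constHol]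

theorem HasChar.mul {c c' : Additive ↥(Gamma0 N) →+ ZMod p} {h h' : Mer}
    (hh : HasChar N p c h) (hh' : HasChar N p c' h') : HasChar N p (c + c') (h * h') := by
  obtain ⟨u, hu⟩ := hh.pow_mem
  obtain ⟨u', hu'⟩ := hh'.pow_mem
  refine ⟨mul_ne_zero hh.ne_zero hh'.ne_zero, ⟨u * u', by rw [map_mul, hu, hu', mul_pow]⟩,
    fun γ => ?_⟩
  rw [map_mul, hh.act γ, hh'.act γ, chi_add, map_mul, map_mul]
  ring

theorem chi_neg (c : Additive ↥(Gamma0 N) →+ ZMod p) (γ : ↥(Gamma0 N)) :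
    chi N p (-c) γ = (chi N p c γ)⁻¹ := by
  have h1 : chi N p (c + -c) γ = chi N p c γ * chi N p (-c) γ := chi_add c (-c) γ
  rw [add_neg_cancel, chi_zero] at h1
  exact eq_inv_of_mul_eq_one_right h1.symm

theorem HasChar.inv {c : Additive ↥(Gamma0 N) →+ ZMod p} {h : Mer}
    (hh : HasChar N p c h) : HasChar N p (-c) h⁻¹ := by
  obtain ⟨u, hu⟩ := hh.pow_mem
  refine ⟨inv_ne_zero hh.ne_zero, ⟨u⁻¹, by rw [map_inv₀, hu, inv_pow]⟩, fun γ => ?_⟩
  rw [map_inv₀, hh.act γ, chi_neg, mul_inv]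
  congr 1
  exact (map_inv₀ ((algebraMap Hol Mer).comp constHol) (chi N p c γ)).symm

theorem HasChar.div {c : Additive ↥(Gamma0 N) →+ ZMod p} {h h' : Mer}
    (hh : HasChar N p c h) (hh' : HasChar N p c h') : HasChar N p 0 (h / h') := by
  have := hh.mul hh'.inv
  rwa [add_neg_cancel, ← div_eq_mul_inv] at this

theorem hasChar_embC {w : FC N} (hw : w ≠ 0) : HasChar N p 0 (embC N w) := by
  refine ⟨(map_ne_zero (embC N)).mpr hw, ⟨w ^ p, map_pow _ _ _⟩, fun γ => ?_⟩
  rw [Fermat.Agent.S20.merAct_embC N _ (inv_mem γ.2), chi_zero, map_one, map_one, one_mul]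

theorem hasChar_cst {a : ℂ} (ha : a ≠ 0) :
    HasChar N p 0 (algebraMap Hol Mer (constHol a)) := by
  have := hasChar_embC (N := N) (p := p) (w := algebraMap ℂ (FC N) a)
    ((map_ne_zero (algebraMap ℂ (FC N))).mpr ha)
  rwa [embC_algebraMap] at this

/-- a function with a character which is invariant has trivial character -/
theorem HasChar.eq_zero_of_invariant {c : Additive ↥(Gamma0 N) →+ ZMod p} {h : Mer}
    (hh : HasChar N p c h)
    (hinv : ∀ γ : ↥(Gamma0 N), merAct ((γ : SL(2, ℤ))⁻¹) h = h) : c = 0 := by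
  refine AddMonoidHom.ext fun γ' => ?_
  obtain ⟨γ, rfl⟩ : ∃ γ : Gamma0 N, Additive.ofMul γ = γ' := ⟨Additive.toMul γ', rfl⟩
  have h1 := hh.act γ
  rw [hinv γ] at h1
  have h2 : algebraMap Hol Mer (constHol (chi N p c γ)) = 1 := by
    have h3 : (algebraMap Hol Mer (constHol (chi N p c γ)) - 1) * h = 0 := by
      rw [sub_mul, one_mul, ← h1, sub_self]
    rcases mul_eq_zero.mp h3 with h4 | h4
    · exact sub_eq_zero.mp h4
    · exact absurd h4 hh.ne_zero
  have h5 : chi N p c γ = 1 := by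
    apply cst_injective
    show algebraMap Hol Mer (constHol (chi N p c γ)) = algebraMap Hol Mer (constHol 1)
    rw [h2, map_one, map_one]
  exact (chi_eq_one_iff c γ).mp h5

/-! ### data for `Θ` -/

/-- a datum computing `Θ c`: a function `h` with character `c`, `u` with `embC u = h ^ p`, and
the divisor `D = div(u) / p` -/
structure IsThetaData (c : Additive ↥(Gamma0 N) →+ ZMod p) (h : Mer) (u : FC N)
    (D : Divisor.degZero (K := ℂ) (F := FC N)) : Prop where
  hasChar : HasChar N p c h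
  emb : embC N u = h ^ p
  div : ∀ v : Place ℂ (FC N), (p : ℤ) * D.1 v = v.ord u

theorem IsThetaData.u_ne_zero {c : Additive ↥(Gamma0 N) →+ ZMod p} {h : Mer} {u : FC N}
    {D : Divisor.degZero (K := ℂ) (F := FC N)} (d : IsThetaData c h u D) : u ≠ 0 := by
  intro h0
  have := d.emb
  rw [h0, map_zero] at this
  exact pow_ne_zero p d.hasChar.ne_zero this.symm

theorem p_ne_zero' : (p : ℤ) ≠ 0 := by
  exact_mod_cast NeZero.ne p

/-- existence of a datum -/
theorem exists_thetaData {c : Additive ↥(Gamma0 N) →+ ZMod p} {h : Mer}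
    (hh : HasChar N p c h)
    (hdvd : ∀ u : FC N, embC N u = h ^ p → ∀ v : Place ℂ (FC N), (p : ℤ) ∣ v.ord u) :
    ∃ (u : FC N) (D : Divisor.degZero (K := ℂ) (F := FC N)), IsThetaData c h u D := by
  classical
  obtain ⟨u, hu⟩ := hh.pow_mem
  have hu0 : u ≠ 0 := by
    intro h0
    rw [h0, map_zero] at hu
    exact pow_ne_zero p hh.ne_zero hu.symm
  have hfin := (placeFacts_FC N).finite_ord_ne_zero u hu0
  have hfin' : {v : Place ℂ (FC N) | v.ord u / (p : ℤ) ≠ 0}.Finite := by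
    refine hfin.subset fun v hv h0 => hv ?_
    show v.ord u / (p : ℤ) = 0
    rw [h0, Int.zero_ediv]
  let D₀ : Divisor ℂ (FC N) := Finsupp.ofSupportFinite (fun v => v.ord u / (p : ℤ)) hfin'
  have hD₀ : ∀ v : Place ℂ (FC N), (p : ℤ) * D₀ v = v.ord u := fun v =>
    Int.mul_ediv_cancel' (hdvd u hu v)
  let E : Divisor ℂ (FC N) := (p : ℤ) • D₀
  have hE : ∀ v : Place ℂ (FC N), E v = v.ord u := fun v => by
    show ((p : ℤ) • D₀) v = v.ord u
    rw [Finsupp.smul_apply, smul_eq_mul, hD₀ v]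
  have hdeg : Divisor.degree E = 0 := (placeFacts_FC N).degree_principal u hu0 E hE
  have hdeg₀ : Divisor.degree D₀ = 0 := by
    have h1 : Divisor.degree E = (p : ℤ) • Divisor.degree D₀ := map_zsmul _ _ _
    rw [hdeg, smul_eq_mul] at h1
    rcases mul_eq_zero.mp h1.symm with h2 | h2
    · exact absurd h2 p_ne_zero'
    · exact h2
  exact ⟨u, ⟨D₀, hdeg₀⟩, hh, hu, hD₀⟩

/-- the class of a datum is `p`-torsion -/
theorem IsThetaData.zsmul_mk {c : Additive ↥(Gamma0 N) →+ ZMod p} {h : Mer} {u : FC N}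
    {D : Divisor.degZero (K := ℂ) (F := FC N)} (d : IsThetaData c h u D) :
    (p : ℤ) • Pic0.mk D = 0 := by
  have h1 : (p : ℤ) • Pic0.mk D = Pic0.mk ((p : ℤ) • D) := rfl
  rw [h1]
  refine (QuotientAddGroup.eq_zero_iff _).mpr ?_
  show (((p : ℤ) • D : Divisor.degZero (K := ℂ) (F := FC N)) : Divisor ℂ (FC N))
    ∈ Divisor.principal (K := ℂ) (F := FC N)
  refine ⟨u, d.u_ne_zero, fun v => ?_⟩
  show ((p : ℤ) • (D : Divisor ℂ (FC N))) v = v.ord u
  rw [Finsupp.smul_apply, smul_eq_mul, d.div v]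

theorem IsThetaData.add {c c' : Additive ↥(Gamma0 N) →+ ZMod p} {h h' : Mer} {u u' : FC N}
    {D D' : Divisor.degZero (K := ℂ) (F := FC N)} (d : IsThetaData c h u D)
    (d' : IsThetaData c' h' u' D') : IsThetaData (c + c') (h * h') (u * u') (D + D') := by
  refine ⟨d.hasChar.mul d'.hasChar, by rw [map_mul, d.emb, d'.emb, mul_pow], fun v => ?_⟩
  show (p : ℤ) * ((D : Divisor ℂ (FC N)) + (D' : Divisor ℂ (FC N))) v = v.ord (u * u')
  rw [Finsupp.add_apply, mul_add, d.div v, d'.div v, v.ord_mul d.u_ne_zero d'.u_ne_zero]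

theorem ord_pow' (v : Place ℂ (FC N)) (w : FC N) (n : ℕ) : v.ord (w ^ n) = (n : ℤ) * v.ord w := by
  have := v.ord_zpow w (n : ℤ)
  rwa [zpow_natCast] at this

/-- independence of the datum -/
theorem IsThetaData.mk_eq (hrange : ∀ h : Mer, HasChar N p 0 h → ∃ w : FC N, embC N w = h)
    {c : Additive ↥(Gamma0 N) →+ ZMod p} {h h' : Mer} {u u' : FC N}
    {D D' : Divisor.degZero (K := ℂ) (F := FC N)} (d : IsThetaData c h u D)
    (d' : IsThetaData c h' u' D') : Pic0.mk D = Pic0.mk D' := by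
  obtain ⟨w, hw⟩ := hrange _ (d.hasChar.div d'.hasChar)
  have hw0 : w ≠ 0 := by
    intro h0
    rw [h0, map_zero] at hw
    exact div_ne_zero d.hasChar.ne_zero d'.hasChar.ne_zero hw.symm
  have hu : u = w ^ p * u' := by
    apply (embC N).injective
    rw [map_mul, map_pow, hw, d.emb, d'.emb, div_pow,
      div_mul_cancel₀ _ (pow_ne_zero p d'.hasChar.ne_zero)]
  have hord : ∀ v : Place ℂ (FC N), D.1 v - D'.1 v = v.ord w := by
    intro v
    have h1 := d.div v
    rw [hu, v.ord_mul (pow_ne_zero p hw0) d'.u_ne_zero, ord_pow', ← d'.div v] at h1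
    have h2 : (p : ℤ) * (D.1 v - D'.1 v) = (p : ℤ) * v.ord w := by
      rw [mul_sub, h1]
      ring
    exact mul_left_cancel₀ p_ne_zero' h2
  refine (QuotientAddGroup.eq).mpr ?_
  show ((-D + D' : Divisor.degZero (K := ℂ) (F := FC N)) : Divisor ℂ (FC N))
    ∈ Divisor.principal (K := ℂ) (F := FC N)
  refine ⟨w⁻¹, inv_ne_zero hw0, fun v => ?_⟩
  show (-(D : Divisor ℂ (FC N)) + (D' : Divisor ℂ (FC N))) v = v.ord w⁻¹
  rw [Finsupp.add_apply, Finsupp.neg_apply, v.ord_inv, ← hord v]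
  ring

/-- a datum with trivial class has trivial character -/
theorem IsThetaData.eq_zero_of_mk {c : Additive ↥(Gamma0 N) →+ ZMod p} {h : Mer} {u : FC N}
    {D : Divisor.degZero (K := ℂ) (F := FC N)} (d : IsThetaData c h u D)
    (h0 : Pic0.mk D = 0) : c = 0 := by
  have hp : p ≠ 0 := NeZero.ne p
  have hD : (D : Divisor ℂ (FC N)) ∈ Divisor.principal (K := ℂ) (F := FC N) :=
    (QuotientAddGroup.eq_zero_iff D).mp h0
  obtain ⟨w, hw0, hw⟩ := hD
  -- `u / w ^ p` has no zeros and poles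
  have hf0 : u / w ^ p ≠ 0 := div_ne_zero d.u_ne_zero (pow_ne_zero p hw0)
  have hford : ∀ v : Place ℂ (FC N), 0 ≤ v.ord (u / w ^ p) := by
    intro v
    rw [div_eq_mul_inv, v.ord_mul d.u_ne_zero (inv_ne_zero (pow_ne_zero p hw0)), v.ord_inv,
      ord_pow', ← d.div v, hw v]
    simp
  obtain ⟨a, ha⟩ := exists_const_of_ord_nonneg (isFF1_jFC N) _ hford
  have ha0 : a ≠ 0 := by
    intro h1
    rw [h1, map_zero] at ha
    exact hf0 ha
  obtain ⟨b, hb⟩ := IsAlgClosed.exists_pow_nat_eq a (Nat.pos_of_ne_zero hp)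
  have hb0 : b ≠ 0 := by
    intro h1
    rw [h1, zero_pow hp] at hb
    exact ha0 hb.symm
  -- `t = h / (embC w * cst b)` is a `p`-th root of unity
  have hW : embC N w ≠ 0 := (map_ne_zero (embC N)).mpr hw0
  have hB : algebraMap Hol Mer (constHol b) ≠ 0 := fun h1 =>
    hb0 (cst_injective (by
      show algebraMap Hol Mer (constHol b) = algebraMap Hol Mer (constHol 0)
      rw [h1, map_zero, map_zero]))
  have ht : (h / (embC N w * algebraMap Hol Mer (constHol b))) ^ p = 1 := by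
    have h1 : embC N u = embC N w ^ p * algebraMap Hol Mer (constHol b) ^ p := by
      have h2 : u = w ^ p * algebraMap ℂ (FC N) a := by
        rw [← ha, mul_div_cancel₀ _ (pow_ne_zero p hw0)]
      rw [h2, map_mul, map_pow, embC_algebraMap, ← hb, map_pow, map_pow]
    rw [div_pow, ← d.emb, h1, mul_pow]
    exact div_self (mul_ne_zero (pow_ne_zero p hW) (pow_ne_zero p hB))
  have hζ : IsPrimitiveRoot (algebraMap Hol Mer (constHol (zetaP p))) p :=
    (isPrimitiveRoot_zetaP p).map_of_injective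
      (f := (algebraMap Hol Mer).comp constHol) cst_injective
  obtain ⟨i, hi, hit⟩ := hζ.eq_pow_of_pow_eq_one ht
  have hh' : h = embC N w * algebraMap Hol Mer (constHol (b * zetaP p ^ i)) := by
    rw [map_mul, map_mul, map_pow, map_pow, ← mul_assoc, hit,
      mul_div_cancel₀ _ (mul_ne_zero hW hB)]
  refine d.hasChar.eq_zero_of_invariant fun γ => ?_
  rw [hh', map_mul, Fermat.Agent.S20.merAct_embC N _ (inv_mem γ.2), merAct_cst]

/-! ### the map `Θ` -/

section Theta

variable (H : Submodule (ZMod p) (Additive ↥(Gamma0 N) →+ ZMod p))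
  (hex : ∀ c ∈ H, ∃ h, HasChar N p c h)
  (hdvd : ∀ c ∈ H, ∀ h, HasChar N p c h → ∀ u : FC N, embC N u = h ^ p →
    ∀ v : Place ℂ (FC N), (p : ℤ) ∣ v.ord u)
  (hrange : ∀ h : Mer, HasChar N p 0 h → ∃ w : FC N, embC N w = h)

/-- every `c ∈ H` has a datum -/
theorem exists_isThetaData (hex : ∀ c ∈ H, ∃ h, HasChar N p c h)
    (hdvd : ∀ c ∈ H, ∀ h, HasChar N p c h → ∀ u : FC N, embC N u = h ^ p →
      ∀ v : Place ℂ (FC N), (p : ℤ) ∣ v.ord u) (c : H) :
    ∃ (h : Mer) (u : FC N) (D : Divisor.degZero (K := ℂ) (F := FC N)),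
      IsThetaData (c : Additive ↥(Gamma0 N) →+ ZMod p) h u D := by
  obtain ⟨h, hh⟩ := hex c c.2
  obtain ⟨u, D, d⟩ := exists_thetaData hh (hdvd c c.2 h hh)
  exact ⟨h, u, D, d⟩

/-- the chosen divisor of `c` -/
def thetaDiv (hex : ∀ c ∈ H, ∃ h, HasChar N p c h)
    (hdvd : ∀ c ∈ H, ∀ h, HasChar N p c h → ∀ u : FC N, embC N u = h ^ p →
      ∀ v : Place ℂ (FC N), (p : ℤ) ∣ v.ord u) (c : H) :
    Divisor.degZero (K := ℂ) (F := FC N) :=
  (exists_isThetaData H hex hdvd c).choose_spec.choose_spec.choose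

theorem thetaDiv_spec (hex : ∀ c ∈ H, ∃ h, HasChar N p c h)
    (hdvd : ∀ c ∈ H, ∀ h, HasChar N p c h → ∀ u : FC N, embC N u = h ^ p →
      ∀ v : Place ℂ (FC N), (p : ℤ) ∣ v.ord u) (c : H) :
    ∃ (h : Mer) (u : FC N),
      IsThetaData (c : Additive ↥(Gamma0 N) →+ ZMod p) h u (thetaDiv H hex hdvd c) :=
  ⟨_, _, (exists_isThetaData H hex hdvd c).choose_spec.choose_spec.choose_spec⟩

/-- `Θ` as an additive map -/
def thetaAdd : H →+ Pic0.torsion ℂ (FC N) p :=
  AddMonoidHom.mk' (fun c => ⟨Pic0.mk (thetaDiv H hex hdvd c), by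
      obtain ⟨h, u, d⟩ := thetaDiv_spec H hex hdvd c
      exact Pic0.mem_torsion.mpr d.zsmul_mk⟩) (by
    intro c c'
    apply Subtype.ext
    obtain ⟨h, u, d⟩ := thetaDiv_spec H hex hdvd c
    obtain ⟨h', u', d'⟩ := thetaDiv_spec H hex hdvd c'
    obtain ⟨h'', u'', d''⟩ := thetaDiv_spec H hex hdvd (c + c')
    show Pic0.mk (thetaDiv H hex hdvd (c + c'))
      = Pic0.mk (thetaDiv H hex hdvd c) + Pic0.mk (thetaDiv H hex hdvd c')
    rw [← Pic0.mk_add]
    exact d''.mk_eq hrange (d.add d'))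

/-- **the map `Θ`** -/
def thetaOf : H →ₗ[ZMod p] Pic0.torsion ℂ (FC N) p :=
  (thetaAdd H hex hdvd hrange).toZModLinearMap p

theorem coe_thetaOf (c : H) :
    ((thetaOf H hex hdvd hrange c : Pic0.torsion ℂ (FC N) p) : Pic0 ℂ (FC N))
      = Pic0.mk (thetaDiv H hex hdvd c) := rfl

/-- **any datum computes `Θ`** -/
theorem thetaOf_spec (c : H) {h : Mer}
    (hh : HasChar N p (c : Additive ↥(Gamma0 N) →+ ZMod p) h) {u : FC N}
    (hu : embC N u = h ^ p) (D : Divisor.degZero (K := ℂ) (F := FC N))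
    (hD : ∀ v : Place ℂ (FC N), (p : ℤ) * D.1 v = v.ord u) :
    ((thetaOf H hex hdvd hrange c : Pic0.torsion ℂ (FC N) p) : Pic0 ℂ (FC N)) = Pic0.mk D := by
  obtain ⟨h', u', d'⟩ := thetaDiv_spec H hex hdvd c
  rw [coe_thetaOf]
  exact d'.mk_eq hrange ⟨hh, hu, hD⟩

/-- **`Θ` is injective** -/
theorem thetaOf_injective : Function.Injective (thetaOf H hex hdvd hrange) := by
  rw [← LinearMap.ker_eq_bot, LinearMap.ker_eq_bot']
  intro c hc
  obtain ⟨h, u, d⟩ := thetaDiv_spec H hex hdvd c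
  have h0 : Pic0.mk (thetaDiv H hex hdvd c) = 0 := by
    rw [← coe_thetaOf H hex hdvd hrange c, hc]
    rfl
  exact Subtype.ext (d.eq_zero_of_mk h0)

end Theta

end Fermat.Agent.S29.D2
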