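import Mathlib
import Fermat.Agent.Lib.ModC.Count
import Fermat.Agent.Lib.ModC.Cyclic
import Fermat.Agent.Lib.ModC.Model
import Fermat.Agent.Lib.ModC.HolRot
import Fermat.Agent.Lib.ModCK.GlueK
import Fermat.Agent.Lib.ModCK.HolModelK
import Fermat.Agent.Lib.ModCK.Places
import Fermat.Agent.Lib.ModCK.OverC
import Fermat.Agent.Lib.ModJ.Rot

/-!
# S29 / S42 (campaign 79), piece D2-(III): the places of `FC N` with exact multiplicities

Every place of the function field `FC N` of `X₀(N)` over `ℂ` comes from a point of `ℍ` or from a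
cusp, and the ramification index `d` of the uniformisation at that point is the order of the
stabiliser (resp. `N / h` for the width `h` of the cusp).
-/

set_option autoImplicit false
set_option linter.unusedSectionVars false
set_option linter.style.haveILetI false

open AlgebraicCurve IntermediateField ModularCurve UpperHalfPlane
open scoped MatrixGroups

namespace Fermat.Agent.S29.D2

open Fermat.Agent.Lib.FF Fermat.Agent.Lib.ModJ Fermat.Agent.Lib.ModC Fermat.Agent.Lib.ModCK
  CongruenceSubgroup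

/-! ### (a) the abstract refinement of the counting lemma -/

section Abstract

variable {K F : Type*} [Field K] [Field F] [Algebra K F]

variable [CharZero K] {y : F} (hy : IsFF1 K F y)
  {Ω : Type*} [Field Ω] (w : Ω → ℤ) (hw : IsOrdFun w)
  {Γ : Type*} [Fintype Γ] (τ : Γ → F →+* Ω)
  (hτ_inj : Function.Injective τ)
  (hτ_K : ∀ (g g' : Γ) (c : K), τ g (algebraMap K F c) = τ g' (algebraMap K F c))
  (hτ_y : ∀ g g' : Γ, τ g y = τ g' y)
  (hw_K : ∀ (g : Γ) (c : K), c ≠ 0 → w (τ g (algebraMap K F c)) = 0)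
  (hcard : Fintype.card Γ = Module.finrank K⟮y⟯ F)
  (o : ℕ) (ho : 0 < o) (hwy : ∀ g, w (τ g y) = o)

include hy hw hτ_inj hτ_K hτ_y hw_K hcard ho hwy in
/-- **(a)** every place over `y = 0` comes from an embedding, with exact ramification. -/
theorem exists_emb_ram
    (hfin : {v : Place K F | 0 < v.ord y}.Finite)
    (hE1 : ∑ v ∈ hfin.toFinset, v.ord y = (Module.finrank K⟮y⟯ F : ℤ))
    (hE3 : ∀ (v : Place K F), 0 < v.ord y → ∀ s : Finset (Place K F), v ∉ s →
        (∀ u ∈ s, 0 ≤ u.ord y) →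
        ∃ b : F, IsIntegral (Algebra.adjoin K {y}) b ∧ 0 < v.ord b ∧ ∀ u ∈ s, u.ord b = 0)
    (r : Setoid Γ)
    (hr : ∀ g g', r g g' → ∀ f : F, w (τ g f) = w (τ g' f))
    (hdiv : ∀ (g : Γ) (f : F), f ≠ 0 → (o : ℤ) ∣ w (τ g f) * Nat.card {g' : Γ // r g g'})
    (v : Place K F) (hv : 0 < v.ord y) :
    ∃ (g : Γ) (d : ℕ), 0 < d ∧ (∀ f : F, f ≠ 0 → w (τ g f) = d * v.ord f) ∧
      d * Nat.card {g' : Γ // r g g'} = o := by
  classical
  have hy0 : y ≠ 0 := by
    rintro rfl
    exact hy.transcendental (isAlgebraic_zero)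
  -- the places of the embeddings
  have hex : ∀ g, ∃ (v : Place K F) (d : ℕ), 0 < d ∧
      ∀ f : F, f ≠ 0 → w (τ g f) = d * v.ord f := by
    intro g
    obtain ⟨v, d, hd, -, h⟩ := exists_place_of_ord (K := K) (fun f => w (τ g f))
      (isOrdFun_comp hw (τ g)).mul (isOrdFun_comp hw (τ g)).add
      (fun c hc => hw_K g c (by rintro rfl; simp at hc))
      ⟨y, hy0, by rw [hwy]; exact_mod_cast ho.ne'⟩
    exact ⟨v, d, hd, h⟩
  choose pl d hd hpl using hex
  have hply : ∀ g, 0 < (pl g).ord y := by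
    intro g
    have h1 := hpl g y hy0
    rw [hwy g] at h1
    have h2 : (0 : ℤ) < d g := by exact_mod_cast hd g
    have h3 : (0 : ℤ) < o := by exact_mod_cast ho
    rw [h1] at h3
    by_contra h4
    rw [not_lt] at h4
    nlinarith
  have hplr : ∀ g g', r g g' → pl g = pl g' := by
    intro g g' h
    apply place_ext_of_ord
    intro f hf hf0
    have h1 := hpl g f hf
    have h2 := hpl g' f hf
    rw [hr g g' h f, h2] at h1
    have h3 : (0 : ℤ) < d g' := by exact_mod_cast hd g'
    have h4 : (0 : ℤ) < d g := by exact_mod_cast hd g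
    by_contra h5
    rw [not_le] at h5
    nlinarith
  -- ramification bound
  have hram : ∀ g, (pl g).ord y ≤ Nat.card {g' : Γ // r g g'} := by
    intro g
    obtain ⟨t, ht⟩ := exists_ord_eq_one (pl g)
    have ht0 : t ≠ 0 := by
      rintro rfl
      simp at ht
    have h1 := hdiv g t ht0
    rw [hpl g t ht0, ht, mul_one] at h1
    have h2 := hpl g y hy0
    rw [hwy g] at h2
    rw [h2] at h1
    have h3 : (d g : ℤ) ≠ 0 := by exact_mod_cast (hd g).ne'
    have h4 : (pl g).ord y ∣ (Nat.card {g' : Γ // r g g'} : ℤ) :=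
      (mul_dvd_mul_iff_left h3).mp h1
    have h5 : 0 < Nat.card {g' : Γ // r g g'} := by
      have : Nonempty {g' : Γ // r g g'} := ⟨⟨g, r.refl g⟩⟩
      exact Nat.card_pos
    exact Int.le_of_dvd (by exact_mod_cast h5) h4
  -- surjectivity
  have hsurj := exists_emb_of_place hy w hw τ hτ_inj hτ_K hτ_y hcard o ho hwy hE3 pl d hd hpl
  -- the map on classes
  let plQ : Quotient r → Place K F := Quotient.lift pl hplr
  have hplQ : ∀ g, plQ (Quotient.mk r g) = pl g := fun g => rfl
  have hmaps : ∀ c ∈ (Finset.univ : Finset (Quotient r)), plQ c ∈ hfin.toFinset := by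
    intro c _
    induction c using Quotient.inductionOn with
    | h g =>
      rw [Set.Finite.mem_toFinset]
      exact hply g
  -- class sizes
  have hclass : ∀ g, (Nat.card {g' : Γ // r g g'})
      = (Finset.univ.filter (fun g' : Γ => Quotient.mk r g' = Quotient.mk r g)).card := by
    intro g
    rw [Nat.card_eq_fintype_card, Fintype.card_subtype]
    congr 1
    ext g'
    simp only [Finset.mem_filter, Finset.mem_univ, true_and]
    rw [Quotient.eq]
    exact ⟨fun h => r.symm h, fun h => r.symm h⟩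
  have hterm : ∀ c : Quotient r, (plQ c).ord y
      ≤ ((Finset.univ.filter (fun g' : Γ => Quotient.mk r g' = c)).card : ℤ) := by
    intro c
    induction c using Quotient.inductionOn with
    | h g =>
      have := hram g
      rw [hclass g] at this
      exact this
  have hsumcard : ∑ c : Quotient r,
      ((Finset.univ.filter (fun g' : Γ => Quotient.mk r g' = c)).card : ℤ)
        = (Module.finrank K⟮y⟯ F : ℤ) := by
    rw [← Nat.cast_sum, ← Finset.card_eq_sum_card_fiberwise (f := Quotient.mk r)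
      (s := Finset.univ) (t := Finset.univ) (fun _ _ => Finset.mem_univ _), Finset.card_univ,
      hcard]
  have hsum1 : ∑ c : Quotient r, (plQ c).ord y ≤ (Module.finrank K⟮y⟯ F : ℤ) := by
    rw [← hsumcard]
    exact Finset.sum_le_sum fun c _ => hterm c
  have hsum2 : ∑ c : Quotient r, (plQ c).ord y
      = ∑ v ∈ hfin.toFinset, ((Finset.univ.filter (fun c : Quotient r => plQ c = v)).card : ℤ)
          * v.ord y := by
    rw [← Finset.sum_fiberwise_of_maps_to hmaps]
    apply Finset.sum_congr rfl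
    intro v _
    rw [Finset.sum_congr rfl (g := fun _ => v.ord y)
      (fun c hc => by rw [(Finset.mem_filter.mp hc).2])]
    rw [Finset.sum_const, nsmul_eq_mul]
  have hfib_pos : ∀ v ∈ hfin.toFinset,
      1 ≤ (Finset.univ.filter (fun c : Quotient r => plQ c = v)).card := by
    intro v hv
    rw [Set.Finite.mem_toFinset] at hv
    obtain ⟨g, hg⟩ := hsurj v hv
    exact Finset.card_pos.mpr ⟨Quotient.mk r g, by simp [hplQ, hg]⟩
  -- the sum over classes is at least the degree
  have hsum3 : (Module.finrank K⟮y⟯ F : ℤ) ≤ ∑ c : Quotient r, (plQ c).ord y := by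
    rw [hsum2, ← hE1]
    apply Finset.sum_le_sum
    intro v hv
    have h1 := hfib_pos v hv
    have h3 : 0 < v.ord y := (Set.Finite.mem_toFinset hfin).mp hv
    have h4 : (1 : ℤ) ≤ ((Finset.univ.filter (fun c : Quotient r => plQ c = v)).card : ℤ) := by
      exact_mod_cast h1
    nlinarith
  -- termwise equality
  have hsumeq : ∑ c : Quotient r, (plQ c).ord y
      = ∑ c : Quotient r,
        ((Finset.univ.filter (fun g' : Γ => Quotient.mk r g' = c)).card : ℤ) := by
    rw [hsumcard]
    exact le_antisymm hsum1 hsum3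
  have hteq : ∀ c : Quotient r, (plQ c).ord y
      = ((Finset.univ.filter (fun g' : Γ => Quotient.mk r g' = c)).card : ℤ) := by
    intro c
    exact (Finset.sum_eq_sum_iff_of_le (fun c _ => hterm c)).mp hsumeq c (Finset.mem_univ c)
  -- conclusion
  obtain ⟨g, hg⟩ := hsurj v hv
  refine ⟨g, d g, hd g, fun f hf => ?_, ?_⟩
  · rw [← hg]
    exact hpl g f hf
  · have h1 := hteq (Quotient.mk r g)
    rw [hplQ, ← hclass g] at h1
    have h2 := hpl g y hy0
    rw [hwy g, h1] at h2
    exact_mod_cast h2.symm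

end Abstract

/-! ### (b) orbits of a cyclic group, and models -/

section Orbits

variable {K F : Type*} [Field K] [Field F] [Algebra K F]

/-- the counting lemma with exact ramification, for the orbits of a cyclic group -/
theorem exists_orbit_ram [CharZero K] {y : F} (hy : IsFF1 K F y)
    (hfin : {v : Place K F | 0 < v.ord y}.Finite)
    (hE1 : ∑ v ∈ hfin.toFinset, v.ord y = (Module.finrank K⟮y⟯ F : ℤ))
    (hE3 : ∀ (v : Place K F), 0 < v.ord y → ∀ s : Finset (Place K F), v ∉ s →
        (∀ u ∈ s, 0 ≤ u.ord y) →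
        ∃ b : F, IsIntegral (Algebra.adjoin K {y}) b ∧ 0 < v.ord b ∧ ∀ u ∈ s, u.ord b = 0)
    {Ω : Type*} [Field Ω] (w : Ω → ℤ) (hw : IsOrdFun w)
    {G X : Type*} [Group G] [MulAction G X] [Fintype X] (τ : X → F →+* Ω)
    (hτ_inj : Function.Injective τ)
    (hτ_K : ∀ (g g' : X) (c : K), τ g (algebraMap K F c) = τ g' (algebraMap K F c))
    (hτ_y : ∀ g g' : X, τ g y = τ g' y)
    (hw_K : ∀ (g : X) (c : K), c ≠ 0 → w (τ g (algebraMap K F c)) = 0)
    (hcard : Fintype.card X = Module.finrank K⟮y⟯ F)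
    (o : ℕ) (ho : 0 < o) (hwy : ∀ g, w (τ g y) = o)
    (δ : G)
    (hinv : ∀ (x : X) (f : F), w (τ (δ • x) f) = w (τ x f))
    (hdiv : ∀ (x : X) (f : F) (h : ℕ), f ≠ 0 → 0 < h → δ ^ h • x = x →
      (o : ℤ) ∣ h * w (τ x f))
    (v : Place K F) (hv : 0 < v.ord y) :
    ∃ (x : X) (d h : ℕ), 0 < d ∧ 0 < h ∧ d * h = o ∧ δ ^ h • x = x ∧
      ∀ f : F, f ≠ 0 → w (τ x f) = d * v.ord f := by
  classical
  have hpow : ∀ (n : ℕ) (x : X) (f : F), w (τ (δ ^ n • x) f) = w (τ x f) := by
    intro n
    induction n with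
    | zero => intro x f; rw [pow_zero, one_smul]
    | succ n ih =>
      intro x f
      rw [pow_succ', mul_smul, hinv, ih]
  have hzpow : ∀ (k : ℤ) (x : X) (f : F), w (τ (δ ^ k • x) f) = w (τ x f) := by
    intro k x f
    rcases Int.eq_nat_or_neg k with ⟨n, rfl | rfl⟩
    · rw [zpow_natCast]; exact hpow n x f
    · have := hpow n (δ ^ (-(n : ℤ)) • x) f
      rw [← zpow_natCast, ← mul_smul, ← zpow_add, add_neg_cancel, zpow_zero, one_smul] at this
      exact this.symm
  have hperpos : ∀ x : X, 0 < Function.minimalPeriod (δ • ·) x := by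
    intro x
    apply Function.minimalPeriod_pos_of_mem_periodicPts
    have hinj : Function.Injective (fun x' : X => δ • x') := MulAction.injective δ
    exact hinj.mem_periodicPts x
  obtain ⟨x, d, hd, hdv, hdo⟩ := exists_emb_ram hy w hw τ hτ_inj hτ_K hτ_y hw_K hcard o ho hwy
    hfin hE1 hE3 (MulAction.orbitRel (Subgroup.zpowers δ) X)
    (by
      intro x x' h f
      rw [MulAction.orbitRel_apply] at h
      obtain ⟨⟨g, hg⟩, hgx⟩ := h
      obtain ⟨k, rfl⟩ := Subgroup.mem_zpowers_iff.mp hg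
      have : δ ^ k • x' = x := hgx
      rw [← this, hzpow])
    (by
      intro x f hf
      rw [card_orbit_class δ x, mul_comm]
      exact hdiv x f _ hf (hperpos x) (MulAction.pow_period_smul δ x))
    v hv
  rw [card_orbit_class δ x] at hdo
  exact ⟨x, d, _, hd, hperpos x, hdo, MulAction.pow_period_smul δ x, hdv⟩

end Orbits

section ModelRam

variable {K F : Type*} [Field K] [Field F] [Algebra K F]

/-- **(b)** every place over `y = 0` comes from an embedding of the model, with exact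
ramification. -/
theorem Model.exists_ram [IsAlgClosed K] [CharZero K] {N : ℕ} {y : F} {o : ℕ}
    {δ : SL(2, ℤ)} (M : Model K F N y o δ) (ho : 0 < o) (hy : IsFF1 K F y)
    [Finite (SL(2, ℤ) ⧸ Gamma0 N)]
    (hdeg : Module.finrank K⟮y⟯ F = Nat.card (SL(2, ℤ) ⧸ Gamma0 N))
    (v : Place K F) (hv : 0 < v.ord y) :
    ∃ (γ : SL(2, ℤ)) (d h : ℕ), 0 < d ∧ 0 < h ∧ d * h = o ∧ γ⁻¹ * δ ^ h * γ ∈ Gamma0 N ∧
      ∀ f : F, f ≠ 0 → M.w (M.τ γ f) = d * v.ord f := by
  classical
  letI : Fintype (SL(2, ℤ) ⧸ Gamma0 N) := Fintype.ofFinite _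
  have hpf := placeFacts_of_isFF1 hy
  let τX : (SL(2, ℤ) ⧸ Gamma0 N) → (F →+* M.Ω) :=
    Quotient.lift M.τ (fun γ γ' h => by
      rw [M.τ_eq_iff]
      exact QuotientGroup.leftRel_apply.mp h)
  have hτX : ∀ γ : SL(2, ℤ), τX (γ : SL(2, ℤ) ⧸ Gamma0 N) = M.τ γ := fun γ => rfl
  obtain ⟨x, d, h, hd, hh, hdh, hfix, hdv⟩ := exists_orbit_ram hy
    (hpf.finite_zeros y hy.transcendental)
    (hpf.sum_ord_zeros y hy.transcendental) (exists_integral_separating hy) M.w M.isOrdFun
    τX
    (by
      intro x x' h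
      induction x using QuotientGroup.induction_on with
      | H γ =>
        induction x' using QuotientGroup.induction_on with
        | H γ' =>
          rw [hτX, hτX, M.τ_eq_iff] at h
          exact QuotientGroup.eq.mpr h)
    (by
      intro x x' c
      induction x using QuotientGroup.induction_on with
      | H γ =>
        induction x' using QuotientGroup.induction_on with
        | H γ' => rw [hτX, hτX, M.τ_const γ, M.τ_const γ'])
    (by
      intro x x'
      induction x using QuotientGroup.induction_on with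
      | H γ =>
        induction x' using QuotientGroup.induction_on with
        | H γ' => rw [hτX, hτX, M.τ_y γ, M.τ_y γ'])
    (by
      intro x c hc
      induction x using QuotientGroup.induction_on with
      | H γ => rw [hτX]; exact M.w_const γ c hc)
    (by rw [hdeg, Nat.card_eq_fintype_card])
    o ho
    (by
      intro x
      induction x using QuotientGroup.induction_on with
      | H γ => rw [hτX, M.τ_y γ, M.w_y])
    δ
    (by
      intro x f
      induction x using QuotientGroup.induction_on with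
      | H γ =>
        rw [MulAction.Quotient.smul_mk, hτX, hτX]
        exact M.w_stab γ f)
    (by
      intro x f h hf hh hfix
      induction x using QuotientGroup.induction_on with
      | H γ =>
        rw [hτX]
        exact M.w_dvd γ f h hf hh ((smul_mk_eq_iff _ γ).mp hfix))
    v hv
  induction x using QuotientGroup.induction_on with
  | H γ =>
    exact ⟨γ, d, h, hd, hh, hdh, (smul_mk_eq_iff _ γ).mp hfix, fun f hf => hdv f hf⟩

end ModelRam

/-! ### (c) the places of `FC N` -/

section FCPlaces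

variable (N : ℕ) [NeZero N]

theorem hdeg_FC_sub (a : ℂ) :
    Module.finrank ℂ⟮jK ℂ N - algebraMap ℂ (FC N) a⟯ (FC N)
      = Nat.card (SL(2, ℤ) ⧸ Gamma0 N) := by
  rw [finrank_adjoin_sub_algebraMap, finrank_jK (RingHom.id ℂ) N,
    Fermat.Agent.Lib.Gamma0Count.card_quotient]

/-- **(c), cusps.** -/
theorem exists_cusp_of_place (v : Place ℂ (FC N)) (hv : v.ord (jFC N) < 0) :
    ∃ (γ : SL(2, ℤ)) (d h : ℕ), 0 < d ∧ 0 < h ∧ d * h = N ∧
      γ⁻¹ * ModularGroup.T ^ h * γ ∈ Gamma0 N ∧
      ∀ f : FC N, f ≠ 0 → (tauInf (RingHom.id ℂ) N γ f).order = d * v.ord f := by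
  haveI := finite_quotient_Gamma0 N
  have hx := isFF1_jK (RingHom.id ℂ) N
  have hy : IsFF1 ℂ (FC N) (jK ℂ N)⁻¹ :=
    isFF1_of_transcendental hx _ (transcendental_inv hx.transcendental)
  have hv' : 0 < v.ord (jK ℂ N)⁻¹ := by
    rw [Place.ord_inv]
    have : v.ord (jK ℂ N) < 0 := hv
    omega
  obtain ⟨γ, d, h, hd, hh, hdh, hγ, hdv⟩ := Model.exists_ram (infModel (RingHom.id ℂ) N)
    (Nat.pos_of_ne_zero (NeZero.ne N)) hy
    (by rw [finrank_adjoin_inv, finrank_jK (RingHom.id ℂ) N,
      Fermat.Agent.Lib.Gamma0Count.card_quotient]) v hv'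
  exact ⟨γ, d, h, hd, hh, hdh, hγ, hdv⟩

theorem merAct_conj_invariant {R : Mer} {δ γ : SL(2, ℤ)}
    (h : merAct (γ⁻¹ * δ * γ) R = R) : merAct δ (merAct γ R) = merAct γ R := by
  rw [← merAct_mul]
  have : δ * γ = γ * (γ⁻¹ * δ * γ) := by group
  rw [this, merAct_mul, h]

theorem conj_pow_eq_one {δ γ : SL(2, ℤ)} {n : ℕ} (h : δ ^ n = 1) :
    (γ⁻¹ * δ * γ) ^ n = 1 := by
  have h1 : ∀ m : ℕ, (γ⁻¹ * δ * γ) ^ m = γ⁻¹ * δ ^ m * γ := by
    intro m
    induction m with
    | zero => simp
    | succ m ih =>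
      rw [pow_succ, ih, pow_succ]
      group
  rw [h1, h, mul_one, inv_mul_cancel]

theorem ST_pow_six : (ModularGroup.S * ModularGroup.T) ^ 6 = 1 := by
  decide

theorem S_pow_four : ModularGroup.S ^ 4 = 1 := by
  decide

/-- **(c), points of `ℍ`.** -/
theorem exists_point_of_place (v : Place ℂ (FC N)) (hv : 0 ≤ v.ord (jFC N)) :
    ∃ (z₀ : ℍ) (γ : SL(2, ℤ)) (d : ℕ), 0 < d ∧
      (∀ f : FC N, f ≠ 0 → ordAt z₀ (merAct γ (embC N f)) = d * v.ord f) ∧
      ∀ R : Mer, R ≠ 0 →
        (∀ g : SL(2, ℤ), g ∈ Gamma0 N → (∃ n : ℕ, 0 < n ∧ g ^ n = 1) → merAct g R = R) →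
        (d : ℤ) ∣ ordAt z₀ (merAct γ R) := by
  haveI := finite_quotient_Gamma0 N
  have hx := isFF1_jK (RingHom.id ℂ) N
  obtain ⟨a, ha⟩ := exists_sub_mem_maximalIdeal hx v (jK ℂ N) (mem_of_ord_nonneg v hv)
  have hva : 0 < v.ord (jK ℂ N - algebraMap ℂ (FC N) a) := by
    rcases ha with ha | ha
    · exfalso
      apply hx.transcendental
      rw [ha]
      exact isAlgebraic_algebraMap a
    · exact ha
  have hy : ∀ a : ℂ, IsFF1 ℂ (FC N) (jK ℂ N - algebraMap ℂ (FC N) a) := fun a =>
    isFF1_of_transcendental hx _ (transcendental_sub_algebraMap hx.transcendental a)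
  by_cases h0 : a = 0
  · subst h0
    obtain ⟨γ, d, h, hd, hh, hdh, hγ, hdv⟩ := Model.exists_ram (modelZero (RingHom.id ℂ) N)
      (by norm_num) (hy 0) (hdeg_FC_sub N 0) v hva
    refine ⟨ρ, γ, d, hd, fun f hf => hdv f hf, fun R hR hinv => ?_⟩
    have hd3 : d ∣ 3 := ⟨h, hdh.symm⟩
    rcases (Nat.dvd_prime Nat.prime_three).mp hd3 with rfl | rfl
    · simp
    · have hh1 : h = 1 := by omega
      subst hh1
      rw [pow_one] at hγ
      have h1 := hinv _ hγ ⟨6, by norm_num, conj_pow_eq_one ST_pow_six⟩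
      have h2 := merAct_conj_invariant h1
      exact dvd_ordAt_of_invariant ρ _ ST_smul_rho 3
        (by rw [multiplier_ST]; exact isPrimitiveRoot_rho) _
        ((map_ne_zero (merAct γ)).mpr hR) h2
  by_cases h1 : a = 1728
  · subst h1
    obtain ⟨γ, d, h, hd, hh, hdh, hγ, hdv⟩ := Model.exists_ram (model1728 (RingHom.id ℂ) N)
      (by norm_num) (hy 1728) (hdeg_FC_sub N 1728) v hva
    refine ⟨UpperHalfPlane.I, γ, d, hd, fun f hf => hdv f hf, fun R hR hinv => ?_⟩
    have hd2 : d ∣ 2 := ⟨h, hdh.symm⟩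
    rcases (Nat.dvd_prime Nat.prime_two).mp hd2 with rfl | rfl
    · simp
    · have hh1 : h = 1 := by omega
      subst hh1
      rw [pow_one] at hγ
      have h1 := hinv _ hγ ⟨4, by norm_num, conj_pow_eq_one S_pow_four⟩
      have h2 := merAct_conj_invariant h1
      exact dvd_ordAt_of_invariant UpperHalfPlane.I _ S_smul_I 2
        (by rw [multiplier_S]; exact isPrimitiveRoot_neg_one_two) _
        ((map_ne_zero (merAct γ)).mpr hR) h2
  · obtain ⟨z₀, hz₀⟩ := jFun_surjective a
    obtain ⟨γ, d, h, hd, hh, hdh, hγ, hdv⟩ := Model.exists_ram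
      (modelPoint (RingHom.id ℂ) N z₀ a hz₀.symm h0 h1) one_pos (hy a) (hdeg_FC_sub N a) v hva
    refine ⟨z₀, γ, d, hd, fun f hf => hdv f hf, fun R hR hinv => ?_⟩
    have hd1 : d = 1 := Nat.eq_one_of_mul_eq_one_right hdh
    subst hd1
    simp

end FCPlaces

/-! ### (d) divisibility of the order at a cusp -/

section Periodic

theorem dvd_order_of_periodic {N : ℕ} [NeZero N] {d h : ℕ} (hdh : d * h = N) {F : ℍ → ℂ}
    {L : LaurentSeries ℂ} (hF : HasQL N F L) (hL : L ≠ 0)
    (hper : ∀ z : ℍ, F (shiftH h z) = F z) : (d : ℤ) ∣ L.order := by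
  have hN : 0 < N := Nat.pos_of_ne_zero (NeZero.ne N)
  have hNr : (0 : ℝ) < (N : ℝ) := by exact_mod_cast hN
  have hh : h ≠ 0 := by
    rintro rfl
    rw [mul_zero] at hdh
    exact (NeZero.ne N) hdh.symm
  have h1 := HasQL.shift hN hF (h : ℤ)
  have h2 : (fun z => F (shiftH (h : ℤ) z)) = F := funext hper
  rw [h2] at h1
  have h3 := HasQL.unique hNr h1 hF
  have h4 := dvd_order_of_rotL_eq hN hL (h : ℤ) h3
  rw [← hdh] at h4
  push_cast at h4
  rw [mul_comm (d : ℤ) (h : ℤ)] at h4
  exact (mul_dvd_mul_iff_left (by exact_mod_cast hh)).mp h4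

end Periodic

end Fermat.Agent.S29.D2
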