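import Mathlib
import Fermat.Agent.S29.ThetaDefs
import Fermat.Agent.S29.ThetaPlaces
import Fermat.Agent.Lib.ModC.HolReg
import Fermat.Agent.Lib.ModC.Inf
import Fermat.Agent.Lib.ModC.Lift

/-!
# S29 / S42 (campaign 79), piece D2-(VI): `p ∣ ord_v (u)` for `u = h ^ p`, `h` with a character

If `h` is a meromorphic function on `ℍ` with `h(γ τ) = χ_c(γ) h(τ)` for a homomorphism
`c : Γ₀(N) → ℤ/p` killing the parabolic elements and the elements of finite order, and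
`h ^ p = u ∈ ℂ(X₀(N))`, then the divisor of `u` is divisible by `p`.
-/

set_option autoImplicit false
set_option linter.unusedSectionVars false
set_option linter.style.haveILetI false
set_option linter.unusedVariables false

open AlgebraicCurve IntermediateField ModularCurve UpperHalfPlane
open scoped MatrixGroups Manifold

namespace Fermat.Agent.S29.D2

open Fermat.Agent.Lib.FF Fermat.Agent.Lib.ModJ Fermat.Agent.Lib.ModC Fermat.Agent.Lib.ModCK
  CongruenceSubgroup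

variable {N : ℕ} [NeZero N] {p : ℕ} [NeZero p]

/-! ### the action on `h` -/

theorem constHol_one' : constHol (1 : ℂ) = 1 := map_one constHol

/-- `h ∘ g⁻¹ = χ_c(g⁻¹) h` -/
theorem HasChar.merAct_eq {c : Additive ↥(Gamma0 N) →+ ZMod p} {h : Mer}
    (hh : HasChar N p c h) (g : SL(2, ℤ)) (hg : g ∈ Gamma0 N) :
    merAct g h = algebraMap Hol Mer (constHol (chi N p c (⟨g, hg⟩⁻¹ : ↥(Gamma0 N)))) * h := by
  have := hh.act (⟨g, hg⟩⁻¹ : ↥(Gamma0 N))
  simpa using this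

/-- `h` is invariant under the elements on which `c` vanishes -/
theorem HasChar.merAct_eq_self {c : Additive ↥(Gamma0 N) →+ ZMod p} {h : Mer}
    (hh : HasChar N p c h) (g : SL(2, ℤ)) (hg : g ∈ Gamma0 N)
    (hc : c (Additive.ofMul (⟨g, hg⟩ : ↥(Gamma0 N))) = 0) : merAct g h = h := by
  rw [hh.merAct_eq g hg]
  have h1 : chi N p c (⟨g, hg⟩⁻¹ : ↥(Gamma0 N)) = 1 := by
    rw [chi_eq_one_iff, ofMul_inv, map_neg, hc, neg_zero]
  rw [h1, constHol_one', map_one, one_mul]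

theorem HasChar.ne_zero_of_pow {c : Additive ↥(Gamma0 N) →+ ZMod p} {h : Mer}
    (hh : HasChar N p c h) {u : FC N} (hu : embC N u = h ^ p) : u ≠ 0 := by
  rintro rfl
  rw [map_zero] at hu
  exact _root_.pow_ne_zero p hh.ne_zero hu.symm

/-! ### points of `ℍ` -/

theorem HasChar.dvd_ord_point {c : Additive ↥(Gamma0 N) →+ ZMod p}
    (hfin : ∀ γ : ↥(Gamma0 N), IsOfFinOrder γ → c (Additive.ofMul γ) = 0)
    {h : Mer} (hh : HasChar N p c h) {u : FC N} (hu : embC N u = h ^ p)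
    (v : Place ℂ (FC N)) (hv : 0 ≤ v.ord (jFC N)) : (p : ℤ) ∣ v.ord u := by
  obtain ⟨z₀, γ, d, hd, hdv, hdiv⟩ := exists_point_of_place N v hv
  have hu0 : u ≠ 0 := hh.ne_zero_of_pow hu
  have h1 := hdv u hu0
  have hγh : merAct γ h ≠ 0 := (map_ne_zero (merAct γ)).mpr hh.ne_zero
  rw [hu, map_pow, (isOrdFun_ordAt z₀).pow hγh p] at h1
  obtain ⟨m, hm⟩ := hdiv h hh.ne_zero (fun g hg hfo => by
    apply hh.merAct_eq_self g hg
    apply hfin
    obtain ⟨n, hn, hgn⟩ := hfo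
    rw [isOfFinOrder_iff_pow_eq_one]
    exact ⟨n, hn, Subtype.ext (by simpa using hgn)⟩)
  rw [hm] at h1
  refine ⟨m, ?_⟩
  have hd0 : (d : ℤ) ≠ 0 := by exact_mod_cast hd.ne'
  apply mul_left_cancel₀ hd0
  rw [← h1]
  ring

/-! ### cusps -/

/-- iterating a period -/
theorem periodic_mul {F : ℍ → ℂ} {h : ℕ} (hper : ∀ z : ℍ, F (shiftH h z) = F z) (k : ℕ)
    (z : ℍ) : F (shiftH ((k * h : ℕ) : ℤ) z) = F z := by
  induction k with
  | zero =>
    have : shiftH ((0 * h : ℕ) : ℤ) z = z := by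
      apply UpperHalfPlane.ext
      rw [coe_shiftH]
      simp
    rw [this]
  | succ k ih =>
    have : shiftH (((k + 1) * h : ℕ) : ℤ) z = shiftH h (shiftH ((k * h : ℕ) : ℤ) z) := by
      apply UpperHalfPlane.ext
      rw [coe_shiftH, coe_shiftH, coe_shiftH]
      push_cast
      ring
    rw [this, hper, ih]

theorem trace_conj_T_pow (γ : SL(2, ℤ)) (n : ℕ) :
    ((γ⁻¹ * ModularGroup.T ^ n * γ : SL(2, ℤ)) : Matrix (Fin 2) (Fin 2) ℤ).trace = 2 := by
  have h1 : ((γ⁻¹ * ModularGroup.T ^ n * γ : SL(2, ℤ)) : Matrix (Fin 2) (Fin 2) ℤ)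
      = (γ⁻¹ : SL(2, ℤ)).1 * (ModularGroup.T ^ n : SL(2, ℤ)).1 * γ.1 := by
    simp
  rw [h1, Matrix.trace_mul_cycle]
  have h2 : γ.1 * (γ⁻¹ : SL(2, ℤ)).1 = 1 := by
    rw [← Matrix.SpecialLinearGroup.coe_mul, mul_inv_cancel, Matrix.SpecialLinearGroup.coe_one]
  rw [h2, one_mul]
  have h3 : (ModularGroup.T ^ n : SL(2, ℤ)).1 = !![1, (n : ℤ); 0, 1] := by
    have := ModularGroup.coe_T_zpow (n : ℤ)
    rwa [zpow_natCast] at this
  rw [h3, Matrix.trace_fin_two_of]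
  norm_num

/-- the holomorphic function `h · Q` -/
theorem HasChar.exists_hol {c : Additive ↥(Gamma0 N) →+ ZMod p} {h : Mer}
    (hh : HasChar N p c h) {u : FC N} (hu : embC N u = h ^ p)
    (P Q : MvPolynomial (DivIdx N) ℂ) (hQ : aevalF N Q ≠ 0) (hPQ : u * aevalF N Q = aevalF N P) :
    ∃ R : Hol, algebraMap Hol Mer R = h * algebraMap Hol Mer (evalHol (RingHom.id ℂ) N Q) ∧
      R ^ p = evalHol (RingHom.id ℂ) N (P * Q ^ (p - 1)) := by
  have hp : 0 < p := Nat.pos_of_ne_zero (NeZero.ne p)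
  have hinj := IsFractionRing.injective Hol Mer
  set R' : Mer := h * algebraMap Hol Mer (evalHol (RingHom.id ℂ) N Q) with hR'
  have hQan : embC N (aevalF N Q) = algebraMap Hol Mer (evalHol (RingHom.id ℂ) N Q) :=
    embAn_aevalF (RingHom.id ℂ) N Q
  have hPan : embC N (aevalF N P) = algebraMap Hol Mer (evalHol (RingHom.id ℂ) N P) :=
    embAn_aevalF (RingHom.id ℂ) N P
  have hpow : R' ^ p = algebraMap Hol Mer (evalHol (RingHom.id ℂ) N (P * Q ^ (p - 1))) := by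
    rw [hR', mul_pow, ← hu, ← hQan]
    have e : p = (p - 1) + 1 := by omega
    conv_lhs => rw [e, pow_succ, ← mul_assoc, mul_comm (embC N u) _, mul_assoc, ← map_mul,
      hPQ, hPan, hQan]
    rw [map_mul, map_mul, map_pow, map_pow, mul_comm]
  have hnn : ∀ z : ℍ, 0 ≤ ordAt z R' := by
    intro z
    by_cases hR0 : R' = 0
    · rw [hR0, ordAt_zero]
    have h1 : ordAt z (R' ^ p) = p * ordAt z R' := (isOrdFun_ordAt z).pow hR0 p
    have h2 : 0 ≤ ordAt z (R' ^ p) := by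
      rw [hpow]
      exact ordAt_algebraMap_nonneg z _
    rw [h1] at h2
    have hp' : (0 : ℤ) < p := by exact_mod_cast hp
    by_contra hneg
    rw [not_le] at hneg
    nlinarith
  obtain ⟨R, hR⟩ := exists_hol_of_ordAt_nonneg R' hnn
  refine ⟨R, hR, ?_⟩
  apply hinj
  rw [map_pow, hR, hpow]

theorem aevalF_pow' (P : MvPolynomial (DivIdx N) ℂ) (k : ℕ) :
    aevalF N (P ^ k) = (aevalF N P) ^ k := by
  induction k with
  | zero =>
    rw [pow_zero, pow_zero]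
    have := aevalF_C (K := ℂ) N (1 : ℂ)
    rwa [map_one, map_one] at this
  | succ k ih => rw [pow_succ, pow_succ, aevalF_mul, ih]

/-- `R = h · Q` is invariant under the elements of `Γ₀(N)` on which `c` vanishes -/
theorem HasChar.holAct_eq_self {c : Additive ↥(Gamma0 N) →+ ZMod p} {h : Mer}
    (hh : HasChar N p c h) {Q : MvPolynomial (DivIdx N) ℂ} {R : Hol}
    (hR : algebraMap Hol Mer R = h * algebraMap Hol Mer (evalHol (RingHom.id ℂ) N Q))
    (g : SL(2, ℤ)) (hg : g ∈ Gamma0 N)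
    (hc : c (Additive.ofMul (⟨g, hg⟩ : ↥(Gamma0 N))) = 0) : holAct g R = R := by
  apply IsFractionRing.injective Hol Mer
  rw [← merAct_algebraMap, hR, map_mul, hh.merAct_eq_self g hg hc, merAct_algebraMap,
    holAct_evalHol (RingHom.id ℂ) N g hg]

theorem HasChar.dvd_ord_cusp {c : Additive ↥(Gamma0 N) →+ ZMod p}
    (hpar : ModularCurve.Period.IsParabolicHom (Gamma0 N) c)
    (hroot : ∀ {F : ℍ → ℂ} {Λ : LaurentSeries ℂ}, MDiff F → (∀ z, F (shiftH N z) = F z) →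
      HasQL N (fun z => F z ^ p) Λ → ∃ L : LaurentSeries ℂ, HasQL N F L ∧ L ^ p = Λ)
    {h : Mer} (hh : HasChar N p c h) {u : FC N} (hu : embC N u = h ^ p)
    (v : Place ℂ (FC N)) (hv : v.ord (jFC N) < 0) : (p : ℤ) ∣ v.ord u := by
  have hp : 0 < p := Nat.pos_of_ne_zero (NeZero.ne p)
  obtain ⟨γ, d, h', hd, hh', hdh, hγ, hdv⟩ := exists_cusp_of_place N v hv
  obtain ⟨P, Q, hQ, hPQ⟩ := exists_aevalF_div N u
  obtain ⟨R, hR, hRp⟩ := hh.exists_hol hu P Q hQ hPQ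
  have hu0 : u ≠ 0 := hh.ne_zero_of_pow hu
  -- the stabiliser of the cusp
  set g₀ : SL(2, ℤ) := γ⁻¹ * ModularGroup.T ^ h' * γ with hg₀
  have hc0 : c (Additive.ofMul (⟨g₀, hγ⟩ : ↥(Gamma0 N))) = 0 := by
    apply hpar
    show ((g₀ : SL(2, ℤ)) : Matrix (Fin 2) (Fin 2) ℤ).trace ^ 2 = 4
    rw [hg₀, trace_conj_T_pow]
    norm_num
  have hc0' : c (Additive.ofMul (⟨g₀⁻¹, (Gamma0 N).inv_mem hγ⟩ : ↥(Gamma0 N))) = 0 := by
    have : (⟨g₀⁻¹, (Gamma0 N).inv_mem hγ⟩ : ↥(Gamma0 N)) = (⟨g₀, hγ⟩ : ↥(Gamma0 N))⁻¹ := rfl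
    rw [this, ofMul_inv, map_neg, hc0, neg_zero]
  have hinv : holAct g₀⁻¹ R = R := hh.holAct_eq_self hR g₀⁻¹ _ hc0'
  have hinv' : ∀ w : ℍ, (R : ℍ → ℂ) (g₀ • w) = (R : ℍ → ℂ) w := by
    intro w
    have := congrArg (fun f : Hol => (f : ℍ → ℂ) w) hinv
    simpa using this
  -- the function `F = R ∘ γ⁻¹`
  set F : ℍ → ℂ := fun z => (R : ℍ → ℂ) (γ⁻¹ • z) with hF
  have hFdiff : MDiff F := (holAct γ R).2
  have hper : ∀ z : ℍ, F (shiftH h' z) = F z := by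
    intro z
    show (R : ℍ → ℂ) (γ⁻¹ • shiftH h' z) = (R : ℍ → ℂ) (γ⁻¹ • z)
    rw [← hinv' (γ⁻¹ • z), ← T_zpow_smul_eq_shiftH, zpow_natCast, hg₀, ← mul_smul, ← mul_smul]
    group
  have hperN : ∀ z : ℍ, F (shiftH N z) = F z := by
    intro z
    have := periodic_mul hper d z
    rwa [hdh] at this
  set Λ : LaurentSeries ℂ := tauInf (RingHom.id ℂ) N γ (aevalF N (P * Q ^ (p - 1))) with hΛdef
  have hΛ : HasQL N (fun z => F z ^ p) Λ := by
    have h1 := hasQL_tauInf (RingHom.id ℂ) N γ (P * Q ^ (p - 1))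
    have h2 : evalAn (RingHom.id ℂ) N γ (P * Q ^ (p - 1)) = fun z => F z ^ p := by
      funext z
      show MvPolynomial.eval₂ (RingHom.id ℂ) (fun d : DivIdx N => jFunD d.1 (γ⁻¹ • z))
        (P * Q ^ (p - 1)) = _
      rw [← Fermat.Agent.Lib.ModCK.evalHol_apply, ← hRp]
      rfl
    rwa [h2] at h1
  obtain ⟨L, hL, hLp⟩ := hroot hFdiff hperN hΛ
  -- non-vanishing
  have hPQ' : aevalF N (P * Q ^ (p - 1)) = u * (aevalF N Q) ^ p := by
    have e : p = (p - 1) + 1 := by omega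
    rw [aevalF_mul, aevalF_pow', ← hPQ]
    conv_rhs => rw [e, pow_succ]
    ring
  have hne : aevalF N (P * Q ^ (p - 1)) ≠ 0 := by
    rw [hPQ']
    exact mul_ne_zero hu0 (_root_.pow_ne_zero p hQ)
  have hΛ0 : Λ ≠ 0 := (map_ne_zero (tauInf (RingHom.id ℂ) N γ)).mpr hne
  have hL0 : L ≠ 0 := by
    rintro rfl
    rw [zero_pow hp.ne'] at hLp
    exact hΛ0 hLp.symm
  obtain ⟨m, hm⟩ := dvd_order_of_periodic hdh hL hL0 hper
  have h1 : Λ.order = p * L.order := by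
    rw [← hLp]
    exact isOrdFun_order.pow hL0 p
  have h2 := hdv _ hne
  rw [← hΛdef, h1, hm, hPQ', Place.ord_mul v hu0 (_root_.pow_ne_zero p hQ),
    (isOrdFun_ord v).pow hQ p] at h2
  refine ⟨m - v.ord (aevalF N Q), ?_⟩
  have hd0 : (d : ℤ) ≠ 0 := by exact_mod_cast hd.ne'
  apply mul_left_cancel₀ hd0
  linear_combination -h2

/-! ### the theorem -/

/-- **(VI)** the divisor of `u = h ^ p` is divisible by `p`. -/
theorem HasChar.dvd_ord {c : Additive ↥(Gamma0 N) →+ ZMod p}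
    (hpar : ModularCurve.Period.IsParabolicHom (Gamma0 N) c)
    (hfin : ∀ γ : ↥(Gamma0 N), IsOfFinOrder γ → c (Additive.ofMul γ) = 0)
    (hroot : ∀ {F : ℍ → ℂ} {Λ : LaurentSeries ℂ}, MDiff F → (∀ z, F (shiftH N z) = F z) →
      HasQL N (fun z => F z ^ p) Λ → ∃ L : LaurentSeries ℂ, HasQL N F L ∧ L ^ p = Λ)
    {h : Mer} (hh : HasChar N p c h) {u : FC N} (hu : embC N u = h ^ p)
    (v : Place ℂ (FC N)) : (p : ℤ) ∣ v.ord u := by
  by_cases hv : 0 ≤ v.ord (jFC N)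
  · exact hh.dvd_ord_point hfin hu v hv
  · exact hh.dvd_ord_cusp hpar hroot hu v (not_le.mp hv)

end Fermat.Agent.S29.D2
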