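import Mathlib
import Fermat.Agent.Lib.ModJ.SturmForms
import Fermat.Agent.Lib.ModJ.QLaurent
import Fermat.Agent.Lib.ModJ.Rot
import Fermat.Agent.S16.ThetaTrGrowth
import Fermat.Agent.S16.QExpH

/-!
# C79 (S29/S42), piece D2, part (V): `p`-th roots

* `isMF_of_pow` (V1): a holomorphic function with the weight-`k` transformation law for `Γ₀(N)`
  whose `p`-th power is a modular form (of weight `p k`) is a modular form;
* `exists_hasQL_root` (V2): a holomorphic `N`-periodic function whose `p`-th power has a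
  `q_N`-Laurent expansion has one.
-/

set_option autoImplicit false
set_option linter.unusedSectionVars false
set_option linter.style.haveILetI false

noncomputable section

open UpperHalfPlane Function Complex ModularForm CongruenceSubgroup Matrix.SpecialLinearGroup
open scoped Manifold MatrixGroups ModularForm

namespace Fermat.Agent.S29.D2

open Fermat.Agent.Lib.ModJ

local notation "𝕢" => Periodic.qParam

/-- a function whose `p`-th power is bounded at `i∞` is bounded at `i∞` -/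
theorem isBoundedAtImInfty_of_pow {p : ℕ} (hp : 0 < p) {G : ℍ → ℂ}
    (h : IsBoundedAtImInfty (fun z => G z ^ p)) : IsBoundedAtImInfty G := by
  rw [isBoundedAtImInfty_iff] at h ⊢
  obtain ⟨M, A, hM⟩ := h
  refine ⟨max 1 M, A, fun z hz => ?_⟩
  have h1 := hM z hz
  rw [norm_pow] at h1
  by_cases h2 : ‖G z‖ ≤ 1
  · exact h2.trans (le_max_left _ _)
  · push Not at h2
    have h3 : ‖G z‖ ≤ ‖G z‖ ^ p := le_self_pow₀ h2.le hp.ne'
    exact (h3.trans h1).trans (le_max_right _ _)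

/-- **(V1)** a holomorphic `p`-th root of a modular form, with the weight-`k` law, is a modular
form -/
theorem isMF_of_pow {N : ℕ} [NeZero N] {k p : ℕ} (hp : 0 < p) {F : ℍ → ℂ} (hF : MDiff F)
    (hinv : ∀ g : SL(2, ℤ), g ∈ Gamma0 N → ∀ z : ℍ, F (g • z) = (denom g z) ^ k * F z)
    (hpow : IsMF N ((p * k : ℕ) : ℤ) (fun z => F z ^ p)) : IsMF N (k : ℤ) F := by
  obtain ⟨f, hf⟩ := hpow
  have hinv' : ∀ γ ∈ Gamma0 N, F ∣[(k : ℤ)] γ = F :=
    fun γ hγ => Fermat.Agent.S16.ThetaTr.slash_eq_of_law (hinv γ hγ)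
  refine ⟨{ toFun := F
            slash_action_eq' := ?_
            holo' := hF
            bdd_at_cusps' := ?_ }, rfl⟩
  · rintro A ⟨g, hg, rfl⟩
    exact hinv' g hg
  · intro c hc
    have hb := f.bdd_at_cusps' hc
    rw [Subgroup.IsArithmetic.isCusp_iff_isCusp_SL2Z] at hc
    rw [OnePoint.isBoundedAt_iff_forall_SL2Z hc] at hb ⊢
    intro γ hγ
    have h1 := hb γ hγ
    apply isBoundedAtImInfty_of_pow hp
    have e : (fun z => (F ∣[(k : ℤ)] γ) z ^ p) = (⇑f ∣[((p * k : ℕ) : ℤ)] γ) := by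
      ext z
      rw [ModularForm.SL_slash_apply, ModularForm.SL_slash_apply, hf, mul_pow]
      show F (γ • z) ^ p * _ = F (γ • z) ^ p * _
      congr 1
      rw [← zpow_natCast (denom (γ : GL (Fin 2) ℝ) z ^ (-(k : ℤ))) p, ← zpow_mul]
      congr 1
      push_cast
      ring
    rw [e]
    exact h1

/-- a convergent `q`-series is bounded at `i∞` -/
theorem isBoundedAtImInfty_of_hasQ {h : ℝ} (hh : 0 < h) {f : ℍ → ℂ} {S : PowerSeries ℂ}
    (hf : HasQ h f S) : IsBoundedAtImInfty f :=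
  isBoundedAtImInfty_of_hasSum_qExpansion hh (c := fun m => S.coeff m)
    (fun τ => by simpa [smul_eq_mul] using hf τ)

/-- `z ↦ q_h(z) ^ M` is holomorphic on `ℍ` -/
theorem mdiff_qParam_pow (h : ℝ) (M : ℕ) : MDiff (fun z : ℍ => 𝕢 h z ^ M) := by
  intro τ
  have hd : DifferentiableAt ℂ (fun w : ℂ => 𝕢 h w ^ M) (τ : ℂ) := by
    unfold Periodic.qParam
    fun_prop
  exact MDifferentiableAt.comp (g := fun w : ℂ => 𝕢 h w ^ M) (f := ((↑) : ℍ → ℂ)) τ
    (DifferentiableAt.mdifferentiableAt hd) τ.mdifferentiable_coe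

/-- **(V2)** a holomorphic `N`-periodic `p`-th root of a function with a `q_N`-Laurent expansion
has a `q_N`-Laurent expansion (and it is a `p`-th root of the given expansion). -/
theorem exists_hasQL_root {N : ℕ} (hN : 0 < N) {p : ℕ} (hp : 0 < p) {F : ℍ → ℂ} (hF : MDiff F)
    (hper : ∀ z : ℍ, F (shiftH N z) = F z) {Λ : LaurentSeries ℂ}
    (hΛ : HasQL N (fun z => F z ^ p) Λ) :
    ∃ L : LaurentSeries ℂ, HasQL N F L ∧ L ^ p = Λ := by
  obtain ⟨M, S, h1, h2⟩ := hΛ
  have hN' : (0 : ℝ) < N := by exact_mod_cast hN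
  set G : ℍ → ℂ := fun z => 𝕢 N z ^ M * F z with hG
  have hle : M ≤ p * M := Nat.le_mul_of_pos_left M hp
  -- `G ^ p` has a `q`-expansion
  have hGp : HasQ N (fun z => G z ^ p) (PowerSeries.X ^ (p * M - M) * S) := by
    refine ((hasQ_X.pow (p * M - M)).mul h1).congr (fun τ => ?_)
    simp only [hG]
    rw [mul_pow, ← pow_mul, ← mul_assoc, ← pow_add, Nat.sub_add_cancel hle, mul_comm M p]
  have hGb : IsBoundedAtImInfty G :=
    isBoundedAtImInfty_of_pow hp (isBoundedAtImInfty_of_hasQ hN' hGp)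
  have hGhol : MDiff G := (mdiff_qParam_pow N M).mul hF
  have hGper : Periodic (G ∘ ofComplex) (((N : ℝ) : ℂ)) := by
    intro w
    by_cases hw : 0 < im w
    · have hw' : 0 < im (w + ((N : ℝ) : ℂ)) := by simp [hw]
      have e1 : 𝕢 (N : ℝ) (w + ((N : ℝ) : ℂ)) = 𝕢 (N : ℝ) w :=
        Fermat.Agent.S16.qParam_add_period _ _
      have e2 : F ⟨w + ((N : ℝ) : ℂ), hw'⟩ = F ⟨w, hw⟩ := by
        have := hper ⟨w, hw⟩
        rw [← this]
        congr 1
      have e3 : (G ∘ ofComplex) (w + ((N : ℝ) : ℂ))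
          = 𝕢 (N : ℝ) (w + ((N : ℝ) : ℂ)) ^ M * F ⟨w + ((N : ℝ) : ℂ), hw'⟩ := by
        rw [comp_apply, ofComplex_apply_of_im_pos hw']
      have e4 : (G ∘ ofComplex) w = 𝕢 (N : ℝ) w ^ M * F ⟨w, hw⟩ := by
        rw [comp_apply, ofComplex_apply_of_im_pos hw]
      rw [e3, e4, e1, e2]
    · have hw0 : im w ≤ 0 := not_lt.mp hw
      have hw1 : im (w + ((N : ℝ) : ℂ)) ≤ 0 := by simpa using hw0
      rw [comp_apply, comp_apply, ofComplex_apply_of_im_nonpos hw1,
        ofComplex_apply_of_im_nonpos hw0]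
  have hGQ : HasQ N G (qExpansion N G) := hasQ_of_periodic hN' hGper hGhol hGb
  set L : LaurentSeries ℂ := HahnSeries.single (-(M : ℤ)) (1 : ℂ)
    * HahnSeries.ofPowerSeries ℤ ℂ (qExpansion N G) with hL
  have hLQ : HasQL N F L := by
    refine ⟨M, qExpansion N G, hGQ, ?_⟩
    rw [hL, ← mul_assoc, HahnSeries.single_mul_single]
    simp
  exact ⟨L, hLQ, HasQL.unique hN' (hLQ.pow p) ⟨M, S, h1, h2⟩⟩

end Fermat.Agent.S29.D2
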