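import Mathlib
import Fermat.Agent.S29.ThetaDefs
import Fermat.Agent.S29.ThetaFrac
import Fermat.Agent.Lib.ModJ.SturmCore
import Fermat.Agent.Lib.ModC.HolReg
import Fermat.Agent.Lib.ModC.Lift
import Fermat.Agent.Lib.ModCK.HolEmbK
import Fermat.Agent.S29.ThetaRoot

/-!
# C79 (S29/S42), piece D2, part (M″): an invariant `p`-th root of an element of the function
field lies in the function field
-/

set_option autoImplicit false
set_option linter.unusedSectionVars false
set_option linter.unusedVariables false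
set_option linter.style.haveILetI false

noncomputable section

open UpperHalfPlane Function Complex ModularForm CongruenceSubgroup IntermediateField
open scoped Manifold MatrixGroups ModularForm

namespace Fermat.Agent.S29.D2

open Fermat.Agent.Lib.ModJ Fermat.Agent.Lib.ModC Fermat.Agent.Lib.ModCK Fermat.Agent.Lib.FF

/-- the transformation law of a modular form on `Γ₀(N)` -/
theorem isMF_smul_eq {N : ℕ} {k : ℤ} {F : ℍ → ℂ} (hF : IsMF N k F) (g : SL(2, ℤ))
    (hg : g ∈ Gamma0 N) (z : ℍ) : F (g • z) = (denom g z) ^ k * F z := by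
  obtain ⟨f, rfl⟩ := hF
  exact SlashInvariantForm.slash_action_eqn_SL'' f hg z

theorem isMF_mdiff {N : ℕ} {k : ℤ} {F : ℍ → ℂ} (hF : IsMF N k F) : MDiff F := by
  obtain ⟨f, rfl⟩ := hF
  exact f.holo'

variable {N : ℕ} [NeZero N]

theorem finite_divIdx (N : ℕ) [NeZero N] : Finite (DivIdx N) :=
  Finite.of_injective
    (fun d : DivIdx N => (⟨(d.1 : ℕ), Nat.lt_succ_of_le (Nat.le_of_dvd (NeZero.pos N) d.2)⟩ :
      Fin (N + 1)))
    (fun a b h => Subtype.ext (PNat.coe_injective (by simpa using congrArg Fin.val h)))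

/-- the divisors of `N` form a finite type -/
@[reducible] def fintypeDivIdx (N : ℕ) [NeZero N] : Fintype (DivIdx N) :=
  haveI := finite_divIdx N
  Fintype.ofFinite _

attribute [local instance] fintypeDivIdx

/-- the product `∏_d Δ(d z) ^ b` -/
def discProd (b : ℕ) (z : ℍ) : ℂ :=
  ∏ i : DivIdx N, ModularForm.discriminant (pnatSMul i.1 z) ^ b

theorem discProd_ne_zero (b : ℕ) (z : ℍ) : discProd (N := N) b z ≠ 0 :=
  Finset.prod_ne_zero_iff.mpr fun i _ => pow_ne_zero _ (discriminant_ne_zero _)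

theorem GanFun_eq (R : MvPolynomial (DivIdx N) ℂ) (b : ℕ) (z : ℍ) :
    GanFun (RingHom.id ℂ) (fun i : DivIdx N => i.1) R (fun _ => b) z
      = (Fermat.Agent.Lib.ModCK.evalHol (RingHom.id ℂ) N R : ℍ → ℂ) z * discProd (N := N) b z := by
  rw [GanFun, Fermat.Agent.Lib.ModCK.evalHol_apply]
  rfl

/-- the weight of `discProd b` -/
def discWt (N : ℕ) [NeZero N] (b : ℕ) : ℕ := 12 * (Fintype.card (DivIdx N) * b)

theorem isMF_evalHol_mul_discProd (R : MvPolynomial (DivIdx N) ℂ) (b : ℕ)
    (hb : R.totalDegree ≤ b) :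
    IsMF N (discWt N b : ℤ)
      (fun z => (Fermat.Agent.Lib.ModCK.evalHol (RingHom.id ℂ) N R : ℍ → ℂ) z * discProd (N := N) b z) := by
  have h := isMF_GanFun (RingHom.id ℂ) (fun i : DivIdx N => i.1) (N := N) (fun i => i.2) R
    (fun _ => b) (fun i => (MvPolynomial.degreeOf_le_totalDegree R i).trans hb)
  refine (h.cast ?_).congr (fun z => GanFun_eq R b z)
  simp [discWt]

/-- **(M″)**: a `Γ₀(N)`-invariant meromorphic function on `ℍ` whose `p`-th power lies in the
function field of `X₀(N)` lies in the function field. -/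
theorem HasChar.mem_range {p : ℕ} [NeZero p]
    (hV1 : ∀ {k : ℕ} {F : ℍ → ℂ}, MDiff F →
        (∀ g : SL(2, ℤ), g ∈ Gamma0 N → ∀ z : ℍ, F (g • z) = (denom g z) ^ k * F z) →
        IsMF N ((p * k : ℕ) : ℤ) (fun z => F z ^ p) → IsMF N (k : ℤ) F)
    {h : Mer} (hh : HasChar N p 0 h) : ∃ w : FC N, embC N w = h := by
  obtain ⟨u, hu⟩ := hh.pow_mem
  obtain ⟨P, Q, hQ, hPQ⟩ := exists_aevalF_div N u
  have hinj : Function.Injective (algebraMap Hol Mer) := IsFractionRing.injective Hol Mer
  have eP : embC N (aevalF N P)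
      = algebraMap Hol Mer (Fermat.Agent.Lib.ModCK.evalHol (RingHom.id ℂ) N P) :=
    Fermat.Agent.Lib.ModCK.embAn_aevalF (RingHom.id ℂ) N P
  have eQ : embC N (aevalF N Q)
      = algebraMap Hol Mer (Fermat.Agent.Lib.ModCK.evalHol (RingHom.id ℂ) N Q) :=
    Fermat.Agent.Lib.ModCK.embAn_aevalF (RingHom.id ℂ) N Q
  set Pan : Hol := Fermat.Agent.Lib.ModCK.evalHol (RingHom.id ℂ) N P with hPan
  set Qan : Hol := Fermat.Agent.Lib.ModCK.evalHol (RingHom.id ℂ) N Q with hQan
  have hQan0 : Qan ≠ 0 := by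
    intro h0
    apply hQ
    have h1 : embC N (aevalF N Q) = 0 := by rw [eQ, h0, map_zero]
    exact (map_eq_zero (embC N)).mp h1
  have hQan0' : algebraMap Hol Mer Qan ≠ 0 := fun h0 =>
    hQan0 (hinj (by rw [h0, map_zero]))
  have h1 : h ^ p * algebraMap Hol Mer Qan = algebraMap Hol Mer Pan := by
    rw [← hu, ← eQ, ← eP, ← map_mul, hPQ]
  have hp1 : p - 1 + 1 = p := Nat.sub_add_cancel (NeZero.pos p)
  -- the holomorphic function `R = h · Q_an`
  have hR'0 : h * algebraMap Hol Mer Qan ≠ 0 := mul_ne_zero hh.ne_zero hQan0'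
  have hR'p : (h * algebraMap Hol Mer Qan) ^ p = algebraMap Hol Mer (Pan * Qan ^ (p - 1)) := by
    rw [map_mul, map_pow, ← h1, mul_pow]
    conv_lhs => rw [← hp1, pow_succ (algebraMap Hol Mer Qan) (p - 1), hp1]
    ring
  have hPQ0 : Pan * Qan ^ (p - 1) ≠ 0 := by
    intro h0
    rw [h0, map_zero] at hR'p
    exact hR'0 (pow_eq_zero_iff (NeZero.ne p) |>.mp hR'p)
  have hord : ∀ z : ℍ, 0 ≤ ordAt z (h * algebraMap Hol Mer Qan) := by
    intro z
    have e1 := (isOrdFun_ordAt z).pow hR'0 p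
    rw [hR'p, ordAt_algebraMap z hPQ0] at e1
    have e2 := holOrd_nonneg z (Pan * Qan ^ (p - 1))
    have hp0 : (0 : ℤ) < p := by exact_mod_cast NeZero.pos p
    by_contra hneg
    have hneg' : ordAt z (h * algebraMap Hol Mer Qan) < 0 := not_le.mp hneg
    have := mul_neg_of_pos_of_neg hp0 hneg'
    omega
  obtain ⟨R, hR⟩ := exists_hol_of_ordAt_nonneg _ hord
  have hRp : R ^ p = Pan * Qan ^ (p - 1) := by
    apply hinj
    rw [map_pow, hR, hR'p]
  -- invariance of `R`
  have hRinv : ∀ g : SL(2, ℤ), g ∈ Gamma0 N → ∀ z : ℍ, (R : ℍ → ℂ) (g • z) = (R : ℍ → ℂ) z := by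
    intro g hg z
    have hact := hh.act ⟨g, hg⟩
    rw [chi_zero, map_one, map_one, one_mul] at hact
    have hg' : g⁻¹ ∈ Gamma0 N := inv_mem hg
    have e1 : merAct g⁻¹ (algebraMap Hol Mer R) = algebraMap Hol Mer R := by
      rw [hR, map_mul, merAct_algebraMap,
        Fermat.Agent.Lib.ModCK.holAct_evalHol (RingHom.id ℂ) N g⁻¹ hg' Q]
      exact congrArg (· * algebraMap Hol Mer Qan) hact
    rw [merAct_algebraMap] at e1
    have e2 := hinj e1
    have e3 := congrArg (fun f : Hol => (f : ℍ → ℂ) z) e2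
    simp only [holAct_apply, inv_inv] at e3
    exact e3
  -- the auxiliary modular forms
  set b : ℕ := P.totalDegree + Q.totalDegree with hb
  set k : ℕ := discWt N b with hk
  have hD : IsMF N (k : ℤ) (discProd (N := N) b) := by
    have := isMF_evalHol_mul_discProd (N := N) 1 b (by simp)
    refine this.congr (fun z => ?_)
    rw [map_one]
    exact one_mul _
  have hB : IsMF N (k : ℤ) (fun z => (Qan : ℍ → ℂ) z * discProd (N := N) b z) :=
    isMF_evalHol_mul_discProd Q b (Nat.le_add_left _ _)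
  have hPD : IsMF N (k : ℤ) (fun z => (Pan : ℍ → ℂ) z * discProd (N := N) b z) :=
    isMF_evalHol_mul_discProd P b (Nat.le_add_right _ _)
  -- `A₁ = R · D_b`
  have hA : IsMF N (k : ℤ) (fun z => (R : ℍ → ℂ) z * discProd (N := N) b z) := by
    refine hV1 (R.2.mul (isMF_mdiff hD)) ?_ ?_
    · intro g hg z
      show (R : ℍ → ℂ) (g • z) * discProd (N := N) b (g • z) = _
      rw [hRinv g hg z, isMF_smul_eq hD g hg z, zpow_natCast]
      ring
    · have h2 := hPD.mul (hB.pow (p - 1))
      refine (h2.cast ?_).congr (fun z => ?_)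
      · have : ((p * k : ℕ) : ℤ) = (k : ℤ) + ((p - 1 : ℕ) : ℤ) * (k : ℤ) := by
          conv_lhs => rw [← hp1]
          push_cast
          ring
        exact this.symm
      · have e := congrArg (fun f : Hol => (f : ℍ → ℂ) z) hRp
        simp only [Subring.coe_pow, Subring.coe_mul, Pi.pow_apply, Pi.mul_apply] at e
        show (Pan : ℍ → ℂ) z * discProd (N := N) b z
            * ((Qan : ℍ → ℂ) z * discProd (N := N) b z) ^ (p - 1)
          = ((R : ℍ → ℂ) z * discProd (N := N) b z) ^ p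
        rw [mul_pow ((R : ℍ → ℂ) z), e, mul_pow]
        conv_rhs => rw [← hp1, pow_succ (discProd (N := N) b z) (p - 1), hp1]
        ring
  -- conclusion
  let Db : Hol := ⟨discProd (N := N) b, (isMF_mdiff hD)⟩
  have hDb0 : algebraMap Hol Mer Db ≠ 0 := by
    intro h0
    have h1 : Db = 0 := hinj (by rw [h0, map_zero])
    have h2 := congrArg (fun f : Hol => (f : ℍ → ℂ) UpperHalfPlane.I) h1
    exact discProd_ne_zero b _ h2
  have hB0 : Qan * Db ≠ 0 := mul_ne_zero hQan0 (fun h0 => hDb0 (by rw [h0, map_zero]))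
  obtain ⟨w, hw⟩ := exists_embC_mul_eq N (R * Db) (Qan * Db) hA hB hB0
  refine ⟨w, ?_⟩
  rw [map_mul, map_mul, hR] at hw
  have h3 : embC N w * algebraMap Hol Mer Qan = h * algebraMap Hol Mer Qan := by
    apply mul_right_cancel₀ hDb0
    rw [mul_assoc, hw]
  exact mul_right_cancel₀ hQan0' h3

/-- **(M″)**, final form: a function with trivial character lies in the function field. -/
theorem HasChar.exists_embC_eq {p : ℕ} [NeZero p] {h : Mer} (hh : HasChar N p 0 h) :
    ∃ w : FC N, embC N w = h :=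
  HasChar.mem_range (fun hF hinv hpow => isMF_of_pow (NeZero.pos p) hF hinv hpow) hh

end Fermat.Agent.S29.D2

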