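import Mathlib
import Fermat.Agent.S29.EigenGlue
import Fermat.Agent.S29.ParFinal
import Fermat.Agent.S29.ThetaMap
import Fermat.Agent.S29.ThetaChar
import Fermat.Agent.S29.ThetaOrd
import Fermat.Agent.S29.ThetaRoot
import Fermat.Agent.S29.ThetaHecke
import Fermat.Agent.S29.DescFinal
import Fermat.Agent.S29.ThetaRange
import Fermat.Agent.S29.Final

/-!
# S29 / S42 (campaign 79), piece D5, final form

The eigenvector in `k₀ ⊗ J₀(N)[p]`: the eigenclass of `D1` in `k₀ ⊗ Hom_par(Γ₀(N), ZMod p)` is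
transported by the injective Hecke equivariant map `Θ` (`D2`, `D3`) to `k₀ ⊗ Pic⁰(F_ℂ(N))[p]` and
then by the inverse of the base change (`D4`) to `k₀ ⊗ J₀(N)[p]`.

`eigenvectorExists : Final.EigenvectorExists` is the interface of the final assembly of `S29`.
-/

set_option autoImplicit false
set_option linter.unusedSectionVars false
set_option linter.unusedVariables false
set_option linter.style.haveILetI false

noncomputable section

open UpperHalfPlane CongruenceSubgroup AlgebraicCurve ModularCurve ModularCurve.Period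
open scoped MatrixGroups
open Fermat.Agent.Lib.ModC Fermat.Agent.Lib.ModCK Fermat.Agent.Lib.ModJ

namespace Fermat.Agent.S29.D5F

local notation "Zbar" => integralClosure ℤ ℂ

variable {N : ℕ} [NeZero N] {p : ℕ} [Fact p.Prime]

/-- the primality of `p` gives `p ≠ 0` -/
theorem neZero_of_fact : NeZero p := ⟨(Fact.out : p.Prime).ne_zero⟩

/-- `D2.hex` for `parFin` -/
theorem hex_parFin :
    haveI : NeZero p := neZero_of_fact
    ∀ c ∈ D1.parFin N p, ∃ h, D2.HasChar N p c h := by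
  haveI : NeZero p := neZero_of_fact
  intro c hc
  exact D2.exists_hasChar hc.1

/-- `D2.hdvd` for `parFin` -/
theorem hdvd_parFin :
    haveI : NeZero p := neZero_of_fact
    ∀ c ∈ D1.parFin N p, ∀ h, D2.HasChar N p c h → ∀ u : FC N, embC N u = h ^ p →
      ∀ v : Place ℂ (FC N), (p : ℤ) ∣ v.ord u := by
  haveI : NeZero p := neZero_of_fact
  intro c hc h hh u hu v
  exact D2.HasChar.dvd_ord hc.1 hc.2
    (fun hF hper hΛ => D2.exists_hasQL_root (Nat.pos_of_ne_zero (NeZero.ne N))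
      (Nat.pos_of_ne_zero (NeZero.ne p)) hF hper hΛ) hh hu v

section Theta

variable (hrange :
  haveI : NeZero p := neZero_of_fact
  ∀ h : Mer, D2.HasChar N p 0 h → ∃ w : FC N, embC N w = h)

/-- `Θ` on `parFin` -/
def thetaPar (hrange :
    haveI : NeZero p := neZero_of_fact
    ∀ h : Mer, D2.HasChar N p 0 h → ∃ w : FC N, embC N w = h) :
    D1.parFin N p →ₗ[ZMod p] BC.TorC N p :=
  haveI : NeZero p := neZero_of_fact
  D2.thetaOf (D1.parFin N p) hex_parFin hdvd_parFin hrange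

theorem thetaPar_injective : Function.Injective (thetaPar (N := N) (p := p) hrange) := by
  haveI : NeZero p := neZero_of_fact
  exact D2.thetaOf_injective (D1.parFin N p) hex_parFin hdvd_parFin hrange

/-- `Θ` is Hecke equivariant -/
theorem thetaPar_hecke {ℓ : ℕ} (hℓ : ℓ.Prime) (hℓN : ¬ ℓ ∣ N) (c : D1.parFin N p) :
    thetaPar hrange (D1.heckeParFin N p ℓ hℓ c)
      = BC.heckeTorC N p ⟨ℓ, hℓ⟩ (thetaPar hrange c) := by
  haveI : NeZero p := neZero_of_fact
  haveI : Fact ℓ.Prime := ⟨hℓ⟩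
  haveI : NeZero ℓ := ⟨hℓ.ne_zero⟩
  apply Subtype.ext
  show ((thetaPar hrange (D1.heckeParFin N p ℓ hℓ c) : BC.TorC N p) : Pic0 ℂ (FC N))
    = heckeOperatorAlong ℂ N ℓ ((thetaPar hrange c : BC.TorC N p) : Pic0 ℂ (FC N))
  have hTc : D1.heckeHom (ZMod p) hℓN (c : Additive ↥(Gamma0 N) →+ ZMod p)
      ∈ (D1.parFin N p : Set (Additive ↥(Gamma0 N) →+ ZMod p)) := by
    rw [← D1.coe_heckeParFin hℓ hℓN c]
    exact (D1.heckeParFin N p ℓ hℓ c).2
  have key := D3.theta_hecke_of_spec (p := p) hℓN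
    (H := (D1.parFin N p : Set (Additive ↥(Gamma0 N) →+ ZMod p)))
    (fun c => ((thetaPar hrange (⟨c.1, c.2⟩ : D1.parFin N p) : BC.TorC N p) : Pic0 ℂ (FC N)))
    (fun c h hh u hu D hD =>
      D2.thetaOf_spec (D1.parFin N p) hex_parFin hdvd_parFin hrange ⟨c.1, c.2⟩ hh hu D hD)
    (fun c => by
      obtain ⟨h, u, D, d⟩ := D2.exists_isThetaData (D1.parFin N p) hex_parFin hdvd_parFin
        (⟨c.1, c.2⟩ : D1.parFin N p)
      exact ⟨h, u, D, d.hasChar, d.emb, d.div⟩)
    ⟨c.1, c.2⟩ hTc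
  have hc : D1.heckeParFin N p ℓ hℓ c
      = ⟨D1.heckeHom (ZMod p) hℓN (c : Additive ↥(Gamma0 N) →+ ZMod p), hTc⟩ :=
    Subtype.ext (D1.coe_heckeParFin hℓ hℓN c)
  rw [hc]
  exact key

include hrange in
/-- **D5 with `hrange` as a hypothesis** -/
theorem hasEigenvector_of_range {g : CuspForm (Gamma0 N) 2} (hg : g.IsNormalizedEigenform)
    {k₀ : Type} [Field k₀] [Algebra (ZMod p) k₀] (π : Zbar →+* k₀) :
    HasEigenvector g p k₀ π := by
  obtain ⟨c, hc, hceig⟩ := D1.exists_eigenclass_parFin (N := N) (p := p) hg π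
  have hℓN' : ∀ {ℓ : ℕ}, ¬ ℓ ∣ N * p → ¬ ℓ ∣ N := fun hℓNp h => hℓNp (Dvd.dvd.mul_right h p)
  exact D5.hasEigenvector_of_theta_bc g π
    (fun ℓ hℓ => D1.heckeParFin N p ℓ hℓ) (fun ℓ hℓ => BC.heckeTorC N p ⟨ℓ, hℓ⟩)
    (thetaPar hrange) (thetaPar_injective hrange)
    (fun ℓ hℓ hℓNp x => thetaPar_hecke hrange hℓ (hℓN' hℓNp) x)
    (BC.bcTor iotaQbar N p) (D4.bcTor_bijective iotaQbar N p (Fact.out : p.Prime).ne_zero)
    (fun ℓ hℓ _ y => BC.bcTor_hecke iotaQbar N p ⟨ℓ, hℓ⟩ y)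
    c hc (fun ℓ hℓ hℓNp a ha => hceig ℓ hℓ (hℓN' hℓNp) a ha)

end Theta

/-- `D2.hrange` -/
theorem hrange_all :
    haveI : NeZero p := neZero_of_fact
    ∀ h : Mer, D2.HasChar N p 0 h → ∃ w : FC N, embC N w = h := by
  haveI : NeZero p := neZero_of_fact
  intro h hh
  exact D2.HasChar.exists_embC_eq hh

/-- **D5, final form**: the interface of the final assembly of `S29`. -/
theorem eigenvectorExists : Final.EigenvectorExists := by
  intro N _ g hg p _ k₀ _ _ _ π _
  exact hasEigenvector_of_range (N := N) (p := p) hrange_all hg π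

end Fermat.Agent.S29.D5F
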