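import Mathlib
import Fermat.Agent.S29.BCHeckeOp
import Fermat.Agent.S29.BCInst

/-!
# Campaign 79, piece BC: `bcJ` commutes with the Hecke operators
-/

set_option autoImplicit false
set_option linter.unusedSectionVars false
set_option linter.unusedVariables false
set_option linter.style.haveILetI false

open AlgebraicCurve ModularCurve Fermat.Agent.Lib.FF Fermat.Agent.Lib.ModCK Fermat.Agent.S37.H
  Fermat.Agent.Lib.ModJ Fermat.Agent.S29.HC

noncomputable section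

namespace Fermat.Agent.S29.BC

variable {K : Type*} [Field K] [Algebra ℚ K] [IsAlgClosed K] [CharZero K] (σ : K →+* ℂ)
  (N ℓ : ℕ) [NeZero N] [NeZero ℓ]

/-- **(v)** `bcJ` commutes with the Hecke operators -/
theorem bcJ_heckeOperatorAlong (x : Pic0 K ↥(FFK K N)) :
    bcJ σ N (heckeOperatorAlong K N ℓ x) = heckeOperatorAlong ℂ N ℓ (bcJ σ N x) :=
  (heckeOperatorAlong_bcPic0 σ (RingHom.id ℂ) σ N ℓ (placeExt_bcPlace σ N)
    (placeExt_bcPlace σ (N * ℓ)) x).symm

/-- **(v)** for `ℚ̄ → ℂ` and the prelude's `heckeOperatorBar` -/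
theorem bcJ_heckeOperatorBar (e : AlgebraicClosure ℚ →+* ℂ) (N : ℕ) [NeZero N]
    (ℓ : Nat.Primes) (x : JZero N) :
    haveI : NeZero (ℓ : ℕ) := ⟨ℓ.2.ne_zero⟩
    bcJ e N (heckeOperatorBar N ℓ x) = heckeOperatorAlong ℂ N ℓ (bcJ e N x) := by
  haveI : NeZero (ℓ : ℕ) := ⟨ℓ.2.ne_zero⟩
  exact bcJ_heckeOperatorAlong e N ℓ x

end Fermat.Agent.S29.BC
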