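import Mathlib

/-!
# S29 / S42 (campaign 79), piece E: the abstract core of the assembly

A group `G` acts on a `k₀`-vector space `W`; `v ≠ 0` is fixed by a normal subgroup `H` of finite
index; a family of "Frobenius elements" `σ` with "traces" `a` satisfies
`σ² − a σ + d(σ) = 0` on the span `V` of the orbit of `v`, and every `g ∈ G` is congruent modulo `H`
to a power of a Frobenius element. Then (using the algebra lemma (B)) there is a
2-dimensional representation `ρ` with `charpoly ρ(σ) = X² − a X + d(σ)`, trivial on `H` and on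
every "inertia" element (acting trivially on `V`, with `d = 1`).
-/

set_option autoImplicit false
set_option linter.style.haveILetI false

noncomputable section

namespace Fermat.Agent.S29.Core

open Polynomial

/-- The statement of the algebra lemma (B). -/
def LemmaB (G : Type*) [Group G] (k₀ : Type) [Field k₀] : Prop :=
  ∀ (V : Type) [AddCommGroup V] [Module k₀ V] [FiniteDimensional k₀ V] [Nontrivial V]
    (r : G →* Module.End k₀ V) (d : G →* k₀ˣ) (t : G → k₀),
    (∀ g, r g + ((d g : k₀ˣ) : k₀) • r g⁻¹ = t g • (1 : Module.End k₀ V)) →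
    ∃ (V₂ : Type) (_ : AddCommGroup V₂) (_ : Module k₀ V₂) (_ : Module.Finite k₀ V₂)
      (ρ : G →* Module.End k₀ V₂),
      Module.finrank k₀ V₂ = 2 ∧
      (∀ g, (ρ g).charpoly = X ^ 2 - C (t g) * X + C (((d g : k₀ˣ) : k₀))) ∧
      (∀ g, r g = 1 → d g = 1 → ρ g = 1)

section Lucas

variable {k₀ : Type} [Field k₀] {E : Type*} [Ring E] [Algebra k₀ E]

/-- Lucas sequences: if `s + c s⁻¹ = a` then `s ^ n + c ^ n s ^ (-n)` is a scalar for all `n`. -/
theorem exists_scalar_pow (s s' : E) (h1 : s * s' = 1) (h2 : s' * s = 1) (a c : k₀)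
    (h : s + c • s' = a • (1 : E)) (n : ℕ) :
    ∃ t : k₀, s ^ n + c ^ n • s' ^ n = t • (1 : E) := by
  have hcomm : Commute s s' := by
    show s * s' = s' * s
    rw [h1, h2]
  have key : ∀ n : ℕ, (∃ t : k₀, s ^ n + c ^ n • s' ^ n = t • (1 : E)) ∧
      (∃ t : k₀, s ^ (n + 1) + c ^ (n + 1) • s' ^ (n + 1) = t • (1 : E)) := by
    intro n
    induction n with
    | zero =>
      refine ⟨⟨2, ?_⟩, ⟨a, ?_⟩⟩
      · rw [pow_zero, pow_zero, pow_zero, one_smul, two_smul]
      · rw [zero_add, pow_one, pow_one, pow_one, h]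
    | succ n ih =>
      obtain ⟨⟨t₀, ht₀⟩, ⟨t₁, ht₁⟩⟩ := ih
      refine ⟨⟨t₁, ht₁⟩, ⟨a * t₁ - c * t₀, ?_⟩⟩
      have e1 : (s + c • s') * (s ^ (n + 1) + c ^ (n + 1) • s' ^ (n + 1))
          = (s ^ (n + 1 + 1) + c ^ (n + 1 + 1) • s' ^ (n + 1 + 1))
            + c • (s ^ n + c ^ n • s' ^ n) := by
        have a1 : s * s ^ (n + 1) = s ^ (n + 1 + 1) := (pow_succ' s (n + 1)).symm
        have a2 : s' * s' ^ (n + 1) = s' ^ (n + 1 + 1) := (pow_succ' s' (n + 1)).symm
        have a3 : s * s' ^ (n + 1) = s' ^ n := by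
          rw [pow_succ', ← mul_assoc, h1, one_mul]
        have a4 : s' * s ^ (n + 1) = s ^ n := by
          rw [pow_succ', ← mul_assoc, h2, one_mul]
        have b1 : c * c ^ (n + 1) = c ^ (n + 1 + 1) := (pow_succ' c (n + 1)).symm
        have b2 : c * c ^ n = c ^ (n + 1) := (pow_succ' c n).symm
        rw [add_mul, mul_add, mul_add, a1, smul_mul_assoc, smul_mul_assoc, mul_smul_comm,
          mul_smul_comm, a2, a3, a4, smul_add, smul_smul, smul_smul, b1, b2]
        abel
      rw [h, ht₁, ht₀] at e1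
      have e2 : s ^ (n + 1 + 1) + c ^ (n + 1 + 1) • s' ^ (n + 1 + 1)
          = (a • (1 : E)) * (t₁ • (1 : E)) - c • (t₀ • (1 : E)) := by
        rw [e1]
        abel
      rw [e2, smul_mul_assoc, one_mul, smul_smul, smul_smul, sub_smul]
  exact (key n).1

end Lucas

section Main

variable {G : Type*} [Group G] {k₀ : Type} [Field k₀]
  {W : Type} [AddCommGroup W] [Module k₀ W]

/-- **The abstract core.** -/
theorem core (hB : LemmaB G k₀)
    (R : G →* Module.End k₀ W) (v : W) (hv : v ≠ 0) (d : G →* k₀ˣ)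
    (H : Subgroup G) [hHn : H.Normal] [hHfin : H.FiniteIndex]
    (hHv : ∀ h ∈ H, R h v = v) (hHd : ∀ h ∈ H, d h = 1)
    (Fr : G → k₀ → Prop)
    (hFr : ∀ σ a, Fr σ a → ∀ τ : G,
      R σ (R σ (R τ v)) - a • R σ (R τ v) + ((d σ : k₀ˣ) : k₀) • R τ v = 0)
    (hdens : ∀ g : G, ∃ σ a, Fr σ a ∧ ∃ n : ℕ, g⁻¹ * σ ^ n ∈ H)
    (I : Set G) (hI : ∀ τ ∈ I, ∀ g : G, R τ (R g v) = R g v) (hId : ∀ τ ∈ I, d τ = 1) :
    ∃ (V₂ : Type) (_ : AddCommGroup V₂) (_ : Module k₀ V₂) (_ : Module.Finite k₀ V₂)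
      (ρ : G →* Module.End k₀ V₂),
      Module.finrank k₀ V₂ = 2 ∧ (∀ h ∈ H, ρ h = 1) ∧ (∀ τ ∈ I, ρ τ = 1) ∧
      ∀ σ a, Fr σ a → (ρ σ).charpoly = X ^ 2 - C a * X + C (((d σ : k₀ˣ) : k₀)) := by
  classical
  -- the span of the orbit
  let orb : G → W := fun g => R g v
  let V : Submodule k₀ W := Submodule.span k₀ (Set.range orb)
  have hvV : v ∈ V := Submodule.subset_span ⟨1, by simp [orb]⟩
  -- the orbit is finite
  have horbH : ∀ g : G, ∀ h ∈ H, orb (g * h) = orb g := by
    intro g h hh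
    show R (g * h) v = R g v
    rw [map_mul, Module.End.mul_apply, hHv h hh]
  have hfinorb : (Set.range orb).Finite := by
    haveI : Finite (G ⧸ H) := Subgroup.finite_quotient_of_finiteIndex
    let f : G ⧸ H → W := Quotient.lift orb (fun g g' hgg' => by
      have h1 : g⁻¹ * g' ∈ H := QuotientGroup.leftRel_apply.mp hgg'
      have := horbH g (g⁻¹ * g') h1
      rw [mul_inv_cancel_left] at this
      exact this.symm)
    have : Set.range orb ⊆ Set.range f := by
      rintro _ ⟨g, rfl⟩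
      exact ⟨QuotientGroup.mk g, rfl⟩
    exact (Set.finite_range f).subset this
  haveI hVfd : FiniteDimensional k₀ V := FiniteDimensional.span_of_finite k₀ hfinorb
  haveI hVnt : Nontrivial V := ⟨⟨⟨v, hvV⟩, 0, fun h => hv (congrArg Subtype.val h)⟩⟩
  -- `V` is stable
  have hstab : ∀ g : G, ∀ w ∈ V, R g w ∈ V := by
    intro g w hw
    induction hw using Submodule.span_induction with
    | mem x hx =>
      obtain ⟨g', rfl⟩ := hx
      apply Submodule.subset_span
      exact ⟨g * g', by simp [orb, map_mul]⟩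
    | zero => simp
    | add x y _ _ hx hy => rw [map_add]; exact V.add_mem hx hy
    | smul c x _ hx => rw [map_smul]; exact V.smul_mem c hx
  let r : G →* Module.End k₀ V :=
    { toFun := fun g => (R g).restrict (hstab g)
      map_one' := by
        ext w
        simp
      map_mul' := fun g g' => by
        ext w
        simp [map_mul] }
  have hr : ∀ (g : G) (w : V), ((r g w : V) : W) = R g (w : W) := fun g w => rfl
  -- an endomorphism of `V` is determined on the orbit
  have hext : ∀ f f' : Module.End k₀ V, (∀ g : G, ∀ hg : orb g ∈ V,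
      f ⟨orb g, hg⟩ = f' ⟨orb g, hg⟩) → f = f' := by
    intro f f' hff
    ext ⟨w, hw⟩
    induction hw using Submodule.span_induction with
    | mem x hx =>
      obtain ⟨g, rfl⟩ := hx
      exact congrArg Subtype.val (hff g _)
    | zero =>
      have : (⟨0, V.zero_mem⟩ : V) = 0 := rfl
      rw [this, map_zero, map_zero]
    | add x y hx hy ihx ihy =>
      have : (⟨x + y, V.add_mem hx hy⟩ : V) = ⟨x, hx⟩ + ⟨y, hy⟩ := rfl
      rw [this, map_add, map_add, Submodule.coe_add, Submodule.coe_add, ihx, ihy]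
    | smul c x hx ihx =>
      have : (⟨c • x, V.smul_mem c hx⟩ : V) = c • ⟨x, hx⟩ := rfl
      rw [this, map_smul, map_smul, Submodule.coe_smul, Submodule.coe_smul, ihx]
  have horbV : ∀ g, orb g ∈ V := fun g => Submodule.subset_span ⟨g, rfl⟩
  -- `H` acts trivially on `V`
  have hrH : ∀ h ∈ H, r h = 1 := by
    intro h hh
    apply hext
    intro g hg
    apply Subtype.ext
    rw [hr]
    show R h (R g v) = R g v
    have h1 : g⁻¹ * h * g ∈ H := by
      have := hHn.conj_mem h hh g⁻¹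
      rwa [inv_inv] at this
    have h2 : h * g = g * (g⁻¹ * h * g) := by group
    rw [← Module.End.mul_apply, ← map_mul, h2, map_mul, Module.End.mul_apply, hHv _ h1]
  -- Frobenius relation on `V`
  have hrFr : ∀ σ a, Fr σ a →
      r σ + ((d σ : k₀ˣ) : k₀) • r σ⁻¹ = a • (1 : Module.End k₀ V) := by
    intro σ a hσ
    have hq : r σ * r σ - a • r σ + ((d σ : k₀ˣ) : k₀) • (1 : Module.End k₀ V) = 0 := by
      apply hext
      intro g hg
      apply Subtype.ext
      have := hFr σ a hσ g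
      simpa [hr, orb] using this
    have hinv : r σ * r σ⁻¹ = 1 := by rw [← map_mul, mul_inv_cancel, map_one]
    have h3 : (r σ * r σ - a • r σ + ((d σ : k₀ˣ) : k₀) • (1 : Module.End k₀ V)) * r σ⁻¹
        = r σ + ((d σ : k₀ˣ) : k₀) • r σ⁻¹ - a • (1 : Module.End k₀ V) := by
      rw [add_mul, sub_mul, mul_assoc, hinv, mul_one, smul_mul_assoc, hinv, smul_mul_assoc,
        one_mul]
      abel
    rw [hq, zero_mul] at h3
    exact (sub_eq_zero.mp h3.symm)
  -- the relation for all `g`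
  have hall : ∀ g : G, ∃ t : k₀,
      r g + ((d g : k₀ˣ) : k₀) • r g⁻¹ = t • (1 : Module.End k₀ V) := by
    intro g
    obtain ⟨σ, a, hσ, n, hn⟩ := hdens g
    have hrg : r g = r σ ^ n := by
      have h4 := hrH _ hn
      calc r g = r g * r (g⁻¹ * σ ^ n) := by rw [h4, mul_one]
        _ = r (g * (g⁻¹ * σ ^ n)) := (map_mul r _ _).symm
        _ = r (σ ^ n) := by rw [mul_inv_cancel_left]
        _ = r σ ^ n := map_pow r σ n
    have hdg : d g = d σ ^ n := by
      have h4 := hHd _ hn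
      calc d g = d g * d (g⁻¹ * σ ^ n) := by rw [h4, mul_one]
        _ = d (g * (g⁻¹ * σ ^ n)) := (map_mul d _ _).symm
        _ = d (σ ^ n) := by rw [mul_inv_cancel_left]
        _ = d σ ^ n := map_pow d σ n
    have hn' : σ ^ n * g⁻¹ ∈ H := by
      have h5 := hHn.conj_mem _ hn g
      have h6 : g * (g⁻¹ * σ ^ n) * g⁻¹ = σ ^ n * g⁻¹ := by group
      rwa [h6] at h5
    have hrginv : r g⁻¹ = r σ⁻¹ ^ n := by
      have h4 := hrH _ hn'
      calc r g⁻¹ = r (σ⁻¹ ^ n * (σ ^ n * g⁻¹)) := by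
            congr 1
            rw [← mul_assoc, inv_pow, inv_mul_cancel, one_mul]
        _ = r (σ⁻¹ ^ n) * r (σ ^ n * g⁻¹) := map_mul r _ _
        _ = r σ⁻¹ ^ n := by rw [h4, mul_one, map_pow]
    obtain ⟨t, ht⟩ := exists_scalar_pow (k₀ := k₀) (r σ) (r σ⁻¹)
      (by rw [← map_mul, mul_inv_cancel, map_one]) (by rw [← map_mul, inv_mul_cancel, map_one])
      a ((d σ : k₀ˣ) : k₀) (hrFr σ a hσ) n
    refine ⟨t, ?_⟩
    rw [hrg, hrginv, hdg, Units.val_pow_eq_pow_val]
    exact ht
  choose t ht using hall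
  obtain ⟨V₂, i1, i2, i3, ρ, hfr, hchar, htriv⟩ := hB V r d t ht
  refine ⟨V₂, i1, i2, i3, ρ, hfr, ?_, ?_, ?_⟩
  · intro h hh
    exact htriv h (hrH h hh) (hHd h hh)
  · intro τ hτ
    refine htriv τ ?_ (hId τ hτ)
    apply hext
    intro g hg
    apply Subtype.ext
    rw [hr]
    exact hI τ hτ g
  · intro σ a hσ
    have h5 : t σ • (1 : Module.End k₀ V) = a • (1 : Module.End k₀ V) := by
      rw [← ht σ, hrFr σ a hσ]
    have h6 : t σ = a := by
      have h7 := congrArg (fun f : Module.End k₀ V => f ⟨v, hvV⟩) h5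
      simp only [LinearMap.smul_apply, Module.End.one_apply] at h7
      have h8 : (t σ - a) • (⟨v, hvV⟩ : V) = 0 := by rw [sub_smul, h7, sub_self]
      rcases smul_eq_zero.mp h8 with h9 | h9
      · exact sub_eq_zero.mp h9
      · exact absurd (congrArg Subtype.val h9) hv
    rw [hchar σ, h6]

end Main

end Fermat.Agent.S29.Core
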