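import Fermat.Agent.S37.GalRed
import Fermat.Agent.S18.CuspRoots
import Fermat.Prelude.Def_FLTPrelim_Ramification
import Fermat.Prelude.Def_GaloisRep_Residual
import Fermat.Prelude.Def_ExtCitation_AdmissibleExtension

/-!
# S29 / S42 (campaign 79), piece E-b: the mod `p` cyclotomic character

`chi p : Gal(ℚ̄/ℚ) →* (ZMod p)ˣ` with
* `chi p σ = ℓ` for every Frobenius element `σ` at a prime `ℓ ≠ p`;
* `chi p τ = 1` for `τ` in an inertia group at `ℓ ≠ p`;
* `chi p` has finite level.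
-/

set_option autoImplicit false
set_option linter.unusedSectionVars false
set_option linter.style.haveILetI false

noncomputable section

namespace Fermat.Agent.S29.Cyclo

local notation "Qb" => AlgebraicClosure ℚ
local notation "Gal" => (AlgebraicClosure ℚ ≃ₐ[ℚ] AlgebraicClosure ℚ)

variable (p : ℕ) [hp : Fact p.Prime]

instance : NeZero p := ⟨hp.out.ne_zero⟩

/-- `Gal(ℚ̄/ℚ) → Aut(ℚ̄)` as a monoid homomorphism -/
def toRingEquivHom : Gal →* (Qb ≃+* Qb) where
  toFun σ := (σ : Qb ≃+* Qb)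
  map_one' := rfl
  map_mul' _ _ := rfl

theorem card_roots : Nat.card (rootsOfUnity p Qb) = p :=
  IsAlgClosed.card_rootsOfUnity_eq Qb p

/-- The mod `p` cyclotomic character of `Gal(ℚ̄/ℚ)`. -/
def chi : Gal →* (ZMod p)ˣ :=
  (modularCyclotomicCharacter Qb (card_roots p)).comp toRingEquivHom

theorem chi_spec (σ : Gal) {ζ : Qbˣ} (hζ : ζ ∈ rootsOfUnity p Qb) :
    σ (ζ : Qb) = (ζ : Qb) ^ ((chi p σ : (ZMod p)ˣ) : ZMod p).val :=
  modularCyclotomicCharacter.spec Qb (card_roots p) (σ : Qb ≃+* Qb) hζ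

section Local

variable (A : ValuationSubring Qb) (ℓ : ℕ) [hℓ : Fact ℓ.Prime] (hA : A.LiesOverPrime ℓ)

include hA in
/-- If `g` in the decomposition group acts on the residue field by `x ↦ x ^ m`, then
`chi p g = m` (for `ℓ ≠ p`). -/
theorem chi_eq_of_residue_pow (hℓp : ℓ ≠ p) (g : A.decompositionSubgroup ℚ) (m : ℕ)
    (hg : ∀ x : IsLocalRing.ResidueField A, g • x = x ^ m) :
    (((chi p (g : Gal) : (ZMod p)ˣ) : ZMod p)) = (m : ZMod p) := by
  obtain ⟨ζ, hζ⟩ := HasEnoughRootsOfUnity.exists_primitiveRoot Qb p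
  have hζp : ζ ^ p = 1 := hζ.pow_eq_one
  have hζ0 : ζ ≠ 0 := hζ.ne_zero (NeZero.ne p)
  -- `ζ ∈ A`
  have hmem : ∀ x : Qb, x ^ p = 1 → x ∈ A := by
    intro x hx
    rcases A.mem_or_inv_mem x with h | h
    · exact h
    · have h1 : x = x⁻¹ ^ (p - 1) := by
        have hx0 : x ≠ 0 := by
          rintro rfl
          rw [zero_pow (NeZero.ne p)] at hx
          exact zero_ne_one hx
        have h2 : x ^ (p - 1) * x = 1 := by
          rw [← pow_succ, Nat.sub_add_cancel hp.out.one_le, hx]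
        rw [inv_pow]
        exact eq_inv_of_mul_eq_one_right h2
      rw [h1]
      exact A.pow_mem h _
  have hζA : ζ ∈ A := hmem ζ hζp
  have hζinvA : ζ⁻¹ ∈ A := hmem ζ⁻¹ (by rw [inv_pow, hζp, inv_one])
  let u : Aˣ := ⟨⟨ζ, hζA⟩, ⟨ζ⁻¹, hζinvA⟩, Subtype.ext (mul_inv_cancel₀ hζ0),
    Subtype.ext (inv_mul_cancel₀ hζ0)⟩
  have hucoe : ∀ n : ℕ, (((u ^ n : Aˣ) : A) : Qb) = ζ ^ n := by
    intro n
    rw [Units.val_pow_eq_pow_val]
    rfl
  have hu : IsPrimitiveRoot u p := by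
    refine ⟨?_, fun l hl => ?_⟩
    · apply Units.ext
      apply Subtype.ext
      rw [hucoe, hζp]
      rfl
    · apply hζ.dvd_of_pow_eq_one
      rw [← hucoe, hl]
      rfl
  have hN : ¬ ℓ ∣ p := fun h => hℓp ((Nat.prime_dvd_prime_iff_eq hℓ.out hp.out).1 h)
  have hres := Fermat.Agent.S18.Cusp.isPrimitiveRoot_residue A ℓ hA hN hu
  set ζb : (IsLocalRing.ResidueField A)ˣ :=
    Units.map ((IsLocalRing.residue A : A →+* IsLocalRing.ResidueField A) :
      A →* IsLocalRing.ResidueField A) u with hζb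
  have hζbcoe : (ζb : IsLocalRing.ResidueField A) = IsLocalRing.residue A (u : A) := rfl
  -- the action
  set a : ℕ := ((chi p (g : Gal) : (ZMod p)ˣ) : ZMod p).val with ha
  have hζunit : ∃ z : Qbˣ, (z : Qb) = ζ ∧ z ∈ rootsOfUnity p Qb := by
    refine ⟨Units.mk0 ζ hζ0, rfl, ?_⟩
    rw [mem_rootsOfUnity]
    apply Units.ext
    simpa using hζp
  obtain ⟨z, hz, hzmem⟩ := hζunit
  have hgζ : (g : Gal) ζ = ζ ^ a := by
    have := chi_spec p (g : Gal) hzmem
    rw [hz] at this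
    exact this
  have hsmul : g • (u : A) = ((u ^ a : Aˣ) : A) := by
    apply Subtype.ext
    rw [hucoe]
    exact hgζ
  have h1 : (ζb : IsLocalRing.ResidueField A) ^ a = (ζb : IsLocalRing.ResidueField A) ^ m := by
    rw [← hg, hζbcoe, ← map_pow, ← IsLocalRing.ResidueField.residue_smul, hsmul,
      Units.val_pow_eq_pow_val]
  have h2 : ζb ^ a = ζb ^ m := Units.ext (by
    rw [Units.val_pow_eq_pow_val, Units.val_pow_eq_pow_val]
    exact h1)
  have h3 : a ≡ m [MOD p] := by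
    have := pow_eq_pow_iff_modEq.mp h2
    rwa [← hres.eq_orderOf] at this
  have h4 : ((a : ℕ) : ZMod p) = (m : ZMod p) := (ZMod.natCast_eq_natCast_iff a m p).mpr h3
  rw [← h4, ha, ZMod.natCast_zmod_val]

include hA in
/-- The cyclotomic character at a Frobenius element. -/
theorem chi_frobenius (hℓp : ℓ ≠ p) (σ : Gal) (hσ : A.IsFrobeniusAt σ ℓ) :
    (((chi p σ : (ZMod p)ˣ) : ZMod p)) = (ℓ : ZMod p) := by
  obtain ⟨hmem, hfrob⟩ := hσ
  exact chi_eq_of_residue_pow p A ℓ hA hℓp ⟨σ, hmem⟩ ℓ hfrob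

include hA in
/-- The cyclotomic character is trivial on inertia. -/
theorem chi_inertia (hℓp : ℓ ≠ p) (τ : Gal) (hτ : τ ∈ A.inertiaSubgroupIn ℚ) :
    chi p τ = 1 := by
  obtain ⟨g, hg, rfl⟩ := hτ
  have h1 : Fermat.Agent.S37.G.resAut A g = 1 := hg
  have h2 : ∀ x : IsLocalRing.ResidueField A, g • x = x ^ 1 := by
    intro x
    rw [pow_one, ← Fermat.Agent.S37.G.resAut_apply, h1]
    rfl
  have h3 := chi_eq_of_residue_pow p A ℓ hA hℓp g 1 h2
  apply Units.ext
  rw [show ((A.decompositionSubgroup ℚ).subtype g : Gal) = (g : Gal) from rfl, h3]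
  simp

end Local

/-- The cyclotomic character has finite level. -/
theorem chi_finiteLevel : GaloisFactorsThroughFiniteLevel (chi p) := by
  obtain ⟨ζ, hζ⟩ := HasEnoughRootsOfUnity.exists_primitiveRoot Qb p
  have hint : IsIntegral ℚ ζ := (hζ.isIntegral (Nat.pos_of_ne_zero (NeZero.ne p))).tower_top
  refine ⟨IntermediateField.adjoin ℚ {ζ}, IntermediateField.adjoin.finiteDimensional hint, ?_⟩
  intro σ hσ
  have hσζ : σ ζ = ζ := hσ ζ (IntermediateField.subset_adjoin ℚ {ζ} rfl)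
  -- `chi σ = 1` by uniqueness
  have hζ0 : ζ ≠ 0 := hζ.ne_zero (NeZero.ne p)
  symm
  apply Units.ext
  rw [Units.val_one]
  show (1 : ZMod p) = ((modularCyclotomicCharacter Qb (card_roots p) (σ : Qb ≃+* Qb) : (ZMod p)ˣ) : ZMod p)
  apply modularCyclotomicCharacter.unique Qb (card_roots p) (σ : Qb ≃+* Qb)
  intro t ht
  -- `t` is a power of `ζ`
  have ht' : (t : Qb) ^ p = 1 := by
    have := (mem_rootsOfUnity p t).mp ht
    rw [← Units.val_pow_eq_pow_val, this, Units.val_one]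
  obtain ⟨i, -, hi⟩ := hζ.eq_pow_of_pow_eq_one ht'
  have hone : (1 : ZMod p).val = 1 := by
    haveI : Fact (1 < p) := ⟨hp.out.one_lt⟩
    exact ZMod.val_one p
  rw [hone, pow_one]
  show σ (t : Qb) = (t : Qb)
  rw [← hi, map_pow, hσζ]

end Fermat.Agent.S29.Cyclo
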