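import Fermat.Agent.S29.DescRed

/-!
# S29 (C79), piece D4, part 2: **(H1)** for a constant field extension

Abstract Gaussian elimination with pivots for a reduction relation satisfying `RedAx`, and the
pivots of the Gauss reduction of a constant field extension (coordinates with respect to a
`k`-basis of `Fk`). Result: `finrank_redSpace`.
-/

set_option autoImplicit false
set_option linter.unusedSectionVars false
set_option linter.unusedVariables false
set_option linter.style.haveILetI false

open Fermat.Agent.S18.Deuring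

noncomputable section

namespace Fermat.Agent.S29.D4

variable {k L Fk F : Type*} [Field k] [Field L] [Field Fk] [Field F] [Algebra k Fk] [Algebra L F]

/-! ### abstract part -/

section Abstract

variable {A : ValuationSubring L} {res : A →+* k} {Red : F → Fk → Prop}

/-- scaling a finite family of constants: the quotients by a largest one are integral -/
theorem exists_max_const (A : ValuationSubring L) {n : ℕ} (g : Fin n → L)
    (hne : ∃ i, g i ≠ 0) : ∃ i₀, g i₀ ≠ 0 ∧ ∀ i, g i / g i₀ ∈ A := by
  classical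
  have hS : (Finset.univ.filter fun i => g i ≠ 0).Nonempty := by
    obtain ⟨i, hi⟩ := hne
    exact ⟨i, by simp [hi]⟩
  obtain ⟨i₀, hi₀, hmax⟩ := Finset.exists_max_image _ (fun i => A.valuation (g i)) hS
  have h0 : g i₀ ≠ 0 := (Finset.mem_filter.mp hi₀).2
  refine ⟨i₀, h0, fun i => ?_⟩
  by_cases hi : g i = 0
  · rw [hi, zero_div]; exact A.zero_mem
  · rw [← A.valuation_le_one_iff, map_div₀]
    exact div_le_one_of_le₀ (hmax i (by simp [hi])) zero_le

variable (ax : RedAx A res Red)
include ax

theorem _root_.Fermat.Agent.S18.Deuring.RedAx.smul' (u : A) {x : F} {a : Fk} (hx : Red x a) :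
    Red ((u : L) • x) (res u • a) := by
  have := ax.smul u hx
  rwa [← Algebra.smul_def] at this

/-- an element of `A` with nonzero residue is a unit -/
theorem _root_.Fermat.Agent.S18.Deuring.RedAx.inv_mem (u : A) (hu : res u ≠ 0) : (u : L)⁻¹ ∈ A := by
  by_contra hcon
  exact hu (ax.res_eq_zero u hcon)

/-- **lifts of independent residues are independent** -/
theorem linearIndependent_lifts {n : ℕ} (x : Fin n → F) (a : Fin n → Fk)
    (hxa : ∀ i, Red (x i) (a i)) (ha : LinearIndependent k a) : LinearIndependent L x := by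
  rw [Fintype.linearIndependent_iff]
  intro g hg
  by_contra hcon
  simp only [not_forall] at hcon
  obtain ⟨i₀, hi₀, hmem⟩ := exists_max_const A g hcon
  have h1 : ∑ i, (g i / g i₀) • x i = 0 := by
    have h3 : ∑ i, (g i / g i₀) • x i = (g i₀)⁻¹ • ∑ i, g i • x i := by
      rw [Finset.smul_sum]
      refine Finset.sum_congr rfl fun i _ => ?_
      rw [smul_smul, inv_mul_eq_div]
    rw [h3, hg, smul_zero]
  have h2 : Red (∑ i, (g i / g i₀) • x i) (∑ i, res ⟨g i / g i₀, hmem i⟩ • a i) :=
    ax.sum _ _ _ fun i _ => ax.smul' ⟨g i / g i₀, hmem i⟩ (hxa i)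
  rw [h1] at h2
  have h3 := ax.unique ax.zero h2
  rw [Fintype.linearIndependent_iff] at ha
  have h4 := ha (fun i => res ⟨g i / g i₀, hmem i⟩) h3.symm i₀
  have h5 : (⟨g i₀ / g i₀, hmem i₀⟩ : A) = 1 := Subtype.ext (div_self hi₀)
  rw [h5, map_one] at h4
  exact one_ne_zero h4

omit ax in
variable (Red A) in
/-- pivots: norm-decreasing functionals -/
def HasPivots (V : Submodule L F) : Prop :=
  ∀ w ∈ V, ∀ a : Fk, Red w a → a ≠ 0 →
    ∃ lam : F →ₗ[L] L, (∀ x ∈ V, (∃ b, Red x b) → lam x ∈ A) ∧ lam w = 1

omit ax in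
theorem HasPivots.mono {V W : Submodule L F} (h : V ≤ W) (hW : HasPivots A Red W) :
    HasPivots A Red V := by
  intro w hw a hwa ha
  obtain ⟨lam, h1, h2⟩ := hW w (h hw) a hwa ha
  exact ⟨lam, fun x hx => h1 x (h hx), h2⟩

/-- a norm-decreasing functional does not take the value `1` on an element with residue `0` -/
theorem lam_ne_one {V : Submodule L F} (lam : F →ₗ[L] L)
    (hlam : ∀ x ∈ V, (∃ b, Red x b) → lam x ∈ A) {z : F} (hz : z ∈ V) (hz0 : Red z 0) :
    lam z ≠ 1 := by
  intro h1
  have hz1 : z ≠ 0 := by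
    rintro rfl
    rw [map_zero] at h1
    exact zero_ne_one h1
  obtain ⟨c, hc, b, hb, hcb⟩ := ax.scale z hz1
  have hcA : c ∈ A := by
    have := hlam (c • z) (V.smul_mem c hz) ⟨b, hcb⟩
    rwa [map_smul, h1, smul_eq_mul, mul_one] at this
  have := ax.smul' ⟨c, hcA⟩ hz0
  rw [smul_zero] at this
  exact hb (ax.unique hcb this)

/-- **Gaussian elimination**: a finite-dimensional subspace with pivots has a basis of integral
elements with `k`-linearly independent residues. -/
theorem exists_indep_lifts :
    ∀ (n : ℕ) (V : Submodule L F), Module.Finite L V → Module.finrank L V = n →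
      HasPivots A Red V →
      ∃ (x : Fin n → F) (a : Fin n → Fk),
        (∀ s, x s ∈ V) ∧ (∀ s, Red (x s) (a s)) ∧ LinearIndependent k a := by
  intro n
  induction n with
  | zero =>
    intro V _ _ _
    exact ⟨Fin.elim0, Fin.elim0, fun s => s.elim0, fun s => s.elim0, linearIndependent_empty_type⟩
  | succ n ih =>
    intro V hfin hrank hpiv
    have hVne : V ≠ ⊥ := by
      rintro rfl
      rw [finrank_bot] at hrank
      omega
    obtain ⟨v, hvV, hv0⟩ := Submodule.exists_mem_ne_zero_of_ne_bot hVne
    obtain ⟨c, hc, a₀, ha₀, hredw⟩ := ax.scale v hv0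
    have hwV : c • v ∈ V := V.smul_mem c hvV
    obtain ⟨lam, hlam, hlamw⟩ := hpiv (c • v) hwV a₀ hredw ha₀
    have hfin₁ : Module.Finite L ↥(V ⊓ LinearMap.ker lam) :=
      Submodule.finiteDimensional_of_le (inf_le_left : V ⊓ LinearMap.ker lam ≤ V)
    have hrank₁ : Module.finrank L ↥(V ⊓ LinearMap.ker lam) = n := by
      have h1 := LinearMap.finrank_range_add_finrank_ker (lam.domRestrict V)
      have h2 : LinearMap.range (lam.domRestrict V) = ⊤ := by
        rw [eq_top_iff]
        intro y _
        refine ⟨y • (⟨c • v, hwV⟩ : V), ?_⟩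
        rw [map_smul, LinearMap.domRestrict_apply, hlamw, smul_eq_mul, mul_one]
      have h3 : Module.finrank L ↥(LinearMap.range (lam.domRestrict V)) = 1 := by
        rw [h2, finrank_top, Module.finrank_self]
      have h4 : (LinearMap.ker (lam.domRestrict V)).map V.subtype = V ⊓ LinearMap.ker lam := by
        ext y
        constructor
        · rintro ⟨z, hz, rfl⟩
          exact ⟨z.2, hz⟩
        · rintro ⟨hy1, hy2⟩
          exact ⟨⟨y, hy1⟩, hy2, rfl⟩
      rw [← h4, Submodule.finrank_map_subtype_eq]
      omega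
    obtain ⟨x', a', hx'V, hx'a', ha'⟩ := ih (V ⊓ LinearMap.ker lam) hfin₁ hrank₁
      (hpiv.mono inf_le_left)
    refine ⟨Fin.cons (c • v) x', Fin.cons a₀ a', ?_, ?_, ?_⟩
    · intro s
      refine Fin.cases ?_ (fun i => ?_) s
      · rw [Fin.cons_zero]; exact hwV
      · rw [Fin.cons_succ]; exact (hx'V i).1
    · intro s
      refine Fin.cases ?_ (fun i => ?_) s
      · rw [Fin.cons_zero, Fin.cons_zero]; exact hredw
      · rw [Fin.cons_succ, Fin.cons_succ]; exact hx'a' i
    · refine ha'.finCons ?_
      intro hmem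
      rw [Submodule.mem_span_range_iff_exists_fun] at hmem
      obtain ⟨ā, hā⟩ := hmem
      choose cc hcc using fun i => ax.res_surj (ā i)
      have hzV : c • v - ∑ i, ((cc i : A) : L) • x' i ∈ V :=
        V.sub_mem hwV (V.sum_mem fun i _ => V.smul_mem _ (hx'V i).1)
      have hz0 : Red (c • v - ∑ i, ((cc i : A) : L) • x' i) 0 := by
        have h1 : Red (∑ i, ((cc i : A) : L) • x' i) (∑ i, res (cc i) • a' i) :=
          ax.sum _ _ _ fun i _ => ax.smul' (cc i) (hx'a' i)
        have h2 := ax.sub hredw h1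
        have h3 : a₀ - ∑ i, res (cc i) • a' i = 0 := by
          rw [sub_eq_zero, ← hā]
          refine Finset.sum_congr rfl fun i _ => ?_
          rw [hcc i]
        rwa [h3] at h2
      have hne := lam_ne_one ax lam hlam hzV hz0
      apply hne
      rw [map_sub, hlamw, map_sum]
      have : ∑ i, lam (((cc i : A) : L) • x' i) = 0 := by
        refine Finset.sum_eq_zero fun i _ => ?_
        rw [map_smul, LinearMap.mem_ker.mp (hx'V i).2, smul_zero]
      rw [this, sub_zero]

/-- **(H1)** from pivots -/
theorem finrank_redSpace_of_pivots (V : Submodule L F) (hV : Module.Finite L V)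
    (hpiv : HasPivots A Red V) :
    Module.finrank k (redSpace ax V) = Module.finrank L V := by
  classical
  have hle : ∀ (m : ℕ) (a : Fin m → redSpace ax V),
      LinearIndependent k a → m ≤ Module.finrank L V := by
    intro m a ha
    choose x hxV hxa using fun i => (a i).2
    have ha1 : LinearIndependent k (fun i => ((a i : Fk))) :=
      ha.map' (redSpace ax V).subtype (Submodule.ker_subtype _)
    have hx := linearIndependent_lifts ax x _ hxa ha1
    have hx' : LinearIndependent L (fun i => (⟨x i, hxV i⟩ : V)) := by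
      apply LinearIndependent.of_comp V.subtype
      exact hx
    have := hx'.fintype_card_le_finrank
    rwa [Fintype.card_fin] at this
  have hrank : Module.rank k (redSpace ax V) ≤ (Module.finrank L V : ℕ) := by
    by_contra hcon
    rw [not_le] at hcon
    have h1 : ((Module.finrank L V + 1 : ℕ) : Cardinal) ≤ Module.rank k (redSpace ax V) := by
      rw [Nat.cast_succ, ← Cardinal.succ_natCast]
      exact Order.succ_le_of_lt hcon
    obtain ⟨f, hf⟩ := exists_linearIndependent_of_le_rank h1
    have := hle _ f hf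
    omega
  have hfin : Module.Finite k (redSpace ax V) := by
    rw [← Module.rank_lt_aleph0_iff]
    exact lt_of_le_of_lt hrank (Cardinal.natCast_lt_aleph0)
  apply le_antisymm (Module.finrank_le_of_rank_le hrank)
  obtain ⟨x, a, hxV, hxa, ha⟩ := exists_indep_lifts ax _ V hV rfl hpiv
  have ha2 : LinearIndependent k
      (fun s => (⟨a s, ⟨x s, hxV s, hxa s⟩⟩ : redSpace ax V)) := by
    apply LinearIndependent.of_comp (redSpace ax V).subtype
    exact ha
  have := ha2.fintype_card_le_finrank
  rwa [Fintype.card_fin] at this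

end Abstract

/-! ### pivots for a constant field extension -/

section Concrete

variable {ι : k →+* L} {φ : Fk →+* F} {A : ValuationSubring L} {res : A →+* k}
variable (h : CExt ι φ A res)

omit [Algebra k Fk] in
/-- `L·φ(Fk)` is a subalgebra -/
theorem span_eq_adjoin (φ : Fk →+* F) :
    Submodule.span L (Set.range φ) = Subalgebra.toSubmodule (Algebra.adjoin L (Set.range φ)) := by
  rw [Algebra.adjoin_eq_span]
  congr 1
  have : (Set.range φ) = (MonoidHom.mrange (φ : Fk →* F) : Set F) := by
    ext x
    simp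
  rw [this, Submonoid.closure_eq]

omit [Algebra k Fk] in
theorem mul_mem_span {φ : Fk →+* F} {u v : F} (hu : u ∈ Submodule.span L (Set.range φ))
    (hv : v ∈ Submodule.span L (Set.range φ)) : u * v ∈ Submodule.span L (Set.range φ) := by
  rw [span_eq_adjoin] at hu hv ⊢
  exact Subalgebra.mul_mem _ hu hv

omit [Algebra k Fk] in
theorem one_mem_span {φ : Fk →+* F} : (1 : F) ∈ Submodule.span L (Set.range φ) := by
  rw [span_eq_adjoin]
  exact Subalgebra.one_mem _

include h

/-- an integral element of `L·φ(Fk)` has integral coordinates -/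
theorem int_of_red_of_mem_span {u : F} (hu : u ∈ Submodule.span L (Set.range φ)) {b : Fk}
    (hub : Red φ res u b) : Int φ res u b := by
  have ax := redAx h
  by_cases hu0 : u = 0
  · subst hu0
    have : b = 0 := ax.unique hub ax.zero
    rw [this]
    exact Int.zero
  obtain ⟨c, hc, b', hb', hint⟩ := exists_int_smul h hu hu0
  rcases ax.mem_or c⁻¹ with ⟨t, ht⟩ | ⟨-, t, ht, ht0⟩
  · have h1 := hint.smul t
    rw [ht, smul_smul, inv_mul_cancel₀ hc, one_smul] at h1
    have h2 := ax.unique hub (Red.of_int h h1)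
    rw [h2]
    exact h1
  · exfalso
    rw [inv_inv] at ht
    have h1 := ax.smul' t hub
    rw [ht, ht0, zero_smul] at h1
    exact hb' (ax.unique (Red.of_int h hint) h1)

/-- a common denominator for a finite set -/
theorem exists_denominator_finset (S : Finset F) :
    ∃ v : F, v ≠ 0 ∧ v ∈ Submodule.span L (Set.range φ) ∧
      ∀ x ∈ S, x * v ∈ Submodule.span L (Set.range φ) := by
  classical
  induction S using Finset.induction_on with
  | empty => exact ⟨1, one_ne_zero, one_mem_span, by simp⟩
  | insert x S hx ih =>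
    obtain ⟨v, hv0, hv, hS⟩ := ih
    obtain ⟨u, hu, w, hw, hw0, hxw⟩ := h.gen x
    refine ⟨v * w, mul_ne_zero hv0 hw0, mul_mem_span hv hw, ?_⟩
    intro y hy
    rcases Finset.mem_insert.mp hy with rfl | hy
    · have : y * (v * w) = u * v := by rw [← hxw]; ring
      rw [this]; exact mul_mem_span hu hv
    · have : y * (v * w) = (y * v) * w := by ring
      rw [this]; exact mul_mem_span (hS y hy) hw

/-- a common integral denominator for a finite-dimensional subspace -/
theorem exists_denominator (V : Submodule L F) (hV : V.FG) :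
    ∃ v₀ : F, ∃ b₀ : Fk, b₀ ≠ 0 ∧ Int φ res v₀ b₀ ∧
      ∀ x ∈ V, x * v₀ ∈ Submodule.span L (Set.range φ) := by
  classical
  obtain ⟨S, rfl⟩ := hV
  obtain ⟨v, hv0, hv, hS⟩ := exists_denominator_finset h S
  obtain ⟨c, hc, b, hb, hint⟩ := exists_int_smul h hv hv0
  refine ⟨c • v, b, hb, hint, ?_⟩
  intro x hx
  induction hx using Submodule.span_induction with
  | mem y hy => rw [mul_smul_comm]; exact Submodule.smul_mem _ _ (hS y hy)
  | zero => simp
  | add y z _ _ hy hz => rw [add_mul]; exact Submodule.add_mem _ hy hz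
  | smul a y _ hy => rw [smul_mul_assoc]; exact Submodule.smul_mem _ _ hy

/-- **pivots** of the Gauss reduction -/
theorem hasPivots (V : Submodule L F) (hV : Module.Finite L V) :
    HasPivots A (Red φ res) V := by
  classical
  have ax := redAx h
  obtain ⟨v₀, b₀, hb₀, hint₀, hden⟩ := exists_denominator h V (Module.Finite.iff_fg.mp hV)
  have hv₀ : v₀ ≠ 0 := Int.ne_zero h hint₀ hb₀
  let e := LinearEquiv.ofInjective (Phi L φ : (Idx k Fk →₀ L) →ₗ[L] F) h.Phi_injective
  let m : V →ₗ[L] LinearMap.range (Phi L φ : (Idx k Fk →₀ L) →ₗ[L] F) :=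
    LinearMap.codRestrict _ ((LinearMap.mulRight L v₀).comp V.subtype)
      (fun x => by
        rw [h.range_Phi]
        exact hden x x.2)
  let ξ : V →ₗ[L] (Idx k Fk →₀ L) := e.symm.toLinearMap.comp m
  have hξ : ∀ x : V, Phi L φ (ξ x) = (x : F) * v₀ := by
    intro x
    have h1 : e (ξ x) = m x := e.apply_symm_apply (m x)
    have h2 := congrArg (fun z : LinearMap.range (Phi L φ : (Idx k Fk →₀ L) →ₗ[L] F) => (z : F)) h1
    exact h2
  intro w hw a hwa ha
  have hint_w : Int φ res (w * v₀) (a * b₀) :=
    int_of_red_of_mem_span h (hden w hw) (Red.mul h hwa (Red.of_int h hint₀))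
  obtain ⟨d, hd, hρ⟩ := hint_w
  have hex : ∃ j₀, res (d j₀) ≠ 0 := by
    by_contra hcon
    have hcon' : ∀ j, res (d j) = 0 := fun j => by
      by_contra hj
      exact hcon ⟨j, hj⟩
    have h1 : dn res d = 0 := by
      ext j
      simp [hcon' j]
    have h2 : rho res d = 0 := by rw [rho, h1, map_zero]
    exact mul_ne_zero ha hb₀ (hρ.trans h2)
  obtain ⟨j₀, hj₀⟩ := hex
  have hdj0 : (d j₀ : L) ≠ 0 := by
    intro h0
    apply hj₀
    rw [show d j₀ = 0 from Subtype.ext h0, map_zero]
  let lamV : V →ₗ[L] L := ((d j₀ : L)⁻¹) • ((Finsupp.lapply j₀).comp ξ)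
  obtain ⟨lam, hlam⟩ := LinearMap.exists_extend lamV
  have hlam' : ∀ x : V, lam x = (d j₀ : L)⁻¹ * (ξ x j₀) := by
    intro x
    have := congrArg (fun f : V →ₗ[L] L => f x) hlam
    exact this
  refine ⟨lam, ?_, ?_⟩
  · rintro x hx ⟨b, hxb⟩
    have hint_x := int_of_red_of_mem_span h (hden x hx) (Red.mul h hxb (Red.of_int h hint₀))
    obtain ⟨d', hd', -⟩ := hint_x
    have h2 : ξ ⟨x, hx⟩ = up A d' := h.Phi_injective ((hξ ⟨x, hx⟩).trans hd')
    rw [hlam' ⟨x, hx⟩, h2, up_apply]
    exact A.mul_mem _ _ (ax.inv_mem (d j₀) hj₀) (d' j₀).2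
  · have h2 : ξ ⟨w, hw⟩ = up A d := h.Phi_injective ((hξ ⟨w, hw⟩).trans hd)
    rw [hlam' ⟨w, hw⟩, h2, up_apply, inv_mul_cancel₀ hdj0]

/-- **(H1)** for a constant field extension -/
theorem finrank_redSpace (V : Submodule L F) (hV : Module.Finite L V) :
    Module.finrank k (redSpace (redAx h) V) = Module.finrank L V :=
  finrank_redSpace_of_pivots (redAx h) V hV (hasPivots h V hV)

end Concrete

end Fermat.Agent.S29.D4
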