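import Fermat.Agent.S29.DescH1

/-!
# S29 (C79), piece D4, sub-piece R: representation over `L(φ t)`

For a constant field extension `Fk/k ⇝ F/L` (`CExt`), `φ` maps `k(t)` into `L(φ t)` and a
`k(t)`-spanning family of `Fk` is mapped to an `L(φ t)`-spanning family of `F`.
-/

set_option autoImplicit false
set_option linter.unusedSectionVars false
set_option linter.unusedVariables false
set_option linter.style.haveILetI false

open IntermediateField

noncomputable section

namespace Fermat.Agent.S29.D4

variable {k L Fk F : Type*} [Field k] [Field L] [Field Fk] [Field F] [Algebra k Fk] [Algebra L F]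
variable {ι : k →+* L} {φ : Fk →+* F} {A : ValuationSubring L} {res : A →+* k}

/-- (R1) `φ` maps `k(t)` into `L(φ t)` -/
theorem phi_mem_adjoin (h : CExt ι φ A res) (t : Fk) {r : Fk} (hr : r ∈ k⟮t⟯) :
    φ r ∈ L⟮φ t⟯ := by
  induction hr using IntermediateField.adjoin_induction with
  | mem x hx =>
    rw [Set.mem_singleton_iff] at hx
    subst hx
    exact IntermediateField.mem_adjoin_simple_self L (φ x)
  | algebraMap c =>
    rw [h.comm]
    exact IntermediateField.algebraMap_mem _ _
  | add x y _ _ hx hy =>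
    rw [map_add]
    exact add_mem hx hy
  | inv x _ hx =>
    rw [map_inv₀]
    exact inv_mem hx
  | mul x y _ _ hx hy =>
    rw [map_mul]
    exact mul_mem hx hy

/-- the image of `φ` lies in the `L(φ t)`-span of the images of a `k(t)`-spanning family -/
theorem phi_mem_span (h : CExt ι φ A res) (t : Fk) {n : ℕ} (β : Fin n → Fk)
    (hβ : Submodule.span k⟮t⟯ (Set.range β) = ⊤) (e : Fk) :
    φ e ∈ Submodule.span L⟮φ t⟯ (Set.range fun i => φ (β i)) := by
  have he : e ∈ Submodule.span k⟮t⟯ (Set.range β) := by rw [hβ]; trivial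
  obtain ⟨c, rfl⟩ := (Submodule.mem_span_range_iff_exists_fun _).1 he
  rw [map_sum]
  refine Submodule.sum_mem _ fun i _ => ?_
  have h1 : φ (c i • β i) = (⟨φ (c i : Fk), phi_mem_adjoin h t (c i).2⟩ : L⟮φ t⟯) • φ (β i) := by
    rw [IntermediateField.smul_def, IntermediateField.smul_def, smul_eq_mul, smul_eq_mul,
      map_mul]
  rw [h1]
  exact Submodule.smul_mem _ _ (Submodule.subset_span ⟨i, rfl⟩)

/-- the `L(φ t)`-span of `φ(Fk)` is the span of the images of a `k(t)`-spanning family -/
theorem span_range_phi_eq (h : CExt ι φ A res) (t : Fk) {n : ℕ} (β : Fin n → Fk)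
    (hβ : Submodule.span k⟮t⟯ (Set.range β) = ⊤) :
    Submodule.span L⟮φ t⟯ (Set.range φ) =
      Submodule.span L⟮φ t⟯ (Set.range fun i => φ (β i)) := by
  apply le_antisymm
  · rw [Submodule.span_le]
    rintro _ ⟨e, rfl⟩
    exact phi_mem_span h t β hβ e
  · apply Submodule.span_mono
    rintro _ ⟨i, rfl⟩
    exact ⟨β i, rfl⟩

/-- (R) a `k(t)`-spanning family of `Fk` is mapped to an `L(φ t)`-spanning family of `F` -/
theorem span_phi_eq_top (h : CExt ι φ A res) (t : Fk) {n : ℕ} (β : Fin n → Fk)
    (hβ : Submodule.span k⟮t⟯ (Set.range β) = ⊤) :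
    Submodule.span L⟮φ t⟯ (Set.range fun i => φ (β i)) = ⊤ := by
  classical
  -- the subalgebra generated by `φ(Fk)` over `L(φ t)`
  set B : Subalgebra L⟮φ t⟯ F := Algebra.adjoin L⟮φ t⟯ (Set.range φ) with hB
  have hBs : Subalgebra.toSubmodule B = Submodule.span L⟮φ t⟯ (Set.range fun i => φ (β i)) := by
    rw [hB, Algebra.adjoin_eq_span]
    have : (Submonoid.closure (Set.range φ) : Set F) = Set.range φ := by
      have h2 : (Set.range φ) = (MonoidHom.mrange (φ : Fk →* F) : Set F) := by
        ext x
        simp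
      rw [h2, Submonoid.closure_eq]
    rw [this, span_range_phi_eq h t β hβ]
  -- `B` is finite over `L(φ t)`
  have hfin : Module.Finite L⟮φ t⟯ B := by
    have : Module.Finite L⟮φ t⟯ (Subalgebra.toSubmodule B) := by
      rw [hBs]
      exact Module.Finite.span_of_finite _ (Set.finite_range _)
    exact this
  have halg : ∀ x : B, IsAlgebraic L⟮φ t⟯ (x : F) := by
    intro x
    have hx : IsAlgebraic L⟮φ t⟯ x := (Algebra.IsAlgebraic.of_finite L⟮φ t⟯ B).isAlgebraic x
    exact hx.algebraMap (A := F)
  -- `B` contains `L·φ(Fk)`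
  have hsub : ∀ u ∈ Submodule.span L (Set.range φ), u ∈ B := by
    intro u hu
    induction hu using Submodule.span_induction with
    | mem x hx => exact Algebra.subset_adjoin hx
    | zero => exact zero_mem _
    | add x y _ _ hx hy => exact add_mem hx hy
    | smul c x _ hx =>
      have : c • x = (algebraMap L L⟮φ t⟯ c) • x := by
        rw [IntermediateField.smul_def, Algebra.smul_def]
        rfl
      rw [this]
      exact Subalgebra.smul_mem _ hx _
  rw [← hBs, eq_top_iff]
  intro x _
  obtain ⟨u, hu, v, hv, hv0, hxv⟩ := h.gen x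
  have hvB : v ∈ B := hsub v hv
  have huB : u ∈ B := hsub u hu
  have hinv : (v⁻¹ : F) ∈ B := B.inv_mem_of_algebraic (x := ⟨v, hvB⟩) (halg ⟨v, hvB⟩)
  have hx : x = u * v⁻¹ := by
    rw [← hxv, mul_assoc, mul_inv_cancel₀ hv0, mul_one]
  rw [hx, Subalgebra.mem_toSubmodule]
  exact mul_mem huB hinv

end Fermat.Agent.S29.D4
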