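import Fermat.Agent.S29.DescInt
import Fermat.Agent.S29.DescRep
import Fermat.Agent.Lib.FFs.Const
import Fermat.Agent.Lib.FunctionField.DWMain
import Fermat.Agent.S18.DeuringBar

/-!
# S29 (C79), piece D4, part 5: **(H2)**, `deg_eq` and **(NS)** for a constant field extension

`j ∈ Fk` with `IsFF1 k Fk j`, `J = φ j`:
* `isFF1_phi`: `IsFF1 L F J`;
* `finrank_phi`: `[F : L(J)] = [Fk : k(j)]`;
* `h2`: `x ∈ L(n (J)_∞)`, `Red x a` ⟹ `a ∈ L_k(n (j)_∞)`;
* `phi_mem_rrSpace`: `φ` maps `L_k(n (j)_∞)` into `L(n (J)_∞)`;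
* `exists_ns`: the non-special divisor on the residue side.
-/

set_option autoImplicit false
set_option linter.unusedSectionVars false
set_option linter.unusedVariables false
set_option linter.style.haveILetI false
set_option synthInstance.maxHeartbeats 400000
set_option maxHeartbeats 1000000

open Fermat.Agent.S18.Deuring IntermediateField Polynomial AlgebraicCurve Fermat.Agent.Lib.FF

noncomputable section

namespace Fermat.Agent.S29.D4

variable {k L Fk F : Type*} [Field k] [Field L] [Field Fk] [Field F] [Algebra k Fk] [Algebra L F]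
variable {ι : k →+* L} {φ : Fk →+* F} {A : ValuationSubring L} {res : A →+* k}
variable (h : CExt ι φ A res)
include h

/-- `φ` preserves transcendence over the constants -/
theorem transcendental_phi {t : Fk} (ht : Transcendental k t) : Transcendental L (φ t) := by
  rw [transcendental_iff]
  intro P hP
  have he := h.ld _ _ (linearIndependent_pow_of_transcendental ht (P.natDegree + 1))
  rw [Fintype.linearIndependent_iff] at he
  have h1 : ∑ i : Fin (P.natDegree + 1), P.coeff i • φ (t ^ (i : ℕ)) = 0 := by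
    rw [← hP, aeval_eq_sum_fin]
    refine Finset.sum_congr rfl fun i _ => ?_
    rw [map_pow]
  have h2 := he (fun i => P.coeff i) h1
  ext n
  rw [Polynomial.coeff_zero]
  by_cases hn : n < P.natDegree + 1
  · exact h2 ⟨n, hn⟩
  · exact coeff_eq_zero_of_natDegree_lt (by omega)

/-- a `k(t)`-linearly independent family stays linearly independent over `L(φ t)` -/
theorem linearIndependent_phi {t : Fk} (ht : Transcendental k t) {n : ℕ} (β : Fin n → Fk)
    (hβ : LinearIndependent k⟮t⟯ β) : LinearIndependent L⟮φ t⟯ (fun i => φ (β i)) := by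
  have ax := redAx h
  rw [Fintype.linearIndependent_iff]
  intro g hg
  by_contra hcon
  simp only [not_forall] at hcon
  obtain ⟨i₀, hi₀, hmem⟩ := exists_max_const (gaussO h (φ t)) g hcon
  choose r hr using hmem
  have hrm : ∀ i, r i ∈ k⟮t⟯ := fun i => red_mem_adjoin h ht (g i / g i₀).2 (hr i)
  have hr1 : r i₀ = 1 := by
    have h1 := hr i₀
    rw [div_self hi₀] at h1
    exact ax.unique h1 ax.one
  have hsum : ∑ i, ((g i / g i₀ : L⟮φ t⟯) : F) * φ (β i) = 0 := by
    have h1 : ∑ i, ((g i / g i₀ : L⟮φ t⟯) : F) * φ (β i)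
        = ((g i₀)⁻¹ : L⟮φ t⟯) • ∑ i, g i • φ (β i) := by
      rw [Finset.smul_sum]
      refine Finset.sum_congr rfl fun i _ => ?_
      rw [smul_smul, inv_mul_eq_div, Algebra.smul_def]
      rfl
    rw [h1, hg, smul_zero]
  have hy : Red φ res (∑ i, ((g i / g i₀ : L⟮φ t⟯) : F) * φ (β i)) (∑ i, r i * β i) :=
    ax.sum _ _ _ fun i _ => ax.mul (hr i) (red_phi h (β i))
  rw [hsum] at hy
  have h0 := ax.unique ax.zero hy
  rw [Fintype.linearIndependent_iff] at hβ
  have h1 := hβ (fun i => (⟨r i, hrm i⟩ : k⟮t⟯)) (by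
    rw [h0]
    refine Finset.sum_congr rfl fun i _ => ?_
    rw [Algebra.smul_def]
    rfl) i₀
  have h2 : r i₀ = 0 := congrArg Subtype.val h1
  rw [hr1] at h2
  exact one_ne_zero h2

/-- `[F : L(φ t)] = [Fk : k(t)]` -/
theorem finrank_phi {t : Fk} (ht : Transcendental k t) [FiniteDimensional k⟮t⟯ Fk] :
    Module.finrank L⟮φ t⟯ F = Module.finrank k⟮t⟯ Fk := by
  let b := Module.finBasis k⟮t⟯ Fk
  have h1 := linearIndependent_phi h ht b b.linearIndependent
  have h2 := span_phi_eq_top h t b b.span_eq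
  have := Module.finrank_eq_card_basis (Module.Basis.mk h1 (by rw [h2]))
  rw [this, Fintype.card_fin]

/-- `F` is a function field of one variable over `L` -/
theorem isFF1_phi {j : Fk} (hj : IsFF1 k Fk j) : IsFF1 L F (φ j) := by
  haveI := hj.finite
  let b := Module.finBasis k⟮j⟯ Fk
  have h2 := span_phi_eq_top h j b b.span_eq
  refine ⟨transcendental_phi h hj.transcendental, ⟨?_⟩⟩
  rw [← h2]
  exact Submodule.fg_span (Set.finite_range _)

/-- reduction preserves integrality over `K[t]` -/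
theorem isIntegral_red' {t : Fk} (ht : IsFF1 k Fk t) (y : F)
    (hy : IsIntegral (Algebra.adjoin L {φ t}) y) (a : Fk) (hya : Red φ res y a) :
    IsIntegral (Algebra.adjoin k {t}) a := by
  haveI := ht.finite
  let b := Module.finBasis k⟮t⟯ Fk
  exact isIntegral_red h ht.transcendental b b.linearIndependent
    (span_phi_eq_top h t b b.span_eq) y hy a hya

/-- `φ` maps `k[t]` into `L[φ t]` -/
theorem phi_mem_adjoin_alg (t : Fk) {e : Fk} (he : e ∈ Algebra.adjoin k {t}) :
    φ e ∈ Algebra.adjoin L {φ t} := by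
  induction he using Algebra.adjoin_induction with
  | mem x hx =>
    rw [Set.mem_singleton_iff] at hx
    rw [hx]
    exact Algebra.self_mem_adjoin_singleton _ _
  | algebraMap c =>
    rw [h.comm]
    exact Subalgebra.algebraMap_mem _ _
  | add x y _ _ hx hy => rw [map_add]; exact Subalgebra.add_mem _ hx hy
  | mul x y _ _ hx hy => rw [map_mul]; exact Subalgebra.mul_mem _ hx hy

/-- `φ` preserves integrality over `K[t]` -/
theorem isIntegral_phi (t : Fk) {e : Fk} (he : IsIntegral (Algebra.adjoin k {t}) e) :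
    IsIntegral (Algebra.adjoin L {φ t}) (φ e) := by
  let φ₀ : Algebra.adjoin k {t} →+* Algebra.adjoin L {φ t} :=
    (φ.comp (Algebra.adjoin k {t}).val.toRingHom).codRestrict (Algebra.adjoin L {φ t})
      (fun x => phi_mem_adjoin_alg h t x.2)
  exact IsIntegral.map_of_comp_eq φ₀ φ (by ext x; rfl) he

section FF

variable [IsAlgClosed k] [CharZero k] [IsAlgClosed L] [CharZero L]

omit h in
theorem ord_inv_pow {K F' : Type*} [Field K] [Field F'] [Algebra K F'] (Q : Place K F')
    (y : F') (n : ℕ) : Q.ord ((y⁻¹) ^ n) = -((n : ℤ) * Q.ord y) := by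
  rw [inv_pow, Q.ord_inv, ← zpow_natCast, Q.ord_zpow]

omit h in
/-- the two integrality tests for membership in `L(n (y)_∞)` -/
theorem isIntegral_of_mem_rrSpace {K F' : Type*} [Field K] [Field F'] [Algebra K F']
    [IsAlgClosed K] [CharZero K] {y : F'} (hy : IsFF1 K F' y) (hpf : PlaceFacts K F') (n : ℕ)
    {x : F'} (hx : x ∈ riemannRochSpace (n • hpf.poleDiv y)) :
    IsIntegral (Algebra.adjoin K {y}) x ∧
      IsIntegral (Algebra.adjoin K {y⁻¹}) (x * (y⁻¹) ^ n) := by
  have hy0 : y ≠ 0 := fun h0 => hy.transcendental (h0 ▸ isAlgebraic_zero)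
  rw [mem_rrSpace_iff] at hx
  have hreg : ∀ Q : Place K F', 0 ≤ Q.ord y → 0 ≤ Q.ord x := by
    intro Q hQ
    rcases hx Q with h0 | h1
    · rw [h0, Q.ord_zero]
    · rw [Finsupp.smul_apply, hpf.poleDiv_of_nonneg hQ, smul_zero, neg_zero] at h1
      exact h1
  have hinf : ∀ Q : Place K F', 0 ≤ Q.ord y⁻¹ → 0 ≤ Q.ord (x * (y⁻¹) ^ n) := by
    intro Q hQ
    rw [Q.ord_inv] at hQ
    by_cases hx0 : x = 0
    · rw [hx0, zero_mul, Q.ord_zero]
    have hjn : (y⁻¹) ^ n ≠ 0 := pow_ne_zero _ (inv_ne_zero hy0)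
    rw [Q.ord_mul hx0 hjn, ord_inv_pow]
    rcases lt_or_eq_of_le (neg_nonneg.mp hQ) with hlt | heq
    · rcases hx Q with h0 | h1
      · exact absurd h0 hx0
      · rw [Finsupp.smul_apply, hpf.poleDiv_of_neg hlt, nsmul_eq_mul] at h1
        linarith
    · rw [heq, mul_zero, neg_zero, add_zero]
      exact hreg Q (by rw [heq])
  exact ⟨Fermat.Agent.Lib.FFs.isIntegral_of_forall_ord_nonneg
      (Fermat.Agent.Lib.FFs.IsFF1s.of_isFF1 hy) x hreg,
    Fermat.Agent.Lib.FFs.isIntegral_of_forall_ord_nonneg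
      (Fermat.Agent.Lib.FFs.IsFF1s.of_isFF1 hy.inv) _ hinf⟩

omit h in
/-- conversely -/
theorem mem_rrSpace_of_isIntegral {K F' : Type*} [Field K] [Field F'] [Algebra K F']
    [IsAlgClosed K] [CharZero K] {y : F'} (hy : IsFF1 K F' y) (hpf : PlaceFacts K F') (n : ℕ)
    {a : F'} (hk1 : IsIntegral (Algebra.adjoin K {y}) a)
    (hk2 : IsIntegral (Algebra.adjoin K {y⁻¹}) (a * (y⁻¹) ^ n)) :
    a ∈ riemannRochSpace (n • hpf.poleDiv y) := by
  have hy0 : y ≠ 0 := fun h0 => hy.transcendental (h0 ▸ isAlgebraic_zero)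
  rw [mem_rrSpace_iff]
  intro Q
  by_cases ha0 : a = 0
  · exact Or.inl ha0
  right
  by_cases hQ : 0 ≤ Q.ord y
  · rw [Finsupp.smul_apply, hpf.poleDiv_of_nonneg hQ, smul_zero, neg_zero]
    exact Fermat.Agent.Lib.FFs.ord_nonneg_of_isIntegral hk1 Q hQ
  · rw [not_le] at hQ
    have h1 := Fermat.Agent.Lib.FFs.ord_nonneg_of_isIntegral hk2 Q (by
      rw [Q.ord_inv]; omega)
    have hJn : (y⁻¹) ^ n ≠ 0 := pow_ne_zero _ (inv_ne_zero hy0)
    rw [Q.ord_mul ha0 hJn, ord_inv_pow] at h1
    rw [Finsupp.smul_apply, hpf.poleDiv_of_neg hQ, nsmul_eq_mul]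
    linarith

/-- **(H2)** -/
theorem h2 {j : Fk} (hj : IsFF1 k Fk j) (hpf : PlaceFacts L F) (hpfk : PlaceFacts k Fk)
    (n : ℕ) (x : F) (a : Fk) (hx : x ∈ riemannRochSpace (n • hpf.poleDiv (φ j)))
    (hxa : Red φ res x a) : a ∈ riemannRochSpace (n • hpfk.poleDiv j) := by
  have ax := redAx h
  have hJ := isFF1_phi h hj
  have hj0 : j ≠ 0 := fun h0 => hj.transcendental (h0 ▸ isAlgebraic_zero)
  obtain ⟨hint1, hint2⟩ := isIntegral_of_mem_rrSpace hJ hpf n hx
  have hred2 : Red φ res (x * ((φ j)⁻¹) ^ n) (a * (j⁻¹) ^ n) :=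
    ax.mul hxa (ax.pow (ax.inv (red_phi h j) hj0) n)
  have hk1 := isIntegral_red' h hj x hint1 a hxa
  have hint2' : IsIntegral (Algebra.adjoin L {φ j⁻¹}) (x * ((φ j)⁻¹) ^ n) := by
    rw [map_inv₀]
    exact hint2
  have hk2 := isIntegral_red' h hj.inv _ hint2' _ hred2
  exact mem_rrSpace_of_isIntegral hj hpfk n hk1 hk2

/-- `φ` maps `L_k(n (j)_∞)` into `L(n (φ j)_∞)` -/
theorem phi_mem_rrSpace {j : Fk} (hj : IsFF1 k Fk j) (hpf : PlaceFacts L F)
    (hpfk : PlaceFacts k Fk) (n : ℕ) (e : Fk)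
    (he : e ∈ riemannRochSpace (n • hpfk.poleDiv j)) :
    φ e ∈ riemannRochSpace (n • hpf.poleDiv (φ j)) := by
  have hJ := isFF1_phi h hj
  obtain ⟨hint1, hint2⟩ := isIntegral_of_mem_rrSpace hj hpfk n he
  have h1 := isIntegral_phi h j hint1
  have h2 := isIntegral_phi h j⁻¹ hint2
  rw [map_mul, map_pow, map_inv₀] at h2
  exact mem_rrSpace_of_isIntegral hJ hpf n h1 h2

/-- `deg (φ j)_∞ = deg (j)_∞` -/
theorem degree_poleDiv_phi {j : Fk} (hj : IsFF1 k Fk j) (hpf : PlaceFacts L F)
    (hpfk : PlaceFacts k Fk) :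
    Divisor.degree (hpf.poleDiv (φ j)) = Divisor.degree (hpfk.poleDiv j) := by
  haveI := hj.finite
  rw [hpf.degree_poleDiv (transcendental_phi h hj.transcendental),
    hpfk.degree_poleDiv hj.transcendental, finrank_phi h hj.transcendental]

/-- **(NS)**: a non-special divisor on the residue side -/
theorem exists_ns {j : Fk} (hj : IsFF1 k Fk j) (hpf : PlaceFacts L F) (hpfk : PlaceFacts k Fk)
    {g : ℕ} {c : ℤ} (hRF : RThm L F g c) :
    ∃ E : Divisor k Fk, (Module.finrank k (riemannRochSpace E) : ℤ) + g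
      ≤ Divisor.degree E + 1 := by
  classical
  haveI := hj.finite
  have hdeg := degree_poleDiv_phi h hj hpf hpfk
  have hψ : 0 < Divisor.degree (hpfk.poleDiv j) := by
    rw [hpfk.degree_poleDiv hj.transcendental]
    exact_mod_cast Module.finrank_pos
  obtain ⟨n, hn⟩ := exists_threshold hψ c
  refine ⟨n • hpfk.poleDiv j, ?_⟩
  have hdegL : Divisor.degree (n • hpf.poleDiv (φ j)) = n * Divisor.degree (hpfk.poleDiv j) := by
    rw [map_nsmul, hdeg, nsmul_eq_mul]
  have hdegk : Divisor.degree (n • hpfk.poleDiv j) = n * Divisor.degree (hpfk.poleDiv j) := by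
    rw [map_nsmul, nsmul_eq_mul]
  have heq := hRF.eq (n • hpf.poleDiv (φ j)) (by rw [hdegL]; exact hn n (le_refl _))
  -- comparison of dimensions
  obtain ⟨Q₀⟩ : Nonempty (Place k Fk) := by
    by_contra hemp
    rw [not_nonempty_iff] at hemp
    have : hpfk.poleDiv j = 0 := by
      ext v
      exact (hemp.false v).elim
    rw [this, map_zero] at hψ
    exact lt_irrefl _ hψ
  obtain ⟨P₀⟩ : Nonempty (Place L F) := by
    by_contra hemp
    rw [not_nonempty_iff] at hemp
    have : hpf.poleDiv (φ j) = 0 := by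
      ext v
      exact (hemp.false v).elim
    rw [← hdeg, this, map_zero] at hψ
    exact lt_irrefl _ hψ
  haveI := finite_rrSpace hpfk Q₀ (n • hpfk.poleDiv j)
  haveI := finite_rrSpace hpf P₀ (n • hpf.poleDiv (φ j))
  have hle : Module.finrank k (riemannRochSpace (n • hpfk.poleDiv j))
      ≤ Module.finrank L (riemannRochSpace (n • hpf.poleDiv (φ j))) := by
    let b := Module.finBasis k (riemannRochSpace (n • hpfk.poleDiv j))
    have hb : LinearIndependent k (fun i => ((b i : riemannRochSpace (n • hpfk.poleDiv j)) : Fk)) :=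
      b.linearIndependent.map' (Submodule.subtype _) (Submodule.ker_subtype _)
    have h1 := h.ld _ _ hb
    have h2 : LinearIndependent L (fun i =>
        (⟨φ (b i : Fk), phi_mem_rrSpace h hj hpf hpfk n _ (b i).2⟩ :
          riemannRochSpace (n • hpf.poleDiv (φ j)))) := by
      apply LinearIndependent.of_comp (Submodule.subtype _)
      exact h1
    have := h2.fintype_card_le_finrank
    rwa [Fintype.card_fin] at this
  rw [hdegk]
  rw [hdegL] at heq
  have : (Module.finrank k (riemannRochSpace (n • hpfk.poleDiv j)) : ℤ)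
      ≤ Module.finrank L (riemannRochSpace (n • hpf.poleDiv (φ j))) := by exact_mod_cast hle
  linarith

end FF

end Fermat.Agent.S29.D4
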