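import Fermat.Agent.S29.DescOrtho
import Fermat.Agent.Lib.FFs.Trace

/-!
# S29 (C79), piece D4, part 4: reduction preserves integrality over `K[t]`

`t ∈ Fk` transcendental over `k`, `β` a `k(t)`-basis of `Fk` whose image spans `F` over `L(φ t)`.
If `y ∈ F` is integral over `L[φ t]` and `Red y a`, then `a` is integral over `k[t]`
(`isIntegral_red`).  Proof as in `S18/GVInt`: the ring of integral elements of `F` is a finite
module over the Gauss ring `O` of `L(φ t)` (orthonormal basis), so `y` is integral over `O`; hence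
the minimal polynomial of `y` over `L(φ t)` has coefficients in `L[φ t] ∩ O = A[φ t]` (Gauss
lemma) and can be reduced.
-/

set_option autoImplicit false
set_option linter.unusedSectionVars false
set_option linter.unusedVariables false
set_option linter.style.haveILetI false
set_option synthInstance.maxHeartbeats 400000
set_option maxHeartbeats 1000000

open Fermat.Agent.S18.Deuring IntermediateField Polynomial
open scoped IntermediateField.algebraAdjoinAdjoin

noncomputable section

namespace Fermat.Agent.S29.D4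

variable {k L Fk F : Type*} [Field k] [Field L] [Field Fk] [Field F] [Algebra k Fk] [Algebra L F]
variable {ι : k →+* L} {φ : Fk →+* F} {A : ValuationSubring L} {res : A →+* k}
variable (h : CExt ι φ A res)
include h

/-- the Gauss valuation ring of `L(T) ≤ F` -/
def gaussO (T : F) : ValuationSubring L⟮T⟯ := (gaussW h).comap (algebraMap L⟮T⟯ F)

theorem mem_gaussO_iff (T : F) (z : L⟮T⟯) :
    z ∈ gaussO h T ↔ ∃ a, Red φ res (z : F) a := Iff.rfl

/-- the `O`-algebra structure of `F` -/
@[reducible] def algebraGaussO (T : F) : Algebra (gaussO h T) F :=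
  RingHom.toAlgebra ((algebraMap L⟮T⟯ F).comp (gaussO h T).subtype)

/-- **the integral elements of `F` are integral over the Gauss ring of `L(T)`** -/
theorem isIntegral_gaussO {t : Fk} (ht : Transcendental k t) {n : ℕ} (β : Fin n → Fk)
    (hβ : LinearIndependent k⟮t⟯ β)
    (hspan : Submodule.span L⟮φ t⟯ (Set.range fun i => φ (β i)) = ⊤)
    (y : F) (hy : ∃ a, Red φ res y a) :
    letI := algebraGaussO h (φ t)
    IsIntegral (gaussO h (φ t)) y := by
  letI := algebraGaussO h (φ t)
  let S : Subalgebra (gaussO h (φ t)) F :=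
    { carrier := {z | ∃ a, Red φ res z a}
      mul_mem' := fun ha hb => (gaussW h).mul_mem _ _ ha hb
      one_mem' := (gaussW h).one_mem
      add_mem' := fun ha hb => (gaussW h).add_mem _ _ ha hb
      zero_mem' := (gaussW h).zero_mem
      algebraMap_mem' := fun o => o.2 }
  refine IsIntegral.of_mem_of_fg S ?_ y hy
  have hspan' : S.toSubmodule = Submodule.span (gaussO h (φ t))
      (Set.range fun i => φ (β i)) := by
    apply le_antisymm
    · intro z hz
      have hz' : ∃ a, Red φ res z a := hz
      have hzs : z ∈ Submodule.span L⟮φ t⟯ (Set.range fun i => φ (β i)) := by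
        rw [hspan]; trivial
      rw [Submodule.mem_span_range_iff_exists_fun] at hzs
      obtain ⟨f, hf⟩ := hzs
      have hsum : ∑ i, ((f i : L⟮φ t⟯) : F) * φ (β i) = z := by
        rw [← hf]
        refine Finset.sum_congr rfl fun i _ => ?_
        rw [Algebra.smul_def]
        rfl
      obtain ⟨a, ha⟩ := hz'
      rw [← hsum] at ha
      have hint := ortho h ht β hβ (fun i => ((f i : L⟮φ t⟯) : F)) (fun i => (f i).2) ha
      rw [Submodule.mem_span_range_iff_exists_fun]
      refine ⟨fun i => ⟨f i, hint i⟩, ?_⟩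
      rw [← hsum]
      refine Finset.sum_congr rfl fun i _ => ?_
      rw [Algebra.smul_def]
      rfl
    · rw [Submodule.span_le]
      rintro _ ⟨i, rfl⟩
      exact ⟨_, red_phi h (β i)⟩
  rw [hspan']
  exact Submodule.fg_span (Set.finite_range _)

/-- **reduction preserves integrality over `K[t]`** -/
theorem isIntegral_red {t : Fk} (ht : Transcendental k t) {n : ℕ} (β : Fin n → Fk)
    (hβ : LinearIndependent k⟮t⟯ β)
    (hspan : Submodule.span L⟮φ t⟯ (Set.range fun i => φ (β i)) = ⊤)
    (y : F) (hy : IsIntegral (Algebra.adjoin L {φ t}) y) (a : Fk) (hya : Red φ res y a) :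
    IsIntegral (Algebra.adjoin k {t}) a := by
  have ax := redAx h
  letI := algebraGaussO h (φ t)
  haveI : IsScalarTower (gaussO h (φ t)) L⟮φ t⟯ F :=
    IsScalarTower.of_algebraMap_eq (fun _ => rfl)
  have hO := isIntegral_gaussO h ht β hβ hspan y ⟨a, hya⟩
  haveI := Fermat.Agent.Lib.FF.isPrincipalIdealRing_adjoin L (φ t)
  have e1 := minpoly.isIntegrallyClosed_eq_field_fractions' L⟮φ t⟯ hy
  have e2 := minpoly.isIntegrallyClosed_eq_field_fractions' L⟮φ t⟯ hO
  have hyK : IsIntegral L⟮φ t⟯ y := hy.tower_top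
  -- the coefficients are polynomials in `T`
  have hc1 : ∀ i, ∃ p : L[X],
      (((minpoly L⟮φ t⟯ y).coeff i : L⟮φ t⟯) : F) = aeval (φ t) p := by
    intro i
    rw [e1, Polynomial.coeff_map]
    have h1 := ((minpoly (Algebra.adjoin L {φ t}) y).coeff i).2
    have h2 : (((minpoly (Algebra.adjoin L {φ t}) y).coeff i : Algebra.adjoin L {φ t}) : F) ∈
        (aeval (φ t) : L[X] →ₐ[L] F).range := by
      rw [← Algebra.adjoin_singleton_eq_range_aeval]
      exact h1
    obtain ⟨p, hp⟩ := h2
    exact ⟨p, hp.symm⟩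
  -- the coefficients are integral
  have hc2 : ∀ i, ∃ r, Red φ res (((minpoly L⟮φ t⟯ y).coeff i : L⟮φ t⟯) : F) r := by
    intro i
    rw [e2, Polynomial.coeff_map]
    exact ((minpoly (gaussO h (φ t)) y).coeff i).2
  choose p hp using hc1
  choose r hr using hc2
  have hP : ∀ i, ∃ P : A[X], P.map A.subtype = p i ∧ r i = aeval t (P.map res) := fun i =>
    exists_poly_of_red h ht (p i) (by rw [← hp]; exact hr i)
  choose P hP hrP using hP
  -- the equation
  have hm : (minpoly L⟮φ t⟯ y).Monic := minpoly.monic hyK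
  have heq : aeval y (minpoly L⟮φ t⟯ y) = 0 := minpoly.aeval _ _
  rw [hm.as_sum, map_add, map_pow, aeval_X, map_sum] at heq
  have hexp : y ^ (minpoly L⟮φ t⟯ y).natDegree
      + ∑ i ∈ Finset.range (minpoly L⟮φ t⟯ y).natDegree,
        (((minpoly L⟮φ t⟯ y).coeff i : L⟮φ t⟯) : F) * y ^ i = 0 := by
    rw [← heq]
    congr 1
    refine Finset.sum_congr rfl fun i _ => ?_
    rw [map_mul, map_pow, aeval_X, aeval_C]
    rfl
  have hred : Red φ res 0 (a ^ (minpoly L⟮φ t⟯ y).natDegree
      + ∑ i ∈ Finset.range (minpoly L⟮φ t⟯ y).natDegree, r i * a ^ i) := by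
    rw [← hexp]
    exact ax.add (ax.pow hya _) (ax.sum _ _ _ fun i _ => ax.mul (hr i) (ax.pow hya i))
  have h0 := ax.unique ax.zero hred
  -- the monic polynomial over `k[t]`
  have hmemT : ∀ i, r i ∈ Algebra.adjoin k {t} := fun i => by
    rw [hrP i, Algebra.adjoin_singleton_eq_range_aeval]
    exact ⟨_, rfl⟩
  refine ⟨X ^ (minpoly L⟮φ t⟯ y).natDegree + ∑ i ∈ Finset.range (minpoly L⟮φ t⟯ y).natDegree,
    Polynomial.C (⟨r i, hmemT i⟩ : Algebra.adjoin k {t}) * X ^ i, ?_, ?_⟩
  · apply Polynomial.monic_X_pow_add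
    refine lt_of_le_of_lt (Polynomial.degree_sum_le _ _) ?_
    rw [Finset.sup_lt_iff (WithBot.bot_lt_coe _)]
    intro i hi
    refine lt_of_le_of_lt (Polynomial.degree_C_mul_X_pow_le _ _) ?_
    exact_mod_cast Finset.mem_range.mp hi
  · rw [Polynomial.eval₂_add, Polynomial.eval₂_pow, Polynomial.eval₂_X, Polynomial.eval₂_finsetSum,
      h0]
    congr 1
    refine Finset.sum_congr rfl fun i _ => ?_
    rw [Polynomial.eval₂_mul, Polynomial.eval₂_C, Polynomial.eval₂_pow, Polynomial.eval₂_X]
    rfl

end Fermat.Agent.S29.D4
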