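import Mathlib
import Fermat.Prelude.Def_ModularCurve_LaurentCoeff

/-!
# C79 / D4, sub-piece LD: coefficientwise base change preserves linear independence

For fields `K → L` (any ring homomorphism `ι`) a `K`-linearly independent family of Laurent series
over `K` stays `L`-linearly independent after applying `ι` to the coefficients.

Proof: apply an arbitrary `K`-linear functional `L → K` to the coefficients of a linear relation.
-/

set_option autoImplicit false
set_option linter.style.haveILetI false

namespace Fermat.Agent.S29.D4

open ModularCurve

/-- a family of functions: `K`-linear independence is preserved by a field extension of the values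
(abstract form on coefficient functions) -/
theorem forall_eq_zero_of_sum_mul_eq_zero {K L : Type*} [Field K] [Field L] (ι : K →+* L)
    {I T : Type*} [Fintype I] (a : I → T → K)
    (ha : ∀ g : I → K, (∀ t, ∑ i, g i * a i t = 0) → ∀ i, g i = 0)
    (c : I → L) (hc : ∀ t, ∑ i, c i * ι (a i t) = 0) : ∀ i, c i = 0 := by
  letI : Algebra K L := ι.toAlgebra
  have hsm : ∀ (x : K) (y : L), x • y = ι x * y := fun x y => rfl
  intro i
  rw [← Module.forall_dual_apply_eq_zero_iff K (c i)]
  intro lam
  refine ha (fun i => lam (c i)) (fun t => ?_) i
  have h1 := congrArg lam (hc t)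
  rw [map_sum, map_zero] at h1
  rw [← h1]
  refine Finset.sum_congr rfl fun j _ => ?_
  have h2 : c j * ι (a j t) = a j t • c j := by rw [hsm, mul_comm]
  rw [h2, map_smul, smul_eq_mul, mul_comm]

/-- **(LD)** coefficientwise base change preserves linear independence of Laurent series. -/
theorem linearIndependent_coeffMap {K L : Type*} [Field K] [Field L] (ι : K →+* L) {n : ℕ}
    (e : Fin n → LaurentSeries K) (he : LinearIndependent K e) :
    LinearIndependent L (fun i => coeffMap ι (e i)) := by
  rw [Fintype.linearIndependent_iff] at he ⊢
  intro c hc
  refine forall_eq_zero_of_sum_mul_eq_zero ι (fun i t => (e i).coeff t) ?_ c ?_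
  · intro g hg
    apply he g
    ext t
    have := hg t
    simpa [HahnSeries.coeff_sum] using this
  · intro t
    have := congrArg (fun x : LaurentSeries L => x.coeff t) hc
    simpa [HahnSeries.coeff_sum] using this

/-- the same for families indexed by any type -/
theorem linearIndependent_coeffMap' {K L : Type*} [Field K] [Field L] (ι : K →+* L) {I : Type*}
    (e : I → LaurentSeries K) (he : LinearIndependent K e) :
    LinearIndependent L (fun i => coeffMap ι (e i)) := by
  classical
  rw [linearIndependent_iff'] at he ⊢
  intro s c hc i hi
  have h := forall_eq_zero_of_sum_mul_eq_zero ι (I := s)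
    (fun i t => (e i.1).coeff t) ?_ (fun i => c i.1) ?_ ⟨i, hi⟩
  · exact h
  · intro g hg
    have h1 := he s (fun j => if hj : j ∈ s then g ⟨j, hj⟩ else 0) ?_
    · intro j
      have := h1 j.1 j.2
      simpa using this
    · ext t
      have h2 := hg t
      rw [← Finset.sum_coe_sort]
      have : ∀ j : s, ((if hj : (j : I) ∈ s then g ⟨j, hj⟩ else 0) • e j).coeff t
          = g j * (e j).coeff t := by
        intro j
        simp
      simpa [HahnSeries.coeff_sum, this] using h2
  · intro t
    have := congrArg (fun x : LaurentSeries L => x.coeff t) hc
    rw [← Finset.sum_coe_sort] at this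
    simpa [HahnSeries.coeff_sum] using this

end Fermat.Agent.S29.D4
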