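import Mathlib

/-!
# C79 (S29/S42), piece D4, sub-piece V: a place of `L` over `k` with residue field `k`

For a ring homomorphism `ι : k →+* L` of fields, `k` algebraically closed, there is a valuation
subring `A` of `L` containing `ι k` and a ring homomorphism `res : A →+* k` with `res ∘ ι = id`
(Chevalley's extension theorem, with the residue field kept equal to `k`).
-/

set_option autoImplicit false
set_option linter.unusedSectionVars false
set_option linter.unusedVariables false
set_option linter.style.haveILetI false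

open IsLocalRing

namespace Fermat.Agent.S29.D4

variable {k L : Type*} [Field k] [Field L]

/-- membership in the maximal ideal of a local subring of a field, in terms of the field -/
theorem mem_maximalIdeal_iff' (R : LocalSubring L) (y : R.toSubring) :
    y ∈ maximalIdeal R.toSubring ↔ ((y : L) = 0 ∨ (y : L)⁻¹ ∉ R.toSubring) := by
  rw [mem_maximalIdeal, mem_nonunits_iff]
  constructor
  · intro h
    by_contra hcon
    rw [not_or, not_not] at hcon
    exact h (isUnit_iff_exists_inv.mpr ⟨⟨(y : L)⁻¹, hcon.2⟩,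
      Subtype.ext (mul_inv_cancel₀ hcon.1)⟩)
  · rintro h hu
    obtain ⟨⟨z, hz⟩, e⟩ := isUnit_iff_exists_inv.mp hu
    have e' : (y : L) * z = 1 := congrArg Subtype.val e
    have hy0 : (y : L) ≠ 0 := fun h0 => by rw [h0, zero_mul] at e'; exact zero_ne_one e'
    rcases h with h | h
    · exact hy0 h
    · apply h
      have : (y : L)⁻¹ = z := inv_eq_of_mul_eq_one_right e'
      rw [this]
      exact hz

/-- `R` contains `ι k` and its residue field is `ι k` -/
def HasSec (ι : k →+* L) (R : LocalSubring L) : Prop :=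
  (∀ c, ι c ∈ R.toSubring) ∧
    ∀ x ∈ R.toSubring, ∃ c : k, x - ι c = 0 ∨ (x - ι c)⁻¹ ∉ R.toSubring

variable (ι : k →+* L)

theorem hasSec_range : HasSec ι (LocalSubring.range ι) := by
  refine ⟨fun c => ⟨c, rfl⟩, ?_⟩
  rintro _ ⟨c, rfl⟩
  exact ⟨c, Or.inl (sub_self _)⟩

/-- chains of local subrings with the section property have upper bounds with the section
property -/
theorem exists_ub (s : Set (LocalSubring L)) (hs : ∀ R ∈ s, HasSec ι R)
    (H : IsChain (· ≤ ·) s) (y : LocalSubring L) (hys : y ∈ s) :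
    ∃ ub : LocalSubring L, HasSec ι ub ∧ ∀ z ∈ s, z ≤ ub := by
  have inst : Nonempty s := ⟨⟨y, hys⟩⟩
  have hdir := H.directed.mono_comp _ LocalSubring.toSubring_mono
  have hloc : IsLocalRing (⨆ i : s, i.1.toSubring : Subring L) := by
    refine ⟨?_⟩
    intro ⟨a, ha⟩ ⟨b, hb⟩ e
    obtain ⟨A, haA : a ∈ A.1.toSubring⟩ := (Subring.mem_iSup_of_directed hdir).mp ha
    obtain ⟨B, hbB : b ∈ B.1.toSubring⟩ := (Subring.mem_iSup_of_directed hdir).mp hb
    obtain ⟨C, hCA, hCB⟩ := hdir A B
    refine (C.1.2.2 (a := ⟨a, hCA haA⟩) (b := ⟨b, hCB hbB⟩) (Subtype.ext congr(($e).1))).imp ?_ ?_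
    · exact fun h ↦ h.map (Subring.inclusion (le_iSup (fun i : s ↦ i.1.toSubring) C))
    · exact fun h ↦ h.map (Subring.inclusion (le_iSup (fun i : s ↦ i.1.toSubring) C))
  refine ⟨@LocalSubring.mk _ _ (⨆ i : s, i.1.toSubring) hloc, ⟨?_, ?_⟩, ?_⟩
  · intro c
    exact (le_iSup (fun i : s ↦ i.1.toSubring) ⟨y, hys⟩) ((hs y hys).1 c)
  · intro x hx
    obtain ⟨A, hxA : x ∈ A.1.toSubring⟩ := (Subring.mem_iSup_of_directed hdir).mp hx
    obtain ⟨c, hc⟩ := (hs A.1 A.2).2 x hxA
    refine ⟨c, hc.imp id fun hinv hmem => hinv ?_⟩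
    obtain ⟨B, hbB : (x - ι c)⁻¹ ∈ B.1.toSubring⟩ := (Subring.mem_iSup_of_directed hdir).mp hmem
    obtain ⟨C, hCA, hCB⟩ := H.directed A B
    -- `x - ι c` is a unit of `C`, hence of `A`
    have hxc : x - ι c ∈ A.1.toSubring := sub_mem hxA ((hs A.1 A.2).1 c)
    by_cases h0 : x - ι c = 0
    · rw [h0, inv_zero]; exact zero_mem _
    have hu : IsUnit (Subring.inclusion hCA.1 ⟨x - ι c, hxc⟩) :=
      isUnit_iff_exists_inv.mpr ⟨⟨(x - ι c)⁻¹, hCB.1 hbB⟩, Subtype.ext (mul_inv_cancel₀ h0)⟩
    have hu' := hCA.2.1 _ hu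
    obtain ⟨⟨z, hz⟩, e⟩ := isUnit_iff_exists_inv.mp hu'
    have e' : (x - ι c) * z = 1 := congrArg Subtype.val e
    have : (x - ι c)⁻¹ = z := inv_eq_of_mul_eq_one_right e'
    rw [this]
    exact hz
  · intro A hA
    refine ⟨le_iSup (fun i : s ↦ i.1.toSubring) ⟨A, hA⟩, ⟨?_⟩⟩
    rintro ⟨a, haA⟩ h
    obtain ⟨⟨b, hb⟩, e⟩ := isUnit_iff_exists_inv.mp h
    obtain ⟨B, hbB : b ∈ B.1.toSubring⟩ := (Subring.mem_iSup_of_directed hdir).mp hb
    obtain ⟨C, hCA, hCB⟩ := H.directed ⟨A, hA⟩ B
    apply hCA.2.1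
    exact isUnit_iff_exists_inv.mpr ⟨⟨b, hCB.1 hbB⟩, Subtype.ext congr(($e).1)⟩

/-- a maximal local subring with the section property -/
theorem exists_maximal_hasSec :
    ∃ B : LocalSubring L, Maximal (fun R => HasSec ι R) B := by
  obtain ⟨m, -, hm⟩ := zorn_le_nonempty₀ {R : LocalSubring L | HasSec ι R}
    (fun c hc H y hy => by
      obtain ⟨ub, h1, h2⟩ := exists_ub ι c (fun R hR => hc hR) H y hy
      exact ⟨ub, h1, h2⟩)
    (LocalSubring.range ι) (hasSec_range ι)
  exact ⟨m, hm⟩

section Extend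

variable [IsAlgClosed k] {ι} {B : LocalSubring L} (hB : HasSec ι B) (x : L)

/-- the subring `B[x]` -/
abbrev adj (B : LocalSubring L) (x : L) : Subring L := (Algebra.adjoin B.toSubring {x}).toSubring

theorem le_adj : B.toSubring ≤ adj B x :=
  fun r hr ↦ algebraMap_mem (Algebra.adjoin B.toSubring {x}) ⟨r, hr⟩

theorem self_mem_adj : x ∈ adj B x := Algebra.self_mem_adjoin_singleton _ _

include hB in
/-- modulo a maximal ideal of `B[x]` over the maximal ideal of `B`, everything is constant -/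
theorem exists_sub_mem (M : Ideal (adj B x)) [hMmax : M.IsMaximal]
    (hM : (maximalIdeal B.toSubring).map (Subring.inclusion (le_adj x)) ≤ M) (s : adj B x) :
    ∃ c : k, ∃ h : (s : L) - ι c ∈ adj B x, (⟨(s : L) - ι c, h⟩ : adj B x) ∈ M := by
  classical
  letI : Field (adj B x ⧸ M) := Ideal.Quotient.field M
  have hιmem : ∀ c, ι c ∈ adj B x := fun c => le_adj x (hB.1 c)
  let ι' : k →+* adj B x := ι.codRestrict (adj B x) hιmem
  let φ : k →+* (adj B x ⧸ M) := (Ideal.Quotient.mk M).comp ι'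
  letI : Algebra k (adj B x ⧸ M) := φ.toAlgebra
  -- elements of `B` are constant modulo `M`
  have hBconst : ∀ (b : L) (hb : b ∈ B.toSubring),
      Ideal.Quotient.mk M ⟨b, le_adj x hb⟩ ∈ (algebraMap k (adj B x ⧸ M)).range := by
    intro b hb
    obtain ⟨c, hc⟩ := hB.2 b hb
    refine ⟨c, ?_⟩
    show Ideal.Quotient.mk M (ι' c) = _
    rw [eq_comm, Ideal.Quotient.eq]
    apply hM
    have hmem : (⟨b - ι c, sub_mem hb (hB.1 c)⟩ : B.toSubring) ∈ maximalIdeal B.toSubring :=
      (mem_maximalIdeal_iff' B _).2 hc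
    have := Ideal.mem_map_of_mem (Subring.inclusion (le_adj (B := B) x)) hmem
    convert this using 1
    exact Subtype.ext rfl
  -- the quotient is generated by the class of `x`
  have htop : Algebra.adjoin k {Ideal.Quotient.mk M ⟨x, self_mem_adj x⟩} = ⊤ := by
    rw [eq_top_iff]
    rintro y -
    obtain ⟨⟨s, hs⟩, rfl⟩ := Ideal.Quotient.mk_surjective y
    have hs' : s ∈ Algebra.adjoin B.toSubring {x} := hs
    induction hs' using Algebra.adjoin_induction with
    | mem z hz =>
        rw [Set.mem_singleton_iff] at hz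
        subst hz
        exact Algebra.subset_adjoin rfl
    | algebraMap r =>
        obtain ⟨c, hc⟩ := hBconst r.1 r.2
        have : Ideal.Quotient.mk M ⟨algebraMap B.toSubring L r, hs⟩ =
            algebraMap k (adj B x ⧸ M) c := hc.symm
        rw [this]
        exact Subalgebra.algebraMap_mem _ _
    | add a b ha hb iha ihb =>
        have : Ideal.Quotient.mk M ⟨a + b, hs⟩ =
            Ideal.Quotient.mk M ⟨a, ha⟩ + Ideal.Quotient.mk M ⟨b, hb⟩ := by
          rw [← map_add]; rfl
        rw [this]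
        exact add_mem (iha ha) (ihb hb)
    | mul a b ha hb iha ihb =>
        have : Ideal.Quotient.mk M ⟨a * b, hs⟩ =
            Ideal.Quotient.mk M ⟨a, ha⟩ * Ideal.Quotient.mk M ⟨b, hb⟩ := by
          rw [← map_mul]; rfl
        rw [this]
        exact mul_mem (iha ha) (ihb hb)
  haveI : Algebra.FiniteType k (adj B x ⧸ M) :=
    ⟨⟨{Ideal.Quotient.mk M ⟨x, self_mem_adj x⟩}, by rw [Finset.coe_singleton]; exact htop⟩⟩
  haveI : Module.Finite k (adj B x ⧸ M) := finite_of_finite_type_of_isJacobsonRing k _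
  haveI : Algebra.IsIntegral k (adj B x ⧸ M) := Algebra.IsIntegral.of_finite k _
  obtain ⟨c, hc⟩ := (IsAlgClosed.algebraMap_bijective_of_isIntegral
    (k := k) (K := adj B x ⧸ M)).2 (Ideal.Quotient.mk M s)
  refine ⟨c, sub_mem s.2 (hιmem c), ?_⟩
  have h1 : Ideal.Quotient.mk M s = Ideal.Quotient.mk M (ι' c) := hc.symm
  rw [Ideal.Quotient.eq] at h1
  exact h1

/-- `B` is dominated by the localisation of `B[x]` at a maximal ideal over the maximal ideal
of `B` -/
theorem le_ofPrime_adj (M : Ideal (adj B x)) [hMmax : M.IsMaximal]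
    (hM : (maximalIdeal B.toSubring).map (Subring.inclusion (le_adj x)) ≤ M) :
    B ≤ LocalSubring.ofPrime (adj B x) M := by
  refine ⟨(le_adj x).trans (LocalSubring.le_ofPrime ..), ((local_hom_TFAE _).out 2 0).mp ?_⟩
  conv_rhs => rw [← IsLocalization.AtPrime.map_eq_maximalIdeal M]
  refine .trans ?_ (Ideal.map_mono hM)
  rw [Ideal.map_map]; rfl

include hB in
/-- **(M0)**: the localisation of `B[x]` at a maximal ideal over the maximal ideal of `B` has the
section property -/
theorem hasSec_ofPrime_adj (M : Ideal (adj B x)) [hMmax : M.IsMaximal]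
    (hM : (maximalIdeal B.toSubring).map (Subring.inclusion (le_adj x)) ≤ M) :
    HasSec ι (LocalSubring.ofPrime (adj B x) M) := by
  classical
  set R' := LocalSubring.ofPrime (adj B x) M with hR'
  have hιmem : ∀ c, ι c ∈ adj B x := fun c => le_adj x (hB.1 c)
  refine ⟨fun c => LocalSubring.le_ofPrime _ _ (hιmem c), ?_⟩
  intro y hy
  obtain ⟨⟨s, t⟩, hst⟩ := IsLocalization.surj M.primeCompl (⟨y, hy⟩ : R'.toSubring)
  have hst' : y * (t : adj B x) = (s : L) := congrArg Subtype.val hst
  obtain ⟨cs, hs1, hs2⟩ := exists_sub_mem hB x M hM s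
  obtain ⟨ct, ht1, ht2⟩ := exists_sub_mem hB x M hM (t : adj B x)
  have hct : ct ≠ 0 := by
    rintro rfl
    apply t.2
    have : (⟨((t : adj B x) : L) - ι 0, ht1⟩ : adj B x) = (t : adj B x) :=
      Subtype.ext (by simp)
    rw [this] at ht2
    exact ht2
  refine ⟨cs / ct, ?_⟩
  by_contra hcon
  rw [not_or, not_not] at hcon
  obtain ⟨h0, hinv⟩ := hcon
  -- `(y - ι c) t ∈ M`
  have hmemS : (y - ι (cs / ct)) * ((t : adj B x) : L) ∈ adj B x := by
    rw [sub_mul, hst']
    exact sub_mem s.2 (mul_mem (hιmem _) (t : adj B x).2)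
  have hmemM : (⟨(y - ι (cs / ct)) * ((t : adj B x) : L), hmemS⟩ : adj B x) ∈ M := by
    have e : (⟨(y - ι (cs / ct)) * ((t : adj B x) : L), hmemS⟩ : adj B x) =
        ⟨(s : L) - ι cs, hs1⟩ - ⟨ι (cs / ct), hιmem _⟩ * ⟨((t : adj B x) : L) - ι ct, ht1⟩ := by
      apply Subtype.ext
      show (y - ι (cs / ct)) * ((t : adj B x) : L) =
        ((s : L) - ι cs) - ι (cs / ct) * (((t : adj B x) : L) - ι ct)
      have : ι (cs / ct) * ι ct = ι cs := by
        rw [← map_mul, div_mul_cancel₀ _ hct]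
      rw [sub_mul, hst', mul_sub, this]
      ring
    rw [e]
    exact M.sub_mem hs2 (M.mul_mem_left _ ht2)
  -- so `y - ι c` lies in the maximal ideal of `R'`
  have hyc : y - ι (cs / ct) ∈ R'.toSubring :=
    sub_mem hy (LocalSubring.le_ofPrime _ _ (hιmem _))
  have hmax : (⟨y - ι (cs / ct), hyc⟩ : R'.toSubring) ∈ maximalIdeal R'.toSubring := by
    have h1 : algebraMap (adj B x) R'.toSubring
        ⟨(y - ι (cs / ct)) * ((t : adj B x) : L), hmemS⟩ ∈ maximalIdeal R'.toSubring := by
      rw [← IsLocalization.AtPrime.map_eq_maximalIdeal M R'.toSubring]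
      exact Ideal.mem_map_of_mem _ hmemM
    have hu : IsUnit (algebraMap (adj B x) R'.toSubring (t : adj B x)) :=
      IsLocalization.map_units R'.toSubring t
    have e : algebraMap (adj B x) R'.toSubring
        ⟨(y - ι (cs / ct)) * ((t : adj B x) : L), hmemS⟩ =
        (⟨y - ι (cs / ct), hyc⟩ : R'.toSubring) * algebraMap (adj B x) R'.toSubring (t : adj B x) :=
      Subtype.ext rfl
    rw [e] at h1
    exact ((Ideal.IsPrime.mem_or_mem (Ideal.IsMaximal.isPrime (maximalIdeal.isMaximal _)) h1).resolve_right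
      (fun h => (mem_maximalIdeal _).1 h hu))
  rcases (mem_maximalIdeal_iff' R' _).1 hmax with h | h
  · exact h0 h
  · exact h hinv

end Extend

section Maximal

variable [IsAlgClosed k] {ι} {B : LocalSubring L} (hB : Maximal (fun R => HasSec ι R) B)

include hB in
/-- if `x ∉ B` then the maximal ideal of `B` generates the unit ideal of `B[x]` -/
theorem map_maximalIdeal_eq_top {x : L} (hx : x ∉ B.toSubring) :
    (maximalIdeal B.toSubring).map (Subring.inclusion (le_adj (B := B) x)) = ⊤ := by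
  by_contra hne
  obtain ⟨M, hMmax, hM⟩ := Ideal.exists_le_maximal _ hne
  have h1 := hasSec_ofPrime_adj hB.prop x M hM
  have h2 := le_ofPrime_adj (B := B) x M hM
  have h3 := hB.le_of_ge h1 h2
  exact hx (h3.1 (LocalSubring.le_ofPrime _ _ (self_mem_adj x)))

include hB in
/-- a maximal local subring with the section property is integrally closed -/
theorem mem_of_isIntegral {x : L} (hx : IsIntegral B.toSubring x) : x ∈ B.toSubring := by
  let S := Algebra.adjoin B.toSubring {x}
  have : Algebra.IsIntegral B.toSubring S := Algebra.IsIntegral.adjoin (by simpa)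
  obtain ⟨Q : Ideal S.toSubring, hQ, e⟩ := Ideal.exists_ideal_over_maximal_of_isIntegral
    (S := S) (maximalIdeal B.toSubring) (le_maximalIdeal (by simp))
  have hM : (maximalIdeal B.toSubring).map (Subring.inclusion (le_adj (B := B) x)) ≤ Q :=
    Ideal.map_le_iff_le_comap.mpr e.ge
  have h1 := hasSec_ofPrime_adj hB.prop x Q hM
  have h2 := le_ofPrime_adj (B := B) x Q hM
  have h3 := hB.le_of_ge h1 h2
  exact h3.1 (LocalSubring.le_ofPrime _ _ (self_mem_adj x))

include hB in
/-- a maximal local subring with the section property is a valuation ring -/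
theorem mem_or_inv_mem (x : L) : x ∈ B.toSubring ∨ x⁻¹ ∈ B.toSubring := by
  rw [or_iff_not_imp_left]
  intro hx
  refine mem_of_isIntegral hB ?_
  have hx0 : x ≠ 0 := fun e ↦ hx (e ▸ zero_mem _)
  let := invertibleOfNonzero hx0
  have ⟨p, hp, hpx⟩ := Algebra.exists_aeval_invOf_eq_zero_of_idealMap_adjoin_sup_span_eq_top x _
    (maximalIdeal.isMaximal B.toSubring).ne_top
    (top_unique <| (map_maximalIdeal_eq_top hB hx).ge.trans le_self_add)
  have H : IsUnit p.leadingCoeff := of_not_not fun h ↦ by simpa using sub_mem h hp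
  exact ⟨.C H.unit⁻¹.1 * p, by simp [Polynomial.Monic], by simpa using .inr hpx⟩

end Maximal

/-- **Chevalley's place extension with residue field `k`**: a valuation subring `A` of `L`
containing `ι k` together with a retraction `res : A →+* k` of `ι`. -/
theorem exists_valuationSubring_section [IsAlgClosed k] (ι : k →+* L) :
    ∃ (A : ValuationSubring L) (res : A →+* k), ∀ c : k, ∃ h : ι c ∈ A, res ⟨ι c, h⟩ = c := by
  classical
  obtain ⟨B, hB⟩ := exists_maximal_hasSec ι
  let A : ValuationSubring L := ⟨B.toSubring, fun x => mem_or_inv_mem hB x⟩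
  have hιA : ∀ c, ι c ∈ A := fun c => hB.prop.1 c
  let ι' : k →+* A := ι.codRestrict A.toSubring hιA
  let f : k →+* ResidueField A := (residue A).comp ι'
  have hbij : Function.Bijective f := by
    refine ⟨f.injective, fun z => ?_⟩
    obtain ⟨⟨y, hy⟩, rfl⟩ := residue_surjective z
    obtain ⟨c, hc⟩ := hB.prop.2 y hy
    refine ⟨c, ?_⟩
    show residue A (ι' c) = residue A ⟨y, hy⟩
    rw [eq_comm, ← sub_eq_zero, ← map_sub, residue_eq_zero_iff]
    have := (mem_maximalIdeal_iff' B ⟨y - ι c, sub_mem hy (hB.prop.1 c)⟩).2 hc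
    exact this
  let e : k ≃+* ResidueField A := RingEquiv.ofBijective f hbij
  refine ⟨A, e.symm.toRingHom.comp (residue A), fun c => ⟨hιA c, ?_⟩⟩
  show e.symm (residue A ⟨ι c, hιA c⟩) = c
  rw [RingEquiv.symm_apply_eq]
  rfl

end Fermat.Agent.S29.D4
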