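import Fermat.Agent.S29.DescSetup
import Fermat.Agent.S29.DescVal
import Fermat.Agent.S29.DescLD
import Fermat.Agent.S29.BCMod
import Fermat.Agent.S29.BCDiv
import Fermat.Agent.Lib.ModCK.GlueK

/-!
# S29 (C79), piece D4, part 7: descent of torsion classes for the modular function fields

For algebraically closed fields `K`, `K'` of characteristic zero embedded in `ℂ` and ANY ring
homomorphism `e : K →+* K'` (e.g. `ℚ̄ → ℂ`), with `φ = BC.bcF e (modularFunctionFieldFull N) :
F_K(N) → F_{K'}(N)` the coefficientwise base change: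

* `exists_cext`: `φ` is a constant field extension in the sense of `CExt`;
* `exists_sp`: there is a specialisation homomorphism `sp : Pic0 K' F_{K'}(N) →+ Pic0 K F_K(N)`,
  injective on torsion, with `sp [b_* E] = [E]` for every extension of places `b` (`PlaceExt φ b`);
* `bcPic0_sp`, `bcPic0_injective`, `exists_bcPic0_eq`, `bcPic0_torsion_bijective`: the base
  change `bcPic0 : Pic0 K F_K(N) →+ Pic0 K' F_{K'}(N)` is injective, and bijective on `m`-torsion
  for every `m ≠ 0`.
-/

set_option autoImplicit false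
set_option linter.unusedSectionVars false
set_option linter.unusedVariables false
set_option linter.style.haveILetI false
set_option synthInstance.maxHeartbeats 400000
set_option maxHeartbeats 1000000

open Fermat.Agent.S18.Deuring IntermediateField AlgebraicCurve Fermat.Agent.Lib.FF ModularCurve

noncomputable section

namespace Fermat.Agent.S29.D4

section Abstract

variable {K K' : Type*} [Field K] [Field K'] [Algebra ℚ K] [Algebra ℚ K'] [IsAlgClosed K]

omit [IsAlgClosed K] [Algebra ℚ K] in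
/-- the two scalar multiplications on Laurent series agree -/
theorem algebraMap_mul_eq_hahn_smul (c : K) (x : LaurentSeries K) :
    algebraMap K (LaurentSeries K) c * x
      = @HSMul.hSMul K (LaurentSeries K) (LaurentSeries K)
          (@instHSMul _ _ HahnSeries.instSMul) c x := by
  rw [algebraMap_laurentSeries_eq_single, ← HahnSeries.C_apply, HahnSeries.C_mul_eq_smul]

omit [IsAlgClosed K] [Algebra ℚ K] in
theorem coe_sum_smul_hahn {n : ℕ} (F : IntermediateField K (LaurentSeries K)) (g : Fin n → K)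
    (v : Fin n → ↥F) :
    ((∑ i, g i • v i : ↥F) : LaurentSeries K)
      = ∑ i, @HSMul.hSMul K (LaurentSeries K) (LaurentSeries K)
          (@instHSMul _ _ HahnSeries.instSMul) (g i) (v i : LaurentSeries K) := by
  rw [IntermediateField.coe_sum]
  refine Finset.sum_congr rfl fun i _ => ?_
  rw [IntermediateField.coe_smul, Algebra.smul_def, algebraMap_mul_eq_hahn_smul]

/-- the coefficientwise base change is a constant field extension -/
theorem exists_cext (e : K →+* K') (F₀ : IntermediateField ℚ (LaurentSeries ℚ)) :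
    ∃ (A : ValuationSubring K') (res : A →+* K),
      CExt e (Fermat.Agent.S29.BC.bcF e F₀) A res := by
  obtain ⟨A, res, h⟩ := exists_valuationSubring_section e
  refine ⟨A, res, ⟨Fermat.Agent.S29.BC.bcF_algebraMap e F₀, fun c => (h c).1, fun c hc => ?_,
    ?_, Fermat.Agent.S29.BC.bcF_gen e F₀⟩⟩
  · obtain ⟨h1, h2⟩ := h c
    exact h2
  · intro n v hv
    have h1 : LinearIndependent K
        (fun i => ((v i : ↥(laurentBaseChange K F₀)) : LaurentSeries K)) := by
      rw [Fintype.linearIndependent_iff] at hv ⊢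
      intro g hg
      apply hv g
      apply Subtype.ext
      rw [coe_sum_smul_hahn]
      exact hg
    have h2 := linearIndependent_coeffMap e _ h1
    rw [Fintype.linearIndependent_iff] at h2 ⊢
    intro g hg
    apply h2 g
    have h3 := congrArg Subtype.val hg
    rw [coe_sum_smul_hahn] at h3
    exact h3

end Abstract

section Modular

variable {K K' : Type*} [Field K] [Field K'] [Algebra ℚ K] [Algebra ℚ K'] [IsAlgClosed K]
  [CharZero K] [IsAlgClosed K'] [CharZero K']
variable (σ : K →+* ℂ) (σ' : K' →+* ℂ) (e : K →+* K') (N : ℕ) [NeZero N]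

include σ σ'

/-- **the specialisation homomorphism** `Pic0 (F_{K'}(N)) → Pic0 (F_K(N))` of the constant field
extension `F_K(N) → F_{K'}(N)`: it is injective on torsion and a retraction of every base change
of divisor classes. -/
theorem exists_sp :
    ∃ sp : Pic0 K' ↥(Fermat.Agent.Lib.ModJ.FFK K' N) →+ Pic0 K ↥(Fermat.Agent.Lib.ModJ.FFK K N),
      (∀ (m : ℕ), m ≠ 0 → ∀ z, m • z = 0 → sp z = 0 → z = 0) ∧
      ∀ (b : Place K ↥(Fermat.Agent.Lib.ModJ.FFK K N) →
            Place K' ↥(Fermat.Agent.Lib.ModJ.FFK K' N)),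
        Fermat.Agent.S29.BC.PlaceExt (Fermat.Agent.S29.BC.bcF e (modularFunctionFieldFull N)) b →
        ∀ (E : Divisor.degZero (K := K) (F := ↥(Fermat.Agent.Lib.ModJ.FFK K N)))
          (E' : Divisor.degZero (K := K') (F := ↥(Fermat.Agent.Lib.ModJ.FFK K' N))),
          (E' : Divisor K' ↥(Fermat.Agent.Lib.ModJ.FFK K' N))
              = Finsupp.mapDomain b (E : Divisor K ↥(Fermat.Agent.Lib.ModJ.FFK K N)) →
          sp (Pic0.mk E') = Pic0.mk E := by
  obtain ⟨A, res, h⟩ := exists_cext e (modularFunctionFieldFull N)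
  have hj := Fermat.Agent.Lib.ModCK.isFF1_jK σ N
  have hj' := Fermat.Agent.Lib.ModCK.isFF1_jK σ' N
  obtain ⟨g, c, S⟩ := setup h hj (placeFacts_of_isFF1 hj') (placeFacts_of_isFF1 hj)
  exact ⟨Fermat.Agent.S37.G.redPic0 S, fun m hm z hmz hz => sp_eq_zero_imp h S m hm z hmz hz,
    fun b hb E E' hE' => sp_mk_bc h S hb E E' hE'⟩

variable {e N}
variable {b : Place K ↥(Fermat.Agent.Lib.ModJ.FFK K N) →
  Place K' ↥(Fermat.Agent.Lib.ModJ.FFK K' N)}
  (hb : Fermat.Agent.S29.BC.PlaceExt (Fermat.Agent.S29.BC.bcF e (modularFunctionFieldFull N)) b)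
  {x : ↥(Fermat.Agent.Lib.ModJ.FFK K N)} {x' : ↥(Fermat.Agent.Lib.ModJ.FFK K' N)}
  (hx : IsFF1 K ↥(Fermat.Agent.Lib.ModJ.FFK K N) x)
  (hx' : IsFF1 K' ↥(Fermat.Agent.Lib.ModJ.FFK K' N) x')

/-- there is a retraction `sp` of the base change `bcPic0` which is injective on torsion -/
theorem exists_sp_bcPic0 :
    ∃ sp : Pic0 K' ↥(Fermat.Agent.Lib.ModJ.FFK K' N) →+ Pic0 K ↥(Fermat.Agent.Lib.ModJ.FFK K N),
      (∀ (m : ℕ), m ≠ 0 → ∀ z, m • z = 0 → sp z = 0 → z = 0) ∧
      ∀ y, sp (Fermat.Agent.S29.BC.bcPic0 hb hx hx' y) = y := by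
  obtain ⟨sp, h1, h2⟩ := exists_sp σ σ' e N
  refine ⟨sp, h1, fun y => ?_⟩
  obtain ⟨E, rfl⟩ := Pic0.mk_surjective y
  rw [Fermat.Agent.S29.BC.bcPic0_mk]
  exact h2 b hb E _ rfl

/-- the base change `Pic0 (F_K(N)) → Pic0 (F_{K'}(N))` is injective -/
theorem bcPic0_injective :
    Function.Injective (Fermat.Agent.S29.BC.bcPic0 hb hx hx') := by
  obtain ⟨sp, -, h2⟩ := exists_sp_bcPic0 σ σ' hb hx hx'
  exact Function.LeftInverse.injective h2

/-- **descent**: every torsion class of `F_{K'}(N)` is the base change of a (unique) torsion class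
of `F_K(N)` of the same exponent -/
theorem exists_bcPic0_eq (m : ℕ) (hm : m ≠ 0) (z : Pic0 K' ↥(Fermat.Agent.Lib.ModJ.FFK K' N))
    (hz : m • z = 0) :
    ∃ y : Pic0 K ↥(Fermat.Agent.Lib.ModJ.FFK K N),
      m • y = 0 ∧ Fermat.Agent.S29.BC.bcPic0 hb hx hx' y = z := by
  obtain ⟨sp, h1, h2⟩ := exists_sp_bcPic0 σ σ' hb hx hx'
  have h3 : m • sp z = 0 := by rw [← map_nsmul, hz, map_zero]
  refine ⟨sp z, h3, ?_⟩
  have h4 : z - Fermat.Agent.S29.BC.bcPic0 hb hx hx' (sp z) = 0 := by
    apply h1 m hm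
    · rw [nsmul_sub, hz, ← map_nsmul, h3, map_zero, sub_zero]
    · rw [map_sub, h2, sub_self]
  exact (sub_eq_zero.mp h4).symm

/-- the base change restricted to `m`-torsion subgroups -/
def bcTorsion (m : ℕ) :
    Pic0.torsion K ↥(Fermat.Agent.Lib.ModJ.FFK K N) m →+
      Pic0.torsion K' ↥(Fermat.Agent.Lib.ModJ.FFK K' N) m :=
  ((Fermat.Agent.S29.BC.bcPic0 hb hx hx').comp
      (Pic0.torsion K ↥(Fermat.Agent.Lib.ModJ.FFK K N) m).subtype).codRestrict _
    fun y => Fermat.Agent.S29.BC.bcPic0_mem_torsion hb hx hx' y.2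

omit σ σ' in
@[simp]
theorem coe_bcTorsion (m : ℕ) (y : Pic0.torsion K ↥(Fermat.Agent.Lib.ModJ.FFK K N) m) :
    (bcTorsion hb hx hx' m y : Pic0 K' ↥(Fermat.Agent.Lib.ModJ.FFK K' N))
      = Fermat.Agent.S29.BC.bcPic0 hb hx hx' (y : Pic0 K ↥(Fermat.Agent.Lib.ModJ.FFK K N)) := rfl

/-- **the base change is bijective on `m`-torsion** (`m ≠ 0`) -/
theorem bcTorsion_bijective (m : ℕ) (hm : m ≠ 0) :
    Function.Bijective (bcTorsion hb hx hx' m) := by
  constructor
  · intro y₁ y₂ h
    apply Subtype.ext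
    apply bcPic0_injective σ σ' hb hx hx'
    have := congrArg Subtype.val h
    simpa using this
  · intro z
    have hz : m • (z : Pic0 K' ↥(Fermat.Agent.Lib.ModJ.FFK K' N)) = 0 := by
      have := Pic0.mem_torsion.mp z.2
      exact_mod_cast this
    obtain ⟨y, hy, hyz⟩ := exists_bcPic0_eq σ σ' hb hx hx' m hm z hz
    refine ⟨⟨y, ?_⟩, Subtype.ext hyz⟩
    rw [Pic0.mem_torsion]
    exact_mod_cast hy

end Modular

end Fermat.Agent.S29.D4
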