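import Fermat.Agent.S29.DescH1

/-!
# S29 (C79), piece D4, part 3: orthogonality for the Gauss reduction of a constant field extension

* `coord_of_red`: a `k`-linearly independent family of `Fk` is orthonormal: if `Σ cᵢ φ(eᵢ)` is
  integral, all `cᵢ ∈ A` and the residue is `Σ res(cᵢ) eᵢ`;
* `exists_poly_of_red` (Gauss lemma): an integral polynomial in `T = φ t` has coefficients in `A`;
* `red_mem_adjoin`: the residue field of `L(T)` is `k(t)`;
* `gaussW`: the valuation ring of integral elements of `F`;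
* `ortho`: a `k(t)`-linearly independent family of `Fk` is orthonormal over `L(T)`.
-/

set_option autoImplicit false
set_option linter.unusedSectionVars false
set_option linter.unusedVariables false
set_option linter.style.haveILetI false

open Fermat.Agent.S18.Deuring IntermediateField Polynomial

noncomputable section

namespace Fermat.Agent.S29.D4

variable {k L Fk F : Type*} [Field k] [Field L] [Field Fk] [Field F] [Algebra k Fk] [Algebra L F]
variable {ι : k →+* L} {φ : Fk →+* F} {A : ValuationSubring L} {res : A →+* k}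
variable (h : CExt ι φ A res)
include h

theorem Int.sum {J : Type*} (s : Finset J) (u : J → F) (a : J → Fk)
    (hs : ∀ i ∈ s, Int φ res (u i) (a i)) : Int φ res (∑ i ∈ s, u i) (∑ i ∈ s, a i) := by
  classical
  induction s using Finset.induction_on with
  | empty => simpa using Int.zero
  | insert i s hi ih =>
    rw [Finset.sum_insert hi, Finset.sum_insert hi]
    exact (hs i (Finset.mem_insert_self _ _)).add
      (ih fun j hj => hs j (Finset.mem_insert_of_mem hj))

/-- integral combinations -/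
theorem int_comb {n : ℕ} (c : Fin n → A) (e : Fin n → Fk) :
    Int φ res (∑ i, (c i : L) • φ (e i)) (∑ i, res (c i) • e i) :=
  Int.sum h _ _ _ fun i _ => (Int.phi h (e i)).smul (c i)

/-- **orthonormality of `k`-linearly independent families** -/
theorem coord_of_red {n : ℕ} (e : Fin n → Fk) (he : LinearIndependent k e) (c : Fin n → L)
    {r : Fk} (hr : Red φ res (∑ i, c i • φ (e i)) r) :
    ∃ c' : Fin n → A, (∀ i, (c' i : L) = c i) ∧ r = ∑ i, res (c' i) • e i := by
  have ax := redAx h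
  by_cases hc : ∀ i, c i = 0
  · refine ⟨fun _ => 0, fun i => by rw [hc i]; rfl, ?_⟩
    have h0 : ∑ i, c i • φ (e i) = 0 := Finset.sum_eq_zero fun i _ => by rw [hc i, zero_smul]
    rw [h0] at hr
    rw [ax.unique hr ax.zero]
    simp
  simp only [not_forall] at hc
  obtain ⟨i₀, hi₀, hmem⟩ := exists_max_const A c hc
  set x : F := ∑ i, c i • φ (e i) with hx
  have h1 := int_comb h (fun i => (⟨c i / c i₀, hmem i⟩ : A)) e
  have h2 : ∑ i, ((⟨c i / c i₀, hmem i⟩ : A) : L) • φ (e i) = (c i₀)⁻¹ • x := by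
    rw [hx, Finset.smul_sum]
    refine Finset.sum_congr rfl fun i _ => ?_
    rw [smul_smul, inv_mul_eq_div]
  rw [h2] at h1
  have hb : ∑ i, res (⟨c i / c i₀, hmem i⟩ : A) • e i ≠ 0 := by
    intro h0
    rw [Fintype.linearIndependent_iff] at he
    have h4 := he _ h0 i₀
    have h5 : (⟨c i₀ / c i₀, hmem i₀⟩ : A) = 1 := Subtype.ext (div_self hi₀)
    rw [h5, map_one] at h4
    exact one_ne_zero h4
  rcases ax.mem_or (c i₀) with ⟨u, hu⟩ | ⟨-, u, hu, hu0⟩
  · have h3 := ax.smul' u (Red.of_int h h1)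
    rw [hu, smul_smul, mul_inv_cancel₀ hi₀, one_smul] at h3
    have h4 := ax.unique hr h3
    refine ⟨fun i => u * ⟨c i / c i₀, hmem i⟩, fun i => ?_, ?_⟩
    · show (u : L) * (c i / c i₀) = c i
      rw [hu]
      field_simp
    · rw [h4, Finset.smul_sum]
      refine Finset.sum_congr rfl fun i _ => ?_
      rw [map_mul, mul_smul]
  · exfalso
    have h3 := ax.smul' u hr
    rw [hu, hu0, zero_smul] at h3
    exact hb (ax.unique (Red.of_int h h1) h3)

/-! ### polynomials in `T = φ t` -/

omit h in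
theorem aeval_eq_sum_fin (T : F) (P : L[X]) :
    aeval T P = ∑ i : Fin (P.natDegree + 1), P.coeff i • T ^ (i : ℕ) := by
  rw [Polynomial.aeval_eq_sum_range, Finset.sum_range]

omit h in
theorem aeval_eq_sum_fin' (T : F) (P : L[X]) {n : ℕ} (hn : P.natDegree < n) :
    aeval T P = ∑ i : Fin n, P.coeff i • T ^ (i : ℕ) := by
  rw [Polynomial.aeval_eq_sum_range' hn, Finset.sum_range]

omit h in
theorem linearIndependent_pow_of_transcendental {t : Fk} (ht : Transcendental k t) (n : ℕ) :
    LinearIndependent k (fun i : Fin n => t ^ (i : ℕ)) := by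
  classical
  rw [Fintype.linearIndependent_iff]
  intro g hg i
  set p : k[X] := ∑ j : Fin n, Polynomial.monomial (j : ℕ) (g j) with hp
  have h1 : aeval t p = 0 := by
    rw [hp, map_sum, ← hg]
    refine Finset.sum_congr rfl fun j _ => ?_
    rw [Polynomial.aeval_monomial, Algebra.smul_def]
  have h2 : p = 0 := (transcendental_iff.mp ht) p h1
  have h3 : p.coeff i = g i := by
    rw [hp, Polynomial.finsetSum_coeff]
    rw [Finset.sum_eq_single i]
    · rw [Polynomial.coeff_monomial, if_pos rfl]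
    · intro j _ hj
      rw [Polynomial.coeff_monomial, if_neg]
      exact fun hji => hj (Fin.ext hji)
    · intro hi
      exact absurd (Finset.mem_univ i) hi
  rw [← h3, h2, Polynomial.coeff_zero]

/-- **Gauss lemma**: an integral polynomial in `T` has coefficients in `A` -/
theorem exists_poly_of_red {t : Fk} (ht : Transcendental k t) (P : L[X]) {r : Fk}
    (hr : Red φ res (aeval (φ t) P) r) :
    ∃ P' : A[X], P'.map A.subtype = P ∧ r = aeval t (P'.map res) := by
  classical
  have he : LinearIndependent k (fun i : Fin (P.natDegree + 1) => t ^ (i : ℕ)) :=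
    linearIndependent_pow_of_transcendental ht _
  have hP : aeval (φ t) P = ∑ i : Fin (P.natDegree + 1), P.coeff i • φ (t ^ (i : ℕ)) := by
    rw [aeval_eq_sum_fin]
    refine Finset.sum_congr rfl fun i _ => ?_
    rw [map_pow]
  rw [hP] at hr
  obtain ⟨c', hc', hr'⟩ := coord_of_red h _ he _ hr
  have hmem : ∀ n, P.coeff n ∈ A := by
    intro n
    by_cases hn : n < P.natDegree + 1
    · have := hc' ⟨n, hn⟩
      rw [← this]
      exact (c' ⟨n, hn⟩).2
    · rw [coeff_eq_zero_of_natDegree_lt (by omega)]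
      exact A.zero_mem
  have hlift : P ∈ Polynomial.lifts A.subtype := by
    rw [lifts_iff_coeff_lifts]
    intro n
    exact ⟨⟨P.coeff n, hmem n⟩, rfl⟩
  obtain ⟨P', hP'⟩ := (Polynomial.mem_lifts _).mp hlift
  refine ⟨P', hP', ?_⟩
  have hcoeff : ∀ n, (P'.coeff n : L) = P.coeff n := by
    intro n
    rw [← hP', coeff_map]
    rfl
  have hdeg : (P'.map res).natDegree < P.natDegree + 1 := by
    have h1 : (P'.map res).natDegree ≤ P'.natDegree := natDegree_map_le
    have h2 : P'.natDegree = P.natDegree := by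
      rw [← hP']
      exact (natDegree_map_eq_of_injective Subtype.val_injective P').symm
    omega
  rw [hr', aeval_eq_sum_fin' t _ hdeg]
  refine Finset.sum_congr rfl fun i _ => ?_
  rw [coeff_map]
  congr 2
  apply Subtype.ext
  rw [hc', hcoeff]

/-- polynomials with coefficients in `A` are integral -/
theorem red_aeval (t : Fk) (P' : A[X]) :
    Red φ res (aeval (φ t) (P'.map A.subtype)) (aeval t (P'.map res)) := by
  apply Red.of_int h
  have hdeg : (P'.map res).natDegree < P'.natDegree + 1 := by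
    have h1 : (P'.map res).natDegree ≤ P'.natDegree := natDegree_map_le
    omega
  have hdeg' : (P'.map A.subtype).natDegree < P'.natDegree + 1 := by
    have h1 : (P'.map A.subtype).natDegree ≤ P'.natDegree := natDegree_map_le
    omega
  rw [aeval_eq_sum_fin' (φ t) _ hdeg', aeval_eq_sum_fin' t _ hdeg]
  have := int_comb h (fun i : Fin (P'.natDegree + 1) => P'.coeff i) (fun i => t ^ (i : ℕ))
  convert this using 1
  · refine Finset.sum_congr rfl fun i _ => ?_
    rw [coeff_map, map_pow]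
    rfl
  · refine Finset.sum_congr rfl fun i _ => ?_
    rw [coeff_map]

/-- normalisation of a nonzero polynomial -/
theorem exists_normal_poly {t : Fk} (ht : Transcendental k t) (P : L[X]) (hP : P ≠ 0) :
    ∃ c : L, c ≠ 0 ∧ ∃ b : Fk, b ≠ 0 ∧ b ∈ k⟮t⟯ ∧ Red φ res (c • aeval (φ t) P) b := by
  classical
  have hne : ∃ i : Fin (P.natDegree + 1), P.coeff i ≠ 0 :=
    ⟨⟨P.natDegree, by omega⟩, by simpa using hP⟩
  obtain ⟨i₀, hi₀, hmem⟩ := exists_max_const A (fun i : Fin (P.natDegree + 1) => P.coeff i) hne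
  have h1 := int_comb h (fun i => (⟨P.coeff i / P.coeff i₀, hmem i⟩ : A))
    (fun i : Fin (P.natDegree + 1) => t ^ (i : ℕ))
  have h2 : ∑ i : Fin (P.natDegree + 1),
      ((⟨P.coeff i / P.coeff i₀, hmem i⟩ : A) : L) • φ (t ^ (i : ℕ))
      = (P.coeff i₀)⁻¹ • aeval (φ t) P := by
    rw [aeval_eq_sum_fin, Finset.smul_sum]
    refine Finset.sum_congr rfl fun i _ => ?_
    rw [smul_smul, inv_mul_eq_div, map_pow]
  rw [h2] at h1
  refine ⟨(P.coeff i₀)⁻¹, inv_ne_zero hi₀, _, ?_, ?_, Red.of_int h h1⟩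
  · intro h0
    have he : LinearIndependent k (fun i : Fin (P.natDegree + 1) => t ^ (i : ℕ)) :=
      linearIndependent_pow_of_transcendental ht _
    rw [Fintype.linearIndependent_iff] at he
    have h4 := he _ h0 i₀
    have h5 : (⟨P.coeff i₀ / P.coeff i₀, hmem i₀⟩ : A) = 1 := Subtype.ext (div_self hi₀)
    rw [h5, map_one] at h4
    exact one_ne_zero h4
  · refine Subfield.sum_mem _ fun i _ => ?_
    rw [Algebra.smul_def]
    exact mul_mem (k⟮t⟯.algebraMap_mem _) (pow_mem (mem_adjoin_simple_self k t) _)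

/-- **the residue field of `L(T)` is `k(t)`** -/
theorem red_mem_adjoin {t : Fk} (ht : Transcendental k t) {z : F} (hz : z ∈ L⟮φ t⟯) {r : Fk}
    (hr : Red φ res z r) : r ∈ k⟮t⟯ := by
  have ax := redAx h
  by_cases hr0 : r = 0
  · rw [hr0]; exact zero_mem _
  obtain ⟨P, Q, hzPQ⟩ := (mem_adjoin_simple_iff L z).mp hz
  have hz0 : z ≠ 0 := ax.ne_zero hr hr0
  have hp0 : aeval (φ t) P ≠ 0 := by
    intro h0
    rw [hzPQ, h0, zero_div] at hz0
    exact hz0 rfl
  have hq0 : aeval (φ t) Q ≠ 0 := by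
    intro h0
    rw [hzPQ, h0, div_zero] at hz0
    exact hz0 rfl
  have hP : P ≠ 0 := by
    rintro rfl
    exact hp0 (map_zero _)
  have hQ : Q ≠ 0 := by
    rintro rfl
    exact hq0 (map_zero _)
  obtain ⟨c₁, hc₁, b₁, hb₁, hb₁m, h₁⟩ := exists_normal_poly h ht P hP
  obtain ⟨c₂, hc₂, b₂, hb₂, hb₂m, h₂⟩ := exists_normal_poly h ht Q hQ
  have h3 : Red φ res ((c₁ * c₂⁻¹) • z) (b₁ * b₂⁻¹) := by
    have := ax.mul h₁ (ax.inv h₂ hb₂)
    convert this using 1
    rw [hzPQ, div_eq_mul_inv, smul_mul_assoc, mul_smul, smul_inv₀, mul_smul_comm, smul_comm]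
  obtain ⟨u, -, hu0, hub⟩ := ax.unique_scaling hr hr0 h3 (mul_ne_zero hb₁ (inv_ne_zero hb₂))
  have h4 : r = (algebraMap k Fk (res u))⁻¹ * (b₁ * b₂⁻¹) := by
    rw [hub, ← mul_assoc, inv_mul_cancel₀, one_mul]
    exact (_root_.map_ne_zero _).mpr hu0
  rw [h4]
  exact mul_mem (inv_mem (k⟮t⟯.algebraMap_mem _)) (mul_mem hb₁m (inv_mem hb₂m))

/-- the valuation ring of integral elements of `F` -/
def gaussW : ValuationSubring F where
  carrier := {x | ∃ a, Red φ res x a}
  mul_mem' := fun ⟨a, ha⟩ ⟨b, hb⟩ => ⟨a * b, Red.mul h ha hb⟩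
  one_mem' := ⟨1, (redAx h).one⟩
  add_mem' := fun ⟨a, ha⟩ ⟨b, hb⟩ => ⟨a + b, Red.add h ha hb⟩
  zero_mem' := ⟨0, (redAx h).zero⟩
  neg_mem' := fun ⟨a, ha⟩ => ⟨-a, (redAx h).neg ha⟩
  mem_or_inv_mem' := fun x => by
    have ax := redAx h
    by_cases hx : x = 0
    · left
      rw [hx]
      exact ⟨0, ax.zero⟩
    obtain ⟨c, hc, b, hb, hcb⟩ := ax.scale x hx
    rcases ax.mem_or c⁻¹ with ⟨u, hu⟩ | ⟨-, u, hu, hu0⟩
    · left
      have := ax.smul' u hcb
      rw [hu, smul_smul, inv_mul_cancel₀ hc, one_smul] at this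
      exact ⟨_, this⟩
    · right
      rw [inv_inv] at hu
      have := ax.smul' u (ax.inv hcb hb)
      rw [hu, smul_inv₀, smul_smul, mul_inv_cancel₀ hc, one_smul] at this
      exact ⟨_, this⟩

theorem mem_gaussW_iff {x : F} : x ∈ gaussW h ↔ ∃ a, Red φ res x a := Iff.rfl

/-- **orthonormality over `L(T)`** of a `k(t)`-linearly independent family of `Fk` -/
theorem ortho {t : Fk} (ht : Transcendental k t) {n : ℕ} (β : Fin n → Fk)
    (hβ : LinearIndependent k⟮t⟯ β) (f : Fin n → F) (hf : ∀ i, f i ∈ L⟮φ t⟯) {a : Fk}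
    (hred : Red φ res (∑ i, f i * φ (β i)) a) : ∀ i, ∃ r, Red φ res (f i) r := by
  have ax := redAx h
  by_cases hall : ∀ i, f i = 0
  · intro i
    rw [hall i]
    exact ⟨0, ax.zero⟩
  simp only [not_forall] at hall
  obtain ⟨i₀, hi₀, hmem⟩ := exists_max_const (gaussW h) f hall
  choose r hr using hmem
  have hrm : ∀ i, r i ∈ k⟮t⟯ := fun i =>
    red_mem_adjoin h ht (div_mem (hf i) (hf i₀)) (hr i)
  have hr1 : r i₀ = 1 := by
    have h1 := hr i₀
    rw [div_self hi₀] at h1
    exact ax.unique h1 ax.one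
  have hy : Red φ res (∑ i, f i / f i₀ * φ (β i)) (∑ i, r i * β i) :=
    ax.sum _ _ _ fun i _ => ax.mul (hr i) (red_phi h (β i))
  have hb : ∑ i, r i * β i ≠ 0 := by
    intro h0
    rw [Fintype.linearIndependent_iff] at hβ
    have h1 := hβ (fun i => (⟨r i, hrm i⟩ : k⟮t⟯)) (by
      rw [← h0]
      refine Finset.sum_congr rfl fun i _ => ?_
      rw [Algebra.smul_def]
      rfl) i₀
    have h2 : r i₀ = 0 := congrArg Subtype.val h1
    rw [hr1] at h2
    exact one_ne_zero h2
  have hi₀mem : f i₀ ∈ gaussW h := by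
    by_contra hcon
    have hinv : (f i₀)⁻¹ ∈ gaussW h := ((gaussW h).mem_or_inv_mem (f i₀)).resolve_left hcon
    obtain ⟨s, hs⟩ := hinv
    have hs0 : s = 0 := by
      by_contra hs0
      apply hcon
      have := ax.inv hs hs0
      rw [inv_inv] at this
      exact ⟨_, this⟩
    rw [hs0] at hs
    have h1 := ax.mul hs hred
    rw [zero_mul, Finset.mul_sum] at h1
    have h2 : ∑ i, (f i₀)⁻¹ * (f i * φ (β i)) = ∑ i, f i / f i₀ * φ (β i) := by
      refine Finset.sum_congr rfl fun i _ => ?_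
      rw [div_eq_mul_inv]
      ring
    rw [h2] at h1
    exact hb (ax.unique hy h1)
  obtain ⟨s₀, hs₀⟩ := hi₀mem
  intro i
  have := ax.mul (hr i) hs₀
  rw [div_mul_cancel₀ _ hi₀] at this
  exact ⟨_, this⟩

end Fermat.Agent.S29.D4
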