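import Mathlib
import Fermat.Agent.S18.DeuringLoc

/-!
# S29 (C79), piece D4, part 1: constant field extensions with a place of the constants

`k ⊆ L` fields (`ι : k →+* L`), `A ⊆ L` a valuation ring with `res : A →+* k`, `res ∘ ι = id`;
`Fk/k`, `F/L` fields, `φ : Fk →+* F` over `ι`, linearly disjoint from `L` and generating `F`.
We define the reduction relation `Red` ("Gauss valuation") between `F` and `Fk` and prove the
reduction axioms `Deuring.RedAx`.
-/

set_option autoImplicit false
set_option linter.unusedSectionVars false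
set_option linter.unusedVariables false
set_option linter.style.haveILetI false

open Fermat.Agent.S18.Deuring

noncomputable section

namespace Fermat.Agent.S29.D4

variable {k L Fk F : Type*} [Field k] [Field L] [Field Fk] [Field F] [Algebra k Fk] [Algebra L F]

/-- a constant field extension `Fk/k ⇝ F/L` together with a place `res : A → k` of `L` which is
the identity on `k` -/
structure CExt (ι : k →+* L) (φ : Fk →+* F) (A : ValuationSubring L) (res : A →+* k) : Prop where
  comm : ∀ c : k, φ (algebraMap k Fk c) = algebraMap L F (ι c)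
  mem : ∀ c : k, ι c ∈ A
  res_ι : ∀ c : k, ∀ h : ι c ∈ A, res ⟨ι c, h⟩ = c
  ld : ∀ (n : ℕ) (e : Fin n → Fk), LinearIndependent k e →
    LinearIndependent L (fun i => φ (e i))
  gen : ∀ x : F, ∃ u ∈ Submodule.span L (Set.range φ), ∃ v ∈ Submodule.span L (Set.range φ),
    v ≠ 0 ∧ x * v = u

variable (k Fk) in
/-- index set of a `k`-basis of `Fk` -/
abbrev Idx : Type _ := ↥(Module.Basis.ofVectorSpaceIndex k Fk)

variable (k Fk) in
/-- a `k`-basis of `Fk` -/
def bas : Module.Basis (Idx k Fk) k Fk := Module.Basis.ofVectorSpace k Fk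

variable (L) in
/-- `d ↦ Σ_j d_j φ(b_j)` -/
def Phi (φ : Fk →+* F) : (Idx k Fk →₀ L) →ₗ[L] F :=
  Finsupp.linearCombination L (fun j => φ (bas k Fk j))

/-- coefficients in `A` viewed in `L` -/
def up (A : ValuationSubring L) (d : Idx k Fk →₀ A) : Idx k Fk →₀ L :=
  d.mapRange A.subtype (map_zero _)

/-- coefficients in `A` reduced to `k` -/
def dn {A : ValuationSubring L} (res : A →+* k) (d : Idx k Fk →₀ A) : Idx k Fk →₀ k :=
  d.mapRange res (map_zero _)

/-- the reduction of `Σ_j d_j φ(b_j)` -/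
def rho {A : ValuationSubring L} (res : A →+* k) (d : Idx k Fk →₀ A) : Fk :=
  Finsupp.linearCombination k (bas k Fk) (dn res d)

section Basic

variable {ι : k →+* L} {φ : Fk →+* F} {A : ValuationSubring L} {res : A →+* k}

@[simp] theorem up_apply (d : Idx k Fk →₀ A) (j : Idx k Fk) : up A d j = (d j : L) := rfl

@[simp] theorem dn_apply (d : Idx k Fk →₀ A) (j : Idx k Fk) : dn res d j = res (d j) := rfl

theorem up_injective : Function.Injective (up A : (Idx k Fk →₀ A) → (Idx k Fk →₀ L)) := by
  intro d d' h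
  ext j
  have := DFunLike.congr_fun h j
  simpa using this

theorem up_add (d d' : Idx k Fk →₀ A) : up A (d + d') = up A d + up A d' := by
  ext j; simp

theorem dn_add (d d' : Idx k Fk →₀ A) : dn res (d + d') = dn res d + dn res d' := by
  ext j; simp

@[simp] theorem up_zero : up A (0 : Idx k Fk →₀ A) = 0 := by
  ext j; simp

@[simp] theorem dn_zero : dn res (0 : Idx k Fk →₀ A) = 0 := by
  ext j; simp

theorem up_single (j : Idx k Fk) (c : A) :
    up A (Finsupp.single j c) = Finsupp.single j (c : L) := by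
  classical
  ext i
  by_cases h : i = j
  · subst h; simp
  · simp [Ne.symm h]

theorem dn_single (j : Idx k Fk) (c : A) :
    dn res (Finsupp.single j c) = Finsupp.single j (res c) := by
  classical
  ext i
  by_cases h : i = j
  · subst h; simp
  · simp [Ne.symm h]

theorem up_smul (c : A) (d : Idx k Fk →₀ A) : up A (c • d) = (c : L) • up A d := by
  ext j; simp

theorem dn_smul (c : A) (d : Idx k Fk →₀ A) : dn res (c • d) = res c • dn res d := by
  ext j; simp

@[simp] theorem rho_zero : rho res (0 : Idx k Fk →₀ A) = 0 := by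
  simp [rho]

theorem rho_add (d d' : Idx k Fk →₀ A) : rho res (d + d') = rho res d + rho res d' := by
  simp [rho, dn_add]

theorem rho_smul (c : A) (d : Idx k Fk →₀ A) : rho res (c • d) = res c • rho res d := by
  simp [rho, dn_smul]

theorem rho_single (j : Idx k Fk) (c : A) :
    rho res (Finsupp.single j c) = res c • bas k Fk j := by
  simp [rho, dn_single]

theorem Phi_single (j : Idx k Fk) (c : L) :
    Phi L φ (Finsupp.single j c) = c • φ (bas k Fk j) := by
  simp [Phi]

theorem repr_rho (d : Idx k Fk →₀ A) : (bas k Fk).repr (rho res d) = dn res d := by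
  simp [rho]

end Basic

section CExtLemmas

variable {ι : k →+* L} {φ : Fk →+* F} {A : ValuationSubring L} {res : A →+* k}
variable (h : CExt ι φ A res)
include h

theorem CExt.map_smul (c : k) (e : Fk) : φ (c • e) = ι c • φ e := by
  rw [Algebra.smul_def, map_mul, h.comm, Algebra.smul_def]

theorem CExt.res_surjective : Function.Surjective res :=
  fun c => ⟨⟨ι c, h.mem c⟩, h.res_ι c _⟩

/-- the coordinates of `φ e` -/
theorem CExt.Phi_repr (e : Fk) :
    Phi L φ (((bas k Fk).repr e).mapRange ι (map_zero _)) = φ e := by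
  conv_rhs => rw [← (bas k Fk).linearCombination_repr e]
  rw [Phi, Finsupp.linearCombination_apply, Finsupp.linearCombination_apply,
    Finsupp.sum_mapRange_index (by intro j; simp), Finsupp.sum, Finsupp.sum, map_sum]
  refine Finset.sum_congr rfl fun j _ => ?_
  rw [h.map_smul]

theorem CExt.linearIndependent_bas : LinearIndependent L (fun j => φ (bas k Fk j)) := by
  classical
  rw [linearIndependent_iff_finset_linearIndependent]
  intro s
  have h1 : LinearIndependent k ((bas k Fk) ∘ (Subtype.val : s → Idx k Fk)) :=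
    (bas k Fk).linearIndependent.comp _ Subtype.val_injective
  have h2 : LinearIndependent k (((bas k Fk) ∘ (Subtype.val : s → Idx k Fk)) ∘ s.equivFin.symm) :=
    h1.comp _ s.equivFin.symm.injective
  have h3 := h.ld _ _ h2
  have h4 := h3.comp s.equivFin s.equivFin.injective
  convert h4 using 1
  ext x
  simp

theorem CExt.Phi_injective : Function.Injective (Phi L φ : (Idx k Fk →₀ L) →ₗ[L] F) :=
  h.linearIndependent_bas

theorem CExt.range_Phi :
    LinearMap.range (Phi L φ : (Idx k Fk →₀ L) →ₗ[L] F) = Submodule.span L (Set.range φ) := by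
  apply le_antisymm
  · rw [Phi, Finsupp.range_linearCombination]
    apply Submodule.span_mono
    rintro _ ⟨j, rfl⟩
    exact ⟨_, rfl⟩
  · rw [Submodule.span_le]
    rintro _ ⟨e, rfl⟩
    exact ⟨_, h.Phi_repr e⟩

end CExtLemmas

/-! ### integral elements -/

/-- `u = Σ d_j φ(b_j)` with `d_j ∈ A`, and `a = Σ res(d_j) b_j` -/
def Int (φ : Fk →+* F) {A : ValuationSubring L} (res : A →+* k) (u : F) (a : Fk) : Prop :=
  ∃ d : Idx k Fk →₀ A, u = Phi L φ (up A d) ∧ a = rho res d

section IntLemmas

variable {ι : k →+* L} {φ : Fk →+* F} {A : ValuationSubring L} {res : A →+* k}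

theorem Int.zero : Int φ res (0 : F) (0 : Fk) := ⟨0, by simp, by simp⟩

theorem Int.add {u u' : F} {a a' : Fk} (hu : Int φ res u a) (hu' : Int φ res u' a') :
    Int φ res (u + u') (a + a') := by
  obtain ⟨d, rfl, rfl⟩ := hu
  obtain ⟨d', rfl, rfl⟩ := hu'
  exact ⟨d + d', by rw [up_add, map_add], by rw [rho_add]⟩

theorem Int.smul (c : A) {u : F} {a : Fk} (hu : Int φ res u a) :
    Int φ res ((c : L) • u) (res c • a) := by
  obtain ⟨d, rfl, rfl⟩ := hu
  exact ⟨c • d, by rw [up_smul, map_smul], by rw [rho_smul]⟩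

theorem Int.single (j : Idx k Fk) (c : A) :
    Int φ res ((c : L) • φ (bas k Fk j)) (res c • bas k Fk j) :=
  ⟨Finsupp.single j c, by rw [up_single, Phi_single], by rw [rho_single]⟩

variable (h : CExt ι φ A res)
include h

theorem Int.unique {u : F} {a a' : Fk} (hu : Int φ res u a) (hu' : Int φ res u a') : a = a' := by
  obtain ⟨d, hd, rfl⟩ := hu
  obtain ⟨d', hd', rfl⟩ := hu'
  have := up_injective (h.Phi_injective (hd.symm.trans hd'))
  rw [this]

theorem Int.phi (e : Fk) : Int φ res (φ e) e := by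
  classical
  refine ⟨((bas k Fk).repr e).mapRange (fun c => (⟨ι c, h.mem c⟩ : A))
    (Subtype.ext (map_zero ι)), ?_, ?_⟩
  · rw [← h.Phi_repr e]
    congr 1
    ext j
    simp
  · rw [rho]
    conv_lhs => rw [← (bas k Fk).linearCombination_repr e]
    congr 1
    ext j
    simp [h.res_ι]

theorem Int.one : Int φ res (1 : F) (1 : Fk) := by
  have := Int.phi h (1 : Fk)
  rwa [map_one] at this

theorem Int.phi_mul (e : Fk) {u : F} {a : Fk} (hu : Int φ res u a) :
    Int φ res (φ e * u) (e * a) := by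
  obtain ⟨d, rfl, rfl⟩ := hu
  induction d using Finsupp.induction_linear with
  | zero => simpa using Int.zero
  | add f g hf hg =>
    rw [up_add, map_add, rho_add, mul_add, mul_add]
    exact hf.add hg
  | single j c =>
    rw [up_single, Phi_single, rho_single, mul_smul_comm, mul_smul_comm, ← map_mul]
    exact (Int.phi h _).smul c

theorem Int.mul {u u' : F} {a a' : Fk} (hu : Int φ res u a) (hu' : Int φ res u' a') :
    Int φ res (u * u') (a * a') := by
  obtain ⟨d, rfl, rfl⟩ := hu
  induction d using Finsupp.induction_linear with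
  | zero => simpa using Int.zero
  | add f g hf hg =>
    rw [up_add, map_add, rho_add, add_mul, add_mul]
    exact hf.add hg
  | single j c =>
    rw [up_single, Phi_single, rho_single, smul_mul_assoc, smul_mul_assoc]
    exact (Int.phi_mul h _ hu').smul c

theorem Int.ne_zero {u : F} {a : Fk} (hu : Int φ res u a) (ha : a ≠ 0) : u ≠ 0 := by
  rintro rfl
  exact ha (Int.unique h hu Int.zero)

/-- **normalisation**: a nonzero element of `L·φ(Fk)` has a scalar multiple with nonzero
reduction -/
theorem exists_int_smul {w : F} (hw : w ∈ Submodule.span L (Set.range φ)) (hw0 : w ≠ 0) :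
    ∃ c : L, c ≠ 0 ∧ ∃ b : Fk, b ≠ 0 ∧ Int φ res (c • w) b := by
  classical
  rw [← h.range_Phi] at hw
  obtain ⟨d₀, rfl⟩ := hw
  have hd₀ : d₀ ≠ 0 := by
    rintro rfl
    exact hw0 (map_zero _)
  have hne : d₀.support.Nonempty := Finsupp.support_nonempty_iff.mpr hd₀
  obtain ⟨j₀, hj₀, hmax⟩ := Finset.exists_max_image d₀.support (fun j => A.valuation (d₀ j)) hne
  have hj₀0 : d₀ j₀ ≠ 0 := Finsupp.mem_support_iff.mp hj₀
  have hmem : ∀ j, (d₀ j₀)⁻¹ * d₀ j ∈ A := by
    intro j
    by_cases hj : j ∈ d₀.support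
    · rw [← A.valuation_le_one_iff, map_mul, map_inv₀]
      have hv0 : A.valuation (d₀ j₀) ≠ 0 := (map_ne_zero _).mpr hj₀0
      rw [inv_mul_le_iff₀ (zero_lt_iff.mpr hv0), mul_one]
      exact hmax j hj
    · rw [Finsupp.notMem_support_iff.mp hj, mul_zero]
      exact A.zero_mem
  let d : Idx k Fk →₀ A := Finsupp.onFinset d₀.support (fun j => ⟨(d₀ j₀)⁻¹ * d₀ j, hmem j⟩)
    (by
      intro j hj
      rw [Finsupp.mem_support_iff]
      intro h0
      apply hj
      apply Subtype.ext
      show (d₀ j₀)⁻¹ * d₀ j = 0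
      rw [h0, mul_zero])
  have hup : up A d = (d₀ j₀)⁻¹ • d₀ := by
    ext j
    simp [d]
  refine ⟨(d₀ j₀)⁻¹, inv_ne_zero hj₀0, rho res d, ?_, d, ?_, rfl⟩
  · intro h0
    have h1 := repr_rho (res := res) d
    rw [h0, map_zero] at h1
    have h2 := DFunLike.congr_fun h1 j₀
    rw [Finsupp.zero_apply, dn_apply] at h2
    have h3 : d j₀ = 1 := by
      apply Subtype.ext
      show (d₀ j₀)⁻¹ * d₀ j₀ = 1
      exact inv_mul_cancel₀ hj₀0
    rw [h3, map_one] at h2
    exact zero_ne_one h2
  · rw [hup, map_smul]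

end IntLemmas

/-! ### the reduction relation -/

/-- the reduction relation of the Gauss valuation: `x = u/v` with `u`, `v` integral, `v̄ ≠ 0`
and `a = ū/v̄` -/
def Red (φ : Fk →+* F) {A : ValuationSubring L} (res : A →+* k) (x : F) (a : Fk) : Prop :=
  ∃ u v : F, ∃ b : Fk, b ≠ 0 ∧ x * v = u ∧ Int φ res v b ∧ Int φ res u (a * b)

section RedLemmas

variable {ι : k →+* L} {φ : Fk →+* F} {A : ValuationSubring L} {res : A →+* k}
variable (h : CExt ι φ A res)
include h

theorem Red.of_int {u : F} {a : Fk} (hu : Int φ res u a) : Red φ res u a :=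
  ⟨u, 1, 1, one_ne_zero, mul_one _, Int.one h, by rwa [mul_one]⟩

theorem red_phi (e : Fk) : Red φ res (φ e) e := Red.of_int h (Int.phi h e)

theorem Red.unique {x : F} {a a' : Fk} (hx : Red φ res x a) (hx' : Red φ res x a') : a = a' := by
  obtain ⟨u, v, b, hb, huv, hv, hu⟩ := hx
  obtain ⟨u', v', b', hb', huv', hv', hu'⟩ := hx'
  have e1 : u * v' = u' * v := by
    rw [← huv, ← huv']; ring
  have h1 := Int.mul h hu hv'
  have h2 := Int.mul h hu' hv
  rw [e1] at h1
  have h3 := Int.unique h h1 h2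
  have h4 : a * (b * b') = a' * (b * b') := by
    calc a * (b * b') = a * b * b' := by ring
      _ = a' * b' * b := h3
      _ = a' * (b * b') := by ring
  exact mul_right_cancel₀ (mul_ne_zero hb hb') h4

theorem Red.add {x y : F} {a a' : Fk} (hx : Red φ res x a) (hy : Red φ res y a') :
    Red φ res (x + y) (a + a') := by
  obtain ⟨u, v, b, hb, huv, hv, hu⟩ := hx
  obtain ⟨u', v', b', hb', huv', hv', hu'⟩ := hy
  refine ⟨u * v' + u' * v, v * v', b * b', mul_ne_zero hb hb', ?_, Int.mul h hv hv', ?_⟩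
  · rw [← huv, ← huv']; ring
  · have := (Int.mul h hu hv').add (Int.mul h hu' hv)
    convert this using 1
    ring

theorem Red.mul {x y : F} {a a' : Fk} (hx : Red φ res x a) (hy : Red φ res y a') :
    Red φ res (x * y) (a * a') := by
  obtain ⟨u, v, b, hb, huv, hv, hu⟩ := hx
  obtain ⟨u', v', b', hb', huv', hv', hu'⟩ := hy
  refine ⟨u * u', v * v', b * b', mul_ne_zero hb hb', ?_, Int.mul h hv hv', ?_⟩
  · rw [← huv, ← huv']; ring
  · have := Int.mul h hu hu'
    convert this using 1
    ring

theorem Red.const (c : A) : Red φ res (algebraMap L F (c : L)) (algebraMap k Fk (res c)) := by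
  apply Red.of_int h
  have := (Int.one h).smul c
  rwa [← Algebra.algebraMap_eq_smul_one, ← Algebra.algebraMap_eq_smul_one] at this

theorem Red.inv {x : F} {a : Fk} (hx : Red φ res x a) (ha : a ≠ 0) : Red φ res x⁻¹ a⁻¹ := by
  obtain ⟨u, v, b, hb, huv, hv, hu⟩ := hx
  have hu0 : u ≠ 0 := Int.ne_zero h hu (mul_ne_zero ha hb)
  have hx0 : x ≠ 0 := by
    rintro rfl
    rw [zero_mul] at huv
    exact hu0 huv.symm
  refine ⟨v, u, a * b, mul_ne_zero ha hb, ?_, hu, ?_⟩
  · rw [← huv, ← mul_assoc, inv_mul_cancel₀ hx0, one_mul]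
  · rwa [← mul_assoc, inv_mul_cancel₀ ha, one_mul]

theorem Red.scale (x : F) (hx : x ≠ 0) :
    ∃ c : L, c ≠ 0 ∧ ∃ a : Fk, a ≠ 0 ∧ Red φ res (c • x) a := by
  obtain ⟨u, hu, v, hv, hv0, huv⟩ := h.gen x
  have hu0 : u ≠ 0 := by
    rw [← huv]
    exact mul_ne_zero hx hv0
  obtain ⟨c₁, hc₁, b₁, hb₁, h₁⟩ := exists_int_smul h hu hu0
  obtain ⟨c₂, hc₂, b₂, hb₂, h₂⟩ := exists_int_smul h hv hv0
  refine ⟨c₁ * c₂⁻¹, mul_ne_zero hc₁ (inv_ne_zero hc₂), b₁ * b₂⁻¹,
    mul_ne_zero hb₁ (inv_ne_zero hb₂), c₁ • u, c₂ • v, b₂, hb₂, ?_, h₂, ?_⟩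
  · rw [← huv, smul_mul_smul_comm, mul_assoc, inv_mul_cancel₀ hc₂, mul_one]
  · rwa [mul_assoc, inv_mul_cancel₀ hb₂, mul_one]

/-- **the reduction axioms** -/
theorem redAx : RedAx A res (Red φ res) where
  res_surj := h.res_surjective
  unique := fun h1 h2 => Red.unique h h1 h2
  add := fun h1 h2 => Red.add h h1 h2
  mul := fun h1 h2 => Red.mul h h1 h2
  const := fun c => Red.const h c
  inv := fun h1 h0 => Red.inv h h1 h0
  scale := fun x hx => Red.scale h x hx

end RedLemmas

end Fermat.Agent.S29.D4
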