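import Fermat.Agent.S29.DescH2
import Fermat.Agent.S29.BCDefs
import Fermat.Agent.S37.RedInj
import Fermat.Agent.Lib.FFs.RThm

/-!
# S29 (C79), piece D4, part 6: the Deuring setup of a constant field extension; specialisation

* `setup`: `Deuring.Setup A res (Red φ res) (φ j)_∞ (j)_∞ g c`;
* `sp := G.redPic0 S`, injective on torsion (`sp_eq_zero_imp`);
* `rmap_placeExt` **(BC3)**: the reduction of the constant extension `b Q` of a place `Q` is `Q`;
* `sp_mk_bc`, `exists_descent`: every torsion class of `F/L` is the base change of its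
  specialisation.
-/

set_option autoImplicit false
set_option linter.unusedSectionVars false
set_option linter.unusedVariables false
set_option linter.style.haveILetI false
set_option synthInstance.maxHeartbeats 400000
set_option maxHeartbeats 1000000

open Fermat.Agent.S18.Deuring IntermediateField AlgebraicCurve Fermat.Agent.Lib.FF

noncomputable section

namespace Fermat.Agent.S29.D4

variable {k L Fk F : Type*} [Field k] [Field L] [Field Fk] [Field F] [Algebra k Fk] [Algebra L F]
variable [IsAlgClosed k] [CharZero k] [IsAlgClosed L] [CharZero L]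
variable {ι : k →+* L} {φ : Fk →+* F} {A : ValuationSubring L} {res : A →+* k}

/-- **the Deuring setup of a constant field extension** -/
theorem setup (h : CExt ι φ A res) {j : Fk} (hj : IsFF1 k Fk j) (hpf : PlaceFacts L F)
    (hpfk : PlaceFacts k Fk) :
    ∃ (g : ℕ) (c : ℤ), Setup A res (Red φ res) (hpf.poleDiv (φ j)) (hpfk.poleDiv j) g c := by
  have hJ := isFF1_phi h hj
  obtain ⟨g, c, hr1, hr2⟩ := Fermat.Agent.Lib.FFs.riemann_theorem
    (Fermat.Agent.Lib.FFs.IsFF1s.of_isFF1 hJ)
  have hRF : RThm L F g c := ⟨hr1, hr2⟩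
  haveI := hj.finite
  refine ⟨g, c, ?_⟩
  exact
  { hpf := hpf
    hpfk := hpfk
    ax := redAx h
    D_nonneg := by
      rw [Finsupp.le_def]
      intro v
      rw [PlaceFacts.poleDiv_apply]
      exact le_max_right _ _
    Dk_nonneg := by
      rw [Finsupp.le_def]
      intro v
      rw [PlaceFacts.poleDiv_apply]
      exact le_max_right _ _
    deg_eq := degree_poleDiv_phi h hj hpf hpfk
    deg_pos := by
      rw [degree_poleDiv_phi h hj hpf hpfk, hpfk.degree_poleDiv hj.transcendental]
      exact_mod_cast Module.finrank_pos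
    H1 := fun V hV => finrank_redSpace h V hV
    H2 := fun n x a hx hxa => h2 h hj hpf hpfk n x a hx hxa
    RF := hRF
    NS := exists_ns h hj hpf hpfk hRF }

section Spec

variable {D : Divisor L F} {Dk : Divisor k Fk} {g : ℕ} {c : ℤ}
variable (h : CExt ι φ A res) (S : Setup A res (Red φ res) D Dk g c)
include h

/-- **the specialisation is injective on torsion** -/
theorem sp_eq_zero_imp (m : ℕ) (hm : m ≠ 0) (z : Pic0 L F) (hmz : m • z = 0)
    (hz : Fermat.Agent.S37.G.redPic0 S z = 0) : z = 0 :=
  Fermat.Agent.S37.R.redPic0_eq_zero_imp S (fun a => ⟨φ a, red_phi h a⟩) m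
    (by exact_mod_cast hm) z hmz hz

/-- **(BC3)**: the reduction of the constant extension of a place `Q` is `Q` -/
theorem rmap_placeExt {b : Place k Fk → Place L F} (hb : Fermat.Agent.S29.BC.PlaceExt φ b)
    (Q : Place k Fk) : rmap S (b Q) = Q := by
  classical
  obtain ⟨ck, hRk⟩ := S.rthm_k
  -- a function with its only pole at `Q`
  obtain ⟨n, hn⟩ : ∃ n : ℕ, ck + 1 ≤ n ∧ 1 ≤ n := by
    refine ⟨(max (ck + 1) 1).toNat, ?_, ?_⟩
    · have := Int.self_le_toNat (max (ck + 1) 1)
      exact le_trans (le_max_left _ _) this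
    · have h1 : (1 : ℤ) ≤ (max (ck + 1) 1).toNat :=
        le_trans (le_max_right _ _) (Int.self_le_toNat _)
      exact_mod_cast h1
  obtain ⟨e, heE, he0, heQ⟩ := exists_ord_eq S.hpfk hRk (E := Finsupp.single Q (n : ℤ)) Q (by
    rw [S.hpfk.degree_single]
    exact hn.1)
  rw [Finsupp.single_eq_same] at heQ
  have hpole : Q.ord e < 0 := by
    rw [heQ]
    have : (1 : ℤ) ≤ n := by exact_mod_cast hn.2
    omega
  have hreg : ∀ P : Place k Fk, P ≠ Q → 0 ≤ P.ord e := by
    intro P hP
    have := (mem_rrSpace_iff_of_ne_zero he0).mp heE P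
    rwa [Finsupp.single_eq_of_ne hP, neg_zero] at this
  -- the divisor of `φ e`
  have hdiv : S.hpf.divOf (φ e) = Finsupp.mapDomain b (S.hpfk.divOf e) := by
    ext P
    rw [S.hpf.divOf_apply]
    by_cases hP : P ∈ Set.range b
    · obtain ⟨Q', rfl⟩ := hP
      rw [Finsupp.mapDomain_apply hb.inj, S.hpfk.divOf_apply, hb.ord]
    · rw [Finsupp.mapDomain_of_notMem_range _ _ hP, hb.off P hP e he0]
  have hR5 := mapDomain_divOf S (red_phi h e) he0
  rw [hdiv, ← Finsupp.mapDomain_comp] at hR5
  -- evaluate at `Q`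
  by_contra hne
  have h1 : 0 ≤ Finsupp.mapDomain (rmap S ∘ b) (S.hpfk.divOf e) Q := by
    apply mapDomain_apply_nonneg
    intro P hP
    rw [S.hpfk.divOf_apply]
    apply hreg
    rintro rfl
    exact hne hP
  rw [hR5, S.hpfk.divOf_apply] at h1
  omega

/-- the specialisation of a base-changed class -/
theorem sp_mk_bc {b : Place k Fk → Place L F} (hb : Fermat.Agent.S29.BC.PlaceExt φ b)
    (E : Divisor.degZero (K := k) (F := Fk)) (E' : Divisor.degZero (K := L) (F := F))
    (hE' : (E' : Divisor L F) = Finsupp.mapDomain b (E : Divisor k Fk)) :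
    Fermat.Agent.S37.G.redPic0 S (Pic0.mk E') = Pic0.mk E := by
  rw [Fermat.Agent.S37.G.redPic0_mk]
  congr 1
  apply Subtype.ext
  rw [Fermat.Agent.S37.G.coe_redDegZero, hE', ← Finsupp.mapDomain_comp]
  have : rmap S ∘ b = id := funext fun Q => rmap_placeExt h S hb Q
  rw [this, Finsupp.mapDomain_id]

/-- **descent of torsion classes**: a torsion class of `F/L` is the base change of its
specialisation -/
theorem exists_descent (bc : Pic0 k Fk →+ Pic0 L F)
    (hbc : ∀ y, Fermat.Agent.S37.G.redPic0 S (bc y) = y) (m : ℕ) (hm : m ≠ 0) (x : Pic0 L F)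
    (hx : m • x = 0) :
    bc (Fermat.Agent.S37.G.redPic0 S x) = x ∧ m • Fermat.Agent.S37.G.redPic0 S x = 0 := by
  have h2 : m • Fermat.Agent.S37.G.redPic0 S x = 0 := by
    rw [← map_nsmul, hx, map_zero]
  refine ⟨?_, h2⟩
  have h3 : x - bc (Fermat.Agent.S37.G.redPic0 S x) = 0 := by
    apply sp_eq_zero_imp h S m hm
    · rw [nsmul_sub, hx, ← map_nsmul, h2, map_zero, sub_zero]
    · rw [map_sub, hbc, sub_self]
  exact (sub_eq_zero.mp h3).symm

end Spec

end Fermat.Agent.S29.D4
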