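import Fermat.Agent.S29.DescFinal

/-!
# S29 (C79) / C80, piece D4 — transport of complex torsion classes to `J₀(N)`

Any homomorphism `Θ : H →+ Pic⁰(F_ℂ(N))` with values in the `m`-torsion (`m ≠ 0`) descends to
`ΘJ : H →+ J₀(N)` with `bcJ ∘ ΘJ = Θ`; `ΘJ` has values in the `m`-torsion, the same kernel as `Θ`,
and intertwines the Hecke operators whenever `Θ` does.
-/

set_option autoImplicit false
set_option linter.unusedSectionVars false
set_option linter.unusedVariables false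
set_option linter.style.haveILetI false

open AlgebraicCurve ModularCurve Fermat.Agent.Lib.FF Fermat.Agent.Lib.ModCK Fermat.Agent.Lib.ModJ
  Fermat.Agent.S29.BC

noncomputable section

namespace Fermat.Agent.S29.D4

local notation "Qb" => AlgebraicClosure ℚ

variable (e : Qb →+* ℂ) (N : ℕ) [NeZero N]

/-- **descent of a family of complex torsion classes to `J₀(N)`** -/
theorem exists_thetaJ (m : ℕ) (hm : m ≠ 0) {H : Type*} [AddCommGroup H]
    (Θ : H →+ Pic0 ℂ (FC N)) (hΘ : ∀ c, m • Θ c = 0) :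
    ∃ ΘJ : H →+ JZero N,
      (∀ c, m • ΘJ c = 0) ∧
      (∀ c, bcJ e N (ΘJ c) = Θ c) ∧
      (∀ c, ΘJ c = 0 ↔ Θ c = 0) ∧
      (Function.Injective Θ → Function.Injective ΘJ) ∧
      ∀ (ℓ : Nat.Primes) (c c' : H),
        haveI : NeZero (ℓ : ℕ) := ⟨ℓ.2.ne_zero⟩
        Θ c' = heckeOperatorAlong ℂ N ℓ (Θ c) → ΘJ c' = heckeOperatorBar N ℓ (ΘJ c) := by
  obtain ⟨sp, h1, h2, h3, h4⟩ := exists_sp_bcJ e N
  have hbc : ∀ c, bcJ e N (sp (Θ c)) = Θ c := fun c => h3 m hm _ (hΘ c)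
  have hker : ∀ c, sp (Θ c) = 0 ↔ Θ c = 0 := fun c =>
    ⟨fun h => h2 m hm _ (hΘ c) h, fun h => by rw [h, map_zero]⟩
  refine ⟨sp.comp Θ, fun c => ?_, hbc, hker, fun hinj => ?_, fun ℓ c c' hcc' => ?_⟩
  · show m • sp (Θ c) = 0
    rw [← map_nsmul, hΘ, map_zero]
  · intro c c' hcc'
    apply hinj
    have h5 : sp (Θ c) = sp (Θ c') := hcc'
    rw [← hbc c, ← hbc c', h5]
  · haveI : NeZero (ℓ : ℕ) := ⟨ℓ.2.ne_zero⟩
    show sp (Θ c') = heckeOperatorBar N ℓ (sp (Θ c))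
    rw [hcc']
    exact h4 m hm _ (hΘ c) ℓ

end Fermat.Agent.S29.D4
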