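import Mathlib
import Fermat.Agent.S37.Quotient

/-!
# S29 (C79), piece (C): the Eichler–Shimura relation on `p`-power torsion

From a reduction package `S37.HasRedPkg N p ℓ A` (piece Q of C78): on the `p`-power torsion of
`J₀(N)(ℚ̄)`, the inertia group at `A` acts trivially and every Frobenius element `σ` at `A`
satisfies `σ² - T_ℓ σ + ℓ = 0`.
-/

set_option autoImplicit false

noncomputable section

namespace Fermat.Agent.S29

open ModularCurve

local notation "Qbar" => AlgebraicClosure ℚ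
local notation "Gal" => (AlgebraicClosure ℚ ≃ₐ[ℚ] AlgebraicClosure ℚ)

variable {N p : ℕ} [NeZero N] {ℓ : ℕ} {hℓ : ℓ.Prime} {A : ValuationSubring Qbar}

/-- the Galois action of `σ` as an additive map -/
def galHom (N : ℕ) (σ : Gal) : JZero N →+ JZero N :=
  DistribSMul.toAddMonoidHom (JZero N) σ

omit [NeZero N] in
theorem galHom_apply (σ : Gal) (x : JZero N) : galHom N σ x = σ • x := rfl

omit [NeZero N] in
/-- the `p`-power torsion is stable under additive maps -/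
theorem torsion_map {J J' : Type*} [AddCommGroup J] [AddCommGroup J'] (f : J →+ J') {x : J}
    (hx : ∃ n : ℕ, p ^ n • x = 0) : ∃ n : ℕ, p ^ n • f x = 0 := by
  obtain ⟨n, hn⟩ := hx
  exact ⟨n, by rw [← map_nsmul, hn, map_zero]⟩

omit [NeZero N] in
/-- the `p`-power torsion is stable under the Galois action -/
theorem torsion_gal_smul (σ : Gal) {x : JZero N} (hx : ∃ n : ℕ, p ^ n • x = 0) :
    ∃ n : ℕ, p ^ n • (σ • x) = 0 :=
  torsion_map (galHom N σ) hx

omit [NeZero N] in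
theorem torsion_add {J : Type*} [AddCommGroup J] {x y : J} (hx : ∃ n : ℕ, p ^ n • x = 0)
    (hy : ∃ n : ℕ, p ^ n • y = 0) : ∃ n : ℕ, p ^ n • (x + y) = 0 := by
  obtain ⟨n, hn⟩ := hx
  obtain ⟨m, hm⟩ := hy
  refine ⟨n + m, ?_⟩
  rw [nsmul_add, pow_add, mul_nsmul, hn, nsmul_zero, mul_comm, mul_nsmul, hm, nsmul_zero,
    add_zero]

omit [NeZero N] in
theorem torsion_neg {J : Type*} [AddCommGroup J] {x : J} (hx : ∃ n : ℕ, p ^ n • x = 0) :
    ∃ n : ℕ, p ^ n • (-x) = 0 :=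
  torsion_map (-AddMonoidHom.id J) hx

omit [NeZero N] in
theorem torsion_zsmul {J : Type*} [AddCommGroup J] (m : ℤ) {x : J}
    (hx : ∃ n : ℕ, p ^ n • x = 0) : ∃ n : ℕ, p ^ n • (m • x) = 0 :=
  torsion_map (DistribSMul.toAddMonoidHom J m) hx

/-- **(C1)** inertia acts trivially on the `p`-power torsion -/
theorem inertia_smul_eq (h : Fermat.Agent.S37.HasRedPkg N p ℓ hℓ A) {τ : Gal}
    (hτ : τ ∈ A.inertiaSubgroupIn ℚ) {x : JZero N} (hx : ∃ n : ℕ, p ^ n • x = 0) :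
    τ • x = x := by
  obtain ⟨Jt, iJt, red, Φ, Ψ, hΨΦ, hin, hfr, hhe, hinj⟩ := h
  have h1 : ∃ n : ℕ, p ^ n • (τ • x + -x) = 0 :=
    torsion_add (torsion_gal_smul τ hx) (torsion_neg hx)
  have h2 : red (τ • x + -x) = 0 := by
    rw [map_add, map_neg, hin τ hτ, add_neg_cancel]
  have := hinj _ h1 h2
  exact add_neg_eq_zero.1 this

/-- **(C2)** the Eichler–Shimura relation `σ² - T_ℓ σ + ℓ = 0` on the `p`-power torsion, for
every Frobenius element `σ` at `A` -/
theorem frobenius_relation (h : Fermat.Agent.S37.HasRedPkg N p ℓ hℓ A) {σ : Gal}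
    (hσ : A.IsFrobeniusAt σ ℓ) {x : JZero N} (hx : ∃ n : ℕ, p ^ n • x = 0) :
    σ • σ • x - heckeOperatorBar N ⟨ℓ, hℓ⟩ (σ • x) + (ℓ : ℤ) • x = 0 := by
  obtain ⟨Jt, iJt, red, Φ, Ψ, hΨΦ, hin, hfr, hhe, hinj⟩ := h
  apply hinj
  · rw [sub_eq_add_neg]
    refine torsion_add (torsion_add (torsion_gal_smul σ (torsion_gal_smul σ hx))
      (torsion_neg ?_)) (torsion_zsmul _ hx)
    exact torsion_map (heckeOperatorBar N ⟨ℓ, hℓ⟩).toAddMonoidHom (torsion_gal_smul σ hx)
  · rw [map_add, map_sub, hfr σ hσ, hfr σ hσ, hhe, hfr σ hσ, hΨΦ, map_zsmul]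
    abel

end Fermat.Agent.S29
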