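import Fermat.Agent.S18.RF
import Fermat.Agent.S18.DeuringNS
import Fermat.Prelude.Def_ModularCurve_ArithmeticGalois

/-!
# C79 (S29/S42), piece E1: finite level

Every element of `F(N) = ℚ̄(X₀(N))`, every place of `F(N)` and every point of `J₀(N)(ℚ̄)` is fixed by
`Gal(ℚ̄/K)` for a number field `K`.

* `exists_fixing_elt`   : elements of `laurentBaseChange ℚ̄ F₀`;
* `exists_fixing_place` : places of `F(N)` (a place is the unique pole of a function, by Riemann);
* `exists_fixing_divisor`, `exists_fixing_jZero` : divisors and points of `JZero N`;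
* `exists_fixing_finset` : finitely many points of `JZero N` at once.
-/

set_option autoImplicit false
set_option linter.unusedSectionVars false
set_option linter.unusedVariables false
set_option linter.style.haveILetI false

noncomputable section

open AlgebraicCurve ModularCurve IntermediateField Fermat.Agent.Lib.FF

namespace Fermat.Agent.S29.E1

local notation "Qb" => AlgebraicClosure ℚ

/-- `σ` fixes the field `K` pointwise -/
def Fixes (K : IntermediateField ℚ Qb) (σ : Qb ≃ₐ[ℚ] Qb) : Prop := ∀ x ∈ K, σ x = x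

theorem Fixes.mono {K K' : IntermediateField ℚ Qb} (h : K ≤ K') {σ : Qb ≃ₐ[ℚ] Qb}
    (hσ : Fixes K' σ) : Fixes K σ := fun x hx => hσ x (h hx)

theorem finiteDimensional_simple (a : Qb) : FiniteDimensional ℚ (ℚ⟮a⟯ : IntermediateField ℚ Qb) :=
  IntermediateField.adjoin.finiteDimensional
    ((AlgebraicClosure.isAlgebraic ℚ).isIntegral.isIntegral a)

/-- every Laurent series in `laurentBaseChange ℚ̄ F₀` has its coefficients fixed by an open
subgroup -/
theorem exists_fixing_series (F₀ : IntermediateField ℚ (LaurentSeries ℚ))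
    {x : LaurentSeries Qb} (hx : x ∈ laurentBaseChange Qb F₀) :
    ∃ K : IntermediateField ℚ Qb, FiniteDimensional ℚ K ∧
      ∀ σ : Qb ≃ₐ[ℚ] Qb, Fixes K σ → coeffMap (σ : Qb →+* Qb) x = x := by
  rw [mem_laurentBaseChange_iff] at hx
  induction hx using Subfield.closure_induction with
  | mem y hy =>
      rcases hy with ⟨a, rfl⟩ | ⟨z, hz, rfl⟩
      · refine ⟨ℚ⟮a⟯, finiteDimensional_simple a, fun σ hσ => ?_⟩
        rw [coeffMap_algebraMap]
        congr 1
        exact hσ a (IntermediateField.mem_adjoin_simple_self ℚ a)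
      · exact ⟨⊥, inferInstance, fun σ _ => coeffMap_coeffEmb _ _⟩
  | one => exact ⟨⊥, inferInstance, fun σ _ => map_one _⟩
  | add x y _ _ hx hy =>
      obtain ⟨K₁, h₁, hK₁⟩ := hx
      obtain ⟨K₂, h₂, hK₂⟩ := hy
      refine ⟨K₁ ⊔ K₂, IntermediateField.finiteDimensional_sup K₁ K₂, fun σ hσ => ?_⟩
      rw [map_add, hK₁ σ (hσ.mono le_sup_left), hK₂ σ (hσ.mono le_sup_right)]
  | neg x _ hx =>
      obtain ⟨K₁, h₁, hK₁⟩ := hx
      exact ⟨K₁, h₁, fun σ hσ => by rw [map_neg, hK₁ σ hσ]⟩
  | inv x _ hx =>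
      obtain ⟨K₁, h₁, hK₁⟩ := hx
      exact ⟨K₁, h₁, fun σ hσ => by rw [map_inv₀, hK₁ σ hσ]⟩
  | mul x y _ _ hx hy =>
      obtain ⟨K₁, h₁, hK₁⟩ := hx
      obtain ⟨K₂, h₂, hK₂⟩ := hy
      refine ⟨K₁ ⊔ K₂, IntermediateField.finiteDimensional_sup K₁ K₂, fun σ hσ => ?_⟩
      rw [map_mul, hK₁ σ (hσ.mono le_sup_left), hK₂ σ (hσ.mono le_sup_right)]

/-- every element of `laurentBaseChange ℚ̄ F₀` is fixed by an open subgroup -/
theorem exists_fixing_elt (F₀ : IntermediateField ℚ (LaurentSeries ℚ))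
    (f : laurentBaseChange Qb F₀) :
    ∃ K : IntermediateField ℚ Qb, FiniteDimensional ℚ K ∧
      ∀ σ : Qb ≃ₐ[ℚ] Qb, Fixes K σ → arithmeticGalois F₀ σ • f = f := by
  obtain ⟨K, hK, h⟩ := exists_fixing_series F₀ f.2
  exact ⟨K, hK, fun σ hσ => Subtype.ext (h σ hσ)⟩

/-- every number field inside `ℚ̄` lies in a finite Galois one -/
theorem exists_galois_ge (K : IntermediateField ℚ Qb) [FiniteDimensional ℚ K] :
    ∃ K' : IntermediateField ℚ Qb, K ≤ K' ∧ FiniteDimensional ℚ K' ∧ IsGalois ℚ K' := by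
  haveI : Algebra.IsAlgebraic ℚ Qb := AlgebraicClosure.isAlgebraic ℚ
  haveI : IsAlgClosure ℚ Qb := ⟨inferInstance, inferInstance⟩
  haveI : Normal ℚ Qb := IsAlgClosure.normal ℚ Qb
  refine ⟨IntermediateField.normalClosure ℚ K Qb, IntermediateField.le_normalClosure K,
    inferInstance, ?_⟩
  haveI : Normal ℚ (IntermediateField.normalClosure ℚ K Qb) := normalClosure.normal ℚ K Qb
  exact ⟨⟩

/-- the kernel of the restriction to a Galois subfield consists of the automorphisms fixing it -/
theorem mem_ker_restrictNormalHom_iff (K : IntermediateField ℚ Qb) [Normal ℚ K]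
    (σ : Qb ≃ₐ[ℚ] Qb) :
    σ ∈ (AlgEquiv.restrictNormalHom (F := ℚ) (K₁ := Qb) K).ker ↔ Fixes K σ := by
  rw [MonoidHom.mem_ker]
  constructor
  · intro h x hx
    have := AlgEquiv.restrictNormal_commutes σ K ⟨x, hx⟩
    rw [show σ.restrictNormal K = AlgEquiv.restrictNormalHom K σ from rfl, h] at this
    exact this.symm
  · intro h
    apply AlgEquiv.ext
    intro x
    apply Subtype.ext
    have := AlgEquiv.restrictNormal_commutes σ K x
    rw [show σ.restrictNormal K = AlgEquiv.restrictNormalHom K σ from rfl] at this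
    exact this.trans (h x x.2)

variable (N : ℕ) [NeZero N]

theorem placeFacts_bar' : PlaceFacts Qb (modularFunctionFieldBar N) :=
  placeFacts_of_isFF1 (Fermat.Agent.S24.isFF1_jBar N)

/-- every place is the unique pole of some function -/
theorem exists_unique_pole (v : Place Qb (modularFunctionFieldBar N)) :
    ∃ h : modularFunctionFieldBar N, v.ord h < 0 ∧
      ∀ w : Place Qb (modularFunctionFieldBar N), w.ord h < 0 → w = v := by
  classical
  have hpf := placeFacts_bar' N
  obtain ⟨g, c, -, hR⟩ := Fermat.Agent.S18.RF.rthm_bar N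
  set E : Divisor Qb (modularFunctionFieldBar N) := Finsupp.single v ((g : ℤ) + 1) with hE
  have hE0 : 0 ≤ E := by
    rw [hE]
    intro w
    rw [Finsupp.zero_apply, Finsupp.single_apply]
    split_ifs <;> omega
  have hdeg : Divisor.degree E = (g : ℤ) + 1 := by
    rw [hE, Divisor.degree_single, deg_eq_one_of_res v (hpf.res v)]
    simp
  have hge := hR.ge E
  rw [hdeg] at hge
  have h2 : 2 ≤ Module.finrank Qb (riemannRochSpace E) := by omega
  -- a non-constant element
  have hex : ∃ h : modularFunctionFieldBar N, h ∈ riemannRochSpace E ∧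
      ∀ a : Qb, h ≠ algebraMap Qb (modularFunctionFieldBar N) a := by
    by_contra hcon
    simp only [not_exists, not_and, not_forall, not_not] at hcon
    haveI : Module.Finite Qb (riemannRochSpace E) :=
      finite_rrSpace hpf v E
    have hone : (1 : modularFunctionFieldBar N) ∈ riemannRochSpace E :=
      Fermat.Agent.S18.Deuring.one_mem_rrSpace_of_nonneg hE0
    have : Module.finrank Qb (riemannRochSpace E) ≤ 1 := by
      have hspan : (⊤ : Submodule Qb (riemannRochSpace E)) ≤
          Submodule.span Qb {(⟨1, hone⟩ : riemannRochSpace E)} := by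
        rintro ⟨h, hh⟩ -
        obtain ⟨a, rfl⟩ := hcon h hh
        rw [Submodule.mem_span_singleton]
        refine ⟨a, Subtype.ext ?_⟩
        show a • (1 : modularFunctionFieldBar N) = _
        rw [Algebra.smul_def, mul_one]
      calc Module.finrank Qb (riemannRochSpace E)
          = Module.finrank Qb (⊤ : Submodule Qb (riemannRochSpace E)) := (finrank_top Qb _).symm
        _ ≤ Module.finrank Qb (Submodule.span Qb {(⟨1, hone⟩ : riemannRochSpace E)}) :=
            Submodule.finrank_mono hspan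
        _ ≤ 1 := by
            refine (finrank_span_le_card _).trans ?_
            simp
    omega
  obtain ⟨h, hh, hnc⟩ := hex
  have hh0 : h ≠ 0 := fun h0 => hnc 0 (by rw [h0, map_zero])
  rw [mem_rrSpace_iff_of_ne_zero hh0] at hh
  have hother : ∀ w : Place Qb (modularFunctionFieldBar N), w ≠ v → 0 ≤ w.ord h := by
    intro w hw
    have := hh w
    rw [hE, Finsupp.single_apply, if_neg (Ne.symm hw)] at this
    simpa using this
  have hv : v.ord h < 0 := by
    by_contra hcon
    rw [not_lt] at hcon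
    have hmem : h ∈ riemannRochSpace (0 : Divisor Qb (modularFunctionFieldBar N)) := by
      rw [mem_rrSpace_iff_of_ne_zero hh0]
      intro w
      rw [Finsupp.zero_apply, neg_zero]
      by_cases hw : w = v
      · rw [hw]; exact hcon
      · exact hother w hw
    obtain ⟨a, ha⟩ := Fermat.Agent.S18.Deuring.exists_const_of_finrank_eq_one hpf v (le_refl _)
      (Fermat.Agent.S18.Deuring.finrank_rrSpace_zero' hpf v) hmem
    exact hnc a ha
  refine ⟨h, hv, fun w hw => ?_⟩
  by_contra hne
  have := hother w hne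
  omega

/-- **open stabilisers of places** -/
theorem exists_fixing_place (v : Place Qb (modularFunctionFieldBar N)) :
    ∃ K : IntermediateField ℚ Qb, FiniteDimensional ℚ K ∧
      ∀ σ : Qb ≃ₐ[ℚ] Qb, Fixes K σ → arithmeticGalois (modularFunctionFieldFull N) σ • v = v := by
  obtain ⟨h, hv, huniq⟩ := exists_unique_pole N v
  obtain ⟨K, hK, hfix⟩ := exists_fixing_elt (modularFunctionFieldFull N) h
  refine ⟨K, hK, fun σ hσ => huniq _ ?_⟩
  have := SemilinearAut.ord_smul (arithmeticGalois (modularFunctionFieldFull N) σ) v h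
  rw [hfix σ hσ] at this
  rw [this]
  exact hv

/-- finitely many fixing fields have a common one -/
theorem exists_fixing_common {ι : Type*} (s : Finset ι) (P : ι → (Qb ≃ₐ[ℚ] Qb) → Prop)
    (h : ∀ i ∈ s, ∃ K : IntermediateField ℚ Qb, FiniteDimensional ℚ K ∧
      ∀ σ : Qb ≃ₐ[ℚ] Qb, Fixes K σ → P i σ) :
    ∃ K : IntermediateField ℚ Qb, FiniteDimensional ℚ K ∧
      ∀ σ : Qb ≃ₐ[ℚ] Qb, Fixes K σ → ∀ i ∈ s, P i σ := by
  classical
  induction s using Finset.induction_on with
  | empty => exact ⟨⊥, inferInstance, fun σ _ i hi => absurd hi (Finset.notMem_empty i)⟩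
  | insert a s ha ih =>
      obtain ⟨K₁, h₁, hK₁⟩ := h a (Finset.mem_insert_self a s)
      obtain ⟨K₂, h₂, hK₂⟩ := ih fun i hi => h i (Finset.mem_insert_of_mem hi)
      refine ⟨K₁ ⊔ K₂, IntermediateField.finiteDimensional_sup K₁ K₂, fun σ hσ i hi => ?_⟩
      rcases Finset.mem_insert.1 hi with rfl | hi
      · exact hK₁ σ (hσ.mono le_sup_left)
      · exact hK₂ σ (hσ.mono le_sup_right) i hi

/-- **open stabilisers of divisors** -/
theorem exists_fixing_divisor (D : Divisor Qb (modularFunctionFieldBar N)) :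
    ∃ K : IntermediateField ℚ Qb, FiniteDimensional ℚ K ∧
      ∀ σ : Qb ≃ₐ[ℚ] Qb, Fixes K σ → arithmeticGalois (modularFunctionFieldFull N) σ • D = D := by
  classical
  obtain ⟨K, hK, h⟩ := exists_fixing_common D.support
    (fun v σ => arithmeticGalois (modularFunctionFieldFull N) σ • v = v)
    (fun v _ => exists_fixing_place N v)
  refine ⟨K, hK, fun σ hσ => ?_⟩
  rw [SemilinearAut.divisor_smul_def]
  conv_rhs => rw [← Finsupp.mapDomain_id (v := D)]
  exact Finsupp.mapDomain_congr fun v hv => h σ hσ v hv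

/-- **open stabilisers of points of `J₀(N)`** -/
theorem exists_fixing_jZero (x : JZero N) :
    ∃ K : IntermediateField ℚ Qb, FiniteDimensional ℚ K ∧
      ∀ σ : Qb ≃ₐ[ℚ] Qb, Fixes K σ → σ • x = x := by
  obtain ⟨D, rfl⟩ := Pic0.mk_surjective x
  obtain ⟨K, hK, h⟩ := exists_fixing_divisor N (D : Divisor Qb (modularFunctionFieldBar N))
  refine ⟨K, hK, fun σ hσ => ?_⟩
  rw [galois_smul_pic0_def, SemilinearAut.pic0_smul_mk]
  exact congrArg Pic0.mk (Subtype.ext (h σ hσ))

/-- two automorphisms with the same restriction to `K` differ by one fixing `K` -/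
theorem fixes_inv_mul {K : IntermediateField ℚ Qb} {σ τ : Qb ≃ₐ[ℚ] Qb}
    (h : ∀ x ∈ K, σ x = τ x) : Fixes K (τ⁻¹ * σ) := by
  intro x hx
  show τ⁻¹ (σ x) = x
  rw [h x hx]
  exact τ.symm_apply_apply x

/-- the Galois orbit of a point of `J₀(N)` is finite -/
theorem finite_orbit_jZero (x : JZero N) :
    (Set.range fun σ : Qb ≃ₐ[ℚ] Qb => σ • x).Finite := by
  classical
  obtain ⟨K, hK, h⟩ := exists_fixing_jZero N x
  haveI := hK
  -- the orbit map factors through the restriction to `K`
  let r : (Qb ≃ₐ[ℚ] Qb) → (K →ₐ[ℚ] Qb) := fun σ => (σ : Qb →ₐ[ℚ] Qb).comp K.val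
  have hfac : ∀ σ τ : Qb ≃ₐ[ℚ] Qb, r σ = r τ → σ • x = τ • x := by
    intro σ τ hr
    have h1 : Fixes K (τ⁻¹ * σ) := fixes_inv_mul fun y hy => by
      have := congrArg (fun f : K →ₐ[ℚ] Qb => f ⟨y, hy⟩) hr
      exact this
    have h2 := h _ h1
    rw [mul_smul] at h2
    have h3 := congrArg (fun z => τ • z) h2
    simpa using h3
  have hfin : (Set.range r).Finite := Set.toFinite _
  have hsub : (Set.range fun σ : Qb ≃ₐ[ℚ] Qb => σ • x) ⊆
      (fun f : K →ₐ[ℚ] Qb => if hf : ∃ σ, r σ = f then hf.choose • x else x) '' Set.range r := by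
    rintro _ ⟨σ, rfl⟩
    refine ⟨r σ, ⟨σ, rfl⟩, ?_⟩
    have hex : ∃ τ, r τ = r σ := ⟨σ, rfl⟩
    show (if hf : ∃ τ, r τ = r σ then hf.choose • x else x) = σ • x
    rw [dif_pos hex]
    exact hfac _ _ hex.choose_spec
  exact (hfin.image _).subset hsub

/-- a number field fixing the whole Galois orbit of finitely many points of `J₀(N)` -/
theorem exists_fixing_orbits (s : Finset (JZero N)) :
    ∃ K : IntermediateField ℚ Qb, FiniteDimensional ℚ K ∧
      ∀ σ : Qb ≃ₐ[ℚ] Qb, Fixes K σ → ∀ x ∈ s, ∀ τ : Qb ≃ₐ[ℚ] Qb, σ • (τ • x) = τ • x := by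
  classical
  have hfin : (⋃ x ∈ s, Set.range fun σ : Qb ≃ₐ[ℚ] Qb => σ • x).Finite :=
    Set.Finite.biUnion s.finite_toSet fun x _ => finite_orbit_jZero N x
  obtain ⟨K, hK, h⟩ := exists_fixing_common hfin.toFinset
    (fun y σ => σ • y = y) (fun y _ => exists_fixing_jZero N y)
  refine ⟨K, hK, fun σ hσ x hx τ => h σ hσ _ ?_⟩
  rw [Set.Finite.mem_toFinset]
  exact Set.mem_biUnion hx ⟨τ, rfl⟩

end Fermat.Agent.S29.E1
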