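import Fermat.Agent.S37.PullGal
import Fermat.Agent.S37.HInpMain
import Fermat.Agent.S29.Defs

/-!
# S29 (C79), piece E2: the Hecke operators commute with the Galois action

Abstract part: if `φ : F → F'` intertwines two semilinear automorphisms, the push-forward of
divisors along `φ` intertwines their actions (when all inertia degrees are one).
Concrete part: `T_ℓ = α_* ∘ β^*` on `J₀(N)(ℚ̄)` commutes with `Gal(ℚ̄/ℚ)`.
-/

set_option autoImplicit false
set_option linter.unusedSectionVars false
set_option linter.style.haveILetI false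

noncomputable section

open AlgebraicCurve ModularCurve Fermat.Agent.Lib.FF

namespace Fermat.Agent.S29.E2

section Abstract

variable {K F F' : Type*} [Field K] [Field F] [Field F'] [Algebra K F] [Algebra K F']
variable (φ : F →ₐ[K] F') (hφ : φ.toRingHom.IsIntegral)
variable {g : SemilinearAut K F} {g' : SemilinearAut K F'}

/-- the push-forward of divisors commutes with the action -/
theorem pushforwardAlong_smul (h : SemilinearAut.IntertwinesAlong (φ : F →+* F') g g')
    (hdeg : ∀ w : Place K F', w.inertiaDegAlong φ hφ = 1) (D : Divisor K F') :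
    Divisor.pushforwardAlong φ hφ (g' • D) = g • Divisor.pushforwardAlong φ hφ D := by
  induction D using Finsupp.induction_linear with
  | zero => rw [smul_zero, map_zero, smul_zero]
  | add D E hD hE => rw [smul_add, map_add, map_add, smul_add, hD, hE]
  | single w n =>
    rw [SemilinearAut.smul_single, Divisor.pushforwardAlong_single,
      Divisor.pushforwardAlong_single, SemilinearAut.smul_single, hdeg, hdeg,
      Fermat.Agent.S37.Z2.restrictAlong_smul φ hφ h w]

end Abstract

section Modular

local notation "Lb" => AlgebraicClosure ℚ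

variable (N b : ℕ) [NeZero N] [NeZero b]

/-- the inclusion `F(N) ⊆ F(N b)` commutes with the coefficientwise Galois action -/
theorem intertwines_alpha (σ : Lb ≃ₐ[ℚ] Lb) :
    SemilinearAut.IntertwinesAlong
      ((heckeAlphaBar Lb N b : modularFunctionFieldBar N →ₐ[Lb] modularFunctionFieldBar (N * b)) :
        modularFunctionFieldBar N →+* modularFunctionFieldBar (N * b))
      (arithmeticGalois (modularFunctionFieldFull N) σ)
      (arithmeticGalois (modularFunctionFieldFull (N * b)) σ) := by
  intro x
  apply Subtype.ext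
  rw [coe_arithmeticGalois_smul]
  show coeffMap (σ : Lb →+* Lb) ((heckeAlphaBar Lb N b x : modularFunctionFieldBar (N * b)) :
      LaurentSeries Lb)
    = ((heckeAlphaBar Lb N b (arithmeticGalois (modularFunctionFieldFull N) σ • x) :
      modularFunctionFieldBar (N * b)) : LaurentSeries Lb)
  rw [coe_heckeAlphaBar, coe_heckeAlphaBar, coe_arithmeticGalois_smul]

/-- the Hecke correspondence on divisors commutes with the Galois action -/
theorem heckeDiv_smul (σ : Lb ≃ₐ[ℚ] Lb) (D : Divisor Lb (modularFunctionFieldBar N)) :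
    Fermat.Agent.S37.H.heckeDiv N b (arithmeticGalois (modularFunctionFieldFull N) σ • D)
      = arithmeticGalois (modularFunctionFieldFull N) σ • Fermat.Agent.S37.H.heckeDiv N b D := by
  show Divisor.pushforwardAlong (heckeAlphaBar Lb N b) (Fermat.Agent.S37.H.alphaInt N b)
      (Divisor.pullbackAlong (heckeBetaBar Lb N b) (Fermat.Agent.S37.H.betaInt N b) _) =
    _ • Divisor.pushforwardAlong (heckeAlphaBar Lb N b) (Fermat.Agent.S37.H.alphaInt N b)
      (Divisor.pullbackAlong (heckeBetaBar Lb N b) (Fermat.Agent.S37.H.betaInt N b) D)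
  rw [Fermat.Agent.S37.Z2.pullbackAlong_smul (heckeBetaBar Lb N b)
      (Fermat.Agent.S37.H.betaInt N b) (Fermat.Agent.S37.Z2.intertwines_beta N b σ) D,
    pushforwardAlong_smul (heckeAlphaBar Lb N b) (Fermat.Agent.S37.H.alphaInt N b)
      (intertwines_alpha N b σ)
      (fun w => Fermat.Agent.S37.H.inertiaDegAlong_eq_one (Fermat.Agent.S24.isFF1_jBar N)
        (Fermat.Agent.S24.isFF1_jBar (N * b)) _ _ w)]

/-- **E2**: `T_ℓ` commutes with the Galois action on `J₀(N)(ℚ̄)` -/
theorem heckeOperatorAlong_smul (σ : Lb ≃ₐ[ℚ] Lb) (x : JZero N) :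
    heckeOperatorAlong Lb N b (σ • x) = σ • heckeOperatorAlong Lb N b x := by
  obtain ⟨D, rfl⟩ := Pic0.mk_surjective x
  rw [galois_smul_pic0_def, SemilinearAut.pic0_smul_mk,
    Fermat.Agent.S37.H.heckeOperatorAlong_mk, Fermat.Agent.S37.H.heckeOperatorAlong_mk,
    galois_smul_pic0_def, SemilinearAut.pic0_smul_mk]
  refine congrArg Pic0.mk (Subtype.ext ?_)
  exact heckeDiv_smul N b σ D

/-- **E2**: `T_ℓ` commutes with the Galois action on `J₀(N)(ℚ̄)` -/
theorem heckeOperatorBar_smul (ℓ : Nat.Primes) (σ : Lb ≃ₐ[ℚ] Lb) (x : JZero N) :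
    heckeOperatorBar N ℓ (σ • x) = σ • heckeOperatorBar N ℓ x := by
  haveI : NeZero (ℓ : ℕ) := ⟨ℓ.2.ne_zero⟩
  rw [heckeOperatorBar_apply, heckeOperatorBar_apply]
  exact heckeOperatorAlong_smul N ℓ σ x

variable (p : ℕ)

/-- **E2** on torsion: `T_ℓ` commutes with the Galois representation on `J₀(N)[p]` -/
theorem heckeTor_torsionGaloisRep (ℓ : Nat.Primes) (σ : Lb ≃ₐ[ℚ] Lb)
    (x : Fermat.Agent.S29.Tor N p) :
    Fermat.Agent.S29.heckeTor N p ℓ (JZero.torsionGaloisRep N p σ x)
      = JZero.torsionGaloisRep N p σ (Fermat.Agent.S29.heckeTor N p ℓ x) := by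
  apply Subtype.ext
  rw [Fermat.Agent.S29.coe_heckeTor, JZero.coe_torsionGaloisRep_apply,
    JZero.coe_torsionGaloisRep_apply, Fermat.Agent.S29.coe_heckeTor]
  exact heckeOperatorBar_smul N ℓ σ x

end Modular

end Fermat.Agent.S29.E2
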