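import Fermat.Agent.S29.HeckeGal
import Fermat.Agent.S29.ESRel
import Fermat.Agent.S29.FinLevel
import Fermat.Agent.S29.Cyclo
import Fermat.Agent.S37.Final
import Fermat.Agent.Lib.GalRep.Assemble

/-!
# S29 (C79), piece E-c: from an eigenvector to a residual Galois representation

Abstract part: for a representation `G` of `Gal(ℚ̄/ℚ)` on a `k₀`-vector space `W` and `w ∈ W`
whose orbit is fixed by an open subgroup, the `k₀`-span of the Galois orbit of `w` is a finite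
dimensional representation factoring through a finite level.
Concrete part: an eigenvector in `k₀ ⊗ J₀(N)[p]` gives, by the Eichler–Shimura relation, the
mod `p` cyclotomic character and the Frobenius density theorem, a two dimensional residual
representation with the right characteristic polynomials.
-/

set_option autoImplicit false
set_option linter.unusedSectionVars false
set_option linter.style.haveILetI false

noncomputable section

namespace Fermat.Agent.S29.Rep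

open TensorProduct Polynomial

local notation "Qb" => AlgebraicClosure ℚ
local notation "Gal" => (AlgebraicClosure ℚ ≃ₐ[ℚ] AlgebraicClosure ℚ)

section Abstract

variable {k₀ : Type} [CommRing k₀] {W : Type} [AddCommGroup W] [Module k₀ W]
variable (G : Gal →* Module.End k₀ W)

/-- the orbit of `w` is fixed by an open subgroup -/
def OrbitFixed (w : W) : Prop :=
  ∃ K : IntermediateField ℚ Qb, FiniteDimensional ℚ K ∧
    ∀ σ : Gal, (∀ y ∈ K, σ y = y) → ∀ τ : Gal, G σ (G τ w) = G τ w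

/-- a function on the Galois group which only depends on the restriction to a number field has
finite range -/
theorem finite_range_of_fixes {X : Type*} (f : Gal → X) (K : IntermediateField ℚ Qb)
    [FiniteDimensional ℚ K] (h : ∀ σ τ : Gal, (∀ y ∈ K, σ y = τ y) → f σ = f τ) :
    (Set.range f).Finite := by
  classical
  let res : Gal → (K →ₐ[ℚ] Qb) := fun σ => (σ : Qb →ₐ[ℚ] Qb).comp K.val
  let f' : (K →ₐ[ℚ] Qb) → X := fun e => if he : ∃ σ, res σ = e then f he.choose else f 1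
  have hf : ∀ σ, f σ = f' (res σ) := by
    intro σ
    have hex : ∃ τ, res τ = res σ := ⟨σ, rfl⟩
    show f σ = if he : ∃ τ, res τ = res σ then f he.choose else f 1
    rw [dif_pos hex]
    refine h _ _ fun y hy => ?_
    have := congrArg (fun e : K →ₐ[ℚ] Qb => e ⟨y, hy⟩) hex.choose_spec
    exact this.symm
  refine (Set.finite_range f').subset ?_
  rintro _ ⟨σ, rfl⟩
  exact ⟨res σ, (hf σ).symm⟩

/-- the span of the Galois orbit of `w` -/
def orbitSpan (w : W) : Submodule k₀ W :=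
  Submodule.span k₀ (Set.range fun τ : Gal => G τ w)

variable {G}

theorem self_mem_orbitSpan (w : W) : w ∈ orbitSpan G w :=
  Submodule.subset_span ⟨1, by
    show G 1 w = w
    rw [map_one]
    rfl⟩

theorem smul_mem_orbitSpan (w : W) (σ : Gal) {u : W}
    (hu : u ∈ orbitSpan G w) : G σ u ∈ orbitSpan G w := by
  have h : orbitSpan G w ≤ (orbitSpan G w).comap (G σ) := by
    refine Submodule.span_le.2 ?_
    rintro _ ⟨τ, rfl⟩
    exact Submodule.subset_span ⟨σ * τ, by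
      show G (σ * τ) w = _
      rw [map_mul]
      rfl⟩
  exact h hu

theorem finiteDimensional_orbitSpan {k₀ : Type} [Field k₀] {W : Type} [AddCommGroup W]
    [Module k₀ W] {G : Gal →* Module.End k₀ W} {w : W} (hw : OrbitFixed G w) :
    FiniteDimensional k₀ (orbitSpan G w) := by
  obtain ⟨K, hK, h⟩ := hw
  haveI := hK
  refine FiniteDimensional.span_of_finite k₀ (finite_range_of_fixes _ K fun σ τ hστ => ?_)
  have h1 : ∀ y ∈ K, (τ⁻¹ * σ) y = y := fun y hy => by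
    show τ⁻¹ (σ y) = y
    rw [hστ y hy]
    exact τ.symm_apply_apply y
  have h2 := h _ h1 1
  rw [map_one, Module.End.one_apply, map_mul, Module.End.mul_apply] at h2
  have h3 := congrArg (G τ) h2
  rw [← Module.End.mul_apply, ← map_mul, mul_inv_cancel, map_one, Module.End.one_apply] at h3
  exact h3

theorem nontrivial_orbitSpan {w : W} (hw : w ≠ 0) : Nontrivial (orbitSpan G w) :=
  ⟨⟨⟨w, self_mem_orbitSpan w⟩, 0, fun h => hw (congrArg Subtype.val h)⟩⟩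

variable (G) in
/-- the representation on the span of the orbit -/
def orbitRep (w : W) : Gal →* Module.End k₀ (orbitSpan G w) where
  toFun σ := (G σ).restrict fun _ hu => smul_mem_orbitSpan w σ hu
  map_one' := by
    ext u
    rw [LinearMap.coe_restrict_apply, map_one]
    rfl
  map_mul' σ τ := by
    ext u
    rw [LinearMap.coe_restrict_apply, map_mul]
    rfl

theorem coe_orbitRep (w : W) (σ : Gal) (u : orbitSpan G w) :
    ((orbitRep G w σ u : orbitSpan G w) : W) = G σ u := rfl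

/-- two linear maps agreeing on the orbit agree on its span -/
theorem eq_of_mem_orbitSpan {w : W} {f g : Module.End k₀ W}
    (h : ∀ τ : Gal, f (G τ w) = g (G τ w)) {u : W}
    (hu : u ∈ orbitSpan G w) : f u = g u := by
  have h1 : orbitSpan G w ≤ LinearMap.eqLocus f g := by
    refine Submodule.span_le.2 ?_
    rintro _ ⟨τ, rfl⟩
    exact h τ
  exact h1 hu

theorem orbitRep_finiteLevel {w : W} (hw : OrbitFixed G w) :
    GaloisFactorsThroughFiniteLevel (orbitRep G w) := by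
  obtain ⟨K, hK, h⟩ := hw
  refine ⟨K, hK, fun σ hσ => ?_⟩
  ext u
  rw [coe_orbitRep]
  exact eq_of_mem_orbitSpan (f := G σ) (g := 1) (fun τ => h σ hσ τ) u.2

/-- an endomorphism commuting with the representation which has `w` as an eigenvector acts as
a scalar on the span of the orbit -/
theorem eigen_on_orbitSpan {w : W} (t : Module.End k₀ W)
    (hcomm : ∀ σ : Gal, t * G σ = G σ * t) {a : k₀} (hw : t w = a • w)
    {u : W} (hu : u ∈ orbitSpan G w) : t u = a • u := by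
  refine eq_of_mem_orbitSpan (f := t) (g := a • (1 : Module.End k₀ W)) (fun τ => ?_) hu
  have h2 := LinearMap.congr_fun (hcomm τ) w
  rw [Module.End.mul_apply, Module.End.mul_apply, hw, map_smul] at h2
  rw [h2]
  rfl

/-- the quadratic relation on the span of the orbit -/
theorem quadratic_on_orbitSpan {w : W} (t : Module.End k₀ W)
    (hcomm : ∀ σ : Gal, t * G σ = G σ * t) {a : k₀} (hw : t w = a • w)
    (σ : Gal) (c : k₀) (hrel : G σ * G σ - t * G σ + c • (1 : Module.End k₀ W) = 0) :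
    orbitRep G w σ * orbitRep G w σ - a • orbitRep G w σ
      + c • (1 : Module.End k₀ (orbitSpan G w)) = 0 := by
  ext u
  have h2 := LinearMap.congr_fun hrel (u : W)
  have h3 : t (G σ u) = a • G σ u :=
    eigen_on_orbitSpan t hcomm hw (smul_mem_orbitSpan w σ u.2)
  rw [LinearMap.add_apply, LinearMap.sub_apply, Module.End.mul_apply, Module.End.mul_apply,
    LinearMap.smul_apply, Module.End.one_apply, h3, LinearMap.zero_apply] at h2
  rw [LinearMap.add_apply, LinearMap.sub_apply, LinearMap.smul_apply, LinearMap.smul_apply,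
    Module.End.mul_apply, Module.End.one_apply, LinearMap.zero_apply]
  rw [Submodule.coe_add, Submodule.coe_sub, Submodule.coe_smul, Submodule.coe_smul,
    coe_orbitRep, coe_orbitRep, Submodule.coe_zero]
  exact h2

theorem orbitRep_eq_one {w : W} {σ : Gal} (h : G σ = 1) : orbitRep G w σ = 1 := by
  ext u
  rw [coe_orbitRep, h]
  rfl

end Abstract

/-! ### base change of a representation -/

section BaseChange

variable (R k₀ T : Type) [CommRing R] [CommRing k₀] [Algebra R k₀] [AddCommGroup T] [Module R T]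

/-- `k₀ ⊗ T` as a bare `k₀`-vector space -/
def BC : Type := k₀ ⊗[R] T

instance instAddCommGroupBC : AddCommGroup (BC R k₀ T) :=
  inferInstanceAs (AddCommGroup (k₀ ⊗[R] T))

instance instModuleBC : Module k₀ (BC R k₀ T) :=
  inferInstanceAs (Module k₀ (k₀ ⊗[R] T))

/-- base change of endomorphisms, as a ring homomorphism -/
def bcEnd : Module.End R T →+* Module.End k₀ (BC R k₀ T) :=
  ((Module.End.baseChangeHom R k₀ T : Module.End R T →ₐ[R] Module.End k₀ (k₀ ⊗[R] T)) :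
    Module.End R T →+* Module.End k₀ (k₀ ⊗[R] T))

variable {R k₀ T}

theorem bcEnd_apply (f : Module.End R T) (w : k₀ ⊗[R] T) :
    bcEnd R k₀ T f w = f.baseChange k₀ w := rfl

theorem bcEnd_tmul (f : Module.End R T) (c : k₀) (x : T) :
    bcEnd R k₀ T f (c ⊗ₜ[R] x : k₀ ⊗[R] T) = (c ⊗ₜ[R] f x : k₀ ⊗[R] T) := rfl

variable (k₀) in
/-- the base-changed representation -/
def bcRep (r : Gal →* Module.End R T) : Gal →* Module.End k₀ (BC R k₀ T) :=
  ((bcEnd R k₀ T : Module.End R T →+* Module.End k₀ (BC R k₀ T)) :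
    Module.End R T →* Module.End k₀ (BC R k₀ T)).comp r

theorem bcRep_apply (r : Gal →* Module.End R T) (σ : Gal) :
    bcRep k₀ r σ = bcEnd R k₀ T (r σ) := rfl

/-- open stabilisers, uniformly on orbits, pass to the base change -/
theorem orbitFixed_bcRep (r : Gal →* Module.End R T)
    (hloc : ∀ x : T, ∃ K : IntermediateField ℚ Qb, FiniteDimensional ℚ K ∧
      ∀ σ : Gal, (∀ y ∈ K, σ y = y) → ∀ τ : Gal, r σ (r τ x) = r τ x)
    (w : k₀ ⊗[R] T) : OrbitFixed (bcRep k₀ r) (w : BC R k₀ T) := by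
  induction w using TensorProduct.induction_on with
  | zero =>
    refine ⟨⊥, inferInstance, fun σ _ τ => ?_⟩
    have e : (bcRep k₀ r τ) (0 : BC R k₀ T) = 0 := map_zero _
    show (bcRep k₀ r σ) ((bcRep k₀ r τ) (0 : BC R k₀ T)) = (bcRep k₀ r τ) (0 : BC R k₀ T)
    rw [e, map_zero]
  | tmul c x =>
    obtain ⟨K, hK, h⟩ := hloc x
    refine ⟨K, hK, fun σ hσ τ => ?_⟩
    rw [bcRep_apply, bcRep_apply, bcEnd_tmul, bcEnd_tmul, h σ hσ τ]
  | add w₁ w₂ h₁ h₂ =>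
    obtain ⟨K₁, hK₁, h₁⟩ := h₁
    obtain ⟨K₂, hK₂, h₂⟩ := h₂
    haveI := hK₁
    haveI := hK₂
    refine ⟨K₁ ⊔ K₂, IntermediateField.finiteDimensional_sup K₁ K₂, fun σ hσ τ => ?_⟩
    have e₁ := h₁ σ (fun y hy => hσ y ((le_sup_left : K₁ ≤ K₁ ⊔ K₂) hy)) τ
    have e₂ := h₂ σ (fun y hy => hσ y ((le_sup_right : K₂ ≤ K₁ ⊔ K₂) hy)) τ
    have e₃ : (bcRep k₀ r τ) (w₁ + w₂ : k₀ ⊗[R] T)
        = (bcRep k₀ r τ) (w₁ : k₀ ⊗[R] T) + (bcRep k₀ r τ) (w₂ : k₀ ⊗[R] T) :=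
      map_add (bcRep k₀ r τ) _ _
    rw [e₃, map_add, e₁, e₂]

/-- the relation between endomorphisms from the relation on elements -/
theorem rel_of_apply {R T : Type*} [CommRing R] [AddCommGroup T] [Module R T]
    (s t : Module.End R T) (n : ℕ) (h : ∀ x, s (s x) - t (s x) + n • x = 0) :
    s * s - t * s + (n : Module.End R T) = 0 := by
  refine LinearMap.ext fun x => ?_
  rw [LinearMap.add_apply, LinearMap.sub_apply, Module.End.mul_apply, Module.End.mul_apply,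
    Module.End.natCast_apply, LinearMap.zero_apply]
  exact h x

theorem coe_rel {J : Type*} [AddCommGroup J] (H : AddSubgroup J) (a b c : H) (n : ℕ)
    (h : (a : J) - b + (n : ℤ) • (c : J) = 0) : a - b + n • c = 0 := by
  apply Subtype.ext
  rw [AddSubgroup.coe_add, AddSubgroup.coe_sub, AddSubgroup.coe_nsmul, ← natCast_zsmul]
  exact h

theorem natCast_end_eq_smul_one (n : ℕ) :
    (n : Module.End k₀ (BC R k₀ T)) = (n : k₀) • (1 : Module.End k₀ (BC R k₀ T)) := by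
  rw [Nat.cast_smul_eq_nsmul, nsmul_one]

/-- **Abstract form of the assembly** -/
theorem exists_rep_abstract {R k₀ T : Type} [Field R] [Field k₀] [Algebra R k₀]
    [AddCommGroup T] [Module R T] (hFG : Fermat.Agent.Lib.GalRep.FrobeniusGenerates)
    [IsAlgClosed k₀] (r : Gal →* Module.End R T)
    (hloc : ∀ x : T, ∃ K : IntermediateField ℚ Qb, FiniteDimensional ℚ K ∧
      ∀ σ : Gal, (∀ y ∈ K, σ y = y) → ∀ τ : Gal, r σ (r τ x) = r τ x)
    (S : Finset ℕ) (t : ℕ → Module.End R T) (hcomm : ∀ ℓ σ, t ℓ * r σ = r σ * t ℓ)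
    (d : Gal →* Rˣ) (hdfin : GaloisFactorsThroughFiniteLevel d)
    (hrel : ∀ ℓ : ℕ, ℓ.Prime → ℓ ∉ S → ∀ A : ValuationSubring Qb, A.LiesOverPrime ℓ →
      ∀ σ : Gal, A.IsFrobeniusAt σ ℓ →
        r σ * r σ - t ℓ * r σ + (ℓ : Module.End R T) = 0 ∧ ((d σ : Rˣ) : R) = (ℓ : R))
    (hin : ∀ ℓ : ℕ, ℓ.Prime → ℓ ∉ S → ∀ A : ValuationSubring Qb, A.LiesOverPrime ℓ →
      ∀ σ ∈ A.inertiaSubgroupIn ℚ, r σ = 1 ∧ d σ = 1)
    (a : ℕ → k₀) (v : k₀ ⊗[R] T) (hv : v ≠ 0)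
    (hev : ∀ ℓ : ℕ, ℓ.Prime → ℓ ∉ S → (t ℓ).baseChange k₀ v = a ℓ • v)
    {k : Type} [Field k] (ι : k₀ →+* k) :
    ∃ ρ : ResidualGaloisRep k,
      (∀ ℓ : ℕ, ℓ.Prime → ℓ ∉ S → ∀ A : ValuationSubring Qb,
        A.LiesOverPrime ℓ → ∀ σ : Gal, A.IsFrobeniusAt σ ℓ →
          LinearMap.charpoly (ρ.ρ σ) = X ^ 2 - C (ι (a ℓ)) * X + C ((ℓ : k))) ∧
      ∀ ℓ : ℕ, ℓ.Prime → ℓ ∉ S → ρ.IsUnramifiedAt ℓ := by
  set w : BC R k₀ T := v with hwdef
  have hw0 : w ≠ 0 := hv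
  have hfix : OrbitFixed (bcRep k₀ r) w := orbitFixed_bcRep r hloc v
  haveI : FiniteDimensional k₀ (orbitSpan (bcRep k₀ r) w) := finiteDimensional_orbitSpan hfix
  haveI : Nontrivial (orbitSpan (bcRep k₀ r) w) := nontrivial_orbitSpan hw0
  let d' : Gal →* k₀ˣ := (Units.map ((algebraMap R k₀ : R →+* k₀) : R →* k₀)).comp d
  have hd' : GaloisFactorsThroughFiniteLevel d' := by
    obtain ⟨L, hL, h⟩ := hdfin
    exact ⟨L, hL, fun σ hσ => by
      show Units.map _ (d σ) = 1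
      rw [h σ hσ, map_one]⟩
  have hcomm' : ∀ ℓ σ, bcEnd R k₀ T (t ℓ) * bcRep k₀ r σ = bcRep k₀ r σ * bcEnd R k₀ T (t ℓ) := by
    intro ℓ σ
    rw [bcRep_apply, ← map_mul, ← map_mul, hcomm]
  refine Fermat.Agent.Lib.GalRep.exists_residualGaloisRep hFG ι a (orbitRep (bcRep k₀ r) w)
    (orbitRep_finiteLevel hfix) d' hd' S ?_ ?_
  · intro ℓ hℓ hℓS A hA σ hσ
    obtain ⟨h1, h2⟩ := hrel ℓ hℓ hℓS A hA σ hσ
    refine ⟨quadratic_on_orbitSpan (bcEnd R k₀ T (t ℓ)) (hcomm' ℓ) (hev ℓ hℓ hℓS) σ (ℓ : k₀) ?_,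
      ?_⟩
    · have h3 := congrArg (bcEnd R k₀ T) h1
      rw [map_add, map_sub, map_mul, map_mul, map_natCast, map_zero,
        natCast_end_eq_smul_one] at h3
      exact h3
    · show algebraMap R k₀ ((d σ : Rˣ) : R) = (ℓ : k₀)
      rw [h2, map_natCast]
  · intro ℓ hℓ hℓS A hA σ hσ
    obtain ⟨h1, h2⟩ := hin ℓ hℓ hℓS A hA σ hσ
    refine ⟨orbitRep_eq_one ?_, ?_⟩
    · rw [bcRep_apply, h1, map_one]
    · show Units.map _ (d σ) = 1
      rw [h2, map_one]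

end BaseChange

/-! ### the modular case -/

section Modular


open ModularCurve AlgebraicCurve

variable {N : ℕ} [NeZero N] (p : ℕ) [Fact p.Prime]

/-- open stabilisers on `J₀(N)[p]`, uniformly on orbits -/
theorem locFin_tor (x : Tor N p) :
    ∃ K : IntermediateField ℚ Qb, FiniteDimensional ℚ K ∧
      ∀ σ : Gal, (∀ y ∈ K, σ y = y) → ∀ τ : Gal,
        JZero.torsionGaloisRep N p σ (JZero.torsionGaloisRep N p τ x)
          = JZero.torsionGaloisRep N p τ x := by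
  classical
  obtain ⟨K, hK, h⟩ := Fermat.Agent.S29.E1.exists_fixing_orbits N {(x : JZero N)}
  refine ⟨K, hK, fun σ hσ τ => Subtype.ext ?_⟩
  rw [JZero.coe_torsionGaloisRep_apply, JZero.coe_torsionGaloisRep_apply]
  exact h σ hσ _ (Finset.mem_singleton_self _) τ

/-- `T_ℓ` commutes with the Galois representation on `J₀(N)[p]` -/
theorem heckeTor_comm (ℓ : Nat.Primes) (σ : Gal) :
    heckeTor N p ℓ * JZero.torsionGaloisRep N p σ
      = JZero.torsionGaloisRep N p σ * heckeTor N p ℓ := by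
  ext x : 1
  exact Fermat.Agent.S29.E2.heckeTor_torsionGaloisRep N p ℓ σ x

omit [Fact p.Prime] in
theorem torsion_tor (x : Tor N p) : ∃ n : ℕ, p ^ n • (x : JZero N) = 0 := by
  have hx0 : (p : ℤ) • (x : JZero N) = 0 := Pic0.mem_torsion.mp x.2
  exact ⟨1, by rw [pow_one, ← natCast_zsmul]; exact hx0⟩

/-- the Eichler–Shimura relation on `J₀(N)[p]`, elementwise -/
theorem relation_tor_apply {ℓ : ℕ} (hℓ : ℓ.Prime) (hℓNp : ¬ ℓ ∣ N * p)
    (A : ValuationSubring Qb) (hA : A.LiesOverPrime ℓ) (σ : Gal) (hσ : A.IsFrobeniusAt σ ℓ)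
    (x : Tor N p) :
    σ • σ • (x : JZero N) - heckeOperatorBar N ⟨ℓ, hℓ⟩ (σ • (x : JZero N))
      + (ℓ : ℤ) • (x : JZero N) = 0 := by
  have h0 := Fermat.Agent.S37.Z.hasRedPkg N p ℓ hℓ hℓNp A hA
  exact frobenius_relation h0 hσ (torsion_tor p x)

/-- the Eichler–Shimura relation on `J₀(N)[p]` -/
theorem relation_tor {ℓ : ℕ} (hℓ : ℓ.Prime) (hℓNp : ¬ ℓ ∣ N * p)
    (A : ValuationSubring Qb) (hA : A.LiesOverPrime ℓ) (σ : Gal) (hσ : A.IsFrobeniusAt σ ℓ) :
    JZero.torsionGaloisRep N p σ * JZero.torsionGaloisRep N p σ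
      - heckeTor N p ⟨ℓ, hℓ⟩ * JZero.torsionGaloisRep N p σ
      + (ℓ : Module.End (ZMod p) (Tor N p)) = 0 :=
  rel_of_apply (JZero.torsionGaloisRep N p σ) (heckeTor N p ⟨ℓ, hℓ⟩) ℓ fun x =>
    coe_rel _ _ _ _ ℓ (relation_tor_apply p hℓ hℓNp A hA σ hσ x)

/-- inertia acts trivially on `J₀(N)[p]` -/
theorem inertia_tor {ℓ : ℕ} (hℓ : ℓ.Prime) (hℓNp : ¬ ℓ ∣ N * p)
    (A : ValuationSubring Qb) (hA : A.LiesOverPrime ℓ) (τ : Gal)
    (hτ : τ ∈ A.inertiaSubgroupIn ℚ) : JZero.torsionGaloisRep N p τ = 1 := by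
  refine LinearMap.ext fun x => Subtype.ext ?_
  rw [JZero.coe_torsionGaloisRep_apply]
  have h0 := Fermat.Agent.S37.Z.hasRedPkg N p ℓ hℓ hℓNp A hA
  exact inertia_smul_eq h0 hτ (torsion_tor p x)

/-- the Hecke operators on `J₀(N)[p]`, indexed by the natural numbers -/
def heckeNat (N : ℕ) [NeZero N] (p : ℕ) (ℓ : ℕ) : Module.End (ZMod p) (Tor N p) :=
  if h : ℓ.Prime then heckeTor N p ⟨ℓ, h⟩ else 0

omit [Fact p.Prime] in
theorem heckeNat_of_prime {ℓ : ℕ} (hℓ : ℓ.Prime) : heckeNat N p ℓ = heckeTor N p ⟨ℓ, hℓ⟩ :=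
  dif_pos hℓ

omit [NeZero N] [Fact p.Prime] in
theorem comm_dite {M : Type*} [MonoidWithZero M] (P : Prop) [Decidable P] (f : P → M) (g : M)
    (h : ∀ hP, f hP * g = g * f hP) :
    (if hP : P then f hP else 0) * g = g * (if hP : P then f hP else 0) := by
  split_ifs with hP
  · exact h hP
  · rw [zero_mul, mul_zero]

theorem heckeNat_comm (ℓ : ℕ) (σ : Gal) :
    heckeNat N p ℓ * JZero.torsionGaloisRep N p σ
      = JZero.torsionGaloisRep N p σ * heckeNat N p ℓ :=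
  comm_dite _ _ _ fun hℓ => heckeTor_comm p ⟨ℓ, hℓ⟩ σ

omit [NeZero N] [Fact p.Prime] in
theorem not_dvd_of_not_mem {n ℓ : ℕ} (hℓ : ℓ.Prime) (hN : n ≠ 0)
    (h : ℓ ∉ n.primeFactors) : ¬ ℓ ∣ n := fun hd =>
  h (Nat.mem_primeFactors.2 ⟨hℓ, hd, hN⟩)

theorem ne_of_not_dvd_mul {ℓ : ℕ} (h : ¬ ℓ ∣ N * p) : ℓ ≠ p := fun e =>
  h (e ▸ Dvd.intro_left N rfl)

theorem mul_ne_zero_Np : N * p ≠ 0 :=
  Nat.mul_ne_zero (NeZero.ne N) (Fact.out : p.Prime).ne_zero

theorem hrel_tor (ℓ : ℕ) (hℓ : ℓ.Prime) (hℓS : ℓ ∉ (N * p).primeFactors)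
    (A : ValuationSubring Qb) (hA : A.LiesOverPrime ℓ) (σ : Gal) (hσ : A.IsFrobeniusAt σ ℓ) :
    JZero.torsionGaloisRep N p σ * JZero.torsionGaloisRep N p σ
        - heckeNat N p ℓ * JZero.torsionGaloisRep N p σ
        + (ℓ : Module.End (ZMod p) (Tor N p)) = 0 ∧
      ((Fermat.Agent.S29.Cyclo.chi p σ : (ZMod p)ˣ) : ZMod p) = (ℓ : ZMod p) := by
  haveI : Fact ℓ.Prime := ⟨hℓ⟩
  have hℓNp : ¬ ℓ ∣ N * p := not_dvd_of_not_mem hℓ (mul_ne_zero_Np p) hℓS
  refine ⟨?_, Fermat.Agent.S29.Cyclo.chi_frobenius p A ℓ hA (ne_of_not_dvd_mul p hℓNp) σ hσ⟩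
  rw [heckeNat_of_prime p hℓ]
  exact relation_tor p hℓ hℓNp A hA σ hσ

theorem hin_tor (ℓ : ℕ) (hℓ : ℓ.Prime) (hℓS : ℓ ∉ (N * p).primeFactors)
    (A : ValuationSubring Qb) (hA : A.LiesOverPrime ℓ) (σ : Gal)
    (hσ : σ ∈ A.inertiaSubgroupIn ℚ) :
    JZero.torsionGaloisRep N p σ = 1 ∧ Fermat.Agent.S29.Cyclo.chi p σ = 1 := by
  haveI : Fact ℓ.Prime := ⟨hℓ⟩
  have hℓNp : ¬ ℓ ∣ N * p := not_dvd_of_not_mem hℓ (mul_ne_zero_Np p) hℓS
  exact ⟨inertia_tor p hℓ hℓNp A hA σ hσ,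
    Fermat.Agent.S29.Cyclo.chi_inertia p A ℓ hA (ne_of_not_dvd_mul p hℓNp) σ hσ⟩

/-- the eigenvalues, as a function on `ℕ` -/
def eigenval (g : CuspForm (CongruenceSubgroup.Gamma0 N) 2) {k₀ : Type} [Field k₀]
    (π : integralClosure ℤ ℂ →+* k₀) (ℓ : ℕ) : k₀ :=
  open Classical in
  if h : ∃ a : integralClosure ℤ ℂ, (a : ℂ) = ModularFormClass.qCoeff g ℓ then π h.choose
  else 0

omit [NeZero N] [Fact p.Prime] in
theorem eigenval_eq (g : CuspForm (CongruenceSubgroup.Gamma0 N) 2) {k₀ : Type} [Field k₀]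
    (π : integralClosure ℤ ℂ →+* k₀) (ℓ : ℕ) (b : integralClosure ℤ ℂ)
    (hb : (b : ℂ) = ModularFormClass.qCoeff g ℓ) : eigenval g π ℓ = π b := by
  have hex : ∃ a : integralClosure ℤ ℂ, (a : ℂ) = ModularFormClass.qCoeff g ℓ := ⟨b, hb⟩
  rw [eigenval, dif_pos hex]
  congr 1
  exact Subtype.ext (hex.choose_spec.trans hb.symm)

theorem hev_tor (g : CuspForm (CongruenceSubgroup.Gamma0 N) 2)
    {k₀ : Type} [Field k₀] [Algebra (ZMod p) k₀] (π : integralClosure ℤ ℂ →+* k₀)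
    (hint : ∀ ℓ : ℕ, ℓ.Prime → ¬ ℓ ∣ N * p →
      ∃ a : integralClosure ℤ ℂ, (a : ℂ) = ModularFormClass.qCoeff g ℓ)
    (v : k₀ ⊗[ZMod p] Tor N p)
    (hveig : ∀ (ℓ : ℕ) (hℓ : ℓ.Prime), ¬ ℓ ∣ N * p →
      ∀ a : integralClosure ℤ ℂ, (a : ℂ) = ModularFormClass.qCoeff g ℓ →
        (heckeTor N p ⟨ℓ, hℓ⟩).baseChange k₀ v = π a • v)
    (ℓ : ℕ) (hℓ : ℓ.Prime) (hℓS : ℓ ∉ (N * p).primeFactors) :
    (heckeNat N p ℓ).baseChange k₀ v = eigenval g π ℓ • v := by
  have hℓNp : ¬ ℓ ∣ N * p := not_dvd_of_not_mem hℓ (mul_ne_zero_Np p) hℓS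
  obtain ⟨b, hb⟩ := hint ℓ hℓ hℓNp
  rw [heckeNat_of_prime p hℓ, eigenval_eq g π ℓ b hb]
  exact hveig ℓ hℓ hℓNp b hb

/-- **E-c**: from an eigenvector in `k₀ ⊗ J₀(N)[p]` to a residual Galois representation. -/
theorem exists_rep (hFG : Fermat.Agent.Lib.GalRep.FrobeniusGenerates)
    (g : CuspForm (CongruenceSubgroup.Gamma0 N) 2)
    {k₀ : Type} [Field k₀] [IsAlgClosed k₀] [Algebra (ZMod p) k₀]
    (π : integralClosure ℤ ℂ →+* k₀)
    (hint : ∀ ℓ : ℕ, ℓ.Prime → ¬ ℓ ∣ N * p →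
      ∃ a : integralClosure ℤ ℂ, (a : ℂ) = ModularFormClass.qCoeff g ℓ)
    (hv : HasEigenvector g p k₀ π) {k : Type} [Field k] (ι : k₀ →+* k) :
    ∃ ρ : ResidualGaloisRep k,
      (∀ ℓ : ℕ, ℓ.Prime → ¬ ℓ ∣ N * p → ∀ A : ValuationSubring Qb,
        A.LiesOverPrime ℓ → ∀ σ : Gal, A.IsFrobeniusAt σ ℓ →
          ∃ a : integralClosure ℤ ℂ, (a : ℂ) = ModularFormClass.qCoeff g ℓ ∧
            LinearMap.charpoly (ρ.ρ σ) = X ^ 2 - C (ι (π a)) * X + C ((ℓ : k))) ∧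
      ∀ ℓ : ℕ, ℓ.Prime → ¬ ℓ ∣ N * p → ρ.IsUnramifiedAt ℓ := by
  obtain ⟨v, hv0, hveig⟩ := hv
  obtain ⟨ρ, h1, h2⟩ := exists_rep_abstract (R := ZMod p) (k₀ := k₀) (T := Tor N p) hFG
    (JZero.torsionGaloisRep N p) (locFin_tor p) (N * p).primeFactors (heckeNat N p)
    (heckeNat_comm p) (Fermat.Agent.S29.Cyclo.chi p) (Fermat.Agent.S29.Cyclo.chi_finiteLevel p)
    (hrel_tor p) (hin_tor p) (eigenval g π) v hv0 (hev_tor p g π hint v hveig) ι
  refine ⟨ρ, fun ℓ hℓ hℓNp A hA σ hσ => ?_, fun ℓ hℓ hℓNp => ?_⟩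
  · obtain ⟨b, hb⟩ := hint ℓ hℓ hℓNp
    refine ⟨b, hb, ?_⟩
    have hℓS : ℓ ∉ (N * p).primeFactors := fun h => hℓNp (Nat.dvd_of_mem_primeFactors h)
    rw [h1 ℓ hℓ hℓS A hA σ hσ, eigenval_eq g π ℓ b hb]
  · have hℓS : ℓ ∉ (N * p).primeFactors := fun h => hℓNp (Nat.dvd_of_mem_primeFactors h)
    exact h2 ℓ hℓ hℓS

end Modular

end Fermat.Agent.S29.Rep
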