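import Fermat.Agent.S29.DescTheta
import Fermat.Agent.S29.ThetaMap
import Fermat.Agent.S29.ThetaChar
import Fermat.Agent.S29.ThetaOrd
import Fermat.Agent.S29.ThetaRange
import Fermat.Agent.S29.ThetaRoot
import Fermat.Agent.S29.ThetaHecke
import Fermat.Agent.S29.ParFinal
import Fermat.Agent.S29.EigenGlue
import Fermat.Agent.S31.Lat

/-!
# S29 (C79) / C80: the torsion classes `Θ` in `J₀(N)` at any level `m ≥ 1`

* `thetaC N m : parFin N m →ₗ[ZMod m] Pic⁰(F_ℂ(N))[m]`, injective and Hecke-equivariant;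
* `exists_thetaJ_parFin`: `ΘJ : parFin N m →+ J₀(N)`, `m`-torsion valued, injective,
  Hecke-equivariant;
* `exists_theta_Lam` (**(ΘJ)** of C80): `Θ : Λ →+ J₀(N)` with `m • Θ = 0`, `ker Θ ⊆ m Λ`,
  Hecke-equivariant (`Λ = Hom_par(Γ₀(N), ℤ)`);
* `exists_transport`, `hasEigenvector`: the form used by D5 of C79.
-/

set_option autoImplicit false
set_option linter.unusedSectionVars false
set_option linter.unusedVariables false
set_option linter.style.haveILetI false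

open AlgebraicCurve ModularCurve Fermat.Agent.Lib.FF Fermat.Agent.Lib.ModCK Fermat.Agent.Lib.ModJ
  Fermat.Agent.Lib.ModC Fermat.Agent.S29.BC Fermat.Agent.S29.D1 Fermat.Agent.S29.D2
  CongruenceSubgroup

noncomputable section

namespace Fermat.Agent.S29.ThetaJ

local notation "Qb" => AlgebraicClosure ℚ

/-- an embedding `ℚ̄ → ℂ` -/
def embQ : Qb →+* ℂ := Fermat.Agent.Lib.ModJ.iotaQbar

variable (N : ℕ) [NeZero N] (m : ℕ) [NeZero m]

theorem hex_parFin : ∀ c ∈ parFin N m, ∃ h, HasChar N m c h :=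
  fun c hc => exists_hasChar hc.1

theorem hdvd_parFin : ∀ c ∈ parFin N m, ∀ h, HasChar N m c h → ∀ u : FC N, embC N u = h ^ m →
    ∀ v : Place ℂ (FC N), (m : ℤ) ∣ v.ord u :=
  fun c hc h hh u hu v => hh.dvd_ord hc.1 hc.2
    (fun hF hper hΛ => exists_hasQL_root (NeZero.pos N) (NeZero.pos m) hF hper hΛ) hu v

theorem hrange_all : ∀ h : Mer, HasChar N m 0 h → ∃ w : FC N, embC N w = h :=
  fun h hh => hh.exists_embC_eq

/-- **the analytic torsion classes** at level `m` -/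
def thetaC : parFin N m →ₗ[ZMod m] Pic0.torsion ℂ (FC N) m :=
  thetaOf (parFin N m) (hex_parFin N m) (hdvd_parFin N m) (hrange_all N m)

theorem thetaC_injective : Function.Injective (thetaC N m) :=
  thetaOf_injective _ _ _ _

theorem thetaC_spec (c : parFin N m) {h : Mer}
    (hh : HasChar N m (c : Additive ↥(Gamma0 N) →+ ZMod m) h) {u : FC N}
    (hu : embC N u = h ^ m) (D : Divisor.degZero (K := ℂ) (F := FC N))
    (hD : ∀ v : Place ℂ (FC N), (m : ℤ) * D.1 v = v.ord u) :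
    ((thetaC N m c : Pic0.torsion ℂ (FC N) m) : Pic0 ℂ (FC N)) = Pic0.mk D :=
  thetaOf_spec _ _ _ _ c hh hu D hD

/-- `Θ` is Hecke-equivariant -/
theorem thetaC_hecke {ℓ : ℕ} (hℓ : ℓ.Prime) (hℓN : ¬ ℓ ∣ N) (c : parFin N m) :
    haveI : NeZero ℓ := ⟨hℓ.ne_zero⟩
    ((thetaC N m (heckeParFin N m ℓ hℓ c) : Pic0.torsion ℂ (FC N) m) : Pic0 ℂ (FC N))
      = heckeOperatorAlong ℂ N ℓ ((thetaC N m c : Pic0.torsion ℂ (FC N) m) : Pic0 ℂ (FC N)) := by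
  haveI : Fact ℓ.Prime := ⟨hℓ⟩
  haveI : NeZero ℓ := ⟨hℓ.ne_zero⟩
  have key := Fermat.Agent.S29.D3.theta_hecke_of_spec (p := m) hℓN
    (H := ((parFin N m : Submodule (ZMod m) (Additive ↥(Gamma0 N) →+ ZMod m)) :
      Set (Additive ↥(Gamma0 N) →+ ZMod m)))
    (fun c => ((thetaC N m ⟨c.1, c.2⟩ : Pic0.torsion ℂ (FC N) m) : Pic0 ℂ (FC N)))
    (fun c h hh u hu D hD => thetaC_spec N m ⟨c.1, c.2⟩ hh hu D hD)
    (fun c => by
      obtain ⟨h, u, D, d⟩ := exists_isThetaData (parFin N m) (hex_parFin N m) (hdvd_parFin N m)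
        ⟨c.1, c.2⟩
      exact ⟨h, u, D, d.hasChar, d.emb, d.div⟩)
    ⟨c.1, c.2⟩
    (by
      have := (heckeParFin N m ℓ hℓ c).2
      rw [coe_heckeParFin hℓ hℓN] at this
      exact this)
  have h1 : heckeParFin N m ℓ hℓ c
      = ⟨heckeHom (ZMod m) hℓN (c : Additive ↥(Gamma0 N) →+ ZMod m), by
          have := (heckeParFin N m ℓ hℓ c).2
          rw [coe_heckeParFin hℓ hℓN] at this
          exact this⟩ :=
    Subtype.ext (coe_heckeParFin hℓ hℓN c)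
  rw [h1]
  exact key

/-- **`ΘJ` on `parFin N m`**: injective, `m`-torsion valued, Hecke-equivariant -/
theorem exists_thetaJ_parFin :
    ∃ ΘJ : parFin N m →+ JZero N,
      (∀ c, m • ΘJ c = 0) ∧ Function.Injective ΘJ ∧
      ∀ (ℓ : ℕ) (hℓ : ℓ.Prime), ¬ ℓ ∣ N →
        ∀ c, ΘJ (heckeParFin N m ℓ hℓ c) = heckeOperatorBar N ⟨ℓ, hℓ⟩ (ΘJ c) := by
  have hm : m ≠ 0 := NeZero.ne m
  let Θ : parFin N m →+ Pic0 ℂ (FC N) :=
    (Pic0.torsion ℂ (FC N) m).subtype.comp (thetaC N m).toAddMonoidHom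
  have hΘ : ∀ c, m • Θ c = 0 := fun c => by
    have := Pic0.mem_torsion.mp (thetaC N m c).2
    show m • ((thetaC N m c : Pic0.torsion ℂ (FC N) m) : Pic0 ℂ (FC N)) = 0
    exact_mod_cast this
  have hinj : Function.Injective Θ := fun c c' h => thetaC_injective N m (Subtype.ext h)
  obtain ⟨ΘJ, h1, h2, h3, h4, h5⟩ := Fermat.Agent.S29.D4.exists_thetaJ embQ N m hm Θ hΘ
  refine ⟨ΘJ, h1, h4 hinj, fun ℓ hℓ hℓN c => ?_⟩
  exact h5 ⟨ℓ, hℓ⟩ c (heckeParFin N m ℓ hℓ c) (thetaC_hecke N m hℓ hℓN c)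

open Fermat.Agent.S31.Lat in
/-- **(ΘJ)** of C80: torsion classes parametrised by the lattice `Λ = Hom_par(Γ₀(N), ℤ)` -/
theorem exists_theta_Lam :
    ∃ Θ : Lam N →+ JZero N,
      (∀ c, m • Θ c = 0) ∧ (∀ c, Θ c = 0 → ∃ c', c = m • c') ∧
      ∀ (ℓ : ℕ) (hℓ : ℓ.Prime) (hℓN : ¬ ℓ ∣ N) (c : Lam N),
        Θ (Tpar hℓ hℓN c) = heckeOperatorBar N ⟨ℓ, hℓ⟩ (Θ c) := by
  obtain ⟨ΘJ, h1, h2, h3⟩ := exists_thetaJ_parFin N m
  refine ⟨ΘJ.comp (redMod N m), fun c => h1 _, fun c hc => ?_, fun ℓ hℓ hℓN c => ?_⟩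
  · apply exists_eq_smul_of_redMod_eq_zero m c
    apply h2
    rw [map_zero]
    exact hc
  · show ΘJ (redMod N m (Tpar hℓ hℓN c)) = heckeOperatorBar N ⟨ℓ, hℓ⟩ (ΘJ (redMod N m c))
    rw [redMod_Tpar, h3 ℓ hℓ hℓN]

/-- the form used by D5: an injective Hecke-equivariant linear map `parFin N p → J₀(N)[p]` -/
theorem exists_transport :
    ∃ j : parFin N m →ₗ[ZMod m] Tor N m, Function.Injective j ∧
      ∀ (ℓ : ℕ) (hℓ : ℓ.Prime), ¬ ℓ ∣ N →
        ∀ x, j (heckeParFin N m ℓ hℓ x) = heckeTor N m ⟨ℓ, hℓ⟩ (j x) := by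
  obtain ⟨ΘJ, h1, h2, h3⟩ := exists_thetaJ_parFin N m
  let j₀ : parFin N m →+ Tor N m := ΘJ.codRestrict (Pic0.torsion Qb (modularFunctionFieldBar N) m)
    fun c => by
      rw [Pic0.mem_torsion]
      exact_mod_cast h1 c
  refine ⟨j₀.toZModLinearMap m, fun c c' h => h2 (congrArg Subtype.val h), fun ℓ hℓ hℓN x => ?_⟩
  apply Subtype.ext
  show ΘJ (heckeParFin N m ℓ hℓ x) = heckeOperatorBar N ⟨ℓ, hℓ⟩ (ΘJ x)
  exact h3 ℓ hℓ hℓN x

end Fermat.Agent.S29.ThetaJ
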